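import Fermat.Agent.S40.Cov.CovY

/-!
# S40 / S44, COV, leaf (AB): the sheets of `CovY` lie above the two branches of `X₀(p M)`
-/

set_option autoImplicit false
set_option synthInstance.maxHeartbeats 400000
set_option linter.unusedSectionVars false
set_option linter.unusedVariables false

open AlgebraicCurve ModularCurve Polynomial

namespace Fermat.Agent.S40Lib

open Fermat.Agent.S18Lib Fermat.Agent.S24Lib Fermat.Agent.ESLib Fermat.Agent.S34Lib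
  Fermat.Agent.S33Lib Fermat.Agent.S36Lib Fermat.Agent.FFLib

noncomputable section

/-! ## abstract part -/

section Abs

variable {K k F Φ κ Ω : Type*} [Field K] [Field k] [Field F] [Algebra K F] [CommRing Φ]
  [Algebra k Φ] [Field κ] [Fintype Ω]
  {A : ValuationSubring K} {resK : A →+* k} {R : RedG A resK F Φ} {pr : Ω → Φ →+* κ} {π : A}

/-- `O_w` is a valuation ring -/
theorem AB_mem_or_inv (H : DVHyp R pr π) (harch : ∀ c : K, ∃ N : ℕ, c * (π : K) ^ N ∈ A)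
    (w : Ω) (c : F) (hc : c ≠ 0) :
    c ∈ (H.dv w).O ∨ ∃ h : c⁻¹ ∈ (H.dv w).O, (H.dv w).red ⟨_, h⟩ = 0 := by
  obtain ⟨N, hN⟩ := H.exists_pow_mul_mem harch c
  set ϖ : F := algebraMap K F (π : K) with hϖ
  have hϖ0 : ϖ ≠ 0 := H.algπ_ne
  have hϖO : ϖ ∈ (H.dv w).O := (H.dv w).π_mem
  have hx0 : c * ϖ ^ N ≠ 0 := mul_ne_zero hc (pow_ne_zero _ hϖ0)
  obtain ⟨μ, hge, hlead⟩ := H.exists_lead_ne_zero harch w _ hx0 (H.coe_mem_dv_O w ⟨_, hN⟩)
  rw [(H.dv w).lead_of_ge hge] at hlead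
  have hinv := H.inv_mem_of_red_ne_zero w _ hlead
  have hy : c * ϖ ^ N * ϖ⁻¹ ^ μ ∈ (H.dv w).O := hge
  have hinv' : (c * ϖ ^ N * ϖ⁻¹ ^ μ)⁻¹ ∈ (H.dv w).O := hinv
  rcases le_or_gt N μ with h | h
  · left
    obtain ⟨d, rfl⟩ := Nat.exists_eq_add_of_le h
    have e1 : c = c * ϖ ^ N * ϖ⁻¹ ^ (N + d) * ϖ ^ d := by
      rw [inv_pow, pow_add]
      field_simp
    rw [e1]
    exact (H.dv w).O.mul_mem hy ((H.dv w).O.pow_mem hϖO d)
  · right
    obtain ⟨d, rfl⟩ := Nat.exists_eq_add_of_lt h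
    have e1 : c⁻¹ = (c * ϖ ^ (μ + d + 1) * ϖ⁻¹ ^ μ)⁻¹ * ϖ ^ (d + 1) := by
      rw [inv_pow, add_assoc, pow_add]
      field_simp
    have e2 : c⁻¹ * ϖ⁻¹ = (c * ϖ ^ (μ + d + 1) * ϖ⁻¹ ^ μ)⁻¹ * ϖ ^ d := by
      rw [inv_pow, add_assoc, pow_add, pow_succ]
      field_simp
    have h1 : c⁻¹ ∈ (H.dv w).O := by
      rw [e1]
      exact (H.dv w).O.mul_mem hinv' ((H.dv w).O.pow_mem hϖO _)
    refine ⟨h1, ?_⟩
    rw [(H.dv w).red_eq_zero_iff]
    change c⁻¹ * ϖ⁻¹ ∈ (H.dv w).O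
    rw [e2]
    exact (H.dv w).O.mul_mem hinv' ((H.dv w).O.pow_mem hϖO _)

/-- a valuation ring containing `R.O`, with the residue map `pr w ∘ red`, is contained in `O_w` -/
theorem AB_mem_dv (H : DVHyp R pr π) (harch : ∀ c : K, ∃ N : ℕ, c * (π : K) ^ N ∈ A)
    (w : Ω) (v : DVal F κ) (hle : ∀ x : R.O, ((x : R.O) : F) ∈ v.O)
    (hred : ∀ x : R.O, v.red ⟨_, hle x⟩ = pr w (R.red x)) (c : F) (hc : c ∈ v.O) :
    c ∈ (H.dv w).O := by
  by_cases hc0 : c = 0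
  · rw [hc0]
    exact (H.dv w).O.zero_mem
  rcases AB_mem_or_inv H harch w c hc0 with h | ⟨h, h0⟩
  · exact h
  exfalso
  obtain ⟨a, b, hb, hab⟩ := (H.mem_dv_O_iff w _).1 h
  rw [H.dv_red_eq_div w _ h a b hb hab, div_eq_zero_iff] at h0
  have ha : pr w (R.red a) = 0 := h0.resolve_right hb
  have e1 : (⟨_, hle b⟩ : v.O) = ⟨_, hle a⟩ * ⟨c, hc⟩ := by
    apply Subtype.ext
    change ((b : R.O) : F) = ((a : R.O) : F) * c
    rw [← hab]
    field_simp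
  have e2 := congrArg v.red e1
  rw [map_mul, hred, hred, ha, zero_mul] at e2
  exact hb e2

variable {F₀ Φ₀ Ω₀ : Type*} [Field F₀] [Algebra K F₀] [CommRing Φ₀] [Algebra k Φ₀] [Fintype Ω₀]
  [Algebra F₀ F] [IsScalarTower K F₀ F] {R₀ : RedG A resK F₀ Φ₀} {pr₀ : Ω₀ → Φ₀ →+* κ}

/-- the abstract form of (AB) -/
theorem AB_isAbove (H₀ : DVHyp R₀ pr₀ π) (H : DVHyp R pr π)
    (harch : ∀ c : K, ∃ N : ℕ, c * (π : K) ^ N ∈ A) (w₀ : Ω₀) (w : Ω) (v : DVal F₀ κ)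
    (hπ : v.π = algebraMap K F₀ (π : K))
    (hle : ∀ x : R₀.O, ((x : R₀.O) : F₀) ∈ v.O)
    (hred : ∀ x : R₀.O, v.red ⟨_, hle x⟩ = pr₀ w₀ (R₀.red x))
    (hval : ∀ c : F₀, c ∉ v.O → ∃ h : c⁻¹ ∈ v.O, v.red ⟨_, h⟩ = 0)
    (hmem : ∀ x : R₀.O, algebraMap F₀ F ((x : R₀.O) : F₀) ∈ R.O)
    (hcomp : ∀ x : R₀.O, pr w (R.red ⟨_, hmem x⟩) = pr₀ w₀ (R₀.red x)) :
    IsAbove v (H.dv w) := by
  have key : ∀ (c : F₀) (h : c ∈ v.O), ∃ h' : algebraMap F₀ F c ∈ (H.dv w).O,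
      (H.dv w).red ⟨_, h'⟩ = v.red ⟨c, h⟩ := by
    intro c h
    obtain ⟨a, b, hb, hab⟩ := (H₀.mem_dv_O_iff w₀ _).1 (AB_mem_dv H₀ harch w₀ v hle hred c h)
    have hb' : pr w (R.red ⟨_, hmem b⟩) ≠ 0 := by
      rw [hcomp]
      exact hb
    have hab' : algebraMap F₀ F c * (((⟨_, hmem b⟩ : R.O) : R.O) : F) =
        (((⟨_, hmem a⟩ : R.O) : R.O) : F) := by
      change algebraMap F₀ F c * algebraMap F₀ F _ = algebraMap F₀ F _
      rw [← map_mul, hab]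
    have h' : algebraMap F₀ F c ∈ (H.dv w).O := (H.mem_dv_O_iff w _).2 ⟨_, _, hb', hab'⟩
    refine ⟨h', ?_⟩
    rw [H.dv_red_eq_div w _ h' _ _ hb' hab', hcomp, hcomp, div_eq_iff hb, ← hred, ← hred,
      ← map_mul]
    congr 1
    exact Subtype.ext hab.symm
  refine ⟨?_, fun c => ⟨fun h => ?_, fun h => (key c h).1⟩, fun c h h' => (key c h).2⟩
  · rw [H.dv_π, hπ, ← IsScalarTower.algebraMap_apply]
  · by_contra hc
    obtain ⟨h1, h2⟩ := hval c hc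
    obtain ⟨h3, h4⟩ := key _ h1
    have hc0 : c ≠ 0 := by
      rintro rfl
      exact hc v.O.zero_mem
    have e1 : (1 : (H.dv w).O) = ⟨_, h⟩ * ⟨_, h3⟩ := by
      apply Subtype.ext
      change (1 : F) = algebraMap F₀ F c * algebraMap F₀ F c⁻¹
      rw [← map_mul, mul_inv_cancel₀ hc0, map_one]
    have e2 := congrArg (H.dv w).red e1
    rw [map_one, map_mul, h4, h2, mul_zero] at e2
    exact one_ne_zero e2

end Abs

/-! ## the two branches -/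

/-- the two projections of `κ × κ` -/
def prB (κ : Type*) [Field κ] (b : Bool) : κ × κ →+* κ :=
  if b then RingHom.snd κ κ else RingHom.fst κ κ

theorem prB_bijective (κ : Type*) [Field κ] :
    Function.Bijective (fun (φ : κ × κ) (b : Bool) => prB κ b φ) := by
  constructor
  · intro φ ψ h
    exact Prod.ext (congrFun h false) (congrFun h true)
  · intro f
    exact ⟨(f false, f true), by
      funext b
      cases b <;> rfl⟩

/-- a branch is a valuation ring -/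
theorem AB_val {A : ValuationSubring Qb} {N M : ℕ} {e : FB N →+* LaurentSeries Qb} {ϖ : F0 A N}
    (hB : IsBranch A e (ϖ : FB N)) (h : IsBrK A N M e ϖ) (c : F0 A N) (hc : c ∉ (mkDVal h).O) :
    ∃ h' : c⁻¹ ∈ (mkDVal h).O, (mkDVal h).red ⟨_, h'⟩ = 0 := by
  have hc0 : (c : FB N) ≠ 0 := by
    intro h0
    apply hc
    have : c = 0 := Subtype.ext h0
    rw [this]
    exact (mkDVal h).O.zero_mem
  have hfix : IsFix A N (c : FB N) := mem_F0.1 c.2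
  have hc' : ¬ e (c : FB N) ∈ gRing A := hc
  rw [RG3_mem_iff A hB hc0 hfix] at hc'
  have hi0 : (c : FB N)⁻¹ ≠ 0 := inv_ne_zero hc0
  have hifix : IsFix A N (c : FB N)⁻¹ := mem_F0.1 (c⁻¹).2
  have hϖi0 : (ϖ : FB N)⁻¹ ≠ 0 := inv_ne_zero hB.ne
  have hϖifix : IsFix A N (ϖ : FB N)⁻¹ := mem_F0.1 (ϖ⁻¹).2
  have h1 : c⁻¹ ∈ (mkDVal h).O := by
    change e ((c : FB N)⁻¹) ∈ gRing A
    rw [RG3_mem_iff A hB hi0 hifix, hB.vB_inv hc0 hfix]
    omega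
  refine ⟨h1, ?_⟩
  rw [(mkDVal h).red_eq_zero_iff]
  change e ((c : FB N)⁻¹ * (ϖ : FB N)⁻¹) ∈ gRing A
  rw [RG3_mem_iff A hB (mul_ne_zero hi0 hϖi0) (hifix.mul hϖifix), hB.vB_mul hi0 hifix hϖi0 hϖifix,
    hB.vB_inv hc0 hfix, hB.vB_inv hB.ne hB.fix, hB.vB_unif]
  omega

section Sheets

variable {M p : ℕ} [NeZero M] [NeZero p] [hpF : Fact p.Prime] (hpM : ¬ p ∣ M)
  {A : ValuationSubring Qb} (hA : A.LiesOverPrime p)
  {R : RedG A (IsLocalRing.residue A) (FB (p * M)) (FT A M × FT A M)}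
  {η : LaurentSeries Qb} {ζ : Qb}

include hA in
/-- `A0 A` is archimedean -/
theorem AB_harch (c : K0 A) : ∃ N : ℕ, c * ((((p : ℕ) : A0 A) : A0 A) : K0 A) ^ N ∈ A0 A := by
  by_cases hc : c = 0
  · exact ⟨0, by rw [hc, zero_mul]; exact (A0 A).zero_mem⟩
  obtain ⟨n, u, -, hu, h⟩ := exists_zpow_mul_unit A hpF.out hA c.2 (fun h => hc (Subtype.ext h))
  have hp0 : (p : Qb) ≠ 0 := by exact_mod_cast hpF.out.ne_zero
  refine ⟨(-n).toNat, ?_⟩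
  rw [mem_A0_iff]
  have e1 : ((c * ((((p : ℕ) : A0 A) : A0 A) : K0 A) ^ (-n).toNat : K0 A) : Qb) =
      (p : Qb) ^ (n + (-n).toNat).toNat * u := by
    have e2 : ((c * ((((p : ℕ) : A0 A) : A0 A) : K0 A) ^ (-n).toNat : K0 A) : Qb) =
        (c : Qb) * (p : Qb) ^ (-n).toNat := by
      push_cast
      rfl
    have e3 : (((n + (-n).toNat).toNat : ℕ) : ℤ) = n + ((-n).toNat : ℤ) :=
      Int.toNat_of_nonneg (by omega)
    rw [e2, h, ← zpow_natCast, ← zpow_natCast, e3, zpow_add₀ hp0]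
    ring
  rw [e1]
  exact A.mul_mem _ _ (A.pow_mem (natCast_mem A p) _) hu.1

/-- the hypotheses of (DV) for `RX0` -/
theorem AB_hyp0 {w : FB (p * M) ≃ₐ[Qb] FB (p * M)} (hw : IsAL (p * M) p M w) :
    DVHyp (RX0 hpM A hA hw) (prB (FT A M)) ((p : ℕ) : A0 A) where
  hres := resK0_surjective A hpF.out hA
  bij := prB_bijective (FT A M)
  π_ne := by exact_mod_cast hpF.out.ne_zero
  res_π := (resK0_eq_zero_iff A hpF.out hA _).2 dvd_rfl
  dvd := fun a ha => (resK0_eq_zero_iff A hpF.out hA a).1 ha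

theorem AB_mem (hR : IsQRed2 M p hpM A R) (Y : CovY M p A R η ζ)
    (x : (RX0 hpM A hA (EH_isAL_wq M p hpM)).O) :
    algebraMap (F0 A (p * M)) (covE0 A (covE (p * M) η)) (x : F0 A (p * M)) ∈ Y.RE0.O := by
  rw [Y.mem0, algebraMap_F0E0, ← algebraMap_FE]
  exact Y.memF ⟨_, (RX0_mem_iff_R hpM A hA R hR _).1 x.2⟩

theorem AB_red (hR : IsQRed2 M p hpM A R) (Y : CovY M p A R η ζ)
    (x : (RX0 hpM A hA (EH_isAL_wq M p hpM)).O) (c : ZMod p) :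
    Y.RE0.red ⟨_, AB_mem hpM hA hR Y x⟩ c = (RX0 hpM A hA (EH_isAL_wq M p hpM)).red x := by
  have hx : ((x : F0 A (p * M)) : FB (p * M)) ∈ R.O := (RX0_mem_iff_R hpM A hA R hR _).1 x.2
  rw [← Y.red0 ⟨_, AB_mem hpM hA hR Y x⟩ ((Y.mem0 _).1 (AB_mem hpM hA hR Y x)),
    ← RX0_red_eq_R hpM A hA R hR x hx, ← Y.redF ⟨_, hx⟩ c]
  congr 2

theorem AB_π : qF0 A (p * M) p =
    algebraMap (K0 A) (F0 A (p * M)) ((((p : ℕ) : A0 A) : A0 A) : K0 A) := by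
  rw [PHI_qF0_eq]
  simp

/-- (AB1) -/
theorem isAbove_inf (hR : IsQRed2 M p hpM A R) (Y : CovY M p A R η ζ) (c : ZMod p) :
    IsAbove (vInf2 hpM A hA) (Y.dv hA (c, false)) :=
  AB_isAbove (AB_hyp0 hpM hA (EH_isAL_wq M p hpM)) (Y.hyp hA) (AB_harch hA) false (c, false)
    (vInf2 hpM A hA) AB_π (fun x => x.2.1) (fun x => rfl)
    (AB_val (isBranch_inf A hpF.out hA (p * M)) (isBrK2_inf hpM A hA))
    (AB_mem hpM hA hR Y) (fun x => by
      rw [prY_false, AB_red hpM hA hR Y x c]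
      rfl)

/-- (AB2) -/
theorem isAbove_zero (hR : IsQRed2 M p hpM A R) (Y : CovY M p A R η ζ) (c : ZMod p) :
    IsAbove (vZero2 hpM A hA (EH_isAL_wq M p hpM)) (Y.dv hA (c, true)) :=
  AB_isAbove (AB_hyp0 hpM hA (EH_isAL_wq M p hpM)) (Y.hyp hA) (AB_harch hA) true (c, true)
    (vZero2 hpM A hA (EH_isAL_wq M p hpM)) AB_π (fun x => x.2.2) (fun x => rfl)
    (AB_val (isBranch_zero A hpF.out hA rfl (EH_isAL_wq M p hpM))
      (isBrK2_zero hpM A hA (EH_isAL_wq M p hpM)))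
    (AB_mem hpM hA hR Y) (fun x => by
      rw [prY_true, AB_red hpM hA hR Y x c]
      rfl)

end Sheets

end

end Fermat.Agent.S40Lib
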