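import Fermat.Agent.S40.Cov.ShDefs

/-! # S40/S44 COV (BY1): the coefficients of `∏ (X - G_j)` -/

set_option autoImplicit false

open AlgebraicCurve IntermediateField Polynomial Fermat.Agent.S24Lib Fermat.Agent.FFLib
  Fermat.Agent.S18Lib Fermat.Agent.S34Lib Fermat.Agent.S36Lib

namespace Fermat.Agent.S40Lib

variable {κ : Type*} [Field κ] {E₀ : Type*} [Field E₀]

theorem BY1_aux (w : DVal E₀ κ) {J : Type*} (s : Finset J) (G : J → E₀) (α : ℕ)
    (hG : ∀ j ∈ s, w.ge α (G j)) (m : ℕ) :
    w.ge ((s.card - m) * α) ((∏ j ∈ s, (X - C (G j))).coeff m) := by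
  classical
  induction s using Finset.induction_on generalizing m with
  | empty =>
    rw [Finset.prod_empty, Finset.card_empty, Nat.zero_sub, zero_mul, w.ge_zero_iff,
      Polynomial.coeff_one]
    split_ifs
    · exact w.O.one_mem
    · exact w.O.zero_mem
  | insert a s ha ih =>
    have ih' := ih (fun j hj => hG j (Finset.mem_insert_of_mem hj))
    have hGa := hG a (Finset.mem_insert_self a s)
    rw [Finset.prod_insert ha, Finset.card_insert_of_notMem ha, sub_mul, Polynomial.coeff_sub,
      Polynomial.coeff_C_mul]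
    apply w.ge_sub
    · cases m with
      | zero =>
        rw [Polynomial.coeff_X_mul_zero]
        exact w.ge_zero' _
      | succ m =>
        rw [Polynomial.coeff_X_mul]
        have h1 := ih' m
        have h2 : s.card + 1 - (m + 1) = s.card - m := by omega
        rw [h2]
        exact h1
    · have h1 := w.ge_mul hGa (ih' m)
      refine w.ge_mono ?_ h1
      have h2 : s.card + 1 - m ≤ 1 + (s.card - m) := by omega
      calc (s.card + 1 - m) * α ≤ (1 + (s.card - m)) * α := Nat.mul_le_mul_right _ h2
        _ = α + (s.card - m) * α := by ring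

/-- (BY1) -/
theorem DVal.ge_coeff_prod (w : DVal E₀ κ) {J : Type*} (s : Finset J) (G : J → E₀) (α : ℕ)
    (hG : ∀ j ∈ s, w.ge α (G j)) (i : ℕ) (hi : i ≤ s.card) :
    w.ge (i * α) ((∏ j ∈ s, (X - C (G j))).coeff (s.card - i)) := by
  have h := BY1_aux w s G α hG (s.card - i)
  rwa [Nat.sub_sub_self hi] at h

end Fermat.Agent.S40Lib
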