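import Fermat.Agent.S40.Cov.ShDefs

/-! # S40/S44 COV (BY4): Newton polygon -/

set_option autoImplicit false

open AlgebraicCurve IntermediateField Polynomial Fermat.Agent.S24Lib Fermat.Agent.FFLib
  Fermat.Agent.S18Lib Fermat.Agent.S34Lib Fermat.Agent.S36Lib

namespace Fermat.Agent.S40Lib

variable {k κ : Type*} [Field k] [Field κ] [Algebra k κ]

theorem BY4_sum (P : Place k κ) (m : ℤ) {ι : Type*} (s : Finset ι) (f : ι → κ)
    (hf : ∀ i ∈ s, D2_ge P m (f i)) : D2_ge P m (∑ i ∈ s, f i) := by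
  classical
  induction s using Finset.induction_on with
  | empty => rw [Finset.sum_empty]; exact D2.ge_zero P m
  | insert a s ha ih =>
    rw [Finset.sum_insert ha]
    exact D2.ge_add P (hf a (Finset.mem_insert_self a s))
      (ih fun i hi => hf i (Finset.mem_insert_of_mem hi))

theorem BY4_arith {N i : ℕ} (hN : 0 < N) (hi : 1 ≤ i) {o e oc Wp : ℤ}
    (h1 : (N : ℤ) * (o + e) < Wp) (h2 : (i : ℤ) * Wp ≤ N * (oc + i * e)) : (i : ℤ) * o + 1 ≤ oc := by
  have hi' : (0 : ℤ) < i := by exact_mod_cast hi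
  have hN' : (0 : ℤ) < N := by exact_mod_cast hN
  have h3 : (i : ℤ) * ((N : ℤ) * (o + e)) < i * Wp := mul_lt_mul_of_pos_left h1 hi'
  have h4 : (N : ℤ) * (i * o + i * e) < N * (oc + i * e) := by
    calc (N : ℤ) * (i * o + i * e) = i * ((N : ℤ) * (o + e)) := by ring
      _ < i * Wp := h3
      _ ≤ _ := h2
  have h5 := lt_of_mul_lt_mul_left h4 hN'.le
  omega

/-- (BY4) Newton polygon. -/
theorem Bd.of_root [IsAlgClosed k] (hκ : IsFF k κ) {y : κ} {a N : ℕ} (hN : 0 < N)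
    {W : Divisor k κ} {n : ℕ} (hn : 0 < n) (c : ℕ → κ) (γ : κ)
    (hc : ∀ i, 1 ≤ i → i ≤ n → Bd k y (i * a) 0 N ((i : ℤ) • W) (c i))
    (hroot : γ ^ n + ∑ i ∈ Finset.Icc 1 n, c i * γ ^ (n - i) = 0) :
    Bd k y a 0 N W γ := by
  by_cases hγ : γ = 0
  · exact Or.inl hγ
  right
  intro P
  by_contra hcon
  push Not at hcon
  have hterm : ∀ i ∈ Finset.Icc 1 n, D2_ge P ((n : ℤ) * P.ord γ + 1) (c i * γ ^ (n - i)) := by
    intro i hi
    obtain ⟨h1, h2⟩ := Finset.mem_Icc.mp hi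
    by_cases hci : c i = 0
    · left; rw [hci, zero_mul]
    rcases hc i h1 h2 with h0 | h
    · exact absurd h0 hci
    right
    have h3 := h P
    rw [Finsupp.smul_apply, smul_eq_mul, maE_apply hκ] at h3
    rw [maE_apply hκ] at hcon
    push_cast at h3 hcon
    have h4 : (i : ℤ) * P.ord γ + 1 ≤ P.ord (c i) :=
      BY4_arith hN h1 (e := (a : ℤ) * max (-P.ord y) 0 + 0 * max (P.ord y) 0) hcon (by
        calc (i : ℤ) * W P ≤ _ := h3
          _ = _ := by ring)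
    rw [P.ord_mul hci (pow_ne_zero _ hγ), pl_ord_pow, Nat.cast_sub h2]
    linarith
  have hsum := BY4_sum P _ (Finset.Icc 1 n) _ hterm
  refine D2.add_ne_zero_of_ge P (pow_ne_zero n hγ) ?_ (by rw [add_comm]; exact hroot)
  rw [pl_ord_pow]
  exact hsum

end Fermat.Agent.S40Lib
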