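import Fermat.Agent.S40.Cov.ShDefs

/-! # S40/S44 COV (BY3): the leading term of a root -/

set_option autoImplicit false

open AlgebraicCurve IntermediateField Polynomial Fermat.Agent.S24Lib Fermat.Agent.FFLib
  Fermat.Agent.S18Lib Fermat.Agent.S34Lib Fermat.Agent.S36Lib

namespace Fermat.Agent.S40Lib

variable {κ : Type*} [Field κ] {E₀ : Type*} [Field E₀]

theorem BY3_lead_zero (w : DVal E₀ κ) (m : ℕ) : w.lead m 0 = 0 := by
  rw [w.lead_of_ge (w.ge_zero' m)]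
  have h1 : (⟨0 * w.π⁻¹ ^ m, w.ge_zero' m⟩ : w.O) = 0 := Subtype.ext (zero_mul _)
  rw [h1, map_zero]

theorem BY3_sum (w : DVal E₀ κ) (m : ℕ) {ι : Type*} (s : Finset ι) (f : ι → E₀)
    (hf : ∀ i ∈ s, w.ge m (f i)) :
    w.ge m (∑ i ∈ s, f i) ∧ w.lead m (∑ i ∈ s, f i) = ∑ i ∈ s, w.lead m (f i) := by
  classical
  induction s using Finset.induction_on with
  | empty =>
    rw [Finset.sum_empty, Finset.sum_empty]
    exact ⟨w.ge_zero' m, BY3_lead_zero w m⟩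
  | insert a s ha ih =>
    obtain ⟨h1, h2⟩ := ih (fun i hi => hf i (Finset.mem_insert_of_mem hi))
    have h3 := hf a (Finset.mem_insert_self a s)
    rw [Finset.sum_insert ha, Finset.sum_insert ha]
    exact ⟨w.ge_add h3 h1, by rw [w.lead_add h3 h1, h2]⟩

/-- (BY3) -/
theorem DVal.lead_root (w : DVal E₀ κ) {n : ℕ} (α : ℕ) (c : ℕ → E₀) (G : E₀) (hG : w.ge α G)
    (hc : ∀ i, 1 ≤ i → i ≤ n → w.ge (i * α) (c i))
    (hroot : G ^ n + ∑ i ∈ Finset.Icc 1 n, c i * G ^ (n - i) = 0) :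
    w.lead α G ^ n + ∑ i ∈ Finset.Icc 1 n, w.lead (i * α) (c i) * w.lead α G ^ (n - i) = 0 := by
  have hterm : ∀ i ∈ Finset.Icc 1 n, w.ge (n * α) (c i * G ^ (n - i)) ∧
      w.lead (n * α) (c i * G ^ (n - i)) = w.lead (i * α) (c i) * w.lead α G ^ (n - i) := by
    intro i hi
    obtain ⟨h1, h2⟩ := Finset.mem_Icc.mp hi
    have e : i * α + (n - i) * α = n * α := by rw [← add_mul, Nat.add_sub_cancel' h2]
    have h3 := w.ge_mul (hc i h1 h2) (w.ge_pow hG (n - i))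
    have h4 := w.lead_mul (hc i h1 h2) (w.ge_pow hG (n - i))
    rw [e] at h3 h4
    exact ⟨h3, by rw [h4, w.lead_pow hG]⟩
  obtain ⟨h1, h2⟩ := BY3_sum w (n * α) (Finset.Icc 1 n) (fun i => c i * G ^ (n - i))
    (fun i hi => (hterm i hi).1)
  have h3 := w.lead_add (w.ge_pow hG n) h1
  rw [hroot, BY3_lead_zero, w.lead_pow hG, h2, Finset.sum_congr rfl fun i hi => (hterm i hi).2] at h3
  exact h3.symm

end Fermat.Agent.S40Lib
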