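import Fermat.Agent.S40.Cov.ByAbove
import Fermat.Agent.S40.Cov.ByEsymm
import Fermat.Agent.S40.Cov.ByRoot
import Fermat.Agent.S40.Cov.ByNewton

/-! # S40/S44 COV (BY): (BL) on the cover, abstract form -/

set_option autoImplicit false

open AlgebraicCurve IntermediateField Polynomial Fermat.Agent.S24Lib Fermat.Agent.FFLib
  Fermat.Agent.S18Lib Fermat.Agent.S34Lib Fermat.Agent.S36Lib

namespace Fermat.Agent.S40Lib

/-- a root of a monic polynomial, written with the coefficients in decreasing order -/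
theorem BY_root_expand {E : Type*} [Field E] (P : E[X]) (hP : P.Monic) (n : ℕ)
    (hn : P.natDegree = n) (G : E) (hG : P.eval G = 0) :
    G ^ n + ∑ i ∈ Finset.Icc 1 n, P.coeff (n - i) * G ^ (n - i) = 0 := by
  rw [Polynomial.eval_eq_sum_range, hn, Finset.sum_range_succ] at hG
  have h1 : P.coeff n = 1 := by rw [← hn]; exact hP.coeff_natDegree
  rw [h1, one_mul, add_comm] at hG
  rw [← hG]
  congr 1
  refine Finset.sum_nbij' (fun i => n - i) (fun m => n - m) ?_ ?_ ?_ ?_ ?_
  · intro i hi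
    obtain ⟨h1, h2⟩ := Finset.mem_Icc.mp hi
    exact Finset.mem_range.mpr (by omega)
  · intro m hm
    have := Finset.mem_range.mp hm
    exact Finset.mem_Icc.mpr ⟨by omega, by omega⟩
  · intro i hi
    obtain ⟨h1, h2⟩ := Finset.mem_Icc.mp hi
    show n - (n - i) = i
    omega
  · intro m hm
    have := Finset.mem_range.mp hm
    show n - (n - m) = m
    omega
  · intro i _
    rfl

variable {k κ : Type*} [Field k] [Field κ] [Algebra k κ]
variable {F₀ E₀ : Type*} [Field F₀] [Field E₀] [Algebra F₀ E₀]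

/-- (BY) **(BL) on the cover**, abstract form, for one family of sheets. -/
theorem bl_cover [IsAlgClosed k] (hκ : IsFF k κ) {J : Type*} [Fintype J] [Nonempty J]
    (v v' : DVal F₀ κ) (w w' : J → DVal E₀ κ) (hw : ∀ j, IsAbove v (w j))
    (hw' : ∀ j, IsAbove v' (w' j)) (Reg : ℕ → F₀ → Prop) (y : κ) (Z : Divisor k κ)
    (blX : ∀ (a α β : ℕ) (c : F₀), Reg a c → v.ge α c → v'.ge β c →
      Bd k y a 0 12 (((β : ℤ) - α) • Z) (v.lead α c))
    (a α β : ℕ) (Q : F₀[X]) (G' : J → E₀) (hQ : IsCharPoly Q G')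
    (hReg : ∀ i, 1 ≤ i → i ≤ Fintype.card J → Reg (i * a) (Q.coeff (Fintype.card J - i)))
    (hα : ∀ j j', (w j).ge α (G' j')) (hβ : ∀ j j', (w' j).ge β (G' j')) (j j' : J) :
    Bd k y a 0 12 (((β : ℤ) - α) • Z) ((w j).lead α (G' j')) := by
  classical
  have hQ' : Q.map (algebraMap F₀ E₀) = ∏ j, (X - C (G' j)) := hQ
  have hn : 0 < Fintype.card J := Fintype.card_pos
  have hcoeff : ∀ m, algebraMap F₀ E₀ (Q.coeff m) = (∏ j, (X - C (G' j))).coeff m := by
    intro m
    rw [← hQ', Polynomial.coeff_map]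
  have hmonic : (∏ j, (X - C (G' j))).Monic := Polynomial.monic_prod_of_monic _ _
    (fun j _ => Polynomial.monic_X_sub_C _)
  have hdeg : (∏ j, (X - C (G' j))).natDegree = Fintype.card J := by
    rw [Polynomial.natDegree_prod_of_monic _ _ (fun j _ => Polynomial.monic_X_sub_C _)]
    simp
  have hge : ∀ i, i ≤ Fintype.card J → v.ge (i * α) (Q.coeff (Fintype.card J - i)) := by
    intro i hi
    rw [← (hw j).ge_iff, hcoeff]
    exact DVal.ge_coeff_prod (w j) Finset.univ G' α (fun j' _ => hα j j') i hi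
  have hge' : ∀ i, i ≤ Fintype.card J → v'.ge (i * β) (Q.coeff (Fintype.card J - i)) := by
    intro i hi
    rw [← (hw' j).ge_iff, hcoeff]
    exact DVal.ge_coeff_prod (w' j) Finset.univ G' β (fun j' _ => hβ j j') i hi
  have hroot0 : (∏ j, (X - C (G' j))).eval (G' j') = 0 := by
    rw [Polynomial.eval_prod]
    exact Finset.prod_eq_zero (Finset.mem_univ j') (by simp)
  have hroot1 := BY_root_expand _ hmonic _ hdeg (G' j') hroot0
  have hroot2 := DVal.lead_root (w j) (n := Fintype.card J) α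
    (fun i => (∏ j, (X - C (G' j))).coeff (Fintype.card J - i)) (G' j') (hα j j')
    (fun i _ hi => DVal.ge_coeff_prod (w j) Finset.univ G' α (fun j' _ => hα j j') i hi) hroot1
  refine Bd.of_root hκ (by norm_num) hn
    (fun i => v.lead (i * α) (Q.coeff (Fintype.card J - i))) _ ?_ ?_
  · intro i h1 h2
    have h3 := blX (i * a) (i * α) (i * β) _ (hReg i h1 h2) (hge i h2) (hge' i h2)
    have e : (((i * β : ℕ) : ℤ) - ((i * α : ℕ) : ℤ)) • Z = (i : ℤ) • (((β : ℤ) - α) • Z) := by
      rw [smul_smul]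
      congr 1
      push_cast
      ring
    rw [e] at h3
    exact h3
  · rw [← hroot2]
    congr 1
    refine Finset.sum_congr rfl fun i _ => ?_
    show v.lead (i * α) (Q.coeff (Fintype.card J - i)) * _ = _
    rw [← (hw j).lead_eq, hcoeff]

end Fermat.Agent.S40Lib
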