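import Fermat.Agent.S40.Cov.ShDefs

/-! # S40/S44 COV (BY2): sheets above a valuation -/

set_option autoImplicit false

open AlgebraicCurve IntermediateField Polynomial Fermat.Agent.S24Lib Fermat.Agent.FFLib
  Fermat.Agent.S18Lib Fermat.Agent.S34Lib Fermat.Agent.S36Lib

namespace Fermat.Agent.S40Lib

variable {κ : Type*} [Field κ] {F₀ E₀ : Type*} [Field F₀] [Field E₀] [Algebra F₀ E₀]

theorem BY2_eq {v : DVal F₀ κ} {w : DVal E₀ κ} (h : IsAbove v w) (n : ℕ) (c : F₀) :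
    algebraMap F₀ E₀ c * w.π⁻¹ ^ n = algebraMap F₀ E₀ (c * v.π⁻¹ ^ n) := by
  rw [h.unif, map_mul, map_pow, map_inv₀]

/-- (BY2) -/
theorem IsAbove.ge_iff {v : DVal F₀ κ} {w : DVal E₀ κ} (h : IsAbove v w) (n : ℕ) (c : F₀) :
    w.ge n (algebraMap F₀ E₀ c) ↔ v.ge n c := by
  unfold DVal.ge
  rw [BY2_eq h, h.mem]

theorem IsAbove.lead_eq {v : DVal F₀ κ} {w : DVal E₀ κ} (h : IsAbove v w) (n : ℕ) (c : F₀) :
    w.lead n (algebraMap F₀ E₀ c) = v.lead n c := by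
  by_cases hc : v.ge n c
  · have hc' : w.ge n (algebraMap F₀ E₀ c) := (h.ge_iff n c).mpr hc
    rw [w.lead_of_ge hc', v.lead_of_ge hc]
    have h1 : algebraMap F₀ E₀ (c * v.π⁻¹ ^ n) ∈ w.O := (h.mem _).mpr hc
    rw [← h.red _ hc h1]
    congr 1
    exact Subtype.ext (BY2_eq h n c)
  · have hc' : ¬ w.ge n (algebraMap F₀ E₀ c) := fun h' => hc ((h.ge_iff n c).mp h')
    unfold DVal.lead
    rw [dif_neg hc, dif_neg hc']

end Fermat.Agent.S40Lib
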