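import Fermat.Agent.S40.Cov.CNCount

/-!
# S40, block (COV), (CN2): the tight count with two families of sheets and uniform bounds

`tight_count2`: `E₀` with two finite families `vI vZ : J → DVal E₀ κ` of discrete valuations (the
sheets over the branch `∞` and over the branch `0`), bounding lemmas `blI blZ` for *uniform* lower
bounds on the two families, `u` with uniform valuations `μI`, `μZ`, `div u = p D`.
Then `12 p ∣ (μZ - μI) Z(P) - 12 ord_P (ū_i)` on every sheet.
-/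

set_option autoImplicit false
set_option linter.unusedSectionVars false

open AlgebraicCurve IntermediateField Polynomial Fermat.Agent.S24Lib Fermat.Agent.FFLib
  Fermat.Agent.S18Lib Fermat.Agent.S34Lib Fermat.Agent.S36Lib

namespace Fermat.Agent.S40Lib

/-- `v(s^p u) ≥ p a + μ` and its leading term -/
theorem CN2_pow_mul {F₀ κ : Type*} [Field F₀] [Field κ] (v : DVal F₀ κ) {s u : F₀} {a μ : ℕ}
    (hs : v.ge a s) (hu : v.ge μ u) (p : ℕ) :
    v.ge (p * a + μ) (s ^ p * u) ∧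
      v.lead (p * a + μ) (s ^ p * u) = v.lead a s ^ p * v.lead μ u :=
  ⟨v.ge_mul (v.ge_pow hs p) hu, by rw [v.lead_mul (v.ge_pow hs p) hu, v.lead_pow hs]⟩

/-- from a bound for `σ ^ p * ū` to a bound for `σ` -/
theorem CN2_Bd_root {k κ : Type*} [Field k] [Field κ] [Algebra k κ] [IsAlgClosed k]
    (h : IsFF k κ) {y : κ} {n N p : ℕ} {W : Divisor k κ} {σ ub : κ} (hub : ub ≠ 0)
    (hB : Bd k y (p * n) 0 N W (σ ^ p * ub)) :
    Bd k y n 0 (N * p) (W - N • divOf k ub) σ := by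
  by_cases hσ : σ = 0
  · exact Or.inl hσ
  rcases hB with hB | hB
  · exact absurd hB (mul_ne_zero (pow_ne_zero _ hσ) hub)
  refine Or.inr fun P => ?_
  have h1 := hB P
  rw [P.ord_mul (pow_ne_zero _ hσ) hub, pl_ord_pow, maE_apply h] at h1
  rw [Finsupp.sub_apply, Finsupp.smul_apply, divOf_apply h, maE_apply h, nsmul_eq_mul]
  push_cast at h1 ⊢
  linarith

variable {K₀ k : Type*} [Field K₀] [Field k] {A₀ : ValuationSubring K₀} {resK : A₀ →+* k}
  {E₀ κ Φ J : Type*} [Field E₀] [Field κ] [Algebra K₀ E₀] [Algebra k κ] [CommRing Φ] [Algebra k Φ]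

/-- the order on the sheets: first the family `I`, then the family `Z` -/
noncomputable def cn2r (J : Type*) [Fintype J] : J ⊕ J → ℕ :=
  Sum.elim (fun i => (Fintype.equivFin J i : ℕ))
    (fun j => Fintype.card J + (Fintype.equivFin J j : ℕ))

theorem cn2r_injective (J : Type*) [Fintype J] : Function.Injective (cn2r J) := by
  rintro (i | i) (j | j) h
  · simp only [cn2r, Sum.elim_inl] at h
    rw [(Fintype.equivFin J).injective (Fin.ext h)]
  · simp only [cn2r, Sum.elim_inl, Sum.elim_inr] at h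
    have := (Fintype.equivFin J i).2
    omega
  · simp only [cn2r, Sum.elim_inl, Sum.elim_inr] at h
    have := (Fintype.equivFin J j).2
    omega
  · simp only [cn2r, Sum.elim_inr] at h
    have h' : ((Fintype.equivFin J i : Fin _) : ℕ) = (Fintype.equivFin J j : Fin _) := by omega
    rw [(Fintype.equivFin J).injective (Fin.ext h')]

theorem cn2r_inl_lt (J : Type*) [Fintype J] (i j : J) : cn2r J (Sum.inl i) < cn2r J (Sum.inr j) := by
  simp only [cn2r, Sum.elim_inl, Sum.elim_inr]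
  have := (Fintype.equivFin J i).2
  omega

/-- one half of (CN2) -/
theorem tight_count2_aux [Fintype J] [IsAlgClosed k] (hκ : IsFF k κ)
    (hres : Function.Surjective resK)
    (R : RedG A₀ resK E₀ Φ) (vI vZ : J → DVal E₀ κ)
    (mem_O : ∀ x : E₀, x ∈ R.O ↔ (∀ i, x ∈ (vI i).O) ∧ ∀ j, x ∈ (vZ j).O)
    (red_eq_zero : ∀ x : R.O, R.red x = 0 ↔
      (∀ i, (vI i).ge 1 (x : E₀)) ∧ ∀ j, (vZ j).ge 1 (x : E₀))
    (constI : ∀ (i : J) (c : A₀) (h : algebraMap K₀ E₀ (c : K₀) ∈ (vI i).O),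
      (vI i).red ⟨_, h⟩ = algebraMap k κ (resK c))
    (constZ : ∀ (j : J) (c : A₀) (h : algebraMap K₀ E₀ (c : K₀) ∈ (vZ j).O),
      (vZ j).red ⟨_, h⟩ = algebraMap k κ (resK c))
    (x₁ x₂ : κ) (tr₁ : Transcendental k x₁) (tr₂ : Transcendental k x₂)
    (Z : Divisor k κ) (Reg : ℕ → E₀ → Prop)
    (blI : ∀ (a al be : ℕ) (g : E₀), Reg a g → (∀ i, (vI i).ge al g) → (∀ j, (vZ j).ge be g) →
      ∀ i, Bd k x₁ a 0 12 (((be : ℤ) - al) • Z) ((vI i).lead al g))
    (blZ : ∀ (a al be : ℕ) (g : E₀), Reg a g → (∀ i, (vI i).ge al g) → (∀ j, (vZ j).ge be g) →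
      ∀ j, Bd k x₂ a 0 12 (((al : ℤ) - be) • Z) ((vZ j).lead be g))
    {p : ℕ} (hp : 0 < p) (u : E₀) (μI μZ : ℕ)
    (huI : ∀ i, (vI i).ge μI u) (huI' : ∀ i, (vI i).lead μI u ≠ 0)
    (huZ : ∀ j, (vZ j).ge μZ u) (huZ' : ∀ j, (vZ j).lead μZ u ≠ 0)
    (U : ℕ → Submodule K₀ E₀) (hUfin : ∀ n, FiniteDimensional K₀ (U n))
    (hU : ∀ n, ∀ s ∈ U n, Reg (p * n) (s ^ p * u))
    (hRK : ∀ n : ℕ, 12 * (Fintype.card J : ℤ) * n *
          ((Module.finrank k⟮x₁⟯ κ : ℤ) + Module.finrank k⟮x₂⟯ κ)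
        + 24 * (Fintype.card J : ℤ) * (1 - (genusR k κ : ℤ))
        - (Fintype.card J : ℤ) * Divisor.degree Z ≤ 12 * Module.finrank K₀ (U n)) :
    ∀ (i : J) (P : Place k κ),
      (12 * p : ℤ) ∣ ((μZ : ℤ) - μI) * Z P - 12 * P.ord ((vI i).lead μI u) := by
  classical
  set v : J ⊕ J → DVal E₀ κ := Sum.elim vI vZ with hv
  set xb : J ⊕ J → κ := Sum.elim (fun _ => x₁) (fun _ => x₂) with hxb
  set WW : J ⊕ J → Divisor k κ := Sum.elim
    (fun i => ((μZ : ℤ) - μI) • Z - 12 • divOf k ((vI i).lead μI u))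
    (fun j => (((p * 1 + μI : ℕ) : ℤ) - μZ) • Z - 12 • divOf k ((vZ j).lead μZ u)) with hWW
  have key := tight_count0 (Ω := J ⊕ J) R v
    (by
      intro x
      rw [mem_O]
      constructor
      · rintro ⟨h1, h2⟩ (i | j)
        · exact h1 i
        · exact h2 j
      · intro h
        exact ⟨fun i => h (Sum.inl i), fun j => h (Sum.inr j)⟩)
    (by
      intro x
      rw [red_eq_zero]
      constructor
      · rintro ⟨h1, h2⟩ (i | j)
        · exact h1 i
        · exact h2 j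
      · intro h
        exact ⟨fun i => h (Sum.inl i), fun j => h (Sum.inr j)⟩)
    (by
      rintro (i | j) c h
      · exact constI i c h
      · exact constZ j c h)
    (cn2r J) hκ hres (cn2r_injective J) xb
    (by
      rintro (i | j)
      · exact tr₁
      · exact tr₂)
    (N := 12 * p) (by positivity) WW U hUfin
    (by
      intro n s hs w hF
      have hI0 : ∀ i, (vI i).ge 0 s := fun i => (vI i).ge_mono (Nat.zero_le _) (hF (Sum.inl i))
      have hZ0 : ∀ j, (vZ j).ge 0 s := fun j => (vZ j).ge_mono (Nat.zero_le _) (hF (Sum.inr j))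
      have hZ : ∀ j, (vZ j).ge μZ (s ^ p * u) := by
        intro j
        have := (CN2_pow_mul (vZ j) (hZ0 j) (huZ j) p).1
        rwa [Nat.mul_zero, Nat.zero_add] at this
      rcases w with i | j
      · have hI : ∀ i, (vI i).ge μI (s ^ p * u) := by
          intro i
          have := (CN2_pow_mul (vI i) (hI0 i) (huI i) p).1
          rwa [Nat.mul_zero, Nat.zero_add] at this
        have h1 := blI (p * n) μI μZ _ (hU n s hs) hI hZ i
        have h2 := (CN2_pow_mul (vI i) (hI0 i) (huI i) p).2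
        rw [Nat.mul_zero, Nat.zero_add] at h2
        rw [h2] at h1
        exact CN2_Bd_root hκ (huI' i) h1
      · have hI1 : ∀ i, (vI i).ge 1 s := by
          intro i
          have := hF (Sum.inl i)
          have e : cnAl (cn2r J) (cn2r J (Sum.inr j)) (Sum.inl i) = 1 := by
            unfold cnAl
            rw [if_pos (cn2r_inl_lt J i j)]
          rwa [e] at this
        have hI : ∀ i, (vI i).ge (p * 1 + μI) (s ^ p * u) := fun i =>
          (CN2_pow_mul (vI i) (hI1 i) (huI i) p).1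
        have h1 := blZ (p * n) (p * 1 + μI) μZ _ (hU n s hs) hI hZ j
        have h2 := (CN2_pow_mul (vZ j) (hZ0 j) (huZ j) p).2
        rw [Nat.mul_zero, Nat.zero_add] at h2
        rw [h2] at h1
        exact CN2_Bd_root hκ (huZ' j) h1)
    (by
      intro n
      have h := hRK n
      have e1 : ∑ w : J ⊕ J, (Module.finrank k⟮xb w⟯ κ : ℤ) =
          (Fintype.card J : ℤ) * ((Module.finrank k⟮x₁⟯ κ : ℤ) + Module.finrank k⟮x₂⟯ κ) := by
        rw [Fintype.sum_sum_type]
        have a1 : ∀ i : J, (Module.finrank k⟮xb (Sum.inl i)⟯ κ : ℤ) = Module.finrank k⟮x₁⟯ κ :=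
          fun _ => rfl
        have a2 : ∀ j : J, (Module.finrank k⟮xb (Sum.inr j)⟯ κ : ℤ) = Module.finrank k⟮x₂⟯ κ :=
          fun _ => rfl
        rw [Finset.sum_congr rfl (fun i _ => a1 i), Finset.sum_congr rfl (fun j _ => a2 j),
          Finset.sum_const, Finset.sum_const, Finset.card_univ, nsmul_eq_mul, nsmul_eq_mul]
        ring
      have e2 : ∑ w : J ⊕ J, Divisor.degree (WW w) =
          (Fintype.card J : ℤ) * (p * Divisor.degree Z) := by
        rw [Fintype.sum_sum_type]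
        have a1 : ∀ i : J, WW (Sum.inl i) =
            ((μZ : ℤ) - μI) • Z - 12 • divOf k ((vI i).lead μI u) := fun _ => rfl
        have a2 : ∀ j : J, WW (Sum.inr j) =
            (((p * 1 + μI : ℕ) : ℤ) - μZ) • Z - 12 • divOf k ((vZ j).lead μZ u) := fun _ => rfl
        simp only [a1, a2, map_sub, map_zsmul, map_nsmul,
          degree_divOf hκ, smul_zero, sub_zero, Finset.sum_const, Finset.card_univ, nsmul_eq_mul,
          smul_eq_mul]
        push_cast
        ring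
      have e3 : (Fintype.card (J ⊕ J) : ℤ) = 2 * Fintype.card J := by
        rw [Fintype.card_sum]
        push_cast
        ring
      rw [e1, e2, e3]
      have hp' : (0 : ℤ) ≤ (p : ℤ) := by positivity
      have := mul_le_mul_of_nonneg_left h hp'
      push_cast
      nlinarith)
  intro i P
  have h := key (Sum.inl i) P
  have a1 : WW (Sum.inl i) = ((μZ : ℤ) - μI) • Z - 12 • divOf k ((vI i).lead μI u) := rfl
  simp only [a1, Finsupp.sub_apply, Finsupp.smul_apply, divOf_apply hκ,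
    smul_eq_mul, nsmul_eq_mul] at h
  exact_mod_cast h

/-- **(CN2)** the tight count with two families of sheets and uniform bounds -/
theorem tight_count2 [Fintype J] [IsAlgClosed k] (hκ : IsFF k κ)
    (hres : Function.Surjective resK)
    (R : RedG A₀ resK E₀ Φ) (vI vZ : J → DVal E₀ κ)
    (mem_O : ∀ x : E₀, x ∈ R.O ↔ (∀ i, x ∈ (vI i).O) ∧ ∀ j, x ∈ (vZ j).O)
    (red_eq_zero : ∀ x : R.O, R.red x = 0 ↔
      (∀ i, (vI i).ge 1 (x : E₀)) ∧ ∀ j, (vZ j).ge 1 (x : E₀))
    (constI : ∀ (i : J) (c : A₀) (h : algebraMap K₀ E₀ (c : K₀) ∈ (vI i).O),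
      (vI i).red ⟨_, h⟩ = algebraMap k κ (resK c))
    (constZ : ∀ (j : J) (c : A₀) (h : algebraMap K₀ E₀ (c : K₀) ∈ (vZ j).O),
      (vZ j).red ⟨_, h⟩ = algebraMap k κ (resK c))
    (x₁ x₂ : κ) (tr₁ : Transcendental k x₁) (tr₂ : Transcendental k x₂)
    (Z : Divisor k κ) (Reg : ℕ → E₀ → Prop)
    (blI : ∀ (a al be : ℕ) (g : E₀), Reg a g → (∀ i, (vI i).ge al g) → (∀ j, (vZ j).ge be g) →
      ∀ i, Bd k x₁ a 0 12 (((be : ℤ) - al) • Z) ((vI i).lead al g))
    (blZ : ∀ (a al be : ℕ) (g : E₀), Reg a g → (∀ i, (vI i).ge al g) → (∀ j, (vZ j).ge be g) →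
      ∀ j, Bd k x₂ a 0 12 (((al : ℤ) - be) • Z) ((vZ j).lead be g))
    {p : ℕ} (hp : 0 < p) (u : E₀) (μI μZ : ℕ)
    (huI : ∀ i, (vI i).ge μI u) (huI' : ∀ i, (vI i).lead μI u ≠ 0)
    (huZ : ∀ j, (vZ j).ge μZ u) (huZ' : ∀ j, (vZ j).lead μZ u ≠ 0)
    (U : ℕ → Submodule K₀ E₀) (hUfin : ∀ n, FiniteDimensional K₀ (U n))
    (hU : ∀ n, ∀ s ∈ U n, Reg (p * n) (s ^ p * u))
    (hRK : ∀ n : ℕ, 12 * (Fintype.card J : ℤ) * n *
          ((Module.finrank k⟮x₁⟯ κ : ℤ) + Module.finrank k⟮x₂⟯ κ)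
        + 24 * (Fintype.card J : ℤ) * (1 - (genusR k κ : ℤ))
        - (Fintype.card J : ℤ) * Divisor.degree Z ≤ 12 * Module.finrank K₀ (U n)) :
    (∀ (i : J) (P : Place k κ),
      (12 * p : ℤ) ∣ ((μZ : ℤ) - μI) * Z P - 12 * P.ord ((vI i).lead μI u)) ∧
    (∀ (j : J) (P : Place k κ),
      (12 * p : ℤ) ∣ ((μI : ℤ) - μZ) * Z P - 12 * P.ord ((vZ j).lead μZ u)) := by
  refine ⟨tight_count2_aux hκ hres R vI vZ mem_O red_eq_zero constI constZ x₁ x₂ tr₁ tr₂ Z Reg
    blI blZ hp u μI μZ huI huI' huZ huZ' U hUfin hU hRK, ?_⟩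
  exact tight_count2_aux hκ hres R vZ vI (fun x => (mem_O x).trans and_comm)
    (fun x => (red_eq_zero x).trans and_comm) constZ constI x₂ x₁ tr₂ tr₁ Z Reg
    (fun a al be g hg h1 h2 => blZ a be al g hg h2 h1)
    (fun a al be g hg h1 h2 => blI a be al g hg h2 h1)
    hp u μZ μI huZ huZ' huI huI' U hUfin hU
    (fun n => by
      have := hRK n
      linarith)

end Fermat.Agent.S40Lib
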