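import Fermat.Agent.S36.Core.Count

/-!
# S40, block (COV), (CN): the abstract tight count.  Part 1: the chain

A field `F₀` over a valued field `(K₀, A₀)` with a finite family `v w` (`w : Ω`) of discrete
valuations, all with residue field `κ`, and the joint reduction `R : RedG A₀ resK F₀ Φ`.
The chain raises one valuation at a time, in the order given by an injective `r : Ω → ℕ`.
-/

set_option autoImplicit false

open AlgebraicCurve IntermediateField Polynomial Fermat.Agent.S24Lib Fermat.Agent.FFLib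
  Fermat.Agent.S18Lib Fermat.Agent.S34Lib Fermat.Agent.S36Lib

namespace Fermat.Agent.S40Lib

/-- abstract linear algebra: a chain of subspaces with leading term maps into `L t` -/
theorem CN_chain_le {k Φ κ : Type*} [Field k] [AddCommGroup Φ] [Module k Φ]
    [AddCommGroup κ] [Module k κ] (T : ℕ) (W : ℕ → Submodule k Φ) (L : ℕ → Submodule k κ)
    [∀ t, FiniteDimensional k (L t)] (hT : W T = ⊥) (hmono : ∀ t, W (t + 1) ≤ W t)
    (lam : ∀ t, W t →ₗ[k] κ) (hL : ∀ t < T, ∀ φ, lam t φ ∈ L t)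
    (hker : ∀ t < T, ∀ φ : W t, lam t φ = 0 ↔ (φ : Φ) ∈ W (t + 1))
    [FiniteDimensional k (W 0)] :
    Module.finrank k (W 0) ≤ ∑ t ∈ Finset.range T, Module.finrank k (L t) := by
  have hle0 : ∀ t, W t ≤ W 0 := by
    intro t
    induction t with
    | zero => exact le_rfl
    | succ t ih => exact (hmono t).trans ih
  haveI hfin : ∀ t, FiniteDimensional k (W t) := fun t =>
    Submodule.finiteDimensional_of_le (hle0 t)
  have hstep : ∀ t < T, Module.finrank k (W t) =
      Module.finrank k (LinearMap.range (lam t)) + Module.finrank k (W (t + 1)) := by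
    intro t ht
    have h1 := LinearMap.finrank_range_add_finrank_ker (lam t)
    have h2 : LinearMap.ker (lam t) = Submodule.comap (W t).subtype (W (t + 1)) := by
      ext φ
      rw [LinearMap.mem_ker, hker t ht φ]
      rfl
    have h3 : Module.finrank k (LinearMap.ker (lam t)) = Module.finrank k (W (t + 1)) := by
      rw [h2]
      exact (Submodule.comapSubtypeEquivOfLe (hmono t)).finrank_eq
    rw [← h1, h3]
  have hsum : ∀ s ≤ T, Module.finrank k (W 0) =
      ∑ t ∈ Finset.range s, Module.finrank k (LinearMap.range (lam t)) +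
        Module.finrank k (W s) := by
    intro s hs
    induction s with
    | zero => simp
    | succ s ih =>
      rw [ih (by omega), Finset.sum_range_succ, hstep s (by omega)]
      ring
  have hrl : ∀ t < T, LinearMap.range (lam t) ≤ L t := by
    rintro t ht _ ⟨φ, rfl⟩
    exact hL t ht φ
  have hrle : ∀ t ∈ Finset.range T, Module.finrank k (LinearMap.range (lam t)) ≤
      Module.finrank k (L t) := fun t ht =>
    Submodule.finrank_mono (hrl t (Finset.mem_range.1 ht))
  have htot := hsum T le_rfl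
  rw [hT, finrank_bot, add_zero] at htot
  rw [htot]
  exact Finset.sum_le_sum hrle

variable {K₀ k : Type*} [Field K₀] [Field k] {A₀ : ValuationSubring K₀} {resK : A₀ →+* k}
  {F₀ κ Φ Ω : Type*} [Field F₀] [Field κ] [Algebra K₀ F₀] [Algebra k κ] [CommRing Φ] [Algebra k Φ]

/-- the `t`-th term of the chain: `1` on the `w` with `r w < t`, `0` elsewhere -/
def cnAl (r : Ω → ℕ) (t : ℕ) (w : Ω) : ℕ := if r w < t then 1 else 0

/-- the valuation vector of `x` is `≥` the `t`-th term of the chain -/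
def CNFge (v : Ω → DVal F₀ κ) (r : Ω → ℕ) (t : ℕ) (x : F₀) : Prop :=
  ∀ w, (v w).ge (cnAl r t w) x

theorem cnAl_mono (r : Ω → ℕ) {t t' : ℕ} (h : t ≤ t') (w : Ω) : cnAl r t w ≤ cnAl r t' w := by
  unfold cnAl
  split_ifs <;> omega

theorem cnAl_zero (r : Ω → ℕ) (w : Ω) : cnAl r 0 w = 0 := by
  unfold cnAl
  rw [if_neg (by omega)]

theorem cnAl_self (r : Ω → ℕ) (w : Ω) : cnAl r (r w) w = 0 := by
  unfold cnAl
  rw [if_neg (by omega)]

section Chain

variable (R : RedG A₀ resK F₀ Φ) (v : Ω → DVal F₀ κ)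
  (mem_O : ∀ x : F₀, x ∈ R.O ↔ ∀ w, x ∈ (v w).O)
  (red_eq_zero : ∀ x : R.O, R.red x = 0 ↔ ∀ w, (v w).ge 1 (x : F₀))
  (const : ∀ (w : Ω) (c : A₀) (h : algebraMap K₀ F₀ (c : K₀) ∈ (v w).O),
    (v w).red ⟨_, h⟩ = algebraMap k κ (resK c))
  (r : Ω → ℕ)

theorem CNFge.zero' (t : ℕ) : CNFge v r t 0 := fun w => (v w).ge_zero' _

variable {v r} in
theorem CNFge.add {t : ℕ} {x y : F₀} (hx : CNFge v r t x) (hy : CNFge v r t y) :
    CNFge v r t (x + y) := fun w => (v w).ge_add (hx w) (hy w)

variable {v r} in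
theorem CNFge.sub {t : ℕ} {x y : F₀} (hx : CNFge v r t x) (hy : CNFge v r t y) :
    CNFge v r t (x - y) := fun w => (v w).ge_sub (hx w) (hy w)

variable {v r} in
theorem CNFge.mono {t t' : ℕ} (h : t ≤ t') {x : F₀} (hx : CNFge v r t' x) : CNFge v r t x :=
  fun w => (v w).ge_mono (cnAl_mono r h w) (hx w)

include mem_O in
variable {R v r} in
theorem CNFge.mul_left {t : ℕ} {x y : F₀} (hx : x ∈ R.O) (hy : CNFge v r t y) :
    CNFge v r t (x * y) := fun w => (v w).ge_mul_left ((mem_O x).1 hx w) (hy w)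

include mem_O in
theorem CNFge_zero_iff (x : F₀) : CNFge v r 0 x ↔ x ∈ R.O := by
  rw [mem_O]
  unfold CNFge
  simp only [cnAl_zero, DVal.ge_zero_iff]

/-- the subspace `red (U ∩ O(a_t))` of `V(U)` -/
def cnVF (hres : Function.Surjective resK) (U : Submodule K₀ F₀) (t : ℕ) : Submodule k Φ where
  carrier := {φ | ∃ x : R.O, (x : F₀) ∈ U ∧ CNFge v r t (x : F₀) ∧ R.red x = φ}
  zero_mem' := ⟨0, by simp, by simpa using CNFge.zero' v r t, map_zero _⟩
  add_mem' := by
    rintro a b ⟨x, hx, hxt, rfl⟩ ⟨y, hy, hyt, rfl⟩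
    exact ⟨x + y, by simpa using U.add_mem hx hy, by simpa using hxt.add hyt, map_add _ _ _⟩
  smul_mem' := by
    rintro c a ⟨x, hx, hxt, rfl⟩
    obtain ⟨c', rfl⟩ := hres c
    refine ⟨R.const c' * x, ?_, ?_, ?_⟩
    · have := U.smul_mem (c' : K₀) hx
      rwa [Algebra.smul_def] at this
    · exact CNFge.mul_left mem_O (R.const c').2 hxt
    · rw [map_mul, R.red_const, Algebra.smul_def]

include red_eq_zero in
theorem CN_top {T : ℕ} (hT : ∀ w, r w < T) (x : R.O) :
    CNFge v r T (x : F₀) ↔ R.red x = 0 := by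
  rw [red_eq_zero]
  unfold CNFge cnAl
  simp only [hT, if_true]

include mem_O const in
theorem CN_ld_const_mul (w : Ω) (c : A₀) {x : F₀} (hx : (v w).ge 0 x) :
    (v w).lead 0 (algebraMap K₀ F₀ (c : K₀) * x) = resK c • (v w).lead 0 x := by
  have hc : algebraMap K₀ F₀ (c : K₀) ∈ R.O := (R.algebraMap_mem_iff _).2 c.2
  have hc' := (mem_O _).1 hc w
  rw [Algebra.smul_def]
  have h := (v w).lead_mul (n := 0) (m := 0) (((v w).ge_zero_iff _).2 hc') hx
  rw [add_zero] at h
  rw [h, (v w).lead_zero_eq hc', const]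

theorem CN_ld_eq_zero_iff (hr : Function.Injective r) (w₀ : Ω) {x : F₀}
    (hx : CNFge v r (r w₀) x) : (v w₀).lead 0 x = 0 ↔ CNFge v r (r w₀ + 1) x := by
  have h0 : (v w₀).ge 0 x := by
    have := hx w₀
    rwa [cnAl_self] at this
  rw [(v w₀).lead_eq_zero_iff h0, zero_add]
  constructor
  · intro h w
    by_cases hw : w = w₀
    · subst hw
      have : cnAl r (r w + 1) w = 1 := by
        unfold cnAl
        rw [if_pos (by omega)]
      rw [this]
      exact h
    · have hne : r w ≠ r w₀ := fun h' => hw (hr h')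
      have : cnAl r (r w₀ + 1) w = cnAl r (r w₀) w := by
        unfold cnAl
        by_cases h1 : r w < r w₀
        · rw [if_pos h1, if_pos (by omega)]
        · rw [if_neg h1, if_neg (by omega)]
      rw [this]
      exact hx w
  · intro h
    have := h w₀
    have e : cnAl r (r w₀ + 1) w₀ = 1 := by
      unfold cnAl
      rw [if_pos (by omega)]
    rwa [e] at this

include red_eq_zero in
/-- two lifts in `O(a_t)` of the same element have the same leading term -/
theorem CN_ld_congr (w₀ : Ω) (x y : R.O) (hxy : R.red x = R.red y)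
    (hx : (v w₀).ge 0 (x : F₀)) (hy : (v w₀).ge 0 (y : F₀)) :
    (v w₀).lead 0 (x : F₀) = (v w₀).lead 0 (y : F₀) := by
  have h0 : R.red (x - y) = 0 := by rw [map_sub, hxy, sub_self]
  have h1 : (v w₀).ge 1 ((x : F₀) - (y : F₀)) := (red_eq_zero (x - y)).1 h0 w₀
  have h3 := ((v w₀).lead_eq_zero_iff ((v w₀).ge_sub hx hy)).2 h1
  rw [(v w₀).lead_sub hx hy, sub_eq_zero] at h3
  exact h3

include red_eq_zero const in
/-- the leading term as a linear map on `red (U ∩ O(a_t))` with kernel `red (U ∩ O(a_{t+1}))` -/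
theorem CN_exists_ldMap (hres : Function.Surjective resK) (U : Submodule K₀ F₀)
    (hr : Function.Injective r) (w₀ : Ω) :
    ∃ lam : cnVF R v mem_O r hres U (r w₀) →ₗ[k] κ,
      (∀ (x : R.O) (h : R.red x ∈ cnVF R v mem_O r hres U (r w₀)), CNFge v r (r w₀) (x : F₀) →
        lam ⟨R.red x, h⟩ = (v w₀).lead 0 (x : F₀)) ∧
      ∀ φ : cnVF R v mem_O r hres U (r w₀),
        lam φ = 0 ↔ (φ : Φ) ∈ cnVF R v mem_O r hres U (r w₀ + 1) := by
  classical
  have hge0 : ∀ {x : F₀}, CNFge v r (r w₀) x → (v w₀).ge 0 x := by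
    intro x hx
    have := hx w₀
    rwa [cnAl_self] at this
  let lift : cnVF R v mem_O r hres U (r w₀) → R.O := fun φ => φ.2.choose
  have hlU : ∀ φ, ((lift φ : R.O) : F₀) ∈ U := fun φ => φ.2.choose_spec.1
  have hlF : ∀ φ, CNFge v r (r w₀) ((lift φ : R.O) : F₀) := fun φ => φ.2.choose_spec.2.1
  have hlr : ∀ φ, R.red (lift φ) = (φ : Φ) := fun φ => φ.2.choose_spec.2.2
  have key : ∀ (φ : cnVF R v mem_O r hres U (r w₀)) (x : R.O), R.red x = (φ : Φ) →
      CNFge v r (r w₀) (x : F₀) →
      (v w₀).lead 0 ((lift φ : R.O) : F₀) = (v w₀).lead 0 (x : F₀) := by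
    intro φ x hx hxF
    exact CN_ld_congr R v red_eq_zero w₀ _ _ ((hlr φ).trans hx.symm) (hge0 (hlF φ)) (hge0 hxF)
  let lam : cnVF R v mem_O r hres U (r w₀) →ₗ[k] κ :=
    { toFun := fun φ => (v w₀).lead 0 ((lift φ : R.O) : F₀)
      map_add' := by
        intro φ ψ
        have h := key (φ + ψ) (lift φ + lift ψ) (by rw [map_add, hlr, hlr]; rfl)
          ((hlF φ).add (hlF ψ))
        rw [h]
        exact (v w₀).lead_add (hge0 (hlF φ)) (hge0 (hlF ψ))
      map_smul' := by
        intro c φ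
        obtain ⟨c', rfl⟩ := hres c
        have h := key (resK c' • φ) (R.const c' * lift φ)
          (by rw [map_mul, R.red_const, hlr, ← Algebra.smul_def]; rfl)
          (CNFge.mul_left mem_O (R.const c').2 (hlF φ))
        rw [h]
        exact CN_ld_const_mul R v mem_O const w₀ c' (hge0 (hlF φ)) }
  refine ⟨lam, ?_, ?_⟩
  · intro x h hx
    exact key ⟨R.red x, h⟩ x rfl hx
  · intro φ
    constructor
    · intro h0
      have h1 : (v w₀).lead 0 ((lift φ : R.O) : F₀) = 0 := h0
      exact ⟨lift φ, hlU φ, (CN_ld_eq_zero_iff v r hr w₀ (hlF φ)).1 h1, hlr φ⟩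
    · rintro ⟨x, -, hxF, hxr⟩
      have hxF' : CNFge v r (r w₀) (x : F₀) := hxF.mono (Nat.le_succ _)
      have h1 := key φ x hxr hxF'
      show (v w₀).lead 0 ((lift φ : R.O) : F₀) = 0
      rw [h1]
      exact (CN_ld_eq_zero_iff v r hr w₀ hxF').2 hxF

end Chain

end Fermat.Agent.S40Lib
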