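import Fermat.Agent.S40.Cov.CNChain

/-!
# S40, block (COV), (CN): the abstract tight count.  Part 2: the count

`tight_count0`: if the leading terms along the chain satisfy bounds `Bd .. N (WW w)` and the sum of
the *real* degrees `deg (WW w) / N` already exhausts the dimension, then no ceiling loses anything:
`N ∣ WW w P` for all `w`, `P`.
-/

set_option autoImplicit false
set_option linter.unusedSectionVars false
set_option linter.style.haveILetI false

open AlgebraicCurve IntermediateField Polynomial Fermat.Agent.S24Lib Fermat.Agent.FFLib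
  Fermat.Agent.S18Lib Fermat.Agent.S34Lib Fermat.Agent.S36Lib

namespace Fermat.Agent.S40Lib

theorem CN_eq_zero_of_degree {k κ : Type*} [Field k] [Field κ] [Algebra k κ] [IsAlgClosed k]
    (h : IsFF k κ) {D : Divisor k κ} (hD : 0 ≤ D) (hd : Divisor.degree D ≤ 0) : D = 0 := by
  rw [degree_eq_sum h D D.support subset_rfl] at hd
  have h0 : ∑ v ∈ D.support, D v = 0 := le_antisymm hd (Finset.sum_nonneg fun v _ => hD v)
  have h1 := (Finset.sum_eq_zero_iff_of_nonneg (fun v _ => hD v)).1 h0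
  ext v
  by_cases hv : v ∈ D.support
  · exact h1 v hv
  · exact Finsupp.notMem_support_iff.1 hv

/-- equality case of `degree_ceilDiv` -/
theorem CN_dvd_of_degree {k κ : Type*} [Field k] [Field κ] [Algebra k κ] [IsAlgClosed k]
    (h : IsFF k κ) {N : ℕ} (hN : 0 < N) (W : Divisor k κ)
    (hd : N * Divisor.degree (ceilDiv N W) ≤ Divisor.degree W) (P : Place k κ) :
    (N : ℤ) ∣ W P := by
  have h1 : (0 : Divisor k κ) ≤ N • ceilDiv N W - W := by
    intro P
    rw [Finsupp.sub_apply, Finsupp.smul_apply, nsmul_eq_mul]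
    have := (ceilDiv_le_iff hN W P (ceilDiv N W P)).mp le_rfl
    simp only [Finsupp.coe_zero, Pi.zero_apply]
    omega
  have h2 : N • ceilDiv N W - W = 0 := by
    apply CN_eq_zero_of_degree h h1
    rw [map_sub, map_nsmul, nsmul_eq_mul]
    omega
  have h3 := DFunLike.congr_fun h2 P
  rw [Finsupp.sub_apply, Finsupp.smul_apply, nsmul_eq_mul, Finsupp.coe_zero, Pi.zero_apply,
    sub_eq_zero] at h3
  exact ⟨_, h3.symm⟩

variable {K₀ k : Type*} [Field K₀] [Field k] {A₀ : ValuationSubring K₀} {resK : A₀ →+* k}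
  {F₀ κ Φ Ω : Type*} [Field F₀] [Field κ] [Algebra K₀ F₀] [Algebra k κ] [CommRing Φ] [Algebra k Φ]

section Count

variable (R : RedG A₀ resK F₀ Φ) (v : Ω → DVal F₀ κ)
  (mem_O : ∀ x : F₀, x ∈ R.O ↔ ∀ w, x ∈ (v w).O)
  (red_eq_zero : ∀ x : R.O, R.red x = 0 ↔ ∀ w, (v w).ge 1 (x : F₀))
  (const : ∀ (w : Ω) (c : A₀) (h : algebraMap K₀ F₀ (c : K₀) ∈ (v w).O),
    (v w).red ⟨_, h⟩ = algebraMap k κ (resK c))
  (r : Ω → ℕ)

include red_eq_zero const in
/-- one step of the chain -/
theorem CN_step [Fintype Ω] [DecidableEq Ω] [IsAlgClosed k] (hκ : IsFF k κ)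
    (hres : Function.Surjective resK)
    (hr : Function.Injective r) (U : Submodule K₀ F₀) (E : Ω → Divisor k κ)
    (hE : ∀ s ∈ U, ∀ w, CNFge v r (r w) s → (v w).lead 0 s ∈ riemannRochSpace (E w)) (t : ℕ) :
    ∃ (L : Submodule k κ) (lam : cnVF R v mem_O r hres U t →ₗ[k] κ), FiniteDimensional k L ∧
      (∀ φ, lam φ ∈ L) ∧ (∀ φ, lam φ = 0 ↔ (φ : Φ) ∈ cnVF R v mem_O r hres U (t + 1)) ∧
      Module.finrank k L = ∑ w ∈ Finset.univ.filter (fun w => r w = t), FFLib.ell (E w) := by
  by_cases h : ∃ w₀, r w₀ = t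
  · obtain ⟨w₀, rfl⟩ := h
    obtain ⟨lam, h1, h2⟩ := CN_exists_ldMap R v mem_O red_eq_zero const r hres U hr w₀
    refine ⟨riemannRochSpace (E w₀), lam, finiteDimensional_L hκ _, ?_, h2, ?_⟩
    · intro φ
      obtain ⟨x, hxU, hxF, hxr⟩ := φ.2
      have hmem : R.red x ∈ cnVF R v mem_O r hres U (r w₀) := by rw [hxr]; exact φ.2
      have e : φ = ⟨R.red x, hmem⟩ := Subtype.ext hxr.symm
      rw [e, h1 x hmem hxF]
      exact hE _ hxU w₀ hxF
    · have : Finset.univ.filter (fun w => r w = r w₀) = {w₀} := by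
        ext w
        simp only [Finset.mem_filter, Finset.mem_univ, true_and, Finset.mem_singleton]
        exact ⟨fun h => hr h, fun h => by rw [h]⟩
      rw [this, Finset.sum_singleton]
      rfl
  · refine ⟨⊥, 0, inferInstance, fun φ => by simp, ?_, ?_⟩
    · intro φ
      simp only [LinearMap.zero_apply, true_iff]
      obtain ⟨x, hxU, hxF, hxr⟩ := φ.2
      refine ⟨x, hxU, fun w => ?_, hxr⟩
      have hne : r w ≠ t := fun h' => h ⟨w, h'⟩
      have : cnAl r (t + 1) w = cnAl r t w := by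
        unfold cnAl
        by_cases h1 : r w < t
        · rw [if_pos h1, if_pos (by omega)]
        · rw [if_neg h1, if_neg (by omega)]
      rw [this]
      exact hxF w
    · have : Finset.univ.filter (fun w => r w = t) = ∅ := by
        ext w
        simp only [Finset.mem_filter, Finset.mem_univ, true_and, Finset.notMem_empty, iff_false]
        exact fun h' => h ⟨w, h'⟩
      rw [this, Finset.sum_empty, finrank_bot]

include mem_O red_eq_zero const in
/-- the dimension bound given by the chain -/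
theorem CN_finrank_le [Fintype Ω] [IsAlgClosed k] (hκ : IsFF k κ)
    (hres : Function.Surjective resK)
    (hr : Function.Injective r) (U : Submodule K₀ F₀) [FiniteDimensional K₀ U]
    (E : Ω → Divisor k κ)
    (hE : ∀ s ∈ U, ∀ w, CNFge v r (r w) s → (v w).lead 0 s ∈ riemannRochSpace (E w)) :
    Module.finrank K₀ U ≤ ∑ w, FFLib.ell (E w) := by
  classical
  choose L lam hfin hL hker hdim using
    CN_step R v mem_O red_eq_zero const r hκ hres hr U E hE
  set T : ℕ := (Finset.univ.sup r) + 1 with hT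
  have hrT : ∀ w, r w < T := fun w =>
    Nat.lt_succ_of_le (Finset.le_sup (f := r) (Finset.mem_univ w))
  have hW0 : cnVF R v mem_O r hres U 0 = redSp R hres U := by
    ext φ
    constructor
    · rintro ⟨x, hx, -, hr⟩
      exact ⟨x, hx, hr⟩
    · rintro ⟨x, hx, hr⟩
      exact ⟨x, hx, (CNFge_zero_iff R v mem_O r _).2 x.2, hr⟩
  haveI : FiniteDimensional k (cnVF R v mem_O r hres U 0) := by
    rw [hW0]
    exact finiteDimensional_redSp R hres U
  have hW0dim : Module.finrank k (cnVF R v mem_O r hres U 0) = Module.finrank K₀ U := by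
    rw [hW0]
    exact finrank_redSp R hres U
  have key := CN_chain_le T (fun t => cnVF R v mem_O r hres U t) L
    (by
      rw [eq_bot_iff]
      rintro φ ⟨x, -, hxF, rfl⟩
      exact (CN_top R v red_eq_zero r hrT x).1 hxF)
    (by
      rintro t φ ⟨x, hx, hxF, hr⟩
      exact ⟨x, hx, hxF.mono (Nat.le_succ t), hr⟩)
    lam (fun t _ φ => hL t φ) (fun t _ φ => hker t φ)
  rw [hW0dim] at key
  refine key.trans (le_of_eq ?_)
  simp only [hdim]
  exact Finset.sum_fiberwise_of_maps_to (s := Finset.univ) (t := Finset.range T) (g := r)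
    (fun w _ => Finset.mem_range.2 (hrT w)) (fun w => FFLib.ell (E w))

include mem_O red_eq_zero const in
/-- **(CN0)** the abstract tight count -/
theorem tight_count0 [Fintype Ω] [IsAlgClosed k] (hκ : IsFF k κ)
    (hres : Function.Surjective resK) (hr : Function.Injective r)
    (xb : Ω → κ) (tr : ∀ w, Transcendental k (xb w))
    {N : ℕ} (hN : 0 < N) (WW : Ω → Divisor k κ)
    (U : ℕ → Submodule K₀ F₀) (hUfin : ∀ n, FiniteDimensional K₀ (U n))
    (hBd : ∀ n, ∀ s ∈ U n, ∀ w, CNFge v r (r w) s →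
      Bd k (xb w) n 0 N (WW w) ((v w).lead 0 s))
    (hRK : ∀ n : ℕ, (N : ℤ) * ((n : ℤ) * ∑ w, (Module.finrank k⟮xb w⟯ κ : ℤ)
        + Fintype.card Ω * (1 - (genusR k κ : ℤ))) - ∑ w, Divisor.degree (WW w)
      ≤ N * Module.finrank K₀ (U n)) :
    ∀ (w : Ω) (P : Place k κ), (N : ℤ) ∣ WW w P := by
  classical
  obtain ⟨c, hc⟩ := riemann_equality hκ
  set cc : Ω → ℤ := fun w => Divisor.degree (ceilDiv N (WW w)) with hcc
  set B : ℤ := ∑ w, |cc w| with hB
  have hBw : ∀ w, cc w ≤ B := by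
    intro w
    refine (le_abs_self _).trans ?_
    exact Finset.single_le_sum (f := fun w => |cc w|) (fun i _ => abs_nonneg _)
      (Finset.mem_univ w)
  set n : ℕ := (|c| + B).toNat with hn
  have hn' : |c| + B ≤ (n : ℤ) := Int.self_le_toNat _
  have hn0 : (0 : ℤ) ≤ (n : ℤ) := by positivity
  set E : Ω → Divisor k κ := fun w => EE k (xb w) n 0 N (WW w) with hE
  have hdeg : ∀ w, Divisor.degree (E w) = (n : ℤ) * Module.finrank k⟮xb w⟯ κ - cc w := by
    intro w
    have := degree_EE hκ (tr w) n 0 N (WW w)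
    simp only [hE, hcc]
    rw [this]
    push_cast
    ring
  have hell : ∀ w, (FFLib.ell (E w) : ℤ) =
      (n : ℤ) * Module.finrank k⟮xb w⟯ κ - cc w + 1 - (genusR k κ : ℤ) := by
    intro w
    rw [← hdeg w]
    apply hc
    rw [hdeg w]
    have hd : (1 : ℤ) ≤ (Module.finrank k⟮xb w⟯ κ : ℤ) := by
      exact_mod_cast sup_finrank_pos hκ (tr w)
    have h1 := hBw w
    have h2 := le_abs_self c
    nlinarith
  haveI := hUfin n
  have hle := CN_finrank_le R v mem_O red_eq_zero const r hκ hres hr (U n) E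
    (fun s hs w hF => (mem_L_EE_iff hN _ _ _ _ _).2 (hBd n s hs w hF))
  have hle' : (Module.finrank K₀ (U n) : ℤ) ≤ ∑ w, ((n : ℤ) * Module.finrank k⟮xb w⟯ κ - cc w + 1
      - (genusR k κ : ℤ)) := by
    have : ((∑ w, FFLib.ell (E w) : ℕ) : ℤ) = ∑ w, ((n : ℤ) * Module.finrank k⟮xb w⟯ κ - cc w + 1
      - (genusR k κ : ℤ)) := by
      rw [Nat.cast_sum]
      exact Finset.sum_congr rfl fun w _ => hell w
    rw [← this]
    exact_mod_cast hle
  have hsplit : ∑ w, ((n : ℤ) * Module.finrank k⟮xb w⟯ κ - cc w + 1 - (genusR k κ : ℤ)) =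
      (n : ℤ) * ∑ w, (Module.finrank k⟮xb w⟯ κ : ℤ) - ∑ w, cc w
        + Fintype.card Ω * (1 - (genusR k κ : ℤ)) := by
    rw [Finset.mul_sum, ← Finset.sum_sub_distrib]
    have : (Fintype.card Ω : ℤ) * (1 - (genusR k κ : ℤ)) =
        ∑ _w : Ω, (1 - (genusR k κ : ℤ)) := by
      rw [Finset.sum_const, Finset.card_univ, nsmul_eq_mul]
    rw [this, ← Finset.sum_add_distrib]
    refine Finset.sum_congr rfl fun t _ => ?_
    ring
  rw [hsplit] at hle'
  have hrk := hRK n
  have hN' : (0 : ℤ) < N := by exact_mod_cast hN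
  have htot : ∑ w, ((N : ℤ) * cc w - Divisor.degree (WW w)) ≤ 0 := by
    rw [Finset.sum_sub_distrib, ← Finset.mul_sum]
    have := mul_le_mul_of_nonneg_left hle' hN'.le
    nlinarith
  have hnn : ∀ w ∈ Finset.univ, 0 ≤ (N : ℤ) * cc w - Divisor.degree (WW w) := by
    intro w _
    have := degree_ceilDiv hκ hN (WW w)
    simp only [hcc]
    omega
  have hzero := (Finset.sum_eq_zero_iff_of_nonneg hnn).1
    (le_antisymm htot (Finset.sum_nonneg hnn))
  intro w P
  apply CN_dvd_of_degree hκ hN (WW w) _ P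
  have := hzero w (Finset.mem_univ w)
  simp only [hcc] at this
  omega

end Count

end Fermat.Agent.S40Lib
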