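import Fermat.Agent.S40.Cov.DescDefs

/-!
# S40 / S44, COV, block (CG): the constant `c_g`

`E = F(η)`, `g η = ζ η`, `u = x t₀^p` fixed by inertia.  Then `g t₀ = ϖ r t₀` with `ϖ ∈ ℚ̄`,
`ϖ^p ∈ K0`, `r ∈ E₀`; and `σ x = G^p x y^c` implies `ζ^c σ(ϖ) = ϖ`.
-/

set_option autoImplicit false
set_option synthInstance.maxHeartbeats 400000

open AlgebraicCurve ModularCurve

namespace Fermat.Agent.S40Lib

open Fermat.Agent.S18Lib Fermat.Agent.S24Lib Fermat.Agent.ESLib Fermat.Agent.S34Lib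
  Fermat.Agent.S33Lib Fermat.Agent.S36Lib Fermat.Agent.FFLib

noncomputable section

theorem CG_coeffMap_ne_zero (σ : GQ) {x : LaurentSeries Qb} (hx : x ≠ 0) :
    coeffMap (σ : Qb →+* Qb) x ≠ 0 := by
  intro h
  apply hx
  ext n
  have := congrArg (fun y : LaurentSeries Qb => y.coeff n) h
  simpa [coeffMap_coeff] using this

theorem CG_order_coeffMap (σ : GQ) (x : LaurentSeries Qb) :
    (coeffMap (σ : Qb →+* Qb) x).order = x.order := by
  by_cases hx : x = 0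
  · rw [hx, map_zero]
  have hx' := CG_coeffMap_ne_zero σ hx
  apply le_antisymm
  · apply HahnSeries.order_le_of_coeff_ne_zero
    rw [coeffMap_coeff]
    intro h
    exact hx (HahnSeries.coeff_order_eq_zero.1 (by simpa using h))
  · apply HahnSeries.order_le_of_coeff_ne_zero
    intro h
    apply hx'
    apply HahnSeries.coeff_order_eq_zero.1
    rw [coeffMap_coeff, h]
    simp

theorem CG_leadingCoeff_coeffMap (σ : GQ) (x : LaurentSeries Qb) :
    (coeffMap (σ : Qb →+* Qb) x).leadingCoeff = σ x.leadingCoeff := by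
  rw [HahnSeries.leadingCoeff_eq, HahnSeries.leadingCoeff_eq, CG_order_coeffMap, coeffMap_coeff]
  rfl

theorem CG_leadingCoeff_pow (x : LaurentSeries Qb) (n : ℕ) :
    (x ^ n).leadingCoeff = x.leadingCoeff ^ n := by
  induction n with
  | zero => simp
  | succ n ih => rw [pow_succ, HahnSeries.leadingCoeff_mul, ih, pow_succ]

theorem CG_leadingCoeff_algebraMap (a : Qb) :
    (algebraMap Qb (LaurentSeries Qb) a).leadingCoeff = a := by
  rw [algebraMap_laurentSeries_eq_single]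
  exact HahnSeries.leadingCoeff_of_single

/-- roots of unity in the field of Laurent series are constants -/
theorem CG_root_const {p : ℕ} [NeZero p] {ζ : Qb} (hζ : IsPrimitiveRoot ζ p)
    (z : LaurentSeries Qb) (hz : z ^ p = 1) :
    ∃ i : ℕ, z = algebraMap Qb (LaurentSeries Qb) (ζ ^ i) := by
  have h1 : IsPrimitiveRoot (algebraMap Qb (LaurentSeries Qb) ζ) p :=
    hζ.map_of_injective (algebraMap Qb (LaurentSeries Qb)).injective
  obtain ⟨i, -, hi⟩ := h1.eq_pow_of_pow_eq_one hz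
  exact ⟨i, by rw [map_pow, hi]⟩

/-- a series whose `p`-th power is fixed by inertia is a constant times a fixed series -/
theorem CG_div_leadingCoeff_mem {A : ValuationSubring Qb} {p : ℕ} [NeZero p] {ζ : Qb}
    (hζ : IsPrimitiveRoot ζ p) (ρ : LaurentSeries Qb) (hρ : ρ ≠ 0) (h : ρ ^ p ∈ K0S A) :
    ρ * algebraMap Qb (LaurentSeries Qb) ρ.leadingCoeff⁻¹ ∈ K0S A := by
  intro σ hσ
  have h1 : (coeffMap ((σ : GQ) : Qb →+* Qb) ρ / ρ) ^ p = 1 := by
    rw [div_pow, ← map_pow, h σ hσ, div_self (pow_ne_zero _ hρ)]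
  obtain ⟨i, hi⟩ := CG_root_const hζ _ h1
  have h2 : coeffMap ((σ : GQ) : Qb →+* Qb) ρ = algebraMap Qb (LaurentSeries Qb) (ζ ^ i) * ρ := by
    rw [← hi, div_mul_cancel₀ _ hρ]
  have h3 : σ ρ.leadingCoeff = ζ ^ i * ρ.leadingCoeff := by
    rw [← CG_leadingCoeff_coeffMap, h2, HahnSeries.leadingCoeff_mul, CG_leadingCoeff_algebraMap]
  have hl : ρ.leadingCoeff ≠ 0 := HahnSeries.leadingCoeff_ne_zero.2 hρ
  have hz : ζ ^ i ≠ 0 := pow_ne_zero _ (hζ.ne_zero (NeZero.ne p))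
  rw [map_mul, h2, coeffMap_algebraMap]
  have h4 : ((σ : GQ) : Qb →+* Qb) ρ.leadingCoeff⁻¹ = (ζ ^ i * ρ.leadingCoeff)⁻¹ := by
    rw [← h3]
    exact map_inv₀ σ _
  rw [h4, mul_inv, map_mul]
  have h5 : algebraMap Qb (LaurentSeries Qb) (ζ ^ i) *
      algebraMap Qb (LaurentSeries Qb) (ζ ^ i)⁻¹ = 1 := by
    rw [← map_mul, mul_inv_cancel₀ hz, map_one]
  calc _ = (algebraMap Qb (LaurentSeries Qb) (ζ ^ i) *
      algebraMap Qb (LaurentSeries Qb) (ζ ^ i)⁻¹) *
        (ρ * algebraMap Qb (LaurentSeries Qb) ρ.leadingCoeff⁻¹) := by ring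
    _ = _ := by rw [h5, one_mul]

theorem CG_leadingCoeff_mem_K0 {A : ValuationSubring Qb} (w : LaurentSeries Qb) (h : w ∈ K0S A) :
    w.leadingCoeff ∈ K0 A := by
  rw [mem_K0_iff]
  intro σ hσ
  rw [← CG_leadingCoeff_coeffMap, h σ hσ]

variable {A : ValuationSubring Qb} {N : ℕ} {η : LaurentSeries Qb} {ζ : Qb}
  {g : covE N η ≃ₐ[FB N] covE N η}

theorem CG_g_const (g : covE N η ≃ₐ[FB N] covE N η) (a : Qb) :
    g (algebraMap Qb (covE N η) a) = algebraMap Qb (covE N η) a := by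
  rw [IsScalarTower.algebraMap_apply Qb (FB N) (covE N η), g.commutes]

/-- `g` preserves the inertia-fixed elements -/
theorem CG_g_mem (hg : IsCovGen A N η ζ g) (u : covE N η) (hu : (u : LaurentSeries Qb) ∈ K0S A) :
    ((g u : covE N η) : LaurentSeries Qb) ∈ K0S A := by
  intro σ hσ
  rw [← hg.comm σ hσ u]
  congr 2
  exact Subtype.ext (hu σ hσ)

/-- **(CG)** -/
theorem exists_cg {p : ℕ} [NeZero p] (hζ : IsPrimitiveRoot ζ p) (hg : IsCovGen A N η ζ g)
    (x : FB N) (hx : x ≠ 0) (t₀ : covE N η) (ht₀ : t₀ ≠ 0)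
    (hu : (x : LaurentSeries Qb) * (t₀ : LaurentSeries Qb) ^ p ∈ K0S A) :
    ∃ (ϖ : Qb) (r : covE N η), ϖ ≠ 0 ∧ r ≠ 0 ∧ (r : LaurentSeries Qb) ∈ K0S A ∧
      g t₀ = algebraMap Qb (covE N η) ϖ * r * t₀ ∧ ϖ ^ p ∈ K0 A := by
  set u : covE N η := algebraMap (FB N) (covE N η) x * t₀ ^ p with hudef
  have huc : (u : LaurentSeries Qb) = (x : LaurentSeries Qb) * (t₀ : LaurentSeries Qb) ^ p := by
    rw [hudef]
    push_cast
    rw [coe_algebraMap_FE]
  have huK : (u : LaurentSeries Qb) ∈ K0S A := by rw [huc]; exact hu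
  have hx' : algebraMap (FB N) (covE N η) x ≠ 0 := by
    rw [Ne, map_eq_zero]; exact hx
  have hu0 : u ≠ 0 := mul_ne_zero hx' (pow_ne_zero _ ht₀)
  have hgt₀ : g t₀ ≠ 0 := by rw [Ne, map_eq_zero]; exact ht₀
  set ρ : covE N η := g t₀ / t₀ with hρ
  have hρ0 : ρ ≠ 0 := div_ne_zero hgt₀ ht₀
  have hρ0' : (ρ : LaurentSeries Qb) ≠ 0 := by
    intro h
    exact hρ0 (Subtype.ext h)
  have hρp : ρ ^ p = g u / u := by
    rw [hρ, hudef, map_mul, g.commutes, map_pow, div_pow]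
    field_simp
  have hρK : (ρ : LaurentSeries Qb) ^ p ∈ K0S A := by
    have h1 : (ρ : LaurentSeries Qb) ^ p =
        ((g u : covE N η) : LaurentSeries Qb) / (u : LaurentSeries Qb) := by
      have := congrArg (fun z : covE N η => (z : LaurentSeries Qb)) hρp
      simpa using this
    rw [h1]
    exact div_mem (CG_g_mem hg u huK) huK
  set ϖ : Qb := (ρ : LaurentSeries Qb).leadingCoeff with hϖ
  have hϖ0 : ϖ ≠ 0 := HahnSeries.leadingCoeff_ne_zero.2 hρ0'
  refine ⟨ϖ, ρ * algebraMap Qb (covE N η) ϖ⁻¹, hϖ0,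
    mul_ne_zero hρ0 (by rw [Ne, map_eq_zero]; exact inv_ne_zero hϖ0), ?_, ?_, ?_⟩
  · exact CG_div_leadingCoeff_mem hζ _ hρ0' hρK
  · have h1 : algebraMap Qb (covE N η) ϖ * algebraMap Qb (covE N η) ϖ⁻¹ = 1 := by
      rw [← map_mul, mul_inv_cancel₀ hϖ0, map_one]
    calc g t₀ = ρ * t₀ := by rw [hρ, div_mul_cancel₀ _ ht₀]
      _ = (algebraMap Qb (covE N η) ϖ * algebraMap Qb (covE N η) ϖ⁻¹) * ρ * t₀ := by
          rw [h1, one_mul]
      _ = _ := by ring
  · rw [hϖ, ← CG_leadingCoeff_pow]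
    exact CG_leadingCoeff_mem_K0 _ hρK

/-- **(TW)** -/
theorem cg_twist {p : ℕ} [NeZero p] (hζ : IsPrimitiveRoot ζ p) (hg : IsCovGen A N η ζ g)
    (x y : FB N) (hx : x ≠ 0) (hy : η ^ p = (y : LaurentSeries Qb)) (t₀ : covE N η) (ht₀ : t₀ ≠ 0)
    (hu : (x : LaurentSeries Qb) * (t₀ : LaurentSeries Qb) ^ p ∈ K0S A)
    (ϖ : Qb) (r : covE N η) (hr0 : r ≠ 0) (hr : (r : LaurentSeries Qb) ∈ K0S A)
    (hgt : g t₀ = algebraMap Qb (covE N η) ϖ * r * t₀)
    (σ : GQ) (hσ : σ ∈ A.inertiaSubgroupIn ℚ) (c : ℕ) (G : FB N)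
    (hσx : gal N σ x = G ^ p * x * y ^ c) : ζ ^ c * σ ϖ = ϖ := by
  set T : LaurentSeries Qb := (t₀ : LaurentSeries Qb) with hT
  set sT : LaurentSeries Qb := coeffMap ((σ : GQ) : Qb →+* Qb) T with hsT
  have hT0 : T ≠ 0 := by
    intro h
    exact ht₀ (Subtype.ext h)
  have hX0 : (x : LaurentSeries Qb) ≠ 0 := by
    intro h
    exact hx (Subtype.ext h)
  have hR0 : (r : LaurentSeries Qb) ≠ 0 := by
    intro h
    exact hr0 (Subtype.ext h)
  -- (1)
  have h1 : (G : LaurentSeries Qb) ^ p * (x : LaurentSeries Qb) * (y : LaurentSeries Qb) ^ c *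
      sT ^ p = (x : LaurentSeries Qb) * T ^ p := by
    have h := hu σ hσ
    rw [map_mul, map_pow, ← coe_gal, hσx] at h
    push_cast at h
    exact h
  have h2 : ((G : LaurentSeries Qb) * η ^ c * sT / T) ^ p = 1 := by
    rw [div_pow, div_eq_one_iff_eq (pow_ne_zero _ hT0)]
    apply mul_left_cancel₀ hX0
    rw [← h1, ← hy]
    ring
  obtain ⟨i, hi⟩ := CG_root_const hζ _ h2
  have h3 : (G : LaurentSeries Qb) * η ^ c * sT = algebraMap Qb (LaurentSeries Qb) (ζ ^ i) * T := by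
    rw [← hi, div_mul_cancel₀ _ hT0]
  -- the same identity in `E`
  set τ : covE N η := ⟨sT, hg.stable σ hσ T t₀.2⟩ with hτ
  have h4 : algebraMap (FB N) (covE N η) G * etaE N η ^ c * τ =
      algebraMap Qb (covE N η) (ζ ^ i) * t₀ := by
    apply Subtype.ext
    have e0 : ((algebraMap (FB N) (covE N η) G * etaE N η ^ c * τ : covE N η) :
        LaurentSeries Qb) = (G : LaurentSeries Qb) * η ^ c * sT := by
      push_cast
      rw [coe_algebraMap_FE]
      rfl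
    rw [e0, h3]
    rfl
  -- (2) apply `g`
  have h5 := congrArg g h4
  rw [map_mul, map_mul, map_pow, g.commutes, hg.eta, map_mul, CG_g_const, hgt] at h5
  -- (3)
  have h6 : ((g τ : covE N η) : LaurentSeries Qb) =
      algebraMap Qb (LaurentSeries Qb) (σ ϖ) * (r : LaurentSeries Qb) * sT := by
    rw [hτ, hg.comm σ hσ t₀, hgt]
    push_cast
    rw [map_mul, map_mul, hr σ hσ]
    congr 2
    exact coeffMap_algebraMap _ _
  have h7 := congrArg (fun z : covE N η => (z : LaurentSeries Qb)) h5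
  push_cast at h7
  rw [h6, coe_algebraMap_FE] at h7
  have hz : algebraMap Qb (LaurentSeries Qb) (ζ ^ i) ≠ 0 := by
    rw [Ne, map_eq_zero]
    exact pow_ne_zero _ (hζ.ne_zero (NeZero.ne p))
  have h8 : algebraMap Qb (LaurentSeries Qb) (ζ ^ c * σ ϖ) = algebraMap Qb (LaurentSeries Qb) ϖ := by
    apply mul_right_cancel₀ (mul_ne_zero (mul_ne_zero hz hT0) hR0)
    have e4 : ((etaE N η : covE N η) : LaurentSeries Qb) = η := rfl
    rw [e4] at h7
    rw [map_mul, map_pow]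
    calc _ = (algebraMap Qb (LaurentSeries Qb) ζ) ^ c * algebraMap Qb (LaurentSeries Qb) (σ ϖ) *
          (r : LaurentSeries Qb) * (algebraMap Qb (LaurentSeries Qb) (ζ ^ i) * T) := by ring
      _ = (algebraMap Qb (LaurentSeries Qb) ζ) ^ c * algebraMap Qb (LaurentSeries Qb) (σ ϖ) *
          (r : LaurentSeries Qb) * ((G : LaurentSeries Qb) * η ^ c * sT) := by rw [h3]
      _ = (G : LaurentSeries Qb) * (algebraMap Qb (LaurentSeries Qb) ζ * η) ^ c *
          (algebraMap Qb (LaurentSeries Qb) (σ ϖ) * (r : LaurentSeries Qb) * sT) := by ring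
      _ = _ := by rw [h7, map_pow]; ring
  exact (algebraMap Qb (LaurentSeries Qb)).injective h8

end

end Fermat.Agent.S40Lib
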