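import Fermat.Agent.S40.Cov.KumEt
import Fermat.Agent.S33.XScale

/-!
# S40 / S44, COV: (CLAIM A), abstract form

A ring endomorphism `sE` of `E = F(η)`, `η ^ p = 1 + l ^ p r`, which acts on `R.O` without changing
the reductions, with `sE l = θ l`, `θ̄ = j ≠ 0`, and `sE η = η ^ j (1 + l G)`, `Ḡ = 0`, preserves
the ring `O_E = O[ϑ]` and does not change the reductions on the `p` sheets.
-/

set_option autoImplicit false

open Polynomial Fermat.Agent.S18Lib Fermat.Agent.S34Lib Fermat.Agent.S33Lib

namespace Fermat.Agent.S40Lib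

variable {K k F Φ E : Type*} [Field K] [Field k] [Field F] [Algebra K F] [CommRing Φ]
  [Algebra k Φ] [Field E] [Algebra F E] [Algebra K E] [IsScalarTower K F E]
  {A : ValuationSubring K} {resK : A →+* k}
  {R : RedG A resK F Φ} {p : ℕ} [hpF : Fact p.Prime] {l : A} {r : R.O} {τ₀ : Φ} {η : E}
  [CharP k p]

theorem CA_pow {S : Type*} [CommRing S] (P r : S) (N : ℕ) :
    ∃ Q : S, (1 + P * r) ^ N = 1 + P * ((N : S) * r + P * Q) := by
  induction N with
  | zero => exact ⟨0, by simp⟩
  | succ N ih =>
    obtain ⟨Q, hQ⟩ := ih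
    refine ⟨Q + r * ((N : S) * r + P * Q), ?_⟩
    rw [pow_succ, hQ]
    push_cast
    ring

/-- **(CLAIM A)**, abstract form -/
theorem KEHyp.claimA [Nontrivial Φ] (H : KEHyp R p l r τ₀ η) (sE : E →+* E) (s : R.O →+* R.O)
    (hs : ∀ x : R.O, sE (algebraMap F E ((x : R.O) : F)) = algebraMap F E ((s x : R.O) : F))
    (hred : ∀ x : R.O, R.red (s x) = R.red x)
    (θ : A) (j : ℕ)
    (hl : sE (algebraMap K E (l : K)) = algebraMap K E (θ : K) * algebraMap K E (l : K))
    (hθj : resK θ = (j : k)) (hj : (j : k) ≠ 0) (G : R.O) (hG0 : R.red G = 0)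
    (hη : sE η = η ^ j * algebraMap F E ((1 + R.const l * G : R.O) : F)) (z : H.data.redG.O) :
    ∃ h : sE (z : E) ∈ H.data.redG.O, H.data.redG.red ⟨sE (z : E), h⟩ = H.data.redG.red z := by
  have hL := H.algl_ne
  have hθu : IsUnit θ := by
    by_contra hnu
    exact hj (by rw [← hθj]; exact (xs_ker R θ).2 hnu)
  obtain ⟨θi, hθi⟩ := hθu.exists_right_inv
  have hθK : (θ : K) * (θi : K) = 1 := by
    have := congrArg (fun a : A => (a : K)) hθi
    simpa using this
  have hθE : algebraMap K E (θ : K) * algebraMap K E (θi : K) = 1 := by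
    rw [← map_mul, hθK, map_one]
  have hθE0 : algebraMap K E (θ : K) ≠ 0 := left_ne_zero_of_mul_eq_one hθE
  have hθir : resK θi * (j : k) = 1 := by
    rw [← hθj, ← map_mul, mul_comm, hθi, map_one]
  obtain ⟨Q₁, hQ₁⟩ := CA_pow (C (R.const l) : R.O[X]) X j
  set Q : R.O[X] := C (R.const θi) * (((j : R.O[X]) * X + C (R.const l) * Q₁) +
    C G * (1 + C (R.const l) * X) ^ j) with hQ
  have hevl : H.data.ev (C (R.const l)) = algebraMap K E (l : K) := by
    rw [H.data.ev_C, R.coe_const, ← IsScalarTower.algebraMap_apply]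
  have hevη : H.data.ev (1 + C (R.const l) * X) = η := by
    rw [map_add, map_one, map_mul, hevl, H.data.ev_X, H.data_gen]
    exact H.η_eq.symm
  have hQ' : sE H.data.pb.gen = H.data.ev Q := by
    rw [H.data_gen]
    have e1 : sE (KEθ l η) = (sE η - 1) * (algebraMap K E (θ : K) * algebraMap K E (l : K))⁻¹ := by
      rw [KEθ, map_mul, map_sub, map_one, map_inv₀, hl]
    have e2 : η ^ j = 1 + algebraMap K E (l : K) * H.data.ev ((j : R.O[X]) * X +
        C (R.const l) * Q₁) := by
      have := congrArg H.data.ev hQ₁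
      rwa [map_pow, hevη, map_add, map_one, map_mul, hevl] at this
    have e3 : algebraMap F E ((1 + R.const l * G : R.O) : F) =
        1 + algebraMap K E (l : K) * H.data.ev (C G) := by
      rw [H.data.ev_C]
      have : ((1 + R.const l * G : R.O) : F) = 1 + algebraMap K F (l : K) * ((G : R.O) : F) := rfl
      rw [this, map_add, map_one, map_mul, ← IsScalarTower.algebraMap_apply]
    have e4 : H.data.ev Q = algebraMap K E (θi : K) * (H.data.ev ((j : R.O[X]) * X +
        C (R.const l) * Q₁) + H.data.ev (C G) * η ^ j) := by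
      rw [hQ, map_mul, map_add, map_mul (H.data.ev) (C G), map_pow, hevη, H.data.ev_C,
        R.coe_const, ← IsScalarTower.algebraMap_apply]
    rw [e1, hη, e3, e4]
    set a := H.data.ev ((j : R.O[X]) * X + C (R.const l) * Q₁) with ha
    set b := H.data.ev (C G) with hb
    have e5 : algebraMap K E (θi : K) = (algebraMap K E (θ : K))⁻¹ :=
      eq_inv_of_mul_eq_one_right hθE
    rw [e5]
    field_simp
    rw [e2]
    ring
  have hπ : ∀ c, (Q.map R.red).eval (H.data.τ c) = H.data.τ (id c) := by
    intro c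
    have hlr : R.red (R.const l) = 0 := by rw [R.red_const, H.res_l, map_zero]
    simp only [hQ, Polynomial.map_mul, Polynomial.map_add, Polynomial.map_pow, map_C, map_X,
      Polynomial.map_natCast, Polynomial.map_one, hlr, hG0, map_zero, zero_mul, add_zero, eval_mul,
      eval_C, eval_natCast, eval_X, id]
    rw [R.red_const, ← mul_assoc, ← map_natCast (algebraMap k Φ), ← map_mul, hθir, map_one,
      one_mul]
  obtain ⟨h, hh⟩ := KE_shift H.data sE s hs hred Q hQ' id hπ z
  exact ⟨h, funext hh⟩

end Fermat.Agent.S40Lib
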