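import Fermat.Agent.S40.Cov.DescDefs
import Fermat.Agent.S36.Inst.Echelon
import Fermat.Agent.S18.RiemannLower
import Fermat.Agent.S40.BLX.Num

/-!
# S40 / S44, COV, block (RK): the dimension of `U_n`
-/

set_option autoImplicit false
set_option synthInstance.maxHeartbeats 400000
set_option linter.unusedSectionVars false

open AlgebraicCurve ModularCurve Polynomial
open scoped IntermediateField

namespace Fermat.Agent.S40Lib

open Fermat.Agent.S18Lib Fermat.Agent.S24Lib Fermat.Agent.S28Lib Fermat.Agent.ESLib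
  Fermat.Agent.S34Lib Fermat.Agent.S33Lib Fermat.Agent.S36Lib Fermat.Agent.FFLib

noncomputable section

/-! ## (RK3) descent of an inertia-stable space of Laurent series -/

theorem RK_coeff_mem_K0 {A : ValuationSubring Qb} {x : LaurentSeries Qb} (hx : x ∈ K0S A)
    (m : ℤ) : x.coeff m ∈ K0 A := by
  rw [mem_K0_iff]
  intro σ hσ
  have := congrArg (fun y : LaurentSeries Qb => y.coeff m) (hx σ hσ)
  simpa [coeffMap_coeff] using this

set_option maxHeartbeats 1600000 in
/-- (RK3) -/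
theorem RK_descent (A : ValuationSubring Qb) (E : IntermediateField Qb (LaurentSeries Qb))
    (S₀ : LaurentSeries Qb) (hS₀ : S₀ ≠ 0) (hS₀K : S₀ ∈ K0S A)
    (V : Submodule Qb (LaurentSeries Qb)) [FiniteDimensional Qb V]
    (hV : ∀ σ ∈ A.inertiaSubgroupIn ℚ, ∀ x ∈ V, coeffMap ((σ : GQ) : Qb →+* Qb) x ∈ V)
    (hVE : ∀ x ∈ V, x * S₀⁻¹ ∈ E) :
    FiniteDimensional (K0 A) (covU A E S₀ V) ∧
      Module.finrank (K0 A) (covU A E S₀ V) = Module.finrank Qb V := by
  classical
  obtain ⟨n, b, hbV, hbn, hexp⟩ := exists_echelon V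
  have hfix : ∀ s, b s ∈ K0S A := by
    intro s σ hσ
    have h1 := hV σ hσ _ (hbV s)
    rw [hexp _ h1]
    have h2 : ∀ t, (coeffMap ((σ : GQ) : Qb →+* Qb) (b s)).coeff (n t) =
        if s = t then 1 else 0 := by
      intro t
      rw [coeffMap_coeff, hbn]
      split_ifs <;> simp
    simp [h2]
  let z : Fin (Module.finrank Qb V) → covE0 A E := fun s =>
    ⟨⟨b s * S₀⁻¹, hVE _ (hbV s)⟩, (K0S A).mul_mem (hfix s) ((K0S A).inv_mem hS₀K)⟩
  have hz : ∀ s, (((z s : covE0 A E) : E) : LaurentSeries Qb) = b s * S₀⁻¹ := fun _ => rfl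
  have hsum : ∀ c : Fin (Module.finrank Qb V) → K0 A,
      (((∑ s, c s • z s : covE0 A E) : E) : LaurentSeries Qb) * S₀ =
        ∑ s, ((c s : K0 A) : Qb) • b s := by
    intro c
    have h1 : (((∑ s, c s • z s : covE0 A E) : E) : LaurentSeries Qb) =
        ∑ s, ((c s : K0 A) : Qb) • (b s * S₀⁻¹) := by
      push_cast
      refine Finset.sum_congr rfl fun s _ => ?_
      rw [Algebra.smul_def, smul_LS]
      push_cast
      rw [coe_algebraMap_E0, hz]
      rfl
    rw [h1, Finset.sum_mul]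
    refine Finset.sum_congr rfl fun s _ => ?_
    rw [smul_LS, smul_LS, mul_assoc, mul_assoc, inv_mul_cancel₀ hS₀, mul_one]
  have hli : LinearIndependent (K0 A) z := by
    rw [Fintype.linearIndependent_iff]
    intro c hc t
    have h1 := hsum c
    rw [hc] at h1
    have h2 := congrArg (fun y : LaurentSeries Qb => y.coeff (n t)) h1
    simp only [HahnSeries.coeff_sum, HahnSeries.coeff_smul, smul_eq_mul, hbn] at h2
    apply Subtype.ext
    simpa using h2.symm
  have hspan : Submodule.span (K0 A) (Set.range z) = covU A E S₀ V := by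
    apply le_antisymm
    · rw [Submodule.span_le]
      rintro _ ⟨s, rfl⟩
      show (((z s : covE0 A E) : E) : LaurentSeries Qb) * S₀ ∈ V
      rw [hz, mul_assoc, inv_mul_cancel₀ hS₀, mul_one]
      exact hbV s
    · intro x hx
      have hxV : ((x : E) : LaurentSeries Qb) * S₀ ∈ V := hx
      have hxK : ((x : E) : LaurentSeries Qb) * S₀ ∈ K0S A := (K0S A).mul_mem x.2 hS₀K
      let c : Fin (Module.finrank Qb V) → K0 A := fun s =>
        ⟨(((x : E) : LaurentSeries Qb) * S₀).coeff (n s), RK_coeff_mem_K0 hxK _⟩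
      have h3 : x = ∑ s, c s • z s := by
        apply Subtype.ext
        apply Subtype.ext
        apply mul_right_cancel₀ hS₀
        rw [hsum c]
        exact hexp _ hxV
      rw [h3]
      exact Submodule.sum_mem _ fun s _ =>
        Submodule.smul_mem _ _ (Submodule.subset_span ⟨s, rfl⟩)
  have hfin : FiniteDimensional (K0 A) (covU A E S₀ V) := by
    rw [← hspan]
    exact FiniteDimensional.span_of_finite _ (Set.finite_range z)
  refine ⟨hfin, ?_⟩
  rw [← hspan, finrank_span_eq_card hli, Fintype.card_fin]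

/-! ## (RK0) `1, η, …, η^(p-1)` are independent over `FB N` -/

variable {N p : ℕ} [NeZero N]

theorem RK_eta_indep (hp : p.Prime) (η : LaurentSeries Qb) (y : FB N)
    (hη : η ^ p = (y : LaurentSeries Qb)) (yne : ¬ ∃ g : FB N, y = g ^ p) (s : Fin p → FB N)
    (h : ∑ i : Fin p, η ^ (i : ℕ) * (s i : LaurentSeries Qb) = 0) : ∀ i, s i = 0 := by
  have hirr : Irreducible (X ^ p - C y : (FB N)[X]) :=
    X_pow_sub_C_irreducible_of_prime hp (fun b hb => yne ⟨b, hb.symm⟩)
  have hroot : aeval η (X ^ p - C y : (FB N)[X]) = 0 := by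
    rw [map_sub, map_pow, aeval_X, aeval_C, hη]
    exact sub_self _
  have hmonic : (X ^ p - C y : (FB N)[X]).Monic := monic_X_pow_sub_C y hp.ne_zero
  have hmin : minpoly (FB N) η = X ^ p - C y :=
    (minpoly.eq_of_irreducible_of_monic hirr hroot hmonic).symm
  set P : (FB N)[X] := ∑ i : Fin p, C (s i) * X ^ (i : ℕ) with hP
  have hPr : aeval η P = 0 := by
    rw [hP, map_sum, ← h]
    refine Finset.sum_congr rfl fun i _ => ?_
    rw [map_mul, aeval_C, map_pow, aeval_X, mul_comm]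
    rfl
  have hdeg : P.degree < (p : WithBot ℕ) := degree_sum_fin_lt s
  have hP0 : P = 0 := by
    by_contra hne
    have h1 := minpoly.degree_le_of_ne_zero (FB N) η hne hPr
    rw [hmin, degree_X_pow_sub_C hp.pos] at h1
    exact absurd hdeg (not_lt.2 h1)
  intro i
  have h2 := congrArg (fun Q : (FB N)[X] => Q.coeff (i : ℕ)) hP0
  simp only [hP, finsetSum_coeff, coeff_C_mul, coeff_X_pow, coeff_zero] at h2
  rw [Finset.sum_eq_single i] at h2
  · simpa using h2
  · intro j _ hj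
    have : (i : ℕ) ≠ (j : ℕ) := fun e => hj (Fin.ext e.symm)
    simp [this]
  · intro hi
    exact absurd (Finset.mem_univ i) hi

/-! ## (RK1) -/

theorem RK_finite_covSp (φ η : LaurentSeries Qb) (Dx Dy : Divisor Qb (FB N)) (n : ℕ) :
    FiniteDimensional Qb (covSp N p φ η Dx Dy n) := by
  have : ∀ i : Fin p, FiniteDimensional Qb
      ((twW N Dx Dy n i).map (mulL N (φ * η ^ (i : ℕ)))) := by
    intro i
    have : FiniteDimensional Qb (twW N Dx Dy n i) :=
      finiteDimensional_L (isFF_FB N) (maE Qb (JF N 1 (one_dvd _)) n 0 + Dx + (i : ℕ) • Dy)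
    exact Module.Finite.map (twW N Dx Dy n i) _
  exact Submodule.finiteDimensional_iSup _

theorem RK_mem_covSp (φ η : LaurentSeries Qb) (Dx Dy : Divisor Qb (FB N)) (n : ℕ)
    (s : Fin p → FB N) (hs : ∀ i : Fin p, s i ∈ twW N Dx Dy n i) :
    ∑ i : Fin p, φ * η ^ (i : ℕ) * (s i : LaurentSeries Qb) ∈ covSp N p φ η Dx Dy n :=
  Submodule.sum_mem _ fun i _ =>
    (le_iSup (fun i : Fin p => (twW N Dx Dy n i).map (mulL N (φ * η ^ (i : ℕ)))) i)
      ⟨s i, hs i, rfl⟩

theorem RK_exists_of_mem_covSp (φ η : LaurentSeries Qb) (Dx Dy : Divisor Qb (FB N)) (n : ℕ)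
    (T : LaurentSeries Qb) (hT : T ∈ covSp N p φ η Dx Dy n) :
    ∃ s : Fin p → FB N, (∀ i : Fin p, s i ∈ twW N Dx Dy n i) ∧
      T = ∑ i : Fin p, φ * η ^ (i : ℕ) * (s i : LaurentSeries Qb) := by
  rw [covSp, Submodule.mem_iSup_iff_exists_finsupp] at hT
  obtain ⟨f, hf, rfl⟩ := hT
  choose s hs hs' using hf
  refine ⟨s, hs, ?_⟩
  rw [Finsupp.sum_fintype _ _ (fun _ => rfl)]
  exact Finset.sum_congr rfl fun i _ => (hs' i).symm

theorem RK_sum_le (hp : p.Prime) (φ η : LaurentSeries Qb) (hφ : φ ≠ 0) (y : FB N)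
    (hη : η ^ p = (y : LaurentSeries Qb)) (yne : ¬ ∃ g : FB N, y = g ^ p)
    (Dx Dy : Divisor Qb (FB N)) (n : ℕ) :
    ∑ i : Fin p, Module.finrank Qb (twW N Dx Dy n i) ≤
      Module.finrank Qb (covSp N p φ η Dx Dy n) := by
  have := RK_finite_covSp (p := p) φ η Dx Dy n
  have hfin : ∀ i : Fin p, FiniteDimensional Qb (twW N Dx Dy n i) := fun i =>
    finiteDimensional_L (isFF_FB N) _
  let f : (∀ i : Fin p, twW N Dx Dy n i) →ₗ[Qb] covSp N p φ η Dx Dy n :=
    { toFun := fun s => ⟨∑ i : Fin p, mulL N (φ * η ^ (i : ℕ)) (s i : FB N),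
        RK_mem_covSp φ η Dx Dy n (fun i => (s i : FB N)) (fun i => (s i).2)⟩
      map_add' := fun s t => by
        apply Subtype.ext
        simp [Finset.sum_add_distrib]
      map_smul' := fun c s => by
        apply Subtype.ext
        simp [Finset.smul_sum] }
  have hf : Function.Injective f := by
    rw [← LinearMap.ker_eq_bot, LinearMap.ker_eq_bot']
    intro s hs
    have h1 : ∑ i : Fin p, φ * η ^ (i : ℕ) * ((s i : FB N) : LaurentSeries Qb) = 0 :=
      congrArg Subtype.val hs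
    have h2 : φ * ∑ i : Fin p, η ^ (i : ℕ) * ((s i : FB N) : LaurentSeries Qb) = 0 := by
      rw [Finset.mul_sum, ← h1]
      exact Finset.sum_congr rfl fun i _ => (mul_assoc _ _ _).symm
    have h3 := RK_eta_indep hp η y hη yne (fun i => (s i : FB N))
      ((mul_eq_zero.1 h2).resolve_left hφ)
    funext i
    exact Subtype.ext (h3 i)
  have := LinearMap.finrank_le_finrank_of_injective hf
  rwa [Module.finrank_pi_fintype] at this

/-! ## (RK2) -/

theorem RK_degree_zero (hp : 0 < p) (x : FB N) (D : Divisor Qb (FB N))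
    (hD : ∀ v : Place Qb (FB N), v.ord x = p * D v) : Divisor.degree D = 0 := by
  have h1 : divOf Qb x = p • D := by
    ext v
    rw [divOf_apply (isFF_FB N), hD v]
    simp
  have h2 := degree_divOf (isFF_FB N) x
  rw [h1, map_nsmul, nsmul_eq_mul] at h2
  rcases mul_eq_zero.1 h2 with h | h
  · exact absurd (by exact_mod_cast h) hp.ne'
  · exact h

theorem RK_riemann (hp : 0 < p) (x y : FB N) (Dx Dy : Divisor Qb (FB N))
    (hDx : ∀ v : Place Qb (FB N), v.ord x = p * Dx v)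
    (hDy : ∀ v : Place Qb (FB N), v.ord y = p * Dy v) (n i : ℕ) :
    (n : ℤ) * idx N + 1 - gS N ≤ Module.finrank Qb (twW N Dx Dy n i) := by
  have h1 := riemann_lower N (maE Qb (JF N 1 (one_dvd _)) n 0 + Dx + i • Dy)
  rw [ell_eq_ell] at h1
  have h2 : Divisor.degree (maE Qb (JF N 1 (one_dvd _)) n 0 + Dx + i • Dy) = (n : ℤ) * idx N := by
    rw [map_add, map_add, map_nsmul, RK_degree_zero hp x Dx hDx, RK_degree_zero hp y Dy hDy,
      C3c_JF_one, maE_degree (isFF_FB N) (transcendental_jBar N), finrank_eq_index]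
    simp [idx]
  rw [h2] at h1
  exact h1

/-! ## (RK) -/

/-- **(RK)** -/
theorem rk_main (hp : p.Prime) (A : ValuationSubring Qb) (φ η : LaurentSeries Qb) (x y : FB N)
    (hx0 : x ≠ 0) (hφ : φ ^ p = (x : LaurentSeries Qb)) (hη : η ^ p = (y : LaurentSeries Qb))
    (Dx Dy : Divisor Qb (FB N)) (hDx : ∀ v : Place Qb (FB N), v.ord x = p * Dx v)
    (hDy : ∀ v : Place Qb (FB N), v.ord y = p * Dy v) (yne : ¬ ∃ g : FB N, y = g ^ p) (n : ℕ)
    (hstab : ∀ σ ∈ A.inertiaSubgroupIn ℚ, ∀ S ∈ covSp N p φ η Dx Dy n,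
      coeffMap ((σ : GQ) : Qb →+* Qb) S ∈ covSp N p φ η Dx Dy n)
    (S₀ : LaurentSeries Qb) (hS₀ : S₀ ≠ 0) (hS₀K : S₀ ∈ K0S A)
    (t₀ : covE N η) (hS₀t : S₀ = φ * (t₀ : LaurentSeries Qb)) :
    FiniteDimensional (K0 A) (covU A (covE N η) S₀ (covSp N p φ η Dx Dy n)) ∧
      (p : ℤ) * ((n : ℤ) * idx N + 1 - gS N) ≤
        Module.finrank (K0 A) (covU A (covE N η) S₀ (covSp N p φ η Dx Dy n)) := by
  have hφ0 : φ ≠ 0 := by
    rintro rfl
    rw [zero_pow hp.ne_zero] at hφ
    exact hx0 (Subtype.ext hφ.symm)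
  have ht0 : (t₀ : LaurentSeries Qb) ≠ 0 := by
    intro h
    rw [h, mul_zero] at hS₀t
    exact hS₀ hS₀t
  have := RK_finite_covSp (p := p) φ η Dx Dy n
  obtain ⟨h1, h2⟩ := RK_descent A (covE N η) S₀ hS₀ hS₀K (covSp N p φ η Dx Dy n) hstab (by
    intro T hT
    obtain ⟨s, -, rfl⟩ := RK_exists_of_mem_covSp φ η Dx Dy n T hT
    have e : (∑ i : Fin p, φ * η ^ (i : ℕ) * (s i : LaurentSeries Qb)) * S₀⁻¹ =
        (∑ i : Fin p, η ^ (i : ℕ) * (s i : LaurentSeries Qb)) * (t₀ : LaurentSeries Qb)⁻¹ := by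
      rw [hS₀t, mul_inv, ← mul_assoc, Finset.sum_mul, Finset.sum_mul, Finset.sum_mul]
      refine Finset.sum_congr rfl fun i _ => ?_
      field_simp
    rw [e]
    refine (covE N η).mul_mem (sum_mem fun i _ => ?_) ((covE N η).inv_mem t₀.2)
    exact (covE N η).mul_mem (pow_mem (eta_mem_covE N η) _) (FB_le_covE N η (s i).2))
  refine ⟨h1, ?_⟩
  rw [h2]
  have h3 := RK_sum_le hp φ η hφ0 y hη yne Dx Dy n
  have h4 : (p : ℤ) * ((n : ℤ) * idx N + 1 - gS N) ≤
      ((∑ i : Fin p, Module.finrank Qb (twW N Dx Dy n i) : ℕ) : ℤ) := by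
    push_cast
    calc (p : ℤ) * ((n : ℤ) * idx N + 1 - gS N)
        = ∑ _i : Fin p, ((n : ℤ) * idx N + 1 - gS N) := by
          rw [Finset.sum_const, Finset.card_univ, Fintype.card_fin, nsmul_eq_mul]
      _ ≤ _ := Finset.sum_le_sum fun i _ => RK_riemann hp.pos x y Dx Dy hDx hDy n i
  exact h4.trans (by exact_mod_cast h3)

/-- the numerical form of `hRK` in `tight_count2` -/
theorem rk_hRK {M p : ℕ} [NeZero M] [NeZero p] [hpF : Fact p.Prime] (hpM : ¬ p ∣ M)
    (A : ValuationSubring Qb) (hA : A.LiesOverPrime p) (hbase : 2 ∣ M ∨ 3 ∣ M) {r : ℕ}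
    (hr : r.Prime) (hr12 : r % 12 = 11) (hrM : r ∣ M) (H : FT A M)
    (hH : (H : LaurentSeries (kk A)) = (phiL (kk A) p)⁻¹) (n d c : ℕ) (hc : c = p)
    (hd : (p : ℤ) * ((n : ℤ) * idx (p * M) + 1 - gS (p * M)) ≤ d) :
    12 * (c : ℤ) * n * ((Module.finrank (kk A)⟮jT A M⟯ (FT A M) : ℤ) +
        Module.finrank (kk A)⟮jT A M ^ p⟯ (FT A M))
      + 24 * (c : ℤ) * (1 - (genusR (kk A) (FT A M) : ℤ)) - (c : ℤ) * Divisor.degree (ZZ3 A H) ≤
      12 * (d : ℤ) := by
  subst hc
  have h1 := c2_genus hpM A hA hbase hr hr12 hrM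
  have h2 := c2_deg_Z hpM A hA H hH
  have h3 : (idx (c * M) : ℤ) = ((c : ℤ) + 1) * idx M := by
    rw [BLX_idx hpM]
    push_cast
    ring
  rw [h2, finrank_jT_pow M A c hpF.out.pos, finrank_jT_eq hpM A hA]
  rw [h3] at hd
  have hc0 : (0 : ℤ) ≤ c := Int.natCast_nonneg c
  have h4 := mul_le_mul_of_nonneg_left h1 hc0
  push_cast
  nlinarith

end

end Fermat.Agent.S40Lib
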