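import Fermat.Agent.S40.Cov.Shift

/-!
# S40 / S44, COV, leaf (SHY): the generator `g` shifts the sheets of `CovY`
-/

set_option autoImplicit false
set_option synthInstance.maxHeartbeats 400000
set_option linter.unusedSectionVars false

open AlgebraicCurve ModularCurve Polynomial

namespace Fermat.Agent.S40Lib

open Fermat.Agent.S18Lib Fermat.Agent.S24Lib Fermat.Agent.ESLib Fermat.Agent.S34Lib
  Fermat.Agent.S33Lib Fermat.Agent.S36Lib Fermat.Agent.FFLib

noncomputable section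

section Sheets

variable {M p : ℕ} [NeZero M] [NeZero p] [hpF : Fact p.Prime] (hpM : ¬ p ∣ M)
  {A : ValuationSubring Qb} (hA : A.LiesOverPrime p)
  {R : RedG A (IsLocalRing.residue A) (FB (p * M)) (FT A M × FT A M)}
  {η : LaurentSeries Qb} {ζ : Qb}

theorem SHY_mem (Y : CovY M p A R η ζ) (z : covE0 A (covE (p * M) η)) (hz : z ∈ Y.RE0.O) :
    Y.g0 z ∈ Y.RE0.O := by
  rw [Y.mem0] at hz ⊢
  exact Y.g_mem _ hz

theorem SHY_red (Y : CovY M p A R η ζ) (z : Y.RE0.O) (c : ZMod p) :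
    Y.RE0.red ⟨Y.g0 (z : covE0 A (covE (p * M) η)), SHY_mem Y _ z.2⟩ c =
      Y.RE0.red z (c + Y.m) := by
  have hz : (((z : Y.RE0.O) : covE0 A (covE (p * M) η)) : covE (p * M) η) ∈ Y.RE.O :=
    (Y.mem0 _).1 z.2
  rw [← Y.red0 z hz, ← Y.g_red ⟨_, hz⟩ c,
    ← Y.red0 ⟨_, SHY_mem Y _ z.2⟩ ((Y.mem0 _).1 (SHY_mem Y _ z.2))]
  rfl

/-- (SHY) -/
theorem CovY.isShift (Y : CovY M p A R η ζ) :
    IsShift (Y.hyp hA) Y.g0 (fun w => (w.1 + Y.m, w.2)) := by
  refine isShift_of_red (Y.hyp hA) Y.g0 _ ?_ (SHY_mem Y) ?_ ?_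
  · intro c
    apply Subtype.ext
    change Y.g ((algebraMap (K0 A) (covE0 A (covE (p * M) η)) c : covE0 A (covE (p * M) η)) :
      covE (p * M) η) = _
    rw [coe_algebraMap_E0, IsScalarTower.algebraMap_apply Qb (FB (p * M)) (covE (p * M) η),
      AlgEquiv.commutes]
  · intro z hz
    rw [Y.mem0] at hz ⊢
    exact Y.g_mem' _ hz
  · rintro z ⟨c, b⟩
    cases b
    · rw [prY_false, prY_false, SHY_red]
    · rw [prY_true, prY_true, SHY_red]

end Sheets

end

end Fermat.Agent.S40Lib
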