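import Fermat.Agent.S36.Core.Defs
import Fermat.Agent.S36.Core.DVal
import Fermat.Agent.S36.Core.Bd

/-!
# S40/S44, COV: abstract sheets (SH) and the bounding lemma on the cover (BL_Y): definitions
-/

set_option autoImplicit false

open AlgebraicCurve IntermediateField Polynomial Fermat.Agent.S24Lib Fermat.Agent.FFLib
  Fermat.Agent.S18Lib Fermat.Agent.S34Lib Fermat.Agent.S36Lib

namespace Fermat.Agent.S40Lib

/-! ## (SH) sheets of a `RedG` whose target is a finite product of copies of `κ` -/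

section SH

variable {K₀ k : Type*} [Field K₀] [Field k] {A₀ : ValuationSubring K₀} {resK : A₀ →+* k}
  {E₀ κ Φ : Type*} [Field E₀] [Field κ] [Algebra K₀ E₀] [Algebra k κ] [CommRing Φ] [Algebra k Φ]
  {Ω : Type*} [Fintype Ω] [DecidableEq Ω]

/-- `Φ` is the product of the copies `pr w : Φ → κ`, and `ϖ` is a uniformizer of `A₀` -/
structure IsSheeted (R : RedG A₀ resK E₀ Φ) (ϖ : A₀) (pr : Ω → Φ →+* κ) : Prop where
  ne : ϖ ≠ 0
  unif : ∀ a : A₀, resK a = 0 ↔ ϖ ∣ a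
  disc : ∀ c : K₀, c ≠ 0 → ∃ (n : ℤ) (u : A₀), IsUnit u ∧ c = (ϖ : K₀) ^ n * (u : K₀)
  inj : ∀ φ : Φ, (∀ w, pr w φ = 0) → φ = 0
  idem : ∀ w, ∃ e : Φ, pr w e = 1 ∧ ∀ w', w' ≠ w → pr w' e = 0
  alg : ∀ w (c : k), pr w (algebraMap k Φ c) = algebraMap k κ c

/-- the family `v` of discrete valuations is the family of sheets of `R` -/
structure IsSheets (R : RedG A₀ resK E₀ Φ) (ϖ : A₀) (pr : Ω → Φ →+* κ)
    (v : Ω → DVal E₀ κ) : Prop where
  unif : ∀ w, (v w).π = algebraMap K₀ E₀ (ϖ : K₀)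
  mem_O : ∀ x : E₀, x ∈ R.O ↔ ∀ w, x ∈ (v w).O
  red : ∀ (x : R.O) (w : Ω) (h : (x : E₀) ∈ (v w).O), (v w).red ⟨x, h⟩ = pr w (R.red x)
  /-- every element of the valuation ring is a fraction with a denominator which is a unit on
  the sheet -/
  frac : ∀ (w : Ω) (x : E₀), x ∈ (v w).O → ∃ s : R.O, pr w (R.red s) ≠ 0 ∧ (s : E₀) * x ∈ R.O

end SH

/-! ## (BL_Y) -/

section BY

variable {k κ : Type*} [Field k] [Field κ] [Algebra k κ]

variable {F₀ E₀ : Type*} [Field F₀] [Field E₀] [Algebra F₀ E₀]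

/-- `w` is a sheet of `E₀` above the discrete valuation `v` of `F₀` (same uniformizer, same residue
field) -/
structure IsAbove (v : DVal F₀ κ) (w : DVal E₀ κ) : Prop where
  unif : w.π = algebraMap F₀ E₀ v.π
  mem : ∀ c : F₀, algebraMap F₀ E₀ c ∈ w.O ↔ c ∈ v.O
  red : ∀ (c : F₀) (h : c ∈ v.O) (h' : algebraMap F₀ E₀ c ∈ w.O), w.red ⟨_, h'⟩ = v.red ⟨c, h⟩

/-- the conjugates of `G` over `F₀` are the `G' j`; `Q` is the characteristic polynomial -/
def IsCharPoly {J : Type*} [Fintype J] (Q : F₀[X]) (G' : J → E₀) : Prop :=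
  Q.map (algebraMap F₀ E₀) = ∏ j, (X - C (G' j))

end BY

end Fermat.Agent.S40Lib
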