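import Mathlib

/-!
# S40 / S44, COV, block (USP): abstract lemmas (Mathlib only)

* `USP_int V` : the integral closure in `L` of a valuation subring `V` of `F ⊆ L`, as a subring
* `USP_coeff_mem` : the coefficients of `∏ (X - a_j)`, twisted by powers of `lam`
-/

set_option autoImplicit false
set_option linter.style.haveILetI false

open Polynomial

namespace Fermat.Agent.S40Lib

section Int

variable {F L : Type*} [Field F] [Field L] [Algebra F L]

/-- the integral closure of `V` in `L` -/
def USP_int (L : Type*) [Field L] [Algebra F L] (V : ValuationSubring F) : Subring L :=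
  letI : Algebra V L := ((algebraMap F L).comp V.subtype).toAlgebra
  (integralClosure V L).toSubring

theorem USP_int_of_pow (V : ValuationSubring F) {n : ℕ} (hn : 0 < n) {τ : L} {c : F} (hc : c ∈ V)
    (h : τ ^ n = algebraMap F L c) : τ ∈ USP_int L V := by
  letI : Algebra V L := ((algebraMap F L).comp V.subtype).toAlgebra
  change IsIntegral V τ
  refine IsIntegral.of_pow hn ?_
  rw [h]
  exact isIntegral_algebraMap (R := V) (A := L) (x := ⟨c, hc⟩)

theorem USP_mem_of_int (V : ValuationSubring F) {c : F} (h : algebraMap F L c ∈ USP_int L V) :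
    c ∈ V := by
  letI : Algebra V L := ((algebraMap F L).comp V.subtype).toAlgebra
  haveI : IsScalarTower V F L := IsScalarTower.of_algebraMap_eq (fun _ => rfl)
  have h1 : IsIntegral V (algebraMap F L c) := h
  have h2 : IsIntegral V c := (isIntegral_algebraMap_iff (algebraMap F L).injective).mp h1
  obtain ⟨y, hy⟩ := IsIntegrallyClosed.isIntegral_iff.mp h2
  rw [← hy]
  exact y.2

end Int

section Coeff

variable {L : Type*} [CommRing L]

theorem USP_natDegree_le {J : Type*} (s : Finset J) (a : J → L) :
    (∏ j ∈ s, (X - C (a j))).natDegree ≤ s.card := by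
  refine (natDegree_prod_le s (fun j => X - C (a j))).trans ?_
  have h := Finset.sum_le_card_nsmul s (fun j => (X - C (a j)).natDegree) 1
    (fun j _ => natDegree_X_sub_C_le (a j))
  simpa using h

theorem USP_coeff_aux (R : Subring L) (lam : L) {J : Type*} (s : Finset J) (a : J → L)
    (ha : ∀ j ∈ s, lam * a j ∈ R) (m : ℕ) :
    lam ^ (s.card - m) * (∏ j ∈ s, (X - C (a j))).coeff m ∈ R := by
  classical
  induction s using Finset.induction_on generalizing m with
  | empty =>
    rw [Finset.prod_empty, Finset.card_empty, Nat.zero_sub, pow_zero, one_mul, coeff_one]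
    split_ifs
    · exact R.one_mem
    · exact R.zero_mem
  | insert b s hb ih =>
    have ih' := ih (fun j hj => ha j (Finset.mem_insert_of_mem hj))
    have hab := ha b (Finset.mem_insert_self b s)
    rw [Finset.prod_insert hb, Finset.card_insert_of_notMem hb, sub_mul, coeff_sub, coeff_C_mul,
      mul_sub]
    apply R.sub_mem
    · cases m with
      | zero =>
        rw [coeff_X_mul_zero, mul_zero]
        exact R.zero_mem
      | succ m =>
        rw [coeff_X_mul]
        have h2 : s.card + 1 - (m + 1) = s.card - m := by omega
        rw [h2]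
        exact ih' m
    · by_cases hm : m ≤ s.card
      · have h2 : s.card + 1 - m = (s.card - m) + 1 := by omega
        have h3 : lam ^ (s.card + 1 - m) * (a b * (∏ j ∈ s, (X - C (a j))).coeff m) =
            (lam * a b) * (lam ^ (s.card - m) * (∏ j ∈ s, (X - C (a j))).coeff m) := by
          rw [h2, pow_succ]
          ring
        rw [h3]
        exact R.mul_mem hab (ih' m)
      · have h2 : (∏ j ∈ s, (X - C (a j))).coeff m = 0 :=
          coeff_eq_zero_of_natDegree_lt (lt_of_le_of_lt (USP_natDegree_le s a) (by omega))
        rw [h2, mul_zero, mul_zero]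
        exact R.zero_mem

theorem USP_coeff_mem (R : Subring L) (lam : L) {J : Type*} (s : Finset J) (a : J → L)
    (ha : ∀ j ∈ s, lam * a j ∈ R) (i : ℕ) (hi : i ≤ s.card) :
    lam ^ i * (∏ j ∈ s, (X - C (a j))).coeff (s.card - i) ∈ R := by
  have h := USP_coeff_aux R lam s a ha (s.card - i)
  rwa [Nat.sub_sub_self hi] at h

end Coeff

end Fermat.Agent.S40Lib
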