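import Fermat.Agent.S40.Cov.DescDefs
import Fermat.Agent.S40.Cov.ShDefs
import Fermat.Agent.S40.Cov.UspAbs
import Fermat.Agent.S36.Mod.F0
import Fermat.Agent.S36.Inst.BrF0

/-!
# S40 / S44, COV, block (USP): the characteristic polynomial of `G = z^p u` over `F₀`
-/

set_option autoImplicit false
set_option synthInstance.maxHeartbeats 400000
set_option linter.unusedSectionVars false

open AlgebraicCurve ModularCurve Polynomial

namespace Fermat.Agent.S40Lib

open Fermat.Agent.S18Lib Fermat.Agent.S24Lib Fermat.Agent.ESLib Fermat.Agent.S34Lib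
  Fermat.Agent.S33Lib Fermat.Agent.S36Lib Fermat.Agent.FFLib

noncomputable section

variable {N p : ℕ} [NeZero N]

/-- (USP1) elements of `covSp` -/
theorem USP_mem_covSp {φ η : LaurentSeries Qb} {Dx Dy : Divisor Qb (FB N)} {n : ℕ}
    {T : LaurentSeries Qb} (hT : T ∈ covSp N p φ η Dx Dy n) :
    ∃ s : Fin p → FB N, (∀ i : Fin p, s i ∈ twW N Dx Dy n (i : ℕ)) ∧
      T = ∑ i : Fin p, φ * η ^ (i : ℕ) * (s i : LaurentSeries Qb) := by
  classical
  unfold covSp at hT
  refine Submodule.iSup_induction _ (motive := fun T => ∃ s : Fin p → FB N,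
    (∀ i : Fin p, s i ∈ twW N Dx Dy n (i : ℕ)) ∧
      T = ∑ i : Fin p, φ * η ^ (i : ℕ) * (s i : LaurentSeries Qb)) hT ?_ ?_ ?_
  · intro i T hT
    obtain ⟨f, hf, rfl⟩ := Submodule.mem_map.mp hT
    refine ⟨Pi.single i f, fun i' => ?_, ?_⟩
    · by_cases h : i' = i
      · subst h
        rw [Pi.single_eq_same]
        exact hf
      · rw [Pi.single_eq_of_ne h]
        exact Submodule.zero_mem _
    · rw [mulL_apply, Finset.sum_eq_single i]
      · rw [Pi.single_eq_same]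
      · intro b _ hb
        rw [Pi.single_eq_of_ne hb]
        simp
      · simp
  · exact ⟨0, fun i => Submodule.zero_mem _, by simp⟩
  · rintro T T' ⟨s, hs, rfl⟩ ⟨s', hs', rfl⟩
    exact ⟨s + s', fun i => Submodule.add_mem _ (hs i) (hs' i), by
      simp [mul_add, Finset.sum_add_distrib]⟩

theorem USP_sum_mem_covSp (φ η : LaurentSeries Qb) (Dx Dy : Divisor Qb (FB N)) (n : ℕ)
    (s : Fin p → FB N) (hs : ∀ i : Fin p, s i ∈ twW N Dx Dy n (i : ℕ)) :
    ∑ i : Fin p, φ * η ^ (i : ℕ) * (s i : LaurentSeries Qb) ∈ covSp N p φ η Dx Dy n := by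
  refine Submodule.sum_mem _ fun i _ => ?_
  exact Submodule.mem_iSup_of_mem i (Submodule.mem_map.mpr ⟨s i, hs i, rfl⟩)

/-- `∑ η^i s_i ∈ E` -/
def USP_t (η : LaurentSeries Qb) (s : Fin p → FB N) : covE N η :=
  ∑ i : Fin p, etaE N η ^ (i : ℕ) * algebraMap (FB N) (covE N η) (s i)

theorem USP_coe_t (η : LaurentSeries Qb) (s : Fin p → FB N) :
    ((USP_t η s : covE N η) : LaurentSeries Qb) =
      ∑ i : Fin p, η ^ (i : ℕ) * (s i : LaurentSeries Qb) := by
  unfold USP_t
  rw [AddSubmonoidClass.coe_finsetSum]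
  refine Finset.sum_congr rfl fun i _ => ?_
  rw [MulMemClass.coe_mul, SubmonoidClass.coe_pow, coe_algebraMap_FE]
  rfl

theorem USP_pow_eq (φ η : LaurentSeries Qb) (x : FB N) (hφ : φ ^ p = (x : LaurentSeries Qb))
    (s : Fin p → FB N) :
    (∑ i : Fin p, φ * η ^ (i : ℕ) * (s i : LaurentSeries Qb)) ^ p =
      ((algebraMap (FB N) (covE N η) x * USP_t η s ^ p : covE N η) : LaurentSeries Qb) := by
  rw [MulMemClass.coe_mul, SubmonoidClass.coe_pow, coe_algebraMap_FE, USP_coe_t, ← hφ, ← mul_pow,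
    Finset.mul_sum]
  congr 1
  refine Finset.sum_congr rfl fun i _ => ?_
  rw [mul_assoc]

theorem usp_pow_mem (φ η : LaurentSeries Qb) (x : FB N) (hφ : φ ^ p = (x : LaurentSeries Qb))
    (Dx Dy : Divisor Qb (FB N)) (n : ℕ) (T : LaurentSeries Qb)
    (hT : T ∈ covSp N p φ η Dx Dy n) : T ^ p ∈ covE N η := by
  obtain ⟨s, _, rfl⟩ := USP_mem_covSp hT
  rw [USP_pow_eq φ η x hφ s]
  exact Subtype.mem _

theorem USP_g_const (η : LaurentSeries Qb) (g : covE N η ≃ₐ[FB N] covE N η) (c : Qb) :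
    g (algebraMap Qb (covE N η) c) = algebraMap Qb (covE N η) c := by
  rw [IsScalarTower.algebraMap_apply Qb (FB N) (covE N η), AlgEquiv.commutes]

/-- (USP2) the `p`-th powers of the elements of `covSp` lie in `E` and are permuted by `g` -/
theorem usp_conj (φ η : LaurentSeries Qb) (x : FB N) (hφ : φ ^ p = (x : LaurentSeries Qb))
    (Dx Dy : Divisor Qb (FB N)) (ζ : Qb) (g : covE N η ≃ₐ[FB N] covE N η)
    (hg : g (etaE N η) = algebraMap Qb (covE N η) ζ * etaE N η) (n : ℕ)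
    (e : covE N η) (he : ∃ T ∈ covSp N p φ η Dx Dy n, (e : LaurentSeries Qb) = T ^ p) :
    ∃ T ∈ covSp N p φ η Dx Dy n, ((g e : covE N η) : LaurentSeries Qb) = T ^ p := by
  obtain ⟨T, hT, heT⟩ := he
  obtain ⟨s, hs, rfl⟩ := USP_mem_covSp hT
  rw [USP_pow_eq φ η x hφ s] at heT
  have he' : e = algebraMap (FB N) (covE N η) x * USP_t η s ^ p := Subtype.ext heT
  set s' : Fin p → FB N := fun i => (ζ ^ (i : ℕ)) • s i with hs'
  have hgt : g (USP_t η s) = USP_t η s' := by
    unfold USP_t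
    rw [map_sum]
    refine Finset.sum_congr rfl fun i _ => ?_
    have h1 : s' i = (ζ ^ (i : ℕ)) • s i := rfl
    rw [map_mul, map_pow, hg, AlgEquiv.commutes, h1, Algebra.smul_def, map_mul, mul_pow,
      ← IsScalarTower.algebraMap_apply Qb (FB N) (covE N η), map_pow]
    ring
  refine ⟨_, USP_sum_mem_covSp φ η Dx Dy n s' (fun i => Submodule.smul_mem _ _ (hs i)), ?_⟩
  rw [USP_pow_eq φ η x hφ s', he', map_mul, map_pow, AlgEquiv.commutes, hgt]

end

end Fermat.Agent.S40Lib
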