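import Fermat.Agent.S40.Cov.TwW
import Fermat.Agent.S40.Cov.UspConj
import Fermat.Agent.S40.Cov.Cg
import Fermat.Agent.S36.Inst.Rat

/-!
# S40 / S44, COV (DESC): (STAB) `covSp` is stable under inertia
-/

set_option autoImplicit false
set_option synthInstance.maxHeartbeats 400000
set_option linter.unusedSectionVars false

open AlgebraicCurve ModularCurve Polynomial IntermediateField

namespace Fermat.Agent.S40Lib

open Fermat.Agent.S18Lib Fermat.Agent.S24Lib Fermat.Agent.ESLib Fermat.Agent.S34Lib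
  Fermat.Agent.S33Lib Fermat.Agent.S36Lib Fermat.Agent.FFLib

noncomputable section

/-- two series with the same `p`-th power differ by a constant -/
theorem ST_root {p : ℕ} [NeZero p] (a b : LaurentSeries Qb) (hb : b ≠ 0) (h : a ^ p = b ^ p) :
    ∃ c : Qb, a = algebraMap Qb (LaurentSeries Qb) c * b := by
  obtain ⟨ζ, hζ⟩ := HasEnoughRootsOfUnity.exists_primitiveRoot Qb p
  have h1 : (a / b) ^ p = 1 := by
    rw [div_pow, h, div_self (pow_ne_zero _ hb)]
  obtain ⟨i, hi⟩ := CG_root_const hζ _ h1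
  exact ⟨ζ ^ i, by rw [← hi, div_mul_cancel₀ _ hb]⟩

theorem ST_gal_mem (A : ValuationSubring Qb) (N : ℕ) [NeZero N] (a : ℕ) (σ : GQ)
    (hσ : σ ∈ A.inertiaSubgroupIn ℚ) (f : FB N)
    (hf : f ∈ riemannRochSpace (maE Qb (JF N 1 (one_dvd _)) a 0)) :
    gal N σ f ∈ riemannRochSpace (maE Qb (JF N 1 (one_dvd _)) a 0) := by
  have h1 := gal_mem_L A N a 0 1 one_ne_zero 1 (fun τ _ => map_one _) 0
    (fun v => by rw [v.ord_one]; simp) σ hσ f (by rwa [add_zero])
  rwa [add_zero] at h1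

section Desc

variable {A : ValuationSubring Qb} {N p : ℕ} [NeZero N] [hpF : Fact p.Prime] {x y : FB N}
  {φ η : LaurentSeries Qb} {Dx Dy : Divisor Qb (FB N)}

/-- (STAB) -/
theorem covSp_stable (h : DescCfg A N p x y φ η Dx Dy) (n : ℕ) (σ : GQ)
    (hσ : σ ∈ A.inertiaSubgroupIn ℚ) (S : LaurentSeries Qb) (hS : S ∈ covSp N p φ η Dx Dy n) :
    coeffMap ((σ : GQ) : Qb →+* Qb) S ∈ covSp N p φ η Dx Dy n := by
  have : NeZero p := ⟨hpF.out.ne_zero⟩
  obtain ⟨s, hs, rfl⟩ := USP_mem_covSp hS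
  obtain ⟨c, G, hG⟩ := h.galx σ hσ
  obtain ⟨j, G', hG'⟩ := h.galy σ hσ
  have hxL : (x : LaurentSeries Qb) ≠ 0 := by
    intro h0
    exact h.x0 (Subtype.ext h0)
  have hyL : (y : LaurentSeries Qb) ≠ 0 := by
    intro h0
    exact h.y0 (Subtype.ext h0)
  have hφ0 : φ ≠ 0 := by
    intro h0
    apply hxL
    rw [← h.hφ, h0, zero_pow hpF.out.ne_zero]
  have hη0 : η ≠ 0 := by
    intro h0
    apply hyL
    rw [← h.hη, h0, zero_pow hpF.out.ne_zero]
  have hG0 : G ≠ 0 := by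
    intro h0
    have h1 : gal N σ x = 0 := by rw [hG, h0, zero_pow hpF.out.ne_zero, zero_mul, zero_mul]
    exact h.x0 ((map_eq_zero_iff _ (gal N σ).injective).mp h1)
  have hG'0 : G' ≠ 0 := by
    intro h0
    have h1 : gal N σ y = 0 := by rw [hG', h0, zero_pow hpF.out.ne_zero, zero_mul]
    exact h.y0 ((map_eq_zero_iff _ (gal N σ).injective).mp h1)
  have hGL : (G : LaurentSeries Qb) ≠ 0 := by
    intro h0
    exact hG0 (Subtype.ext h0)
  have hG'L : (G' : LaurentSeries Qb) ≠ 0 := by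
    intro h0
    exact hG'0 (Subtype.ext h0)
  -- the action on `φ` and `η`
  have h1 : (coeffMap ((σ : GQ) : Qb →+* Qb) φ) ^ p = ((G : LaurentSeries Qb) * φ * η ^ c) ^ p := by
    rw [← map_pow, h.hφ, ← coe_gal, hG, mul_pow, mul_pow, h.hφ, ← pow_mul, mul_comm c p, pow_mul,
      h.hη]
    rfl
  have h2 : (coeffMap ((σ : GQ) : Qb →+* Qb) η) ^ p = ((G' : LaurentSeries Qb) * η ^ j) ^ p := by
    rw [← map_pow, h.hη, ← coe_gal, hG', mul_pow, ← pow_mul, mul_comm j p, pow_mul, h.hη]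
    rfl
  obtain ⟨ξ, hξ⟩ := ST_root _ _ (mul_ne_zero (mul_ne_zero hGL hφ0) (pow_ne_zero _ hη0)) h1
  obtain ⟨ξ', hξ'⟩ := ST_root _ _ (mul_ne_zero hG'L (pow_ne_zero _ hη0)) h2
  rw [map_sum]
  refine Submodule.sum_mem _ fun i _ => ?_
  set e : ℕ := c + j * (i : ℕ) with he
  have hi' : e % p < p := Nat.mod_lt _ hpF.out.pos
  set s₁ : FB N := G * G' ^ (i : ℕ) * y ^ (e / p) * gal N σ (s i) with hs₁
  have hmem : s₁ ∈ twW N Dx Dy n (e % p) := by
    rw [mem_twW_iff h]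
    have h3 : s₁ ^ p * x * y ^ (e % p) = gal N σ (s i ^ p * x * y ^ (i : ℕ)) := by
      rw [map_mul, map_mul, map_pow, map_pow, hG, hG', hs₁]
      have h4 : y ^ e = (y ^ (e / p)) ^ p * y ^ (e % p) := by
        rw [← pow_mul, ← pow_add, mul_comm (e / p) p, Nat.div_add_mod]
      have h5 : y ^ e = y ^ c * (y ^ j) ^ (i : ℕ) := by
        rw [he, pow_add, pow_mul]
      calc (G * G' ^ (i : ℕ) * y ^ (e / p) * gal N σ (s i)) ^ p * x * y ^ (e % p)
          = G ^ p * (G' ^ p) ^ (i : ℕ) * gal N σ (s i) ^ p * x *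
              ((y ^ (e / p)) ^ p * y ^ (e % p)) := by ring
        _ = G ^ p * (G' ^ p) ^ (i : ℕ) * gal N σ (s i) ^ p * x * (y ^ c * (y ^ j) ^ (i : ℕ)) := by
            rw [← h4, h5]
        _ = gal N σ (s i) ^ p * (G ^ p * x * y ^ c) * (G' ^ p * y ^ j) ^ (i : ℕ) := by ring
    rw [h3]
    exact ST_gal_mem A N _ σ hσ _ ((mem_twW_iff h n i (s i)).mp (hs i))
  have hterm : coeffMap ((σ : GQ) : Qb →+* Qb) (φ * η ^ (i : ℕ) * (s i : LaurentSeries Qb)) =
      mulL N (φ * η ^ (e % p)) ((ξ * ξ' ^ (i : ℕ)) • s₁) := by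
    rw [mulL_apply, map_mul, map_mul, map_pow, hξ, hξ', ← coe_gal, Algebra.smul_def]
    have h6 : ((algebraMap Qb (FB N) (ξ * ξ' ^ (i : ℕ)) * s₁ : FB N) : LaurentSeries Qb) =
        algebraMap Qb (LaurentSeries Qb) ξ * algebraMap Qb (LaurentSeries Qb) ξ' ^ (i : ℕ) *
          ((G : LaurentSeries Qb) * (G' : LaurentSeries Qb) ^ (i : ℕ) *
            (y : LaurentSeries Qb) ^ (e / p) * ((gal N σ (s i) : FB N) : LaurentSeries Qb)) := by
      rw [hs₁, ← map_pow, ← map_mul]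
      rfl
    have h7 : η ^ e = η ^ (e % p) * (y : LaurentSeries Qb) ^ (e / p) := by
      rw [← h.hη, ← pow_mul, ← pow_add, add_comm, Nat.div_add_mod]
    have h8 : η ^ e = η ^ c * (η ^ j) ^ (i : ℕ) := by
      rw [he, pow_add, pow_mul]
    rw [h6]
    calc algebraMap Qb (LaurentSeries Qb) ξ * ((G : LaurentSeries Qb) * φ * η ^ c) *
          (algebraMap Qb (LaurentSeries Qb) ξ' * ((G' : LaurentSeries Qb) * η ^ j)) ^ (i : ℕ) *
          ((gal N σ (s i) : FB N) : LaurentSeries Qb)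
        = algebraMap Qb (LaurentSeries Qb) ξ * algebraMap Qb (LaurentSeries Qb) ξ' ^ (i : ℕ) *
          (G : LaurentSeries Qb) * (G' : LaurentSeries Qb) ^ (i : ℕ) * φ *
          (η ^ c * (η ^ j) ^ (i : ℕ)) * ((gal N σ (s i) : FB N) : LaurentSeries Qb) := by ring
      _ = algebraMap Qb (LaurentSeries Qb) ξ * algebraMap Qb (LaurentSeries Qb) ξ' ^ (i : ℕ) *
          (G : LaurentSeries Qb) * (G' : LaurentSeries Qb) ^ (i : ℕ) * φ *
          (η ^ (e % p) * (y : LaurentSeries Qb) ^ (e / p)) *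
          ((gal N σ (s i) : FB N) : LaurentSeries Qb) := by rw [← h8, h7]
      _ = _ := by ring
  rw [hterm]
  exact Submodule.mem_iSup_of_mem (⟨e % p, hi'⟩ : Fin p)
    (Submodule.mem_map_of_mem (Submodule.smul_mem _ _ hmem))

end Desc

end

end Fermat.Agent.S40Lib
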