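import Fermat.Agent.S40.Cov.UspFixed

/-!
# S40 / S44, COV, block (USP): the characteristic polynomial of `G = z^p u` over `F₀`
-/

set_option autoImplicit false
set_option synthInstance.maxHeartbeats 400000
set_option linter.unusedSectionVars false

open AlgebraicCurve ModularCurve Polynomial

namespace Fermat.Agent.S40Lib

open Fermat.Agent.S18Lib Fermat.Agent.S24Lib Fermat.Agent.ESLib Fermat.Agent.S34Lib
  Fermat.Agent.S33Lib Fermat.Agent.S36Lib Fermat.Agent.FFLib

noncomputable section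

variable {N p : ℕ} [NeZero N]

/-- a function with order `n * max (- ord J) 0` at `v` -/
theorem USP_exists_lam (v : Place Qb (FB N)) (J₁ : FB N) (n : ℕ) :
    ∃ lam : FB N, lam ≠ 0 ∧ v.ord lam = n * max (-v.ord J₁) 0 := by
  rcases lt_or_ge (v.ord J₁) 0 with h | h
  · have hJ : J₁ ≠ 0 := wa_ne_zero_of_ord_ne h.ne
    refine ⟨J₁⁻¹ ^ n, pow_ne_zero _ (inv_ne_zero hJ), ?_⟩
    rw [wa_ord_pow, v.ord_inv, max_eq_left (by omega)]
  · refine ⟨1, one_ne_zero, ?_⟩
    rw [v.ord_one, max_eq_right (by omega), mul_zero]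

/-- local integrality of the twisted elements of `covSp` -/
theorem USP_local (hp : 0 < p) (φ η : LaurentSeries Qb) (x y : FB N)
    (hφ : φ ^ p = (x : LaurentSeries Qb)) (hη : η ^ p = (y : LaurentSeries Qb))
    (Dx Dy : Divisor Qb (FB N)) (hx0 : x ≠ 0) (hy0 : y ≠ 0)
    (hDx : ∀ v : Place Qb (FB N), v.ord x = p * Dx v)
    (hDy : ∀ v : Place Qb (FB N), v.ord y = p * Dy v) (n : ℕ)
    (v : Place Qb (FB N)) (lam : FB N) (hlam0 : lam ≠ 0)
    (hlam : v.ord lam = n * max (-v.ord (JF N 1 (one_dvd _))) 0)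
    (T : LaurentSeries Qb) (hT : T ∈ covSp N p φ η Dx Dy n) :
    (lam : LaurentSeries Qb) * T ∈ USP_int (LaurentSeries Qb) v.toValuationSubring := by
  obtain ⟨s, hs, rfl⟩ := USP_mem_covSp hT
  rw [Finset.mul_sum]
  refine Subring.sum_mem _ fun i _ => ?_
  set c : FB N := lam ^ p * x * y ^ (i : ℕ) * s i ^ p with hc
  have hpow : ((lam : LaurentSeries Qb) * (φ * η ^ (i : ℕ) * (s i : LaurentSeries Qb))) ^ p =
      algebraMap (FB N) (LaurentSeries Qb) c := by
    have h1 : algebraMap (FB N) (LaurentSeries Qb) c =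
        (lam : LaurentSeries Qb) ^ p * (x : LaurentSeries Qb) * (y : LaurentSeries Qb) ^ (i : ℕ) *
          (s i : LaurentSeries Qb) ^ p := rfl
    rw [h1, ← hφ, ← hη]
    ring
  refine USP_int_of_pow v.toValuationSubring hp ?_ hpow
  rw [mem_valuationSubring_iff]
  by_cases hs0 : s i = 0
  · rw [hc, hs0, zero_pow hp.ne', mul_zero]
    simp
  have h2 := mem_L_iff.mp (hs i) v
  rcases h2 with h2 | h2
  · exact absurd h2 hs0
  rw [Finsupp.add_apply, Finsupp.add_apply, Finsupp.smul_apply, maE_apply (isFF_FB N)] at h2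
  rw [hc, v.ord_mul (mul_ne_zero (mul_ne_zero (pow_ne_zero _ hlam0) hx0) (pow_ne_zero _ hy0))
      (pow_ne_zero _ hs0),
    v.ord_mul (mul_ne_zero (pow_ne_zero _ hlam0) hx0) (pow_ne_zero _ hy0),
    v.ord_mul (pow_ne_zero _ hlam0) hx0, wa_ord_pow, wa_ord_pow, wa_ord_pow, hlam, hDx, hDy]
  simp only [nsmul_eq_mul, Nat.cast_zero, zero_mul, add_zero] at h2
  have hp' : (0 : ℤ) ≤ (p : ℤ) := by positivity
  have h3 : 0 ≤ (p : ℤ) * ((n : ℤ) * max (-v.ord (JF N 1 (one_dvd _))) 0 + Dx v +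
      ((i : ℕ) : ℤ) * Dy v + v.ord (s i)) := mul_nonneg hp' (by linarith)
  linarith

/-- **(USP)** -/
theorem usp_main (hp : p.Prime) (A : ValuationSubring Qb) (φ η : LaurentSeries Qb) (x y : FB N)
    (hφ : φ ^ p = (x : LaurentSeries Qb)) (hη : η ^ p = (y : LaurentSeries Qb))
    (Dx Dy : Divisor Qb (FB N)) (hx0 : x ≠ 0) (hy0 : y ≠ 0)
    (hDx : ∀ v : Place Qb (FB N), v.ord x = p * Dx v)
    (hDy : ∀ v : Place Qb (FB N), v.ord y = p * Dy v)
    (ζ : Qb) (hζ : IsPrimitiveRoot ζ p) (g : covE N η ≃ₐ[FB N] covE N η)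
    (hg : g (etaE N η) = algebraMap Qb (covE N η) ζ * etaE N η)
    (n : ℕ) {J : Type*} [Fintype J] (G' : J → covE0 A (covE N η))
    (hperm : ∃ π : Equiv.Perm J, ∀ j, g (G' j : covE N η) = (G' (π j) : covE N η))
    (hpw : ∀ j, ∃ T ∈ covSp N p φ η Dx Dy n,
      (((G' j : covE0 A (covE N η)) : covE N η) : LaurentSeries Qb) = T ^ p) :
    ∃ Q : (F0 A N)[X], IsCharPoly Q G' ∧ ∀ i, 1 ≤ i → i ≤ Fintype.card J →
      iotaF0 A N (Q.coeff (Fintype.card J - i)) ∈
        riemannRochSpace (maE Qb (iotaF0 A N (JF0 A N 1 (one_dvd _))) (i * (p * n)) 0) := by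
  classical
  obtain ⟨π, hπ⟩ := hperm
  set P₀ : (covE0 A (covE N η))[X] := ∏ j, (X - C (G' j)) with hP₀
  let ι : covE0 A (covE N η) →+* covE N η := (covE0 A (covE N η)).subtype
  have hPE : P₀.map ι = ∏ j, (X - C ((G' j : covE0 A (covE N η)) : covE N η)) := by
    rw [hP₀, Polynomial.map_prod]
    refine Finset.prod_congr rfl fun j _ => ?_
    rw [Polynomial.map_sub, Polynomial.map_X, Polynomial.map_C]
    rfl
  have hgP : (P₀.map ι).map (g : covE N η →+* covE N η) = P₀.map ι := by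
    rw [hPE, Polynomial.map_prod,
      ← Equiv.prod_comp π (fun j => X - C ((G' j : covE0 A (covE N η)) : covE N η))]
    refine Finset.prod_congr rfl fun j _ => ?_
    rw [Polynomial.map_sub, Polynomial.map_X, Polynomial.map_C, ← hπ j]
    rfl
  have hfixc : ∀ m, g ((P₀.coeff m : covE0 A (covE N η)) : covE N η) =
      ((P₀.coeff m : covE0 A (covE N η)) : covE N η) := by
    intro m
    have h1 := congrArg (fun P => P.coeff m) hgP
    simp only [Polynomial.coeff_map] at h1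
    exact h1
  have hlift : ∀ m, ∃ f : F0 A N, algebraMap (F0 A N) (covE0 A (covE N η)) f = P₀.coeff m := by
    intro m
    obtain ⟨f, hf⟩ := usp_fixed hp η y hη ζ hζ g hg _ (hfixc m)
    have hfK : (f : LaurentSeries Qb) ∈ K0S A := by
      have h1 : (f : LaurentSeries Qb) =
          (((P₀.coeff m : covE0 A (covE N η)) : covE N η) : LaurentSeries Qb) := by
        rw [← hf, coe_algebraMap_FE]
      rw [h1]
      exact mem_covE0.mp (P₀.coeff m).2
    refine ⟨⟨f, mem_F0.2 ((coe_mem_K0S_iff f).1 hfK)⟩, ?_⟩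
    apply Subtype.ext
    rw [algebraMap_F0E0, ← hf, algebraMap_FE]
  have hmem : P₀ ∈ Polynomial.lifts (algebraMap (F0 A N) (covE0 A (covE N η))) := by
    rw [Polynomial.lifts_iff_coeff_lifts]
    intro m
    exact hlift m
  obtain ⟨Q, hQ⟩ := (Polynomial.mem_lifts _).mp hmem
  refine ⟨Q, hQ, fun i _ hi => ?_⟩
  -- regularity
  set f : FB N := iotaF0 A N (Q.coeff (Fintype.card J - i)) with hf
  set a : J → LaurentSeries Qb :=
    fun j => (((G' j : covE0 A (covE N η)) : covE N η) : LaurentSeries Qb) with ha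
  have hfL : (f : LaurentSeries Qb) = (∏ j, (X - C (a j))).coeff (Fintype.card J - i) := by
    have h1 : (P₀.map ι).map (algebraMap (covE N η) (LaurentSeries Qb)) =
        ∏ j, (X - C (a j)) := by
      rw [hPE, Polynomial.map_prod]
      refine Finset.prod_congr rfl fun j _ => ?_
      rw [Polynomial.map_sub, Polynomial.map_X, Polynomial.map_C]
      rfl
    rw [← h1, Polynomial.coeff_map, Polynomial.coeff_map, ← hQ, Polynomial.coeff_map]
    exact (coe_algebraMap_F0E0 A N η _).symm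
  rw [mem_L_iff]
  intro v
  by_cases hf0 : f = 0
  · exact Or.inl hf0
  right
  obtain ⟨lam, hlam0, hlam⟩ := USP_exists_lam v (JF N 1 (one_dvd _)) n
  have h1 : ∀ j ∈ (Finset.univ : Finset J), (lam : LaurentSeries Qb) ^ p * a j ∈
      USP_int (LaurentSeries Qb) v.toValuationSubring := by
    intro j _
    obtain ⟨T, hT, hGT⟩ := hpw j
    have h2 := USP_local hp.pos φ η x y hφ hη Dx Dy hx0 hy0 hDx hDy n v lam hlam0 hlam T hT
    have h3 : (lam : LaurentSeries Qb) ^ p * a j = ((lam : LaurentSeries Qb) * T) ^ p := by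
      have h8 : a j = T ^ p := hGT
      rw [mul_pow, h8]
    rw [h3]
    exact Subring.pow_mem _ h2 p
  have h4 := USP_coeff_mem _ _ Finset.univ a h1 i (by simpa using hi)
  rw [Finset.card_univ, ← hfL] at h4
  have h5 : ((lam : LaurentSeries Qb) ^ p) ^ i * (f : LaurentSeries Qb) =
      algebraMap (FB N) (LaurentSeries Qb) ((lam ^ p) ^ i * f) := rfl
  rw [h5] at h4
  have h6 := (mem_valuationSubring_iff v _).mp (USP_mem_of_int v.toValuationSubring h4)
  rw [v.ord_mul (pow_ne_zero _ (pow_ne_zero _ hlam0)) hf0, wa_ord_pow, wa_ord_pow, hlam] at h6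
  have h7 : maE Qb (iotaF0 A N (JF0 A N 1 (one_dvd _))) (i * (p * n)) 0 v =
      ((i * (p * n) : ℕ) : ℤ) * max (-v.ord (JF N 1 (one_dvd _))) 0 := by
    rw [maE_apply (isFF_FB N)]
    simp
    left
    rfl
  rw [h7]
  push_cast
  linarith

end

end Fermat.Agent.S40Lib
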