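import Fermat.Agent.S40.Cov.Shift
import Fermat.Agent.S40.Cov.ShiftY
import Fermat.Agent.S40.Cov.Above
import Fermat.Agent.S40.Cov.Stab
import Fermat.Agent.S40.Cov.CN2
import Fermat.Agent.S40.Cov.BlY
import Fermat.Agent.S40.Cov.Rk
import Fermat.Agent.S40.Cov.Usp

/-!
# S40 / S44, COV: the count on the cover (`tight_count2` instantiated on a `CovY`)
-/

set_option autoImplicit false
set_option synthInstance.maxHeartbeats 400000

open AlgebraicCurve ModularCurve Polynomial IntermediateField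

namespace Fermat.Agent.S40Lib

open Fermat.Agent.S18Lib Fermat.Agent.S24Lib Fermat.Agent.ESLib Fermat.Agent.S34Lib
  Fermat.Agent.S33Lib Fermat.Agent.S36Lib Fermat.Agent.FFLib Fermat.Agent.S28Lib

noncomputable section

section Sheets

variable {M p : ℕ} [NeZero M] [NeZero p] [hpF : Fact p.Prime] (hpM : ¬ p ∣ M)
  {A : ValuationSubring Qb} (hA : A.LiesOverPrime p)
  {R : RedG A (IsLocalRing.residue A) (FB (p * M)) (FT A M × FT A M)}
  {η : LaurentSeries Qb} {ζ : Qb}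

theorem CovY.mem_O (Y : CovY M p A R η ζ) (x : covE0 A (covE (p * M) η)) :
    x ∈ Y.RE0.O ↔ (∀ i, x ∈ (Y.dv hA (i, false)).O) ∧ ∀ j, x ∈ (Y.dv hA (j, true)).O := by
  rw [(Y.hyp hA).mem_O_iff]
  constructor
  · intro h
    exact ⟨fun i => h (i, false), fun j => h (j, true)⟩
  · rintro ⟨h1, h2⟩ ⟨c, b⟩
    cases b
    · exact h1 c
    · exact h2 c

theorem CovY.red_eq_zero (Y : CovY M p A R η ζ) (x : Y.RE0.O) :
    Y.RE0.red x = 0 ↔ (∀ i, (Y.dv hA (i, false)).ge 1 (x : covE0 A (covE (p * M) η))) ∧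
      ∀ j, (Y.dv hA (j, true)).ge 1 (x : covE0 A (covE (p * M) η)) := by
  rw [(Y.hyp hA).red_eq_zero_iff_ge]
  constructor
  · intro h
    exact ⟨fun i => h (i, false), fun j => h (j, true)⟩
  · rintro ⟨h1, h2⟩ ⟨c, b⟩
    cases b
    · exact h1 c
    · exact h2 c

theorem prY_algebraMap (k κ : Type*) [Field k] [Field κ] [Algebra k κ] (p : ℕ)
    (w : ZMod p × Bool) (a : k) :
    prY p κ w (algebraMap k (ZMod p → κ × κ) a) = algebraMap k κ a := by
  obtain ⟨c, b⟩ := w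
  cases b <;> rfl

theorem CovY.const (Y : CovY M p A R η ζ) (w : ZMod p × Bool) (c : A0 A)
    (h : algebraMap (K0 A) (covE0 A (covE (p * M) η)) (c : K0 A) ∈ (Y.dv hA w).O) :
    (Y.dv hA w).red ⟨_, h⟩ = algebraMap (kk A) (FT A M) (resK0 A c) := by
  have h1 := (Y.hyp hA).dv_red_coe w (Y.RE0.const c) h
  rw [Y.RE0.red_const, prY_algebraMap] at h1
  exact h1

theorem CovY.iter_snd (Y : CovY M p A R η ζ) (n : ℕ) (w : ZMod p × Bool) :
    ((fun w : ZMod p × Bool => (w.1 + Y.m, w.2))^[n] w).2 = w.2 := by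
  induction n generalizing w with
  | zero => rfl
  | succ n ih => rw [Function.iterate_succ_apply, ih]

theorem CovY.iter_fst (Y : CovY M p A R η ζ) (n : ℕ) (w : ZMod p × Bool) :
    ((fun w : ZMod p × Bool => (w.1 + Y.m, w.2))^[n] w).1 = w.1 + n * Y.m := by
  induction n generalizing w with
  | zero => simp
  | succ n ih =>
    rw [Function.iterate_succ_apply, ih]
    push_cast
    ring

theorem CovY.ge_pow (Y : CovY M p A R η ζ) (b : Bool) (n : ℕ) (G : covE0 A (covE (p * M) η))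
    (h : ∀ i, (Y.dv hA (i, b)).ge n G) (k : ℕ) (j : ZMod p) :
    (Y.dv hA (j, b)).ge n ((Y.g0 ^ k) G) := by
  have h1 := ((Y.isShift hA).pow k).ge_iff (j, b) n G
  refine h1.2 ?_
  have h2 : ((fun w : ZMod p × Bool => (w.1 + Y.m, w.2))^[k] (j, b)) =
      (((fun w : ZMod p × Bool => (w.1 + Y.m, w.2))^[k] (j, b)).1, b) :=
    Prod.ext rfl (Y.iter_snd k (j, b))
  rw [h2]
  exact h _

theorem CovY.blI (hR : IsQRed2 M p hpM A R) (Y : CovY M p A R η ζ) (H : FT A M)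
    (hH : (H : LaurentSeries (kk A)) = (phiL (kk A) p)⁻¹) (a al be : ℕ)
    (G : covE0 A (covE (p * M) η)) (hG : RegE A M p η Y.g0 a G)
    (h1 : ∀ i, (Y.dv hA (i, false)).ge al G) (h2 : ∀ j, (Y.dv hA (j, true)).ge be G)
    (i : ZMod p) :
    Bd (kk A) (jT A M) a 0 12 (((be : ℤ) - al) • ZZ3 A H) ((Y.dv hA (i, false)).lead al G) := by
  have := isAlgClosed_kk A
  obtain ⟨Q, hQ, hReg⟩ := hG
  have key := bl_cover (isFF_FT A M) (vInf2 hpM A hA) (vZero2 hpM A hA (EH_isAL_wq M p hpM))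
    (fun c => Y.dv hA (c, false)) (fun c => Y.dv hA (c, true))
    (fun c => isAbove_inf hpM hA hR Y c) (fun c => isAbove_zero hpM hA hR Y c)
    (RegX A M p) (jT A M) (ZZ3 A H)
    (fun a α β c hc h1 h3 => c2_bl₁ hpM A hA (EH_isAL_wq M p hpM) H hH a α β c hc h1 h3)
    a al be Q (fun j : ZMod p => (Y.g0 ^ j.val) G) hQ
    (fun i hi1 hi2 => by
      rw [ZMod.card] at hi2 ⊢
      exact hReg i hi1 hi2)
    (fun j j' => Y.ge_pow hA false al G h1 j'.val j)
    (fun j j' => Y.ge_pow hA true be G h2 j'.val j) i 0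
  simpa using key

theorem CovY.blZ (hR : IsQRed2 M p hpM A R) (Y : CovY M p A R η ζ) (H : FT A M)
    (hH : (H : LaurentSeries (kk A)) = (phiL (kk A) p)⁻¹) (a al be : ℕ)
    (G : covE0 A (covE (p * M) η)) (hG : RegE A M p η Y.g0 a G)
    (h1 : ∀ i, (Y.dv hA (i, false)).ge al G) (h2 : ∀ j, (Y.dv hA (j, true)).ge be G)
    (j : ZMod p) :
    Bd (kk A) (jT A M ^ p) a 0 12 (((al : ℤ) - be) • ZZ3 A H)
      ((Y.dv hA (j, true)).lead be G) := by
  have := isAlgClosed_kk A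
  obtain ⟨Q, hQ, hReg⟩ := hG
  have key := bl_cover (isFF_FT A M) (vZero2 hpM A hA (EH_isAL_wq M p hpM)) (vInf2 hpM A hA)
    (fun c => Y.dv hA (c, true)) (fun c => Y.dv hA (c, false))
    (fun c => isAbove_zero hpM hA hR Y c) (fun c => isAbove_inf hpM hA hR Y c)
    (RegX A M p) (jT A M ^ p) (ZZ3 A H)
    (fun a α β c hc h1 h3 => c2_bl₃ hpM A hA (EH_isAL_wq M p hpM) H hH a β α c hc h3 h1)
    a be al Q (fun j : ZMod p => (Y.g0 ^ j.val) G) hQ
    (fun i hi1 hi2 => by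
      rw [ZMod.card] at hi2 ⊢
      exact hReg i hi1 hi2)
    (fun j j' => Y.ge_pow hA true be G h2 j'.val j)
    (fun j j' => Y.ge_pow hA false al G h1 j'.val j) j 0
  simpa using key

end Sheets


/-- an `F`-automorphism of `E = F(η)` which fixes `η` is the identity -/
theorem covE_ext {N : ℕ} {η : LaurentSeries Qb} (f : covE N η ≃ₐ[FB N] covE N η)
    (hf : f (etaE N η) = etaE N η) (z : covE N η) : f z = z := by
  let T : IntermediateField Qb (LaurentSeries Qb) :=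
    { carrier := {s | ∃ h : s ∈ covE N η, f ⟨s, h⟩ = ⟨s, h⟩}
      mul_mem' := by
        rintro a b ⟨ha, ha'⟩ ⟨hb, hb'⟩
        refine ⟨(covE N η).mul_mem ha hb, ?_⟩
        have : (⟨a * b, (covE N η).mul_mem ha hb⟩ : covE N η) = ⟨a, ha⟩ * ⟨b, hb⟩ := rfl
        rw [this, map_mul, ha', hb']
      add_mem' := by
        rintro a b ⟨ha, ha'⟩ ⟨hb, hb'⟩
        refine ⟨(covE N η).add_mem ha hb, ?_⟩
        have : (⟨a + b, (covE N η).add_mem ha hb⟩ : covE N η) = ⟨a, ha⟩ + ⟨b, hb⟩ := rfl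
        rw [this, map_add, ha', hb']
      algebraMap_mem' := by
        intro c
        refine ⟨(covE N η).algebraMap_mem c, ?_⟩
        have : (⟨algebraMap Qb (LaurentSeries Qb) c, (covE N η).algebraMap_mem c⟩ : covE N η) =
            algebraMap (FB N) (covE N η) (algebraMap Qb (FB N) c) := by
          apply Subtype.ext
          rw [coe_algebraMap_FE]
          rfl
        rw [this, f.commutes]
      inv_mem' := by
        rintro a ⟨ha, ha'⟩
        refine ⟨(covE N η).inv_mem ha, ?_⟩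
        have : (⟨a⁻¹, (covE N η).inv_mem ha⟩ : covE N η) = (⟨a, ha⟩ : covE N η)⁻¹ := rfl
        rw [this, map_inv₀, ha'] }
  have h1 : FB N ≤ T := by
    intro s hs
    refine ⟨FB_le_covE N η hs, ?_⟩
    have : (⟨s, FB_le_covE N η hs⟩ : covE N η) = algebraMap (FB N) (covE N η) ⟨s, hs⟩ := by
      apply Subtype.ext
      rw [coe_algebraMap_FE]
    rw [this, f.commutes]
  have h2 : IntermediateField.adjoin Qb {η} ≤ T := by
    rw [IntermediateField.adjoin_le_iff]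
    intro s hs
    rw [Set.mem_singleton_iff] at hs
    subst hs
    exact ⟨eta_mem_covE N s, hf⟩
  have h3 : covE N η ≤ T := sup_le h1 h2
  obtain ⟨h, hz⟩ := h3 z.2
  exact hz

theorem IsCovGen.pow_eta {A : ValuationSubring Qb} {N : ℕ} {η : LaurentSeries Qb} {ζ : Qb}
    {g : covE N η ≃ₐ[FB N] covE N η} (h : IsCovGen A N η ζ g) (n : ℕ) :
    (g ^ n) (etaE N η) = algebraMap Qb (covE N η) (ζ ^ n) * etaE N η := by
  induction n with
  | zero => simp
  | succ n ih =>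
    rw [pow_succ', AlgEquiv.mul_apply, ih, map_mul, h.eta]
    have : g (algebraMap Qb (covE N η) (ζ ^ n)) = algebraMap Qb (covE N η) (ζ ^ n) := by
      rw [IsScalarTower.algebraMap_apply Qb (FB N) (covE N η), g.commutes]
    rw [this, pow_succ, map_mul]
    ring

theorem IsCovGen.pow_eq_one {A : ValuationSubring Qb} {N p : ℕ} {η : LaurentSeries Qb} {ζ : Qb}
    {g : covE N η ≃ₐ[FB N] covE N η} (h : IsCovGen A N η ζ g) (hζ : ζ ^ p = 1) : g ^ p = 1 := by
  apply AlgEquiv.ext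
  intro z
  rw [AlgEquiv.one_apply]
  apply covE_ext
  rw [h.pow_eta, hζ, map_one, one_mul]

theorem coe_covG0_pow {A : ValuationSubring Qb} {N : ℕ} {η : LaurentSeries Qb} {ζ : Qb}
    {g : covE N η ≃ₐ[FB N] covE N η} (h : IsCovGen A N η ζ g) (n : ℕ)
    (z : covE0 A (covE N η)) :
    (((covG0 h ^ n) z : covE0 A (covE N η)) : covE N η) = (g ^ n) (z : covE N η) := by
  induction n with
  | zero => simp
  | succ n ih =>
    rw [pow_succ', pow_succ', RingAut.mul_apply, AlgEquiv.mul_apply, coe_covG0, ih]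

section Count

variable {M p : ℕ} [NeZero M] [NeZero p] [hpF : Fact p.Prime] (hpM : ¬ p ∣ M)
  {A : ValuationSubring Qb} (hA : A.LiesOverPrime p)
  {R : RedG A (IsLocalRing.residue A) (FB (p * M)) (FT A M × FT A M)}
  {η : LaurentSeries Qb} {ζ : Qb} {x y : FB (p * M)} {φ : LaurentSeries Qb}
  {Dx Dy : Divisor Qb (FB (p * M))}

theorem CovY.hU (Y : CovY M p A R η ζ) (hζ : IsPrimitiveRoot ζ p)
    (h : DescCfg A (p * M) p x y φ η Dx Dy) (S₀ : LaurentSeries Qb)
    (u : covE0 A (covE (p * M) η)) (hS : IsDesc A (p * M) p φ η S₀ u) (n : ℕ)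
    (s : covE0 A (covE (p * M) η))
    (hs : s ∈ covU A (covE (p * M) η) S₀ (covSp (p * M) p φ η Dx Dy n)) :
    RegE A M p η Y.g0 (p * n) (s ^ p * u) := by
  have hpw : ∀ k : ℕ, ∃ T ∈ covSp (p * M) p φ η Dx Dy n,
      ((((Y.g0 ^ k) (s ^ p * u) : covE0 A (covE (p * M) η)) : covE (p * M) η) :
        LaurentSeries Qb) = T ^ p := by
    intro k
    induction k with
    | zero =>
      refine ⟨_, mem_covU.1 hs, ?_⟩
      rw [pow_zero, RingAut.one_apply, mul_pow, ← hS.hu]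
      push_cast
      rfl
    | succ k ih =>
      have h1 := usp_conj φ η x h.hφ Dx Dy ζ Y.g Y.gen.eta n _ ih
      rw [pow_succ', RingAut.mul_apply]
      exact h1
  have hgp : Y.g ^ p = 1 := Y.gen.pow_eq_one hζ.pow_eq_one
  obtain ⟨Q, hQ, hReg⟩ := usp_main hpF.out A φ η x y h.hφ h.hη Dx Dy h.x0 h.y0 h.hDx h.hDy ζ hζ
    Y.g Y.gen.eta n (fun j : ZMod p => (Y.g0 ^ j.val) (s ^ p * u))
    ⟨Equiv.addRight 1, fun j => by
      show Y.g _ = _
      rw [CovY.g0, coe_covG0_pow, coe_covG0_pow, ← AlgEquiv.mul_apply, ← pow_succ']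
      have h1 : (Equiv.addRight (1 : ZMod p) j).val = (j.val + 1) % p := by
        have : Fact (1 < p) := ⟨hpF.out.one_lt⟩
        rw [Equiv.coe_addRight, ZMod.val_add, ZMod.val_one]
      rw [h1, ← pow_eq_pow_mod _ hgp]⟩
    (fun j => hpw j.val)
  refine ⟨Q, hQ, fun i hi1 hi2 => ?_⟩
  have h2 := hReg i hi1 (by rw [ZMod.card]; exact hi2)
  rw [ZMod.card] at h2
  exact h2

theorem DescCfg.rk (h : DescCfg A (p * M) p x y φ η Dx Dy) (S₀ : LaurentSeries Qb)
    (u : covE0 A (covE (p * M) η)) (hS : IsDesc A (p * M) p φ η S₀ u) (n : ℕ) :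
    FiniteDimensional (K0 A) (covU A (covE (p * M) η) S₀ (covSp (p * M) p φ η Dx Dy n)) ∧
      (p : ℤ) * ((n : ℤ) * idx (p * M) + 1 - gS (p * M)) ≤
        Module.finrank (K0 A) (covU A (covE (p * M) η) S₀ (covSp (p * M) p φ η Dx Dy n)) := by
  obtain ⟨t₀, ht₀⟩ := hS.ex
  exact rk_main hpF.out A φ η x y h.x0 h.hφ h.hη Dx Dy h.hDx h.hDy h.yne n
    (fun σ hσ S hS' => covSp_stable h n σ hσ S hS') S₀ hS.ne hS.fix t₀ ht₀

theorem cov_count (hbase : 2 ∣ M ∨ 3 ∣ M) {r : ℕ} (hr : r.Prime) (hr12 : r % 12 = 11)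
    (hrM : r ∣ M) (H : FT A M) (hH : (H : LaurentSeries (kk A)) = (phiL (kk A) p)⁻¹)
    (hR : IsQRed2 M p hpM A R) (Y : CovY M p A R η ζ) (hζ : IsPrimitiveRoot ζ p)
    (h : DescCfg A (p * M) p x y φ η Dx Dy) (S₀ : LaurentSeries Qb)
    (u : covE0 A (covE (p * M) η)) (hS : IsDesc A (p * M) p φ η S₀ u) (μI μZ : ℕ)
    (hI : ∀ c, (Y.dv hA (c, false)).ge μI u ∧ (Y.dv hA (c, false)).lead μI u ≠ 0)
    (hZ : ∀ c, (Y.dv hA (c, true)).ge μZ u ∧ (Y.dv hA (c, true)).lead μZ u ≠ 0)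
    (c : ZMod p) (P : Place (kk A) (FT A M)) :
    (12 * p : ℤ) ∣ ((μZ : ℤ) - μI) * ZZ3 A H P - 12 * P.ord ((Y.dv hA (c, false)).lead μI u) := by
  have := isAlgClosed_kk A
  exact (tight_count2 (isFF_FT A M) (resK0_surjective A hpF.out hA) Y.RE0
    (fun c => Y.dv hA (c, false)) (fun c => Y.dv hA (c, true)) (Y.mem_O hA) (Y.red_eq_zero hA)
    (fun i => Y.const hA (i, false)) (fun j => Y.const hA (j, true))
    (jT A M) (jT A M ^ p) (transcendental_jT A M) ((transcendental_jT A M).pow hpF.out.pos)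
    (ZZ3 A H) (RegE A M p η Y.g0) (Y.blI hpM hA hR H hH) (Y.blZ hpM hA hR H hH) hpF.out.pos
    u μI μZ (fun i => (hI i).1) (fun i => (hI i).2) (fun j => (hZ j).1) (fun j => (hZ j).2)
    (fun n => covU A (covE (p * M) η) S₀ (covSp (p * M) p φ η Dx Dy n))
    (fun n => (h.rk S₀ u hS n).1) (fun n s hs => Y.hU hζ h S₀ u hS n s hs)
    (fun n => rk_hRK hpM A hA hbase hr hr12 hrM H hH n _ _ (ZMod.card p) (h.rk S₀ u hS n).2)).1 c P

end Count

end

end Fermat.Agent.S40Lib
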