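import Fermat.Agent.S36.Core.DVal

/-!
# S40 (COV), abstract lemma (DV): the discrete valuations of a reduction datum over a DVR

`R : RedG A resK F Φ` with `Φ ≃ κ^Ω` (through ring homs `pr w : Φ → κ`), `A` a DVR with
uniformizer `π`.  For every `w : Ω` we get `DVHyp.dv w : DVal F κ`,
`O_w = {a / b : a b ∈ O, pr w (red b) ≠ 0}`, and `O = ⋂ O_w`, `ker red = π O = {x | ∀ w, v_w x ≥ 1}`.
-/

set_option autoImplicit false
set_option linter.unusedSectionVars false

open Fermat.Agent.S18Lib Fermat.Agent.S34Lib Fermat.Agent.S36Lib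

namespace Fermat.Agent.S40Lib

section DV

variable {K k F Φ κ Ω : Type*} [Field K] [Field k] [Field F] [Algebra K F] [CommRing Φ]
  [Algebra k Φ] [Field κ] [Fintype Ω]
  {A : ValuationSubring K} {resK : A →+* k}

/-- the hypotheses of (DV) -/
structure DVHyp (R : RedG A resK F Φ) (pr : Ω → Φ →+* κ) (π : A) : Prop where
  hres : Function.Surjective resK
  bij : Function.Bijective (fun (φ : Φ) (w : Ω) => pr w φ)
  π_ne : π ≠ 0
  res_π : resK π = 0
  dvd : ∀ a : A, resK a = 0 → π ∣ a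

variable {R : RedG A resK F Φ} {pr : Ω → Φ →+* κ} {π : A}

/-- `ker red = π O` -/
theorem DVHyp.exists_of_red_eq_zero (H : DVHyp R pr π) (x : R.O) (hx : R.red x = 0) :
    ∃ y : R.O, x = R.const π * y := by
  obtain ⟨c, y, hc, rfl⟩ := (red_eq_zero_iff_exists R H.hres x).1 hx
  obtain ⟨d, rfl⟩ := H.dvd c hc
  refine ⟨R.const d * y, ?_⟩
  rw [← mul_assoc]
  congr 1
  apply Subtype.ext
  simp

theorem DVHyp.red_const_π_mul (H : DVHyp R pr π) (y : R.O) : R.red (R.const π * y) = 0 := by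
  rw [map_mul, R.red_const, H.res_π, map_zero, zero_mul]

theorem DVHyp.red_eq_zero_of_pr (H : DVHyp R pr π) (x : R.O) (hx : ∀ w, pr w (R.red x) = 0) :
    R.red x = 0 := by
  apply H.bij.1
  funext w
  simp only [hx w, map_zero]

/-- lifting a vector of `κ^Ω` -/
theorem DVHyp.exists_lift (H : DVHyp R pr π) (f : Ω → κ) :
    ∃ x : R.O, ∀ w, pr w (R.red x) = f w := by
  obtain ⟨φ, hφ⟩ := H.bij.2 f
  obtain ⟨x, rfl⟩ := R.red_surjective φ
  exact ⟨x, fun w => congrFun hφ w⟩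

/-- the idempotents -/
theorem DVHyp.exists_idem [DecidableEq Ω] (H : DVHyp R pr π) (w : Ω) :
    ∃ ε : R.O, pr w (R.red ε) = 1 ∧ ∀ w', w' ≠ w → pr w' (R.red ε) = 0 := by
  obtain ⟨ε, hε⟩ := H.exists_lift (fun w' => if w' = w then 1 else 0)
  exact ⟨ε, by rw [hε, if_pos rfl], fun w' h => by rw [hε, if_neg h]⟩

theorem DVHyp.isUnit_of_pr (H : DVHyp R pr π) (x : R.O) (hx : ∀ w, pr w (R.red x) ≠ 0) :
    IsUnit x := by
  apply R.isUnit_of_red
  obtain ⟨y, hy⟩ := H.exists_lift (fun w => (pr w (R.red x))⁻¹)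
  refine IsUnit.of_mul_eq_one (R.red y) ?_
  apply H.bij.1
  funext w
  simp only [map_mul, map_one, hy]
  exact mul_inv_cancel₀ (hx w)

/-- the valuation ring `O_w` -/
def DVO (R : RedG A resK F Φ) (pr : Ω → Φ →+* κ) (w : Ω) : Subring F where
  carrier := {x | ∃ a b : R.O, pr w (R.red b) = 1 ∧ x * ((b : R.O) : F) = ((a : R.O) : F)}
  mul_mem' := by
    rintro x y ⟨a, b, hb, hx⟩ ⟨a', b', hb', hy⟩
    refine ⟨a * a', b * b', by rw [map_mul, map_mul, hb, hb', one_mul], ?_⟩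
    rw [Subring.coe_mul, Subring.coe_mul, ← hx, ← hy]
    ring
  one_mem' := ⟨1, 1, by simp, by simp⟩
  add_mem' := by
    rintro x y ⟨a, b, hb, hx⟩ ⟨a', b', hb', hy⟩
    refine ⟨a * b' + a' * b, b * b', by rw [map_mul, map_mul, hb, hb', one_mul], ?_⟩
    rw [Subring.coe_add, Subring.coe_mul, Subring.coe_mul, Subring.coe_mul, ← hx, ← hy]
    ring
  zero_mem' := ⟨0, 1, by simp, by simp⟩
  neg_mem' := by
    rintro x ⟨a, b, hb, hx⟩
    refine ⟨-a, b, hb, ?_⟩
    rw [Subring.coe_neg, ← hx]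
    ring

theorem mem_DVO {w : Ω} {x : F} :
    x ∈ DVO R pr w ↔
      ∃ a b : R.O, pr w (R.red b) = 1 ∧ x * ((b : R.O) : F) = ((a : R.O) : F) := Iff.rfl

/-- the residue map, as a function -/
noncomputable def DVredFun (R : RedG A resK F Φ) (pr : Ω → Φ →+* κ) (w : Ω) (x : DVO R pr w) : κ :=
  pr w (R.red x.2.choose)

theorem DVredFun_eq {w : Ω} (x : DVO R pr w) (a b : R.O) (hb : pr w (R.red b) = 1)
    (hx : (x : F) * ((b : R.O) : F) = ((a : R.O) : F)) : DVredFun R pr w x = pr w (R.red a) := by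
  obtain ⟨b', hb', hx'⟩ := x.2.choose_spec
  have h1 : x.2.choose * b = a * b' := by
    apply Subtype.ext
    rw [Subring.coe_mul, Subring.coe_mul, ← hx', ← hx]
    ring
  have h2 := congrArg (fun z => pr w (R.red z)) h1
  simp only [map_mul, hb, hb', mul_one] at h2
  exact h2

/-- the residue map of `O_w` -/
noncomputable def DVred (R : RedG A resK F Φ) (pr : Ω → Φ →+* κ) (w : Ω) : DVO R pr w →+* κ where
  toFun := DVredFun R pr w
  map_one' := by
    rw [DVredFun_eq (1 : DVO R pr w) 1 1 (by simp) (by simp)]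
    simp
  map_mul' := by
    rintro ⟨x, a, b, hb, hx⟩ ⟨y, a', b', hb', hy⟩
    rw [DVredFun_eq ⟨x, a, b, hb, hx⟩ a b hb hx, DVredFun_eq ⟨y, a', b', hb', hy⟩ a' b' hb' hy,
      DVredFun_eq _ (a * a') (b * b') (by rw [map_mul, map_mul, hb, hb', one_mul]) (by
        change x * y * _ = _
        rw [Subring.coe_mul, Subring.coe_mul, ← hx, ← hy]
        ring), map_mul, map_mul]
  map_zero' := by
    rw [DVredFun_eq (0 : DVO R pr w) 0 1 (by simp) (by simp)]
    simp
  map_add' := by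
    rintro ⟨x, a, b, hb, hx⟩ ⟨y, a', b', hb', hy⟩
    rw [DVredFun_eq ⟨x, a, b, hb, hx⟩ a b hb hx, DVredFun_eq ⟨y, a', b', hb', hy⟩ a' b' hb' hy,
      DVredFun_eq _ (a * b' + a' * b) (b * b') (by rw [map_mul, map_mul, hb, hb', one_mul]) (by
        change (x + y) * _ = _
        rw [Subring.coe_add, Subring.coe_mul, Subring.coe_mul, Subring.coe_mul, ← hx, ← hy]
        ring), map_add, map_add, map_mul, map_mul, map_mul, map_mul, hb, hb', mul_one, mul_one]

theorem DVred_eq {w : Ω} (x : DVO R pr w) (a b : R.O) (hb : pr w (R.red b) = 1)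
    (hx : (x : F) * ((b : R.O) : F) = ((a : R.O) : F)) : DVred R pr w x = pr w (R.red a) :=
  DVredFun_eq x a b hb hx

theorem coe_mem_DVO (w : Ω) (x : R.O) : ((x : R.O) : F) ∈ DVO R pr w :=
  ⟨x, 1, by simp, by simp⟩

theorem DVred_coe (w : Ω) (x : R.O) (h : ((x : R.O) : F) ∈ DVO R pr w) :
    DVred R pr w ⟨_, h⟩ = pr w (R.red x) :=
  DVred_eq _ x 1 (by simp) (by simp)

theorem DVHyp.algπ_ne (H : DVHyp R pr π) : algebraMap K F (π : K) ≠ 0 := by
  rw [Ne, map_eq_zero]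
  exact fun h => H.π_ne (Subtype.ext h)

theorem DVHyp.red_eq_zero_iff (H : DVHyp R pr π) (w : Ω) (x : DVO R pr w) :
    DVred R pr w x = 0 ↔ (x : F) * (algebraMap K F (π : K))⁻¹ ∈ DVO R pr w := by
  classical
  have hπ := H.algπ_ne
  constructor
  · intro h0
    obtain ⟨a, b, hb, hx⟩ := x.2
    rw [DVred_eq x a b hb hx] at h0
    obtain ⟨ε, hε1, hε0⟩ := H.exists_idem w
    have h1 : R.red (ε * a) = 0 := by
      apply H.red_eq_zero_of_pr
      intro w'
      by_cases hw : w' = w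
      · rw [hw, map_mul, map_mul, h0, mul_zero]
      · rw [map_mul, map_mul, hε0 w' hw, zero_mul]
    obtain ⟨z, hz⟩ := H.exists_of_red_eq_zero _ h1
    refine ⟨z, ε * b, by rw [map_mul, map_mul, hε1, hb, one_mul], ?_⟩
    have h2 : ((ε : R.O) : F) * ((a : R.O) : F) = algebraMap K F (π : K) * ((z : R.O) : F) :=
      congrArg Subtype.val hz
    rw [Subring.coe_mul]
    calc (x : F) * (algebraMap K F (π : K))⁻¹ * (((ε : R.O) : F) * ((b : R.O) : F))
        = (algebraMap K F (π : K))⁻¹ * (((ε : R.O) : F) * ((x : F) * ((b : R.O) : F))) := by ring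
      _ = ((z : R.O) : F) := by rw [hx, h2, ← mul_assoc, inv_mul_cancel₀ hπ, one_mul]
  · rintro ⟨a, b, hb, hx⟩
    rw [DVred_eq x (R.const π * a) b hb (by
      rw [Subring.coe_mul, R.coe_const, ← hx]
      field_simp), H.red_const_π_mul, map_zero]

/-- **(DV)** the discrete valuation attached to the component `w` -/
noncomputable def DVHyp.dv (H : DVHyp R pr π) (w : Ω) : DVal F κ where
  O := DVO R pr w
  red := DVred R pr w
  π := algebraMap K F (π : K)
  π_ne := H.algπ_ne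
  π_mem := coe_mem_DVO w (R.const π)
  red_eq_zero_iff := H.red_eq_zero_iff w

@[simp] theorem DVHyp.dv_π (H : DVHyp R pr π) (w : Ω) : (H.dv w).π = algebraMap K F (π : K) := rfl

theorem DVHyp.coe_mem_dv_O (H : DVHyp R pr π) (w : Ω) (x : R.O) : ((x : R.O) : F) ∈ (H.dv w).O :=
  coe_mem_DVO w x

/-- (2) compatibility of the residue maps -/
theorem DVHyp.dv_red_coe (H : DVHyp R pr π) (w : Ω) (x : R.O)
    (h : ((x : R.O) : F) ∈ (H.dv w).O) : (H.dv w).red ⟨_, h⟩ = pr w (R.red x) :=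
  DVred_coe w x h

/-- (4) fractions -/
theorem DVHyp.mem_dv_O_iff (H : DVHyp R pr π) (w : Ω) (x : F) :
    x ∈ (H.dv w).O ↔
      ∃ a b : R.O, pr w (R.red b) ≠ 0 ∧ x * ((b : R.O) : F) = ((a : R.O) : F) := by
  constructor
  · rintro ⟨a, b, hb, hx⟩
    exact ⟨a, b, by rw [hb]; exact one_ne_zero, hx⟩
  · rintro ⟨a, b, hb, hx⟩
    obtain ⟨c, hc⟩ := H.exists_lift (fun w' => (pr w' (R.red b))⁻¹)
    refine ⟨a * c, b * c, by rw [map_mul, map_mul, hc, mul_inv_cancel₀ hb], ?_⟩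
    rw [Subring.coe_mul, Subring.coe_mul, ← hx]
    ring

theorem DVHyp.dv_red_eq_div (H : DVHyp R pr π) (w : Ω) (x : F) (h : x ∈ (H.dv w).O) (a b : R.O)
    (hb : pr w (R.red b) ≠ 0) (hx : x * ((b : R.O) : F) = ((a : R.O) : F)) :
    (H.dv w).red ⟨x, h⟩ = pr w (R.red a) / pr w (R.red b) := by
  obtain ⟨c, hc⟩ := H.exists_lift (fun w' => (pr w' (R.red b))⁻¹)
  have h1 : DVred R pr w ⟨x, h⟩ = pr w (R.red (a * c)) :=
    DVred_eq ⟨x, h⟩ (a * c) (b * c) (by rw [map_mul, map_mul, hc, mul_inv_cancel₀ hb]) (by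
      rw [Subring.coe_mul, Subring.coe_mul, ← hx]
      ring)
  change DVred R pr w ⟨x, h⟩ = _
  rw [h1, map_mul, map_mul, hc, div_eq_mul_inv]

/-- (1) `O = ⋂ O_w` -/
theorem DVHyp.mem_O_iff (H : DVHyp R pr π) (x : F) : x ∈ R.O ↔ ∀ w, x ∈ (H.dv w).O := by
  classical
  constructor
  · intro hx w
    exact H.coe_mem_dv_O w ⟨x, hx⟩
  · intro hx
    choose a b hb hab using hx
    choose ε hε1 hε0 using fun w => H.exists_idem w
    have hpr : ∀ (f : Ω → R.O) (w : Ω), pr w (R.red (∑ w', ε w' * f w')) = pr w (R.red (f w)) := by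
      intro f w
      rw [map_sum, map_sum, Finset.sum_eq_single w]
      · rw [map_mul, map_mul, hε1, one_mul]
      · intro w' _ hw'
        rw [map_mul, map_mul, hε0 w' w (Ne.symm hw'), zero_mul]
      · intro h
        exact absurd (Finset.mem_univ _) h
    have hu : IsUnit (∑ w', ε w' * b w') := by
      apply H.isUnit_of_pr
      intro w
      rw [hpr, hb]
      exact one_ne_zero
    obtain ⟨u, hu⟩ := hu
    have h1 : x * ((∑ w', ε w' * b w' : R.O) : F) = ((∑ w', ε w' * a w' : R.O) : F) := by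
      have e1 : ((∑ w', ε w' * b w' : R.O) : F) = ∑ w', ((ε w' * b w' : R.O) : F) :=
        map_sum R.O.subtype _ _
      have e2 : ((∑ w', ε w' * a w' : R.O) : F) = ∑ w', ((ε w' * a w' : R.O) : F) :=
        map_sum R.O.subtype _ _
      rw [e1, e2, Finset.mul_sum]
      refine Finset.sum_congr rfl fun w' _ => ?_
      rw [Subring.coe_mul, Subring.coe_mul, ← hab w']
      ring
    have h2 : x = (((∑ w', ε w' * a w') * ((u⁻¹ : (R.O)ˣ) : R.O) : R.O) : F) := by
      rw [Subring.coe_mul, ← h1, ← hu, mul_assoc, ← Subring.coe_mul, Units.mul_inv,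
        Subring.coe_one, mul_one]
    rw [h2]
    exact Subtype.property _

/-- (3) `ker red = {x | ∀ w, v_w x ≥ 1}` -/
theorem DVHyp.red_eq_zero_iff_ge (H : DVHyp R pr π) (x : R.O) :
    R.red x = 0 ↔ ∀ w, (H.dv w).ge 1 ((x : R.O) : F) := by
  constructor
  · intro hx w
    obtain ⟨y, rfl⟩ := H.exists_of_red_eq_zero x hx
    unfold DVal.ge
    rw [pow_one, Subring.coe_mul, R.coe_const, H.dv_π, mul_comm, ← mul_assoc,
      inv_mul_cancel₀ H.algπ_ne, one_mul]
    exact H.coe_mem_dv_O w y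
  · intro hx
    apply H.red_eq_zero_of_pr
    intro w
    have h1 := hx w
    unfold DVal.ge at h1
    rw [pow_one] at h1
    rw [← H.dv_red_coe w x (H.coe_mem_dv_O w x)]
    exact ((H.dv w).red_eq_zero_iff _).2 h1

/-- units of `O_w` -/
theorem DVHyp.inv_mem_of_red_ne_zero (H : DVHyp R pr π) (w : Ω) (x : (H.dv w).O)
    (hx : (H.dv w).red x ≠ 0) : ((x : (H.dv w).O) : F)⁻¹ ∈ (H.dv w).O := by
  obtain ⟨a, b, hb, hab⟩ := x.2
  have h1 : (H.dv w).red x = pr w (R.red a) := DVred_eq x a b hb hab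
  rw [h1] at hx
  have hx0 : ((x : (H.dv w).O) : F) ≠ 0 := by
    intro h0
    rw [h0, zero_mul] at hab
    apply hx
    have : a = 0 := Subtype.ext hab.symm
    rw [this, map_zero, map_zero]
  rw [H.mem_dv_O_iff]
  refine ⟨b, a, hx, ?_⟩
  rw [← hab, ← mul_assoc, inv_mul_cancel₀ hx0, one_mul]

theorem DVHyp.π_inv_not_mem (H : DVHyp R pr π) (w : Ω) :
    (algebraMap K F (π : K))⁻¹ ∉ (H.dv w).O := by
  intro h
  have h1 : (H.dv w).red 1 = 0 := by
    rw [(H.dv w).red_eq_zero_iff]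
    simpa using h
  rw [map_one] at h1
  exact one_ne_zero h1

/-- every function is `π ^ (-N)` times an integral function (`A` archimedean) -/
theorem DVHyp.exists_pow_mul_mem (_H : DVHyp R pr π)
    (harch : ∀ c : K, ∃ N : ℕ, c * (π : K) ^ N ∈ A) (x : F) :
    ∃ N : ℕ, x * algebraMap K F (π : K) ^ N ∈ R.O := by
  by_cases hx : x = 0
  · exact ⟨0, by rw [hx, zero_mul]; exact R.O.zero_mem⟩
  obtain ⟨c, -, y, -, hxy⟩ := R.exists_scale x hx
  obtain ⟨N, hN⟩ := harch c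
  refine ⟨N, ?_⟩
  have h1 : x * algebraMap K F (π : K) ^ N = ((R.const ⟨_, hN⟩ * y : R.O) : F) := by
    rw [Subring.coe_mul, R.coe_const, hxy, map_mul, map_pow]
    ring
  rw [h1]
  exact Subtype.property _

/-- **(DISC)** the valuations `v_w` are separated -/
theorem DVHyp.exists_not_ge (H : DVHyp R pr π)
    (harch : ∀ c : K, ∃ N : ℕ, c * (π : K) ^ N ∈ A) (w : Ω) (x : F) (hx : x ≠ 0) :
    ∃ m : ℕ, ¬ (H.dv w).ge m x := by
  obtain ⟨N, hN⟩ := H.exists_pow_mul_mem harch x⁻¹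
  refine ⟨N + 1, fun h => H.π_inv_not_mem w ?_⟩
  unfold DVal.ge at h
  have h1 := (H.dv w).O.mul_mem h (H.coe_mem_dv_O w ⟨_, hN⟩)
  have hπ := H.algπ_ne
  have h2 : x * (H.dv w).π⁻¹ ^ (N + 1) * (x⁻¹ * algebraMap K F (π : K) ^ N) =
      (algebraMap K F (π : K))⁻¹ := by
    rw [H.dv_π, pow_succ, inv_pow]
    field_simp
  rwa [h2] at h1

/-- the valuation of a nonzero element of `O_w` -/
theorem DVHyp.exists_lead_ne_zero (H : DVHyp R pr π)
    (harch : ∀ c : K, ∃ N : ℕ, c * (π : K) ^ N ∈ A) (w : Ω) (x : F) (hx : x ≠ 0)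
    (hxO : x ∈ (H.dv w).O) : ∃ μ : ℕ, (H.dv w).ge μ x ∧ (H.dv w).lead μ x ≠ 0 := by
  classical
  have hex := H.exists_not_ge harch w x hx
  have h0 : Nat.find hex ≠ 0 := by
    intro h
    have h1 := Nat.find_spec hex
    rw [h] at h1
    exact h1 (((H.dv w).ge_zero_iff x).2 hxO)
  obtain ⟨μ, hμ⟩ := Nat.exists_eq_succ_of_ne_zero h0
  have h1 : (H.dv w).ge μ x := by
    by_contra hcon
    exact Nat.find_min hex (m := μ) (by omega) hcon
  refine ⟨μ, h1, fun h2 => ?_⟩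
  have h3 := Nat.find_spec hex
  rw [hμ] at h3
  exact h3 (((H.dv w).lead_eq_zero_iff h1).1 h2)

theorem DVHyp.ge_π_pow (H : DVHyp R pr π) (w : Ω) (n : ℕ) :
    (H.dv w).ge n (algebraMap K F (π : K) ^ n) := by
  unfold DVal.ge
  rw [H.dv_π, ← mul_pow, mul_inv_cancel₀ H.algπ_ne, one_pow]
  exact (H.dv w).O.one_mem

theorem DVHyp.lead_π_pow (H : DVHyp R pr π) (w : Ω) (n : ℕ) :
    (H.dv w).lead n (algebraMap K F (π : K) ^ n) = 1 := by
  rw [(H.dv w).lead_of_ge (H.ge_π_pow w n), ← map_one (H.dv w).red]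
  congr 1
  apply Subtype.ext
  change algebraMap K F (π : K) ^ n * (H.dv w).π⁻¹ ^ n = 1
  rw [H.dv_π, ← mul_pow, mul_inv_cancel₀ H.algπ_ne, one_pow]

/-- **weak approximation**: prescribed valuations (with leading terms `1`) on all components -/
theorem DVHyp.exists_approx (H : DVHyp R pr π) (b : Ω → ℕ) :
    ∃ t : R.O, ∀ w, (H.dv w).ge (b w) ((t : R.O) : F) ∧ (H.dv w).lead (b w) ((t : R.O) : F) = 1 := by
  classical
  choose ε hε1 hε0 using fun w => H.exists_idem w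
  set N : ℕ := (∑ w, b w) + 1 with hN
  have hbN : ∀ w, b w + 1 ≤ N := by
    intro w
    have := Finset.single_le_sum (f := b) (fun i _ => Nat.zero_le _) (Finset.mem_univ w)
    omega
  refine ⟨∑ w, R.const π ^ b w * ε w ^ N, fun w => ?_⟩
  have e1 : ((∑ w, R.const π ^ b w * ε w ^ N : R.O) : F) =
      ∑ w', algebraMap K F (π : K) ^ b w' * ((ε w' : R.O) : F) ^ N := by
    have : ((∑ w, R.const π ^ b w * ε w ^ N : R.O) : F) =
        ∑ w', ((R.const π ^ b w' * ε w' ^ N : R.O) : F) := map_sum R.O.subtype _ _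
    rw [this]
    rfl
  -- the terms `w' ≠ w`
  have hoff : ∀ w', w' ≠ w →
      (H.dv w).ge (b w + 1) (algebraMap K F (π : K) ^ b w' * ((ε w' : R.O) : F) ^ N) := by
    intro w' hw'
    have h1 : (H.dv w).ge 1 ((ε w' : R.O) : F) := by
      have h2 : (H.dv w).lead 0 ((ε w' : R.O) : F) = 0 := by
        rw [(H.dv w).lead_zero_eq (H.coe_mem_dv_O w _), H.dv_red_coe, hε0 w' w (Ne.symm hw')]
      exact ((H.dv w).lead_eq_zero_iff (((H.dv w).ge_zero_iff _).2 (H.coe_mem_dv_O w _))).1 h2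
    have h3 := (H.dv w).ge_pow h1 N
    rw [mul_one] at h3
    have h4 := (H.dv w).ge_mul_left
      ((H.dv w).O.pow_mem (H.coe_mem_dv_O w (R.const π)) (b w')) h3
    exact (H.dv w).ge_mono (hbN w) h4
  have hrest : (H.dv w).ge (b w + 1) (∑ w' ∈ Finset.univ.erase w,
      algebraMap K F (π : K) ^ b w' * ((ε w' : R.O) : F) ^ N) := by
    have : ∀ s : Finset Ω, w ∉ s → (H.dv w).ge (b w + 1) (∑ w' ∈ s,
        algebraMap K F (π : K) ^ b w' * ((ε w' : R.O) : F) ^ N) := by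
      intro s
      induction s using Finset.induction_on with
      | empty => intro _; rw [Finset.sum_empty]; exact (H.dv w).ge_zero' _
      | insert a s ha ih =>
        intro hw
        rw [Finset.sum_insert ha]
        rw [Finset.mem_insert, not_or] at hw
        exact (H.dv w).ge_add (hoff a (Ne.symm hw.1)) (ih hw.2)
    exact this _ (Finset.notMem_erase _ _)
  -- the term `w`
  have hε : (H.dv w).ge 0 (((ε w : R.O) : F) ^ N) :=
    ((H.dv w).ge_zero_iff _).2 ((H.dv w).O.pow_mem (H.coe_mem_dv_O w _) N)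
  have hmain := (H.dv w).ge_mul (H.ge_π_pow w (b w)) hε
  have hlead : (H.dv w).lead (b w + 0)
      (algebraMap K F (π : K) ^ b w * ((ε w : R.O) : F) ^ N) = 1 := by
    rw [(H.dv w).lead_mul (H.ge_π_pow w (b w)) hε, H.lead_π_pow, one_mul]
    have h5 := (H.dv w).lead_pow (((H.dv w).ge_zero_iff _).2 (H.coe_mem_dv_O w (ε w))) N
    rw [mul_zero] at h5
    rw [h5, (H.dv w).lead_zero_eq (H.coe_mem_dv_O w _), H.dv_red_coe, hε1, one_pow]
  rw [add_zero] at hmain hlead
  rw [e1, ← Finset.add_sum_erase _ _ (Finset.mem_univ w)]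
  have hrest' := (H.dv w).ge_succ hrest
  refine ⟨(H.dv w).ge_add hmain hrest', ?_⟩
  rw [(H.dv w).lead_add hmain hrest', hlead, ((H.dv w).lead_eq_zero_iff hrest').2 hrest, add_zero]

end DV

end Fermat.Agent.S40Lib
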