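import Fermat.Agent.S40.Cov.DescDefs
import Fermat.Agent.S40.Cov.Dv
import Fermat.Agent.S40.Cov.ShDefs
import Fermat.Agent.S40.BLX.RedG0
import Fermat.Agent.S36.Inst.ResK0

/-!
# S40 / S44, COV: the interface `CovY` between the block (Y) (construction of the cover) and the
assembly `cov_main`

`E = covE (p M) η`, `E₀ = covE0 A E`.  `CovY` = the generator `g` of `Gal(E / F)`, a reduction datum
`RE` on `E` over `Qb` and a reduction datum `RE0` on `E₀` over `K0 A`, both with target
`(κ × κ)^(ZMod p)`, compatible with each other, with `R` on `F`, and with `g` (shift of the sheets).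
-/

set_option autoImplicit false
set_option synthInstance.maxHeartbeats 400000

open AlgebraicCurve ModularCurve Polynomial

namespace Fermat.Agent.S40Lib

open Fermat.Agent.S18Lib Fermat.Agent.S24Lib Fermat.Agent.ESLib Fermat.Agent.S34Lib
  Fermat.Agent.S33Lib Fermat.Agent.S36Lib Fermat.Agent.FFLib

noncomputable section

/-- the `2 p` projections of `(κ × κ)^(ZMod p)`; `(c, false)` = sheet `c` over the branch `∞`,
`(c, true)` = sheet `c` over the branch `0` -/
def prY (p : ℕ) (κ : Type*) [Field κ] (w : ZMod p × Bool) : (ZMod p → κ × κ) →+* κ :=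
  (if w.2 then RingHom.snd κ κ else RingHom.fst κ κ).comp (Pi.evalRingHom (fun _ => κ × κ) w.1)

theorem prY_false (p : ℕ) (κ : Type*) [Field κ] (c : ZMod p) (φ : ZMod p → κ × κ) :
    prY p κ (c, false) φ = (φ c).1 := rfl

theorem prY_true (p : ℕ) (κ : Type*) [Field κ] (c : ZMod p) (φ : ZMod p → κ × κ) :
    prY p κ (c, true) φ = (φ c).2 := rfl

theorem prY_bijective (p : ℕ) (κ : Type*) [Field κ] :
    Function.Bijective (fun (φ : ZMod p → κ × κ) (w : ZMod p × Bool) => prY p κ w φ) := by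
  constructor
  · intro φ ψ h
    funext c
    exact Prod.ext (congrFun h (c, false)) (congrFun h (c, true))
  · intro f
    exact ⟨fun c => (f (c, false), f (c, true)), by
      funext w
      obtain ⟨c, b⟩ := w
      cases b <;> rfl⟩

section G0

variable {A : ValuationSubring Qb} {N : ℕ} {η : LaurentSeries Qb} {ζ : Qb}
  {g : covE N η ≃ₐ[FB N] covE N η}

theorem IsCovGen.map_mem (h : IsCovGen A N η ζ g) (z : covE0 A (covE N η)) :
    g (z : covE N η) ∈ covE0 A (covE N η) := by
  rw [mem_covE0, mem_K0S]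
  intro σ hσ
  rw [← h.comm σ hσ (z : covE N η)]
  congr 2
  exact Subtype.ext (mem_K0S.1 (mem_covE0.1 z.2) σ hσ)

theorem IsCovGen.symm_mem (h : IsCovGen A N η ζ g) (z : covE0 A (covE N η)) :
    g.symm (z : covE N η) ∈ covE0 A (covE N η) := by
  rw [mem_covE0, mem_K0S]
  intro σ hσ
  have h1 := h.comm σ hσ (g.symm (z : covE N η))
  rw [AlgEquiv.apply_symm_apply, mem_K0S.1 (mem_covE0.1 z.2) σ hσ] at h1
  have h2 : g ⟨coeffMap ((σ : GQ) : Qb →+* Qb) ((g.symm (z : covE N η) : covE N η) :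
      LaurentSeries Qb), h.stable σ hσ _ (g.symm (z : covE N η)).2⟩ = (z : covE N η) :=
    Subtype.ext h1
  have h3 := congrArg g.symm h2
  rw [AlgEquiv.symm_apply_apply] at h3
  exact congrArg (fun w : covE N η => (w : LaurentSeries Qb)) h3

/-- the restriction of `g` to `E₀` -/
def covG0 (h : IsCovGen A N η ζ g) : covE0 A (covE N η) ≃+* covE0 A (covE N η) where
  toFun z := ⟨g (z : covE N η), h.map_mem z⟩
  invFun z := ⟨g.symm (z : covE N η), h.symm_mem z⟩
  left_inv z := by
    apply Subtype.ext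
    simp
  right_inv z := by
    apply Subtype.ext
    simp
  map_mul' a b := by
    apply Subtype.ext
    simp
  map_add' a b := by
    apply Subtype.ext
    simp

theorem coe_covG0 (h : IsCovGen A N η ζ g) (z : covE0 A (covE N η)) :
    ((covG0 h z : covE0 A (covE N η)) : covE N η) = g (z : covE N η) := rfl

theorem coe_covG0_symm (h : IsCovGen A N η ζ g) (z : covE0 A (covE N η)) :
    (((covG0 h).symm z : covE0 A (covE N η)) : covE N η) = g.symm (z : covE N η) := rfl

end G0

/-- **the output of the block (Y)** -/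
structure CovY (M p : ℕ) [NeZero M] [NeZero p] (A : ValuationSubring Qb)
    (R : RedG A (IsLocalRing.residue A) (FB (p * M)) (FT A M × FT A M))
    (η : LaurentSeries Qb) (ζ : Qb) where
  /-- the generator `η ↦ ζ η` -/
  g : covE (p * M) η ≃ₐ[FB (p * M)] covE (p * M) η
  gen : IsCovGen A (p * M) η ζ g
  /-- the reduction datum of `E` over `Qb` -/
  RE : RedG A (IsLocalRing.residue A) (covE (p * M) η) (ZMod p → FT A M × FT A M)
  /-- the reduction datum of `E₀` over `K0 A` -/
  RE0 : RedG (A0 A) (resK0 A) (covE0 A (covE (p * M) η)) (ZMod p → FT A M × FT A M)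
  mem0 : ∀ z : covE0 A (covE (p * M) η), z ∈ RE0.O ↔ (z : covE (p * M) η) ∈ RE.O
  red0 : ∀ (z : RE0.O) (h : (((z : RE0.O) : covE0 A (covE (p * M) η)) : covE (p * M) η) ∈ RE.O),
    RE.red ⟨_, h⟩ = RE0.red z
  memF : ∀ f : R.O, algebraMap (FB (p * M)) (covE (p * M) η) ((f : R.O) : FB (p * M)) ∈ RE.O
  redF : ∀ (f : R.O) (c : ZMod p), RE.red ⟨_, memF f⟩ c = R.red f
  /-- the shift of the sheets -/
  m : ZMod p
  m_ne : m ≠ 0
  g_mem : ∀ z : covE (p * M) η, z ∈ RE.O → g z ∈ RE.O
  g_mem' : ∀ z : covE (p * M) η, z ∈ RE.O → g.symm z ∈ RE.O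
  g_red : ∀ (z : RE.O) (c : ZMod p), RE.red ⟨g (z : covE (p * M) η), g_mem _ z.2⟩ c =
    RE.red z (c + m)

section

variable {M p : ℕ} [NeZero M] [NeZero p] [hpF : Fact p.Prime] {A : ValuationSubring Qb}
  {R : RedG A (IsLocalRing.residue A) (FB (p * M)) (FT A M × FT A M)}
  {η : LaurentSeries Qb} {ζ : Qb}

/-- the hypotheses of (DV) for `RE0` -/
theorem CovY.hyp (Y : CovY M p A R η ζ) (hA : A.LiesOverPrime p) :
    DVHyp Y.RE0 (prY p (FT A M)) ((p : ℕ) : A0 A) where
  hres := resK0_surjective A hpF.out hA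
  bij := prY_bijective p (FT A M)
  π_ne := by exact_mod_cast hpF.out.ne_zero
  res_π := (resK0_eq_zero_iff A hpF.out hA _).2 dvd_rfl
  dvd := fun a ha => (resK0_eq_zero_iff A hpF.out hA a).1 ha

/-- the `2 p` sheets -/
def CovY.dv (Y : CovY M p A R η ζ) (hA : A.LiesOverPrime p) (w : ZMod p × Bool) :
    DVal (covE0 A (covE (p * M) η)) (FT A M) :=
  (Y.hyp hA).dv w

/-- the restriction of `g` to `E₀` -/
def CovY.g0 (Y : CovY M p A R η ζ) :
    covE0 A (covE (p * M) η) ≃+* covE0 A (covE (p * M) η) := covG0 Y.gen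

end

/-- regularity on `X`: poles only at the cusps, of order `≤ a (j)_∞` -/
def RegX (A : ValuationSubring Qb) (M p : ℕ) [NeZero M] [NeZero p] (a : ℕ) (c : F0 A (p * M)) :
    Prop :=
  iotaF0 A _ c ∈ riemannRochSpace (maE Qb (iotaF0 A _ (xF02 A M p)) a 0)

/-- regularity on the cover: the coefficients of the characteristic polynomial are regular -/
def RegE (A : ValuationSubring Qb) (M p : ℕ) [NeZero M] [NeZero p] (η : LaurentSeries Qb)
    (g0 : covE0 A (covE (p * M) η) ≃+* covE0 A (covE (p * M) η)) (a : ℕ)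
    (G : covE0 A (covE (p * M) η)) : Prop :=
  ∃ Q : (F0 A (p * M))[X], IsCharPoly Q (fun j : ZMod p => (g0 ^ j.val) G) ∧
    ∀ i : ℕ, 1 ≤ i → i ≤ p → RegX A M p (i * a) (Q.coeff (p - i))

end

end Fermat.Agent.S40Lib
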