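import Fermat.Agent.S40.Cov.DescCfg
import Fermat.Agent.S40.Cov.UspConj

/-!
# S40 / S44, COV (DESC): (C1) `exists_of_mem_covSp`, (DS9) `IsDesc.mul`
-/

set_option autoImplicit false
set_option synthInstance.maxHeartbeats 400000
set_option linter.unusedSectionVars false

open AlgebraicCurve ModularCurve Polynomial IntermediateField

namespace Fermat.Agent.S40Lib

open Fermat.Agent.S18Lib Fermat.Agent.S24Lib Fermat.Agent.ESLib Fermat.Agent.S34Lib
  Fermat.Agent.S33Lib Fermat.Agent.S36Lib Fermat.Agent.FFLib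

noncomputable section

section Desc

variable {A : ValuationSubring Qb} {N p : ℕ} [NeZero N] [hpF : Fact p.Prime] {x y : FB N}
  {φ η : LaurentSeries Qb} {Dx Dy : Divisor Qb (FB N)}

/-- (C1) -/
theorem exists_of_mem_covSp (n : ℕ) (S : LaurentSeries Qb) (hS : S ∈ covSp N p φ η Dx Dy n) :
    ∃ t : covE N η, S = φ * (t : LaurentSeries Qb) := by
  obtain ⟨s, _, rfl⟩ := USP_mem_covSp hS
  refine ⟨USP_t η s, ?_⟩
  rw [USP_coe_t, Finset.mul_sum]
  refine Finset.sum_congr rfl fun i _ => ?_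
  rw [mul_assoc]

/-- (DS9) change of `S₀` -/
theorem IsDesc.mul {S₀ : LaurentSeries Qb} {u : covE0 A (covE N η)} (hS : IsDesc A N p φ η S₀ u)
    (t : covE0 A (covE N η)) (ht : t ≠ 0) :
    IsDesc A N p φ η (S₀ * ((t : covE N η) : LaurentSeries Qb)) (u * t ^ p) where
  ne := by
    refine mul_ne_zero hS.ne ?_
    intro h0
    apply ht
    apply Subtype.ext
    apply Subtype.ext
    exact h0
  fix := (K0S A).mul_mem hS.fix (mem_covE0.mp t.2)
  ex := by
    obtain ⟨t₀, ht₀⟩ := hS.ex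
    refine ⟨t₀ * (t : covE N η), ?_⟩
    rw [ht₀, mul_assoc]
    rfl
  hu := by
    rw [mul_pow, ← hS.hu]
    rfl

end Desc

end

end Fermat.Agent.S40Lib
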