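import Fermat.Agent.S40.Cov.CovY

/-!
# S40 / S44, COV: `DescCfg`, `IsDesc`, `IsShift` (definitions for DESC / RK / USP / NORM)
-/

set_option autoImplicit false
set_option synthInstance.maxHeartbeats 400000

open AlgebraicCurve ModularCurve Polynomial

namespace Fermat.Agent.S40Lib

open Fermat.Agent.S18Lib Fermat.Agent.S24Lib Fermat.Agent.ESLib Fermat.Agent.S34Lib
  Fermat.Agent.S33Lib Fermat.Agent.S36Lib Fermat.Agent.FFLib

noncomputable section

/-- the Kummer data of (DESC): `φ^p = x`, `η^p = y`, `div x = p Dx`, `div y = p Dy`, the classes of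
`y` and of `x` mod `y` are stable under inertia -/
structure DescCfg (A : ValuationSubring Qb) (N p : ℕ) [NeZero N] (x y : FB N)
    (φ η : LaurentSeries Qb) (Dx Dy : Divisor Qb (FB N)) : Prop where
  x0 : x ≠ 0
  y0 : y ≠ 0
  hφ : φ ^ p = (x : LaurentSeries Qb)
  hη : η ^ p = (y : LaurentSeries Qb)
  hDx : ∀ v : Place Qb (FB N), v.ord x = p * Dx v
  hDy : ∀ v : Place Qb (FB N), v.ord y = p * Dy v
  yne : ¬ ∃ g : FB N, y = g ^ p
  galy : ∀ σ ∈ A.inertiaSubgroupIn ℚ, ∃ (j : ℕ) (g : FB N), gal N σ y = g ^ p * y ^ j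
  galx : ∀ σ ∈ A.inertiaSubgroupIn ℚ, ∃ (j : ℕ) (g : FB N), gal N σ x = g ^ p * x * y ^ j

/-- `S₀ = φ t₀` (`t₀ ∈ E`) has coefficients in `K0 A`, and `u = S₀^p = x t₀^p ∈ E₀` -/
structure IsDesc (A : ValuationSubring Qb) (N p : ℕ) (φ η S₀ : LaurentSeries Qb)
    (u : covE0 A (covE N η)) : Prop where
  ne : S₀ ≠ 0
  fix : S₀ ∈ K0S A
  ex : ∃ t₀ : covE N η, S₀ = φ * (t₀ : LaurentSeries Qb)
  hu : ((u : covE N η) : LaurentSeries Qb) = S₀ ^ p

section Abs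

variable {K k F Φ κ Ω : Type*} [Field K] [Field k] [Field F] [Algebra K F] [CommRing Φ]
  [Algebra k Φ] [Field κ] [Fintype Ω]
  {A : ValuationSubring K} {resK : A →+* k} {R : RedG A resK F Φ} {pr : Ω → Φ →+* κ} {π : A}

/-- the automorphism `g0` of `F / K` permutes the sheets: `v_w ∘ g0 = v_(s w)` -/
structure IsShift (H : DVHyp R pr π) (g0 : F ≃+* F) (s : Ω → Ω) : Prop where
  const : ∀ c : K, g0 (algebraMap K F c) = algebraMap K F c
  mem : ∀ (w : Ω) (z : F), g0 z ∈ (H.dv w).O ↔ z ∈ (H.dv (s w)).O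
  red : ∀ (w : Ω) (z : F) (h : g0 z ∈ (H.dv w).O) (h' : z ∈ (H.dv (s w)).O),
    (H.dv w).red ⟨_, h⟩ = (H.dv (s w)).red ⟨_, h'⟩

end Abs

end

end Fermat.Agent.S40Lib
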