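import Fermat.Agent.S40.TopDefs
import Fermat.Agent.S36.Inst.Defs

/-!
# S40 / S44, COV, block (DESC) + (RK) + (USP): definitions

Everything lives inside `LaurentSeries Qb`; inertia acts on the coefficients.

* `K0S A` : the subfield of the series with coefficients in the inertia field `K0 A`
* `twW N Dx Dy n i = L(n (j)_∞ + Dx + i Dy)`  (`div x = p Dx`, `div y = p Dy`)
* `mulL c : FB N →ₗ[Qb] LaurentSeries Qb`, `f ↦ c * f`
* `covSp N p φ η Dx Dy n = ∑_{i < p} φ η^i L(n (j)_∞ + Dx + i Dy)`  (`φ^p = x`, `η^p = y`)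
* `covE0 A E` : the inertia-fixed elements of an intermediate field `E`, a `K0 A`-algebra
* `covU A E S₀ V = {z ∈ E₀ | z S₀ ∈ V}`
-/

set_option autoImplicit false
set_option synthInstance.maxHeartbeats 400000

open AlgebraicCurve ModularCurve

namespace Fermat.Agent.S40Lib

open Fermat.Agent.S18Lib Fermat.Agent.S24Lib Fermat.Agent.ESLib Fermat.Agent.S34Lib
  Fermat.Agent.S33Lib Fermat.Agent.S36Lib Fermat.Agent.FFLib

noncomputable section

/-- the series with coefficients in the inertia field -/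
def K0S (A : ValuationSubring Qb) : Subfield (LaurentSeries Qb) where
  carrier := {S | ∀ σ ∈ A.inertiaSubgroupIn ℚ, coeffMap ((σ : GQ) : Qb →+* Qb) S = S}
  mul_mem' := fun {a b} ha hb σ hσ => by rw [map_mul, ha σ hσ, hb σ hσ]
  one_mem' := fun σ _ => map_one _
  add_mem' := fun {a b} ha hb σ hσ => by rw [map_add, ha σ hσ, hb σ hσ]
  zero_mem' := fun σ _ => map_zero _
  neg_mem' := fun {a} ha σ hσ => by rw [map_neg, ha σ hσ]
  inv_mem' := fun a ha σ hσ => by rw [map_inv₀, ha σ hσ]

theorem mem_K0S {A : ValuationSubring Qb} {S : LaurentSeries Qb} :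
    S ∈ K0S A ↔ ∀ σ ∈ A.inertiaSubgroupIn ℚ, coeffMap ((σ : GQ) : Qb →+* Qb) S = S := Iff.rfl

/-- `L(n (j)_∞ + Dx + i Dy)` -/
def twW (N : ℕ) [NeZero N] (Dx Dy : Divisor Qb (FB N)) (n i : ℕ) : Submodule Qb (FB N) :=
  riemannRochSpace (maE Qb (JF N 1 (one_dvd _)) n 0 + Dx + i • Dy)

theorem smul_LS (a : Qb) (z : LaurentSeries Qb) :
    a • z = algebraMap Qb (LaurentSeries Qb) a * z := by
  rw [← HahnSeries.single_zero_mul_eq_smul, ← algebraMap_laurentSeries_eq_single]

/-- multiplication by a series -/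
def mulL (N : ℕ) (c : LaurentSeries Qb) : FB N →ₗ[Qb] LaurentSeries Qb where
  toFun f := c * (f : LaurentSeries Qb)
  map_add' f g := by
    show c * ((f : LaurentSeries Qb) + g) = _
    rw [mul_add]
  map_smul' a f := by
    rw [Algebra.smul_def, RingHom.id_apply, smul_LS]
    show c * (algebraMap Qb (LaurentSeries Qb) a * (f : LaurentSeries Qb)) = _
    ring

theorem mulL_apply (N : ℕ) (c : LaurentSeries Qb) (f : FB N) :
    mulL N c f = c * (f : LaurentSeries Qb) := rfl

/-- `∑_{i < p} φ η^i L(n (j)_∞ + Dx + i Dy)` -/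
def covSp (N p : ℕ) [NeZero N] (φ η : LaurentSeries Qb) (Dx Dy : Divisor Qb (FB N)) (n : ℕ) :
    Submodule Qb (LaurentSeries Qb) :=
  ⨆ i : Fin p, (twW N Dx Dy n i).map (mulL N (φ * η ^ (i : ℕ)))

/-- the inertia-fixed elements of `E` -/
def covE0 (A : ValuationSubring Qb) (E : IntermediateField Qb (LaurentSeries Qb)) : Subfield E :=
  (K0S A).comap (algebraMap E (LaurentSeries Qb))

theorem mem_covE0 {A : ValuationSubring Qb} {E : IntermediateField Qb (LaurentSeries Qb)} {z : E} :
    z ∈ covE0 A E ↔ (z : LaurentSeries Qb) ∈ K0S A := Iff.rfl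

theorem algebraMap_mem_K0S (A : ValuationSubring Qb) (c : K0 A) :
    algebraMap Qb (LaurentSeries Qb) (c : Qb) ∈ K0S A := by
  intro σ hσ
  rw [coeffMap_algebraMap]
  congr 1
  exact mem_K0_iff.1 c.2 σ hσ

/-- `K0 A → covE0 A E` -/
def constE0 (A : ValuationSubring Qb) (E : IntermediateField Qb (LaurentSeries Qb)) :
    K0 A →+* covE0 A E where
  toFun c := ⟨algebraMap Qb E (c : Qb), algebraMap_mem_K0S A c⟩
  map_one' := by apply Subtype.ext; simp
  map_mul' := fun a b => by apply Subtype.ext; simp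
  map_zero' := by apply Subtype.ext; simp
  map_add' := fun a b => by apply Subtype.ext; simp

instance algebraE0 (A : ValuationSubring Qb) (E : IntermediateField Qb (LaurentSeries Qb)) :
    Algebra (K0 A) (covE0 A E) :=
  (constE0 A E).toAlgebra

theorem coe_algebraMap_E0 (A : ValuationSubring Qb) (E : IntermediateField Qb (LaurentSeries Qb))
    (c : K0 A) : ((algebraMap (K0 A) (covE0 A E) c : covE0 A E) : E) = algebraMap Qb E (c : Qb) :=
  rfl

/-- `{z ∈ E₀ | z S₀ ∈ V}` -/
def covU (A : ValuationSubring Qb) (E : IntermediateField Qb (LaurentSeries Qb))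
    (S₀ : LaurentSeries Qb) (V : Submodule Qb (LaurentSeries Qb)) :
    Submodule (K0 A) (covE0 A E) where
  carrier := {z | ((z : E) : LaurentSeries Qb) * S₀ ∈ V}
  zero_mem' := by simp
  add_mem' := by
    intro a b ha hb
    simp only [Set.mem_ofPred_eq] at *
    have : (((a + b : covE0 A E) : E) : LaurentSeries Qb) * S₀ =
        ((a : E) : LaurentSeries Qb) * S₀ + ((b : E) : LaurentSeries Qb) * S₀ := by
      push_cast
      ring
    rw [this]
    exact V.add_mem ha hb
  smul_mem' := by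
    intro c a ha
    simp only [Set.mem_ofPred_eq] at *
    have : (((c • a : covE0 A E) : E) : LaurentSeries Qb) * S₀ =
        (c : Qb) • (((a : E) : LaurentSeries Qb) * S₀) := by
      rw [Algebra.smul_def, smul_LS]
      push_cast
      rw [coe_algebraMap_E0, mul_assoc]
      rfl
    rw [this]
    exact V.smul_mem _ ha

theorem mem_covU {A : ValuationSubring Qb} {E : IntermediateField Qb (LaurentSeries Qb)}
    {S₀ : LaurentSeries Qb} {V : Submodule Qb (LaurentSeries Qb)} {z : covE0 A E} :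
    z ∈ covU A E S₀ V ↔ ((z : E) : LaurentSeries Qb) * S₀ ∈ V := Iff.rfl

/-! ### the field `E = F(η)` -/

/-- the field `E = F(η)`, `F = FB N`, inside the Laurent series -/
def covE (N : ℕ) (η : LaurentSeries Qb) : IntermediateField Qb (LaurentSeries Qb) :=
  FB N ⊔ IntermediateField.adjoin Qb {η}

theorem FB_le_covE (N : ℕ) (η : LaurentSeries Qb) : FB N ≤ covE N η := le_sup_left

theorem eta_mem_covE (N : ℕ) (η : LaurentSeries Qb) : η ∈ covE N η :=
  (le_sup_right : IntermediateField.adjoin Qb {η} ≤ covE N η)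
    (IntermediateField.mem_adjoin_simple_self Qb η)

/-- `η` as an element of `E` -/
def etaE (N : ℕ) (η : LaurentSeries Qb) : covE N η := ⟨η, eta_mem_covE N η⟩

/-- `F → E` -/
def inclE (N : ℕ) (η : LaurentSeries Qb) : FB N →ₐ[Qb] covE N η :=
  IntermediateField.inclusion (FB_le_covE N η)

theorem coe_inclE (N : ℕ) (η : LaurentSeries Qb) (f : FB N) :
    ((inclE N η f : covE N η) : LaurentSeries Qb) = (f : LaurentSeries Qb) :=
  IntermediateField.coe_inclusion (FB_le_covE N η) f

instance algebraFE (N : ℕ) (η : LaurentSeries Qb) : Algebra (FB N) (covE N η) :=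
  (inclE N η).toRingHom.toAlgebra

theorem algebraMap_FE (N : ℕ) (η : LaurentSeries Qb) (f : FB N) :
    algebraMap (FB N) (covE N η) f = inclE N η f := by
  with_reducible_and_instances rfl

theorem coe_algebraMap_FE (N : ℕ) (η : LaurentSeries Qb) (f : FB N) :
    ((algebraMap (FB N) (covE N η) f : covE N η) : LaurentSeries Qb) = (f : LaurentSeries Qb) := by
  rw [algebraMap_FE, coe_inclE]

instance isScalarTower_FE (N : ℕ) (η : LaurentSeries Qb) : IsScalarTower Qb (FB N) (covE N η) :=
  IsScalarTower.of_algebraMap_eq (fun c => by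
    rw [algebraMap_FE]
    exact ((inclE N η).commutes c).symm)

theorem coe_mem_K0S_iff {A : ValuationSubring Qb} {N : ℕ} (f : FB N) :
    (f : LaurentSeries Qb) ∈ K0S A ↔ IsFix A N f := by
  constructor
  · intro h σ hσ
    apply Subtype.ext
    rw [coe_gal]
    exact h σ hσ
  · intro h σ hσ
    have := congrArg (fun z : FB N => (z : LaurentSeries Qb)) (h σ hσ)
    simpa using this

/-- `F₀ → E₀` -/
def inclE0 (A : ValuationSubring Qb) (N : ℕ) (η : LaurentSeries Qb) :
    F0 A N →+* covE0 A (covE N η) where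
  toFun f := ⟨inclE N η (f : FB N), (coe_mem_K0S_iff (f : FB N)).2 (mem_F0.1 f.2)⟩
  map_one' := by apply Subtype.ext; simp
  map_mul' := fun a b => by apply Subtype.ext; simp
  map_zero' := by apply Subtype.ext; simp
  map_add' := fun a b => by apply Subtype.ext; simp

theorem coe_inclE0 (A : ValuationSubring Qb) (N : ℕ) (η : LaurentSeries Qb) (f : F0 A N) :
    ((inclE0 A N η f : covE0 A (covE N η)) : covE N η) = inclE N η (f : FB N) := rfl

instance algebraF0E0 (A : ValuationSubring Qb) (N : ℕ) (η : LaurentSeries Qb) :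
    Algebra (F0 A N) (covE0 A (covE N η)) :=
  (inclE0 A N η).toAlgebra

theorem algebraMap_F0E0 (A : ValuationSubring Qb) (N : ℕ) (η : LaurentSeries Qb) (f : F0 A N) :
    ((algebraMap (F0 A N) (covE0 A (covE N η)) f : covE0 A (covE N η)) : covE N η) =
      inclE N η (f : FB N) := by
  have h : algebraMap (F0 A N) (covE0 A (covE N η)) f = inclE0 A N η f := by
    with_reducible_and_instances rfl
  rw [h, coe_inclE0]

theorem coe_algebraMap_F0E0 (A : ValuationSubring Qb) (N : ℕ) (η : LaurentSeries Qb) (f : F0 A N) :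
    (((algebraMap (F0 A N) (covE0 A (covE N η)) f : covE0 A (covE N η)) : covE N η) :
      LaurentSeries Qb) = ((f : FB N) : LaurentSeries Qb) := by
  rw [algebraMap_F0E0, coe_inclE]

instance isScalarTower_F0E0 (A : ValuationSubring Qb) (N : ℕ) (η : LaurentSeries Qb) :
    IsScalarTower (K0 A) (F0 A N) (covE0 A (covE N η)) :=
  IsScalarTower.of_algebraMap_eq (fun c => by
    apply Subtype.ext
    rw [algebraMap_F0E0, coe_algebraMap_E0, coe_algebraMap_F0]
    exact ((inclE N η).commutes (c : Qb)).symm)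

/-- `g` is the generator `η ↦ ζ η` of `Gal(E / F)`; inertia preserves `E` and commutes with `g` -/
structure IsCovGen (A : ValuationSubring Qb) (N : ℕ) (η : LaurentSeries Qb) (ζ : Qb)
    (g : covE N η ≃ₐ[FB N] covE N η) : Prop where
  eta : g (etaE N η) = algebraMap Qb (covE N η) ζ * etaE N η
  stable : ∀ σ ∈ A.inertiaSubgroupIn ℚ, ∀ z ∈ covE N η,
    coeffMap ((σ : GQ) : Qb →+* Qb) z ∈ covE N η
  comm : ∀ (σ : GQ) (hσ : σ ∈ A.inertiaSubgroupIn ℚ) (z : covE N η),
    ((g ⟨coeffMap ((σ : GQ) : Qb →+* Qb) (z : LaurentSeries Qb), stable σ hσ z z.2⟩ : covE N η) :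
      LaurentSeries Qb) = coeffMap ((σ : GQ) : Qb →+* Qb) ((g z : covE N η) : LaurentSeries Qb)

end

end Fermat.Agent.S40Lib
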