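import Fermat.Agent.S19.BC_Orth
import Fermat.Agent.S34.RedSp

/-!
# S40 (COV), abstract lemma (ET): étale extension of a reduction datum

`R : RedG A resK F Φ`, `F' = F[θ]` of degree `n`, `θ` a root of a monic `P0 ∈ O[T]` of degree `n`
whose reduction is `∏_c (T - τ c)` with `τ c - τ c'` a unit for `c ≠ c'`.  Then `O' = O[θ]` with
`red' (∑ a_i θ^i) = (∑ red (a_i) (τ c)^i)_c` is a `RedG A resK F' (Fin n → Φ)`.
-/

set_option autoImplicit false
set_option linter.unusedSectionVars false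

open Polynomial Matrix Fermat.Agent.S18Lib Fermat.Agent.S34Lib Fermat.Agent.S19Lib

namespace Fermat.Agent.S40Lib

section ET

variable {K k F Φ F' : Type*} [Field K] [Field k] [Field F] [Algebra K F] [CommRing Φ]
  [Algebra k Φ] [Field F'] [Algebra F F'] [Algebra K F'] [IsScalarTower K F F']
  {A : ValuationSubring K} {resK : A →+* k}

/-- the hypotheses of (ET) -/
structure ETHyp (R : RedG A resK F Φ) (n : ℕ) (θ : F') (τ : Fin n → Φ) (P0 : R.O[X]) : Prop where
  finrank_eq : Module.finrank F F' = n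
  li : LinearIndependent F (fun i : Fin n => θ ^ (i : ℕ))
  monic : P0.Monic
  natDegree_eq : P0.natDegree = n
  root : P0.eval₂ ((algebraMap F F').comp R.O.subtype) θ = 0
  map_eq : P0.map R.red = ∏ c, (X - C (τ c))
  unit : ∀ c c', c ≠ c' → IsUnit (τ c - τ c')

/-- Vandermonde: injectivity -/
theorem ET_vand_inj {n : ℕ} {τ : Fin n → Φ} (hτ : ∀ c c', c ≠ c' → IsUnit (τ c - τ c'))
    (v : Fin n → Φ) (hv : ∀ c, ∑ i : Fin n, v i * τ c ^ (i : ℕ) = 0) : v = 0 := by
  have hdet : IsUnit (Matrix.vandermonde τ).det := by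
    rw [Matrix.det_vandermonde]
    refine IsUnit.prod_univ_iff.2 fun i => ?_
    refine (IsUnit.prod_iff).2 fun j hj => hτ _ _ ?_
    rw [Finset.mem_Ioi] at hj
    exact (ne_of_gt hj)
  have hu : IsUnit (Matrix.vandermonde τ) := (Matrix.isUnit_iff_isUnit_det _).2 hdet
  apply Matrix.mulVec_injective_of_isUnit hu
  rw [Matrix.mulVec_zero]
  funext c
  rw [Matrix.mulVec, dotProduct, Pi.zero_apply, ← hv c]
  refine Finset.sum_congr rfl fun i _ => ?_
  rw [Matrix.vandermonde_apply, mul_comm]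

/-- Vandermonde: surjectivity -/
theorem ET_vand_surj {n : ℕ} {τ : Fin n → Φ} (hτ : ∀ c c', c ≠ c' → IsUnit (τ c - τ c'))
    (y : Fin n → Φ) : ∃ v : Fin n → Φ, ∀ c, ∑ i : Fin n, v i * τ c ^ (i : ℕ) = y c := by
  have hdet : IsUnit (Matrix.vandermonde τ).det := by
    rw [Matrix.det_vandermonde]
    refine IsUnit.prod_univ_iff.2 fun i => ?_
    refine (IsUnit.prod_iff).2 fun j hj => hτ _ _ ?_
    rw [Finset.mem_Ioi] at hj
    exact (ne_of_gt hj)
  have hv : Matrix.vandermonde τ *ᵥ ((Matrix.vandermonde τ)⁻¹ *ᵥ y) = y := by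
    rw [Matrix.mulVec_mulVec, Matrix.mul_nonsing_inv _ hdet, Matrix.one_mulVec]
  refine ⟨(Matrix.vandermonde τ)⁻¹ *ᵥ y, fun c => ?_⟩
  conv_rhs => rw [← hv]
  rw [Matrix.mulVec, dotProduct]
  refine Finset.sum_congr rfl fun i _ => ?_
  rw [Matrix.vandermonde_apply, mul_comm]

/-- `O → F'` -/
def ETι (F' : Type*) [Field F'] [Algebra F F'] (R : RedG A resK F Φ) : R.O →+* F' :=
  (algebraMap F F').comp R.O.subtype

theorem ETι_apply (R : RedG A resK F Φ) (x : R.O) :
    ETι F' R x = algebraMap F F' ((x : R.O) : F) := rfl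

/-- `O[T] → F'`, `T ↦ θ` -/
noncomputable def ETφ (R : RedG A resK F Φ) (θ : F') : R.O[X] →+* F' :=
  eval₂RingHom (ETι F' R) θ

/-- `O[T] → Φ^n`, `T ↦ τ` -/
noncomputable def ETψ (R : RedG A resK F Φ) {n : ℕ} (τ : Fin n → Φ) : R.O[X] →+* (Fin n → Φ) :=
  RingHom.pi fun c => eval₂RingHom R.red (τ c)

/-- the polynomial with given coefficients -/
noncomputable def ETpol (R : RedG A resK F Φ) {n : ℕ} (a : Fin n → R.O) : R.O[X] :=
  ∑ i : Fin n, C (a i) * X ^ (i : ℕ)

theorem ETφ_pol (R : RedG A resK F Φ) (θ : F') {n : ℕ} (a : Fin n → R.O) :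
    ETφ R θ (ETpol R a) = ∑ i : Fin n, algebraMap F F' ((a i : R.O) : F) * θ ^ (i : ℕ) := by
  rw [ETpol, map_sum]
  refine Finset.sum_congr rfl fun i _ => ?_
  rw [ETφ, coe_eval₂RingHom, eval₂_mul, eval₂_C, eval₂_pow, eval₂_X, ETι_apply]

theorem ETψ_pol (R : RedG A resK F Φ) {n : ℕ} (τ : Fin n → Φ) (a : Fin n → R.O) (c : Fin n) :
    ETψ R τ (ETpol R a) c = ∑ i : Fin n, R.red (a i) * τ c ^ (i : ℕ) := by
  rw [ETpol, map_sum, Finset.sum_apply]
  refine Finset.sum_congr rfl fun i _ => ?_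
  rw [ETψ, RingHom.pi_apply, coe_eval₂RingHom, eval₂_mul, eval₂_C, eval₂_pow, eval₂_X]

/-- a polynomial of degree `< n` is an `ETpol` -/
theorem ETH_eq_pol (R : RedG A resK F Φ) {n : ℕ} (f : R.O[X]) (hf : f.degree < n) :
    f = ETpol R (fun i : Fin n => f.coeff i) := by
  rw [ETpol, Fin.sum_univ_eq_sum_range (fun i => C (f.coeff i) * X ^ i) n]
  ext j
  rw [finsetSum_coeff]
  simp only [coeff_C_mul_X_pow]
  rw [Finset.sum_ite_eq]
  split_ifs with h
  · rfl
  · rw [Finset.mem_range, not_lt] at h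
    rw [coeff_eq_zero_of_degree_lt (lt_of_lt_of_le hf (by exact_mod_cast h))]

variable {R : RedG A resK F Φ} {n : ℕ} {θ : F'} {τ : Fin n → Φ} {P0 : R.O[X]}

theorem ETHyp.pos (H : ETHyp R n θ τ P0) : 0 < n := by
  rcases Nat.eq_zero_or_pos n with h | h
  · exfalso
    have h1 : P0 = 1 := H.monic.natDegree_eq_zero.1 (H.natDegree_eq.trans h)
    have h2 := H.root
    rw [h1, eval₂_one] at h2
    exact one_ne_zero h2
  · exact h

theorem ETHyp.φ_P0 (H : ETHyp R n θ τ P0) : ETφ R θ P0 = 0 := H.root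

theorem ETHyp.ψ_P0 (H : ETHyp R n θ τ P0) : ETψ R τ P0 = 0 := by
  funext c
  rw [ETψ, RingHom.pi_apply, coe_eval₂RingHom, ← eval_map, H.map_eq, eval_prod, Pi.zero_apply]
  exact Finset.prod_eq_zero (Finset.mem_univ c) (by simp)

/-- uniqueness of coordinates -/
theorem ETHyp.coord_unique (H : ETHyp R n θ τ P0) (a b : Fin n → F)
    (h : ∑ i : Fin n, algebraMap F F' (a i) * θ ^ (i : ℕ) =
      ∑ i : Fin n, algebraMap F F' (b i) * θ ^ (i : ℕ)) : a = b := by
  have h1 : ∑ i : Fin n, (a i - b i) • θ ^ (i : ℕ) = 0 := by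
    simp only [Algebra.smul_def, map_sub, sub_mul, Finset.sum_sub_distrib]
    rw [h, sub_self]
  have h2 := Fintype.linearIndependent_iff.1 H.li _ h1
  funext i
  exact sub_eq_zero.1 (h2 i)

/-- existence of coordinates -/
theorem ETHyp.exists_coord (H : ETHyp R n θ τ P0) (x : F') :
    ∃ a : Fin n → F, x = ∑ i : Fin n, algebraMap F F' (a i) * θ ^ (i : ℕ) := by
  have hfd : FiniteDimensional F F' :=
    Module.finite_of_finrank_pos (by rw [H.finrank_eq]; exact H.pos)
  have hsp := H.li.span_eq_top_of_card_eq_finrank' (by rw [Fintype.card_fin, H.finrank_eq])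
  have hx : x ∈ Submodule.span F (Set.range fun i : Fin n => θ ^ (i : ℕ)) := by
    rw [hsp]; trivial
  obtain ⟨a, ha⟩ := (Submodule.mem_span_range_iff_exists_fun F).1 hx
  refine ⟨a, ?_⟩
  rw [← ha]
  exact Finset.sum_congr rfl fun i _ => Algebra.smul_def _ _

theorem ETHyp.pol_eq_zero (H : ETHyp R n θ τ P0) (a : Fin n → R.O)
    (h : ETφ R θ (ETpol R a) = 0) : a = 0 := by
  rw [ETφ_pol] at h
  have h1 := H.coord_unique (fun i => ((a i : R.O) : F)) (fun _ => 0) (by simpa using h)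
  funext i
  exact Subtype.ext (congrFun h1 i)

/-- every polynomial is congruent to an `ETpol` -/
theorem ETHyp.exists_pol (H : ETHyp R n θ τ P0) (f : R.O[X]) :
    ∃ (a : Fin n → R.O) (q : R.O[X]), f = ETpol R a + P0 * q := by
  have h1 : (f %ₘ P0).degree < n := by
    have := degree_modByMonic_lt f H.monic
    rwa [degree_eq_natDegree H.monic.ne_zero, H.natDegree_eq] at this
  refine ⟨fun i : Fin n => (f %ₘ P0).coeff i, f /ₘ P0, ?_⟩
  rw [← ETH_eq_pol R _ h1, modByMonic_add_div]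

theorem ETHyp.ker_le (H : ETHyp R n θ τ P0) (f : R.O[X]) (hf : ETφ R θ f = 0) :
    ETψ R τ f = 0 := by
  obtain ⟨a, q, rfl⟩ := H.exists_pol f
  rw [map_add, map_mul, H.φ_P0, zero_mul, add_zero] at hf
  rw [H.pol_eq_zero a hf, map_add, map_mul, H.ψ_P0, zero_mul, add_zero]
  have : ETpol R (0 : Fin n → R.O) = 0 := by simp [ETpol]
  rw [this, map_zero]

/-- `O' = O[θ]` -/
noncomputable def ETO (R : RedG A resK F Φ) (θ : F') : Subring F' := (ETφ R θ).range

/-- `O[T] → O'` -/
noncomputable def ETπ (R : RedG A resK F Φ) (θ : F') : R.O[X] →+* ETO R θ :=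
  (ETφ R θ).rangeRestrict

theorem ETπ_surjective (R : RedG A resK F Φ) (θ : F') : Function.Surjective (ETπ R θ) :=
  (ETφ R θ).rangeRestrict_surjective

theorem coe_ETπ (R : RedG A resK F Φ) (θ : F') (f : R.O[X]) :
    ((ETπ R θ f : ETO R θ) : F') = ETφ R θ f := rfl

/-- the reduction map of `O'` -/
noncomputable def ETHyp.red (H : ETHyp R n θ τ P0) : ETO R θ →+* (Fin n → Φ) :=
  (ETπ R θ).liftOfSurjective (ETπ_surjective R θ) ⟨ETψ R τ, fun f hf => by
    rw [RingHom.mem_ker] at hf ⊢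
    exact H.ker_le f (congrArg Subtype.val hf)⟩

theorem ETHyp.red_π (H : ETHyp R n θ τ P0) (f : R.O[X]) : H.red (ETπ R θ f) = ETψ R τ f :=
  RingHom.liftOfRightInverse_comp_apply _ _ _ _ _

theorem ETHyp.π_P0 (H : ETHyp R n θ τ P0) : ETπ R θ P0 = 0 := Subtype.ext H.φ_P0

theorem ETHyp.exists_rep (H : ETHyp R n θ τ P0) (x : ETO R θ) :
    ∃ a : Fin n → R.O, x = ETπ R θ (ETpol R a) := by
  obtain ⟨f, rfl⟩ := ETπ_surjective R θ x
  obtain ⟨a, q, rfl⟩ := H.exists_pol f
  exact ⟨a, by rw [map_add, map_mul, H.π_P0, zero_mul, add_zero]⟩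

theorem ETHyp.red_pol (H : ETHyp R n θ τ P0) (a : Fin n → R.O) (c : Fin n) :
    H.red (ETπ R θ (ETpol R a)) c = ∑ i : Fin n, R.red (a i) * τ c ^ (i : ℕ) := by
  rw [H.red_π, ETψ_pol]

theorem ETHyp.red_pol_eq_zero (H : ETHyp R n θ τ P0) (a : Fin n → R.O)
    (h : H.red (ETπ R θ (ETpol R a)) = 0) (i : Fin n) : R.red (a i) = 0 := by
  have h1 := ET_vand_inj H.unit (fun i => R.red (a i)) (fun c => by
    rw [← H.red_pol, h, Pi.zero_apply])
  exact congrFun h1 i

theorem ETHyp.red_surjective (H : ETHyp R n θ τ P0) : Function.Surjective H.red := by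
  intro y
  obtain ⟨v, hv⟩ := ET_vand_surj H.unit y
  choose a ha using fun i => R.red_surjective (v i)
  refine ⟨ETπ R θ (ETpol R a), ?_⟩
  funext c
  rw [H.red_pol, ← hv c]
  simp only [ha]

theorem mem_ETO_iff (H : ETHyp R n θ τ P0) (x : F') :
    x ∈ ETO R θ ↔
      ∃ a : Fin n → R.O, x = ∑ i : Fin n, algebraMap F F' ((a i : R.O) : F) * θ ^ (i : ℕ) := by
  constructor
  · intro hx
    obtain ⟨a, ha⟩ := H.exists_rep ⟨x, hx⟩
    refine ⟨a, ?_⟩
    rw [← ETφ_pol, ← coe_ETπ, ← ha]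
  · rintro ⟨a, rfl⟩
    rw [← ETφ_pol]
    exact ⟨_, rfl⟩

/-- `O → O'` -/
noncomputable def ETj (R : RedG A resK F Φ) (θ : F') : R.O →+* ETO R θ := (ETπ R θ).comp C

theorem coe_ETj (R : RedG A resK F Φ) (θ : F') (x : R.O) :
    ((ETj R θ x : ETO R θ) : F') = algebraMap F F' ((x : R.O) : F) := by
  rw [ETj, RingHom.comp_apply, coe_ETπ, ETφ, coe_eval₂RingHom, eval₂_C, ETι_apply]

theorem ETHyp.red_j (H : ETHyp R n θ τ P0) (x : R.O) : H.red (ETj R θ x) = fun _ => R.red x := by
  rw [ETj, RingHom.comp_apply, H.red_π]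
  funext c
  rw [ETψ, RingHom.pi_apply, coe_eval₂RingHom, eval₂_C]

theorem ETHyp.isIntegral_j (H : ETHyp R n θ τ P0) : (ETj R θ).IsIntegral := by
  intro x
  obtain ⟨f, rfl⟩ := ETπ_surjective R θ x
  have hX : (ETj R θ).IsIntegralElem (ETπ R θ X) := by
    refine ⟨P0, H.monic, ?_⟩
    rw [ETj, ← hom_eval₂, eval₂_C_X, H.π_P0]
  have hXm : ∀ m : ℕ, (ETj R θ).IsIntegralElem (ETπ R θ X ^ m) := by
    intro m
    induction m with
    | zero =>
      rw [pow_zero, ← map_one (ETj R θ)]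
      exact (ETj R θ).isIntegralElem_map
    | succ m ih =>
      rw [pow_succ]
      exact ih.mul _ hX
  induction f using Polynomial.induction_on' with
  | add p q hp hq =>
    rw [map_add]
    exact hp.add _ hq
  | monomial m a =>
    rw [← C_mul_X_pow_eq_monomial, map_mul, map_pow]
    exact RingHom.IsIntegralElem.mul _ (ETj R θ).isIntegralElem_map (hXm m)

theorem ETHyp.isUnit_of_red_eq_one (H : ETHyp R n θ τ P0) (w : ETO R θ) (hw : H.red w = 1) :
    IsUnit w := by
  by_contra hnu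
  obtain ⟨M, hM, hwM⟩ := exists_max_ideal_of_mem_nonunits hnu
  have hm : (M.comap (ETj R θ)).IsMaximal :=
    Ideal.isMaximal_comap_of_isIntegral_of_isMaximal' _ H.isIntegral_j M
  have hker : ∀ a : R.O, R.red a = 0 → ETj R θ a ∈ M := by
    intro a ha
    by_contra hna
    obtain ⟨y, i, hi, hyi⟩ := hm.exists_inv (x := a) hna
    have h1 : R.red i = 1 := by
      have := congrArg R.red hyi
      rwa [map_add, map_mul, ha, mul_zero, zero_add, map_one] at this
    have h2 : IsUnit i := R.isUnit_of_red i (by rw [h1]; exact isUnit_one)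
    exact hm.ne_top (Ideal.eq_top_of_isUnit_mem _ hi h2)
  obtain ⟨a, ha⟩ := H.exists_rep (w - 1)
  have h0 : H.red (ETπ R θ (ETpol R a)) = 0 := by rw [← ha, map_sub, hw, map_one, sub_self]
  have h1 : w - 1 ∈ M := by
    rw [ha, ETpol, map_sum]
    refine M.sum_mem fun i _ => ?_
    rw [map_mul]
    exact M.mul_mem_right _ (hker _ (H.red_pol_eq_zero a h0 i))
  apply hM.ne_top
  rw [Ideal.eq_top_iff_one]
  have := M.sub_mem hwM h1
  simpa using this

theorem ETHyp.isUnit_of_red (H : ETHyp R n θ τ P0) (x : ETO R θ) (hx : IsUnit (H.red x)) :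
    IsUnit x := by
  obtain ⟨u, hu⟩ := hx
  obtain ⟨y, hy⟩ := H.red_surjective ((u⁻¹ : (Fin n → Φ)ˣ) : Fin n → Φ)
  have h1 : IsUnit (x * y) := H.isUnit_of_red_eq_one _ (by rw [map_mul, hy, ← hu, Units.mul_inv])
  exact isUnit_of_mul_isUnit_left h1

theorem ETHyp.algebraMap_mem_iff (H : ETHyp R n θ τ P0) (a : K) :
    algebraMap K F' a ∈ ETO R θ ↔ a ∈ A := by
  constructor
  · intro h
    obtain ⟨b, hb⟩ := (mem_ETO_iff H _).1 h
    have h1 := H.coord_unique (fun i : Fin n => if (i : ℕ) = 0 then algebraMap K F a else 0)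
      (fun i => ((b i : R.O) : F)) (by
        rw [← hb, Finset.sum_eq_single (⟨0, H.pos⟩ : Fin n)]
        · simp [← IsScalarTower.algebraMap_apply]
        · intro i _ hi
          have : (i : ℕ) ≠ 0 := fun h => hi (Fin.ext h)
          simp [this]
        · intro h
          exact absurd (Finset.mem_univ _) h)
    have h2 := congrFun h1 ⟨0, H.pos⟩
    simp only [if_true] at h2
    rw [← R.algebraMap_mem_iff, h2]
    exact (b _).2
  · intro h
    have : algebraMap K F' a = ((ETj R θ (R.const ⟨a, h⟩) : ETO R θ) : F') := by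
      rw [coe_ETj, R.coe_const, ← IsScalarTower.algebraMap_apply]
    rw [this]
    exact (ETj R θ _).2

theorem ETHyp.red_algebraMap (H : ETHyp R n θ τ P0) (a : A)
    (h : algebraMap K F' (a : K) ∈ ETO R θ) :
    H.red ⟨algebraMap K F' (a : K), h⟩ = algebraMap k (Fin n → Φ) (resK a) := by
  have : (⟨algebraMap K F' (a : K), h⟩ : ETO R θ) = ETj R θ (R.const a) := by
    apply Subtype.ext
    rw [coe_ETj, R.coe_const, ← IsScalarTower.algebraMap_apply]
  rw [this, H.red_j, R.red_const]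
  rfl

theorem ETHyp.exists_scale (H : ETHyp R n θ τ P0) (x : F') (hx : x ≠ 0) :
    ∃ c : K, c ≠ 0 ∧ ∃ y : ETO R θ, H.red y ≠ 0 ∧ x = algebraMap K F' c * ((y : ETO R θ) : F') := by
  classical
  obtain ⟨a, ha⟩ := H.exists_coord x
  have h1 : ∀ i, ∃ (c : K) (y : R.O), (a i = 0 → c = 0) ∧ (a i ≠ 0 → c ≠ 0 ∧ R.red y ≠ 0) ∧
      a i = algebraMap K F c * ((y : R.O) : F) := by
    intro i
    by_cases hi : a i = 0
    · exact ⟨0, 0, fun _ => rfl, fun h => absurd hi h, by rw [hi]; simp⟩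
    · obtain ⟨c, hc, y, hy, hcy⟩ := R.exists_scale (a i) hi
      exact ⟨c, y, fun h => absurd h hi, fun _ => ⟨hc, hy⟩, hcy⟩
  choose c y hc0 hcy hay using h1
  obtain ⟨i1, hi1⟩ : ∃ i, a i ≠ 0 := by
    by_contra hcon
    push Not at hcon
    apply hx
    rw [ha]
    exact Finset.sum_eq_zero fun i _ => by rw [hcon i, map_zero, zero_mul]
  obtain ⟨i0, -, hi0, hall⟩ := exists_scale_finset A Finset.univ c
    ⟨i1, Finset.mem_univ _, (hcy i1 hi1).1⟩
  set b : Fin n → R.O := fun i => R.const ⟨c i / c i0, hall i (Finset.mem_univ _)⟩ * y i with hb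
  have hab : ∀ i, a i = algebraMap K F (c i0) * ((b i : R.O) : F) := by
    intro i
    rw [hay i, hb]
    change _ = algebraMap K F (c i0) * (algebraMap K F (c i / c i0) * ((y i : R.O) : F))
    rw [← mul_assoc, ← map_mul, mul_div_cancel₀ _ hi0]
  have hai0 : a i0 ≠ 0 := fun h => hi0 (hc0 i0 h)
  refine ⟨c i0, hi0, ETπ R θ (ETpol R b), ?_, ?_⟩
  · intro h
    have h2 := H.red_pol_eq_zero b h i0
    rw [hb, map_mul, R.red_const] at h2
    have h3 : (⟨c i0 / c i0, hall i0 (Finset.mem_univ _)⟩ : A) = 1 := Subtype.ext (div_self hi0)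
    rw [h3, map_one, map_one, one_mul] at h2
    exact (hcy i0 hai0).2 h2
  · rw [coe_ETπ, ETφ_pol, ha, Finset.mul_sum]
    refine Finset.sum_congr rfl fun i _ => ?_
    rw [hab i, map_mul, ← IsScalarTower.algebraMap_apply, mul_assoc]

/-- an orthonormal basis of the span of a finite family, with coordinates -/
theorem ETH_exists_orth_span (R : RedG A resK F Φ) {J : Type*} [Finite J] (f : J → F) :
    ∃ (m : ℕ) (b : Fin m → R.O), LinearIndependent k (fun i => R.red (b i)) ∧
      ∀ j, ∃ a : Fin m → K, f j = ∑ i, a i • ((b i : R.O) : F) := by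
  classical
  set U : Submodule K F := Submodule.span K (Set.range f) with hU
  have : FiniteDimensional K U := FiniteDimensional.span_of_finite K (Set.finite_range f)
  obtain ⟨b, hbU, hb⟩ := R.exists_orth U inferInstance
  refine ⟨_, b, hb, fun j => ?_⟩
  have hli := linearIndependent_of_redG R b hb
  have hli' : LinearIndependent K (fun i => (⟨((b i : R.O) : F), hbU i⟩ : U)) :=
    LinearIndependent.of_comp U.subtype hli
  have hspan := hli'.span_eq_top_of_card_eq_finrank' (by simp)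
  have hmem : (⟨f j, Submodule.subset_span ⟨j, rfl⟩⟩ : U) ∈
      Submodule.span K (Set.range fun i => (⟨((b i : R.O) : F), hbU i⟩ : U)) := by
    rw [hspan]; trivial
  obtain ⟨a, ha⟩ := (Submodule.mem_span_range_iff_exists_fun K).1 hmem
  refine ⟨a, ?_⟩
  have := congrArg Subtype.val ha
  simp only [AddSubmonoidClass.coe_finsetSum, Submodule.coe_smul] at this
  exact this.symm

theorem coe_ETπ_X (R : RedG A resK F Φ) (θ : F') : ((ETπ R θ X : ETO R θ) : F') = θ := by
  rw [coe_ETπ, ETφ, coe_eval₂RingHom, eval₂_X]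

theorem ETHyp.red_X (H : ETHyp R n θ τ P0) : H.red (ETπ R θ X) = τ := by
  rw [H.red_π]
  funext c
  rw [ETψ, RingHom.pi_apply, coe_eval₂RingHom, eval₂_X]

/-- the orthonormal family `e_j θ^i` -/
theorem ETHyp.li_family (H : ETHyp R n θ τ P0) {m : ℕ} (e : Fin m → R.O)
    (he : LinearIndependent k (fun j => R.red (e j))) :
    LinearIndependent k (fun s : Fin (m * n) =>
      H.red (ETj R θ (e (finProdFinEquiv.symm s).1) *
        ETπ R θ X ^ ((finProdFinEquiv.symm s).2 : ℕ))) := by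
  rw [Fintype.linearIndependent_iff]
  intro l hl s
  have h1 : ∀ c : Fin n, ∑ i : Fin n,
      (∑ j : Fin m, l (finProdFinEquiv (j, i)) • R.red (e j)) * τ c ^ (i : ℕ) = 0 := by
    intro c
    have h2 := congrFun hl c
    rw [← finProdFinEquiv.sum_comp, Fintype.sum_prod_type_right, Finset.sum_apply,
      Pi.zero_apply] at h2
    rw [← h2]
    refine Finset.sum_congr rfl fun i _ => ?_
    rw [Finset.sum_mul, Finset.sum_apply]
    refine Finset.sum_congr rfl fun j _ => ?_
    rw [Equiv.symm_apply_apply, map_mul, map_pow, H.red_j, H.red_X, Pi.smul_apply, Pi.mul_apply,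
      Pi.pow_apply, smul_mul_assoc]
  have h3 := ET_vand_inj H.unit _ h1
  have h4 := congrFun h3 (finProdFinEquiv.symm s).2
  have h5 := Fintype.linearIndependent_iff.1 he _ h4 (finProdFinEquiv.symm s).1
  rwa [Prod.mk.eta, Equiv.apply_symm_apply] at h5

theorem ETHyp.exists_orth (H : ETHyp R n θ τ P0) (U : Submodule K F')
    (hU : FiniteDimensional K U) :
    ∃ b : Fin (Module.finrank K U) → ETO R θ, (∀ i, ((b i : ETO R θ) : F') ∈ U) ∧
      LinearIndependent k (fun i => H.red (b i)) := by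
  classical
  set r := Module.finrank K U with hr
  let u : Module.Basis (Fin r) K U := Module.finBasis K U
  have hu : LinearIndependent K (fun t => ((u t : U) : F')) :=
    u.linearIndependent.map' U.subtype (Submodule.ker_subtype _)
  choose x hx using fun t => H.exists_coord ((u t : U) : F')
  obtain ⟨m, e, he, hco⟩ := ETH_exists_orth_span R (fun s : Fin r × Fin n => x s.1 s.2)
  choose α hα using hco
  set g : Fin (m * n) → ETO R θ := fun s => ETj R θ (e (finProdFinEquiv.symm s).1) *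
        ETπ R θ X ^ ((finProdFinEquiv.symm s).2 : ℕ) with hg
  have hgli : LinearIndependent k (fun s => H.red (g s)) := H.li_family e he
  set Λ : (Fin (m * n) → K) →ₗ[K] F' :=
    Fintype.linearCombination K (fun s => ((g s : ETO R θ) : F')) with hΛ
  set δ : Fin r → Fin (m * n) → K :=
    fun t s => α (t, (finProdFinEquiv.symm s).2) (finProdFinEquiv.symm s).1 with hδ
  have hΛδ : ∀ t, Λ (δ t) = ((u t : U) : F') := by
    intro t
    rw [hΛ, Fintype.linearCombination_apply, ← finProdFinEquiv.sum_comp,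
      Fintype.sum_prod_type_right, hx t]
    refine Finset.sum_congr rfl fun i _ => ?_
    have h1 := hα (t, i)
    simp only at h1
    rw [h1, map_sum, Finset.sum_mul]
    refine Finset.sum_congr rfl fun j _ => ?_
    simp only [hδ, hg, Equiv.symm_apply_apply]
    rw [Subring.coe_mul, SubmonoidClass.coe_pow, coe_ETj, coe_ETπ_X, Algebra.smul_def,
      Algebra.smul_def, map_mul, ← IsScalarTower.algebraMap_apply, mul_assoc]
  have hδli : LinearIndependent K δ := by
    apply LinearIndependent.of_comp Λ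
    have : Λ ∘ δ = fun t => ((u t : U) : F') := funext hΛδ
    rw [this]
    exact hu
  have hN : Module.finrank K (Submodule.span K (Set.range δ)) = r := by
    rw [finrank_span_eq_card hδli, Fintype.card_fin]
  obtain ⟨w', hw'N, hw'ind⟩ := bc_la_aux (A := A) (resK := resK) (m * n) r _ hN
  have hNU : ∀ v ∈ Submodule.span K (Set.range δ), Λ v ∈ U := by
    intro v hv
    induction hv using Submodule.span_induction with
    | mem x hx =>
      obtain ⟨t, rfl⟩ := hx
      rw [hΛδ]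
      exact (u t).2
    | zero => rw [map_zero]; exact U.zero_mem
    | add x y _ _ hx hy => rw [map_add]; exact U.add_mem hx hy
    | smul c x _ hx => rw [map_smul]; exact U.smul_mem _ hx
  set Λb : (Fin (m * n) → k) →ₗ[k] (Fin n → Φ) :=
    Fintype.linearCombination k (fun s => H.red (g s)) with hΛb
  have hΛbinj : Function.Injective Λb := hgli.fintypeLinearCombination_injective
  refine ⟨fun t => ∑ s, ETj R θ (R.const (w' t s)) * g s, fun t => ?_, ?_⟩
  · have h1 : ((∑ s, ETj R θ (R.const (w' t s)) * g s : ETO R θ) : F') =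
        Λ (fun s => ((w' t s : A) : K)) := by
      rw [hΛ, Fintype.linearCombination_apply]
      have h2 : ((∑ s, ETj R θ (R.const (w' t s)) * g s : ETO R θ) : F') =
          ∑ s, ((ETj R θ (R.const (w' t s)) * g s : ETO R θ) : F') :=
        map_sum (ETO R θ).subtype _ _
      rw [h2]
      refine Finset.sum_congr rfl fun s _ => ?_
      rw [Subring.coe_mul, coe_ETj, R.coe_const, ← IsScalarTower.algebraMap_apply,
        Algebra.smul_def]
    rw [h1]
    exact hNU _ (hw'N t)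
  · have h1 : (fun t => H.red (∑ s, ETj R θ (R.const (w' t s)) * g s)) =
        Λb ∘ (fun t => fun s => resK (w' t s)) := by
      funext t
      rw [Function.comp_apply, hΛb, Fintype.linearCombination_apply, map_sum]
      refine Finset.sum_congr rfl fun s _ => ?_
      rw [map_mul, H.red_j, R.red_const, Algebra.smul_def]
      rfl
    rw [h1]
    exact hw'ind.map' Λb (LinearMap.ker_eq_bot.2 hΛbinj)

/-- **(ET)** the étale extension of a reduction datum -/
noncomputable def ETHyp.redG (H : ETHyp R n θ τ P0) : RedG A resK F' (Fin n → Φ) where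
  O := ETO R θ
  red := H.red
  red_surjective := H.red_surjective
  isUnit_of_red := H.isUnit_of_red
  algebraMap_mem_iff := H.algebraMap_mem_iff
  red_algebraMap := H.red_algebraMap
  exists_scale := H.exists_scale
  exists_orth := H.exists_orth

theorem ETHyp.mem_redG_O (H : ETHyp R n θ τ P0) (x : F') :
    x ∈ H.redG.O ↔
      ∃ a : Fin n → R.O, x = ∑ i : Fin n, algebraMap F F' ((a i : R.O) : F) * θ ^ (i : ℕ) :=
  mem_ETO_iff H x

/-- the reduction in coordinates -/
theorem ETHyp.redG_red_sum (H : ETHyp R n θ τ P0) (a : Fin n → R.O)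
    (h : ∑ i : Fin n, algebraMap F F' ((a i : R.O) : F) * θ ^ (i : ℕ) ∈ H.redG.O) :
    H.redG.red ⟨_, h⟩ = fun c => ∑ i : Fin n, R.red (a i) * τ c ^ (i : ℕ) := by
  have h1 : (⟨_, h⟩ : H.redG.O) = ETπ R θ (ETpol R a) := by
    apply Subtype.ext
    rw [coe_ETπ, ETφ_pol]
  rw [h1]
  funext c
  exact H.red_pol a c

theorem ETHyp.eval₂_mem_redG_O (H : ETHyp R n θ τ P0) (f : R.O[X]) :
    f.eval₂ ((algebraMap F F').comp R.O.subtype) θ ∈ H.redG.O := ⟨f, rfl⟩

/-- the reduction of `f(θ)`, `f ∈ O[T]` -/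
theorem ETHyp.redG_red_eval₂ (H : ETHyp R n θ τ P0) (f : R.O[X])
    (h : f.eval₂ ((algebraMap F F').comp R.O.subtype) θ ∈ H.redG.O) :
    H.redG.red ⟨_, h⟩ = fun c => (f.map R.red).eval (τ c) := by
  have h1 : (⟨_, h⟩ : H.redG.O) = ETπ R θ f := Subtype.ext rfl
  rw [h1]
  funext c
  have h2 : H.redG.red (ETπ R θ f) = ETψ R τ f := H.red_π f
  rw [h2, ETψ, RingHom.pi_apply, coe_eval₂RingHom, eval_map]

theorem ETHyp.algebraMap_mem_redG_O (H : ETHyp R n θ τ P0) (x : R.O) :
    algebraMap F F' ((x : R.O) : F) ∈ H.redG.O := by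
  rw [← coe_ETj R θ x]
  exact (ETj R θ x).2

theorem ETHyp.redG_red_algebraMap (H : ETHyp R n θ τ P0) (x : R.O)
    (h : algebraMap F F' ((x : R.O) : F) ∈ H.redG.O) :
    H.redG.red ⟨_, h⟩ = fun _ => R.red x := by
  have h1 : (⟨_, h⟩ : H.redG.O) = ETj R θ x := Subtype.ext (coe_ETj R θ x).symm
  rw [h1]
  exact H.red_j x

/-- `O' ∩ F = O` -/
theorem ETHyp.algebraMap_mem_redG_O_iff (H : ETHyp R n θ τ P0) (x : F) :
    algebraMap F F' x ∈ H.redG.O ↔ x ∈ R.O := by
  constructor
  · intro h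
    obtain ⟨b, hb⟩ := (H.mem_redG_O _).1 h
    have h1 := H.coord_unique (fun i : Fin n => if (i : ℕ) = 0 then x else 0)
      (fun i => ((b i : R.O) : F)) (by
        rw [← hb, Finset.sum_eq_single (⟨0, H.pos⟩ : Fin n)]
        · simp
        · intro i _ hi
          have : (i : ℕ) ≠ 0 := fun h => hi (Fin.ext h)
          simp [this]
        · intro h
          exact absurd (Finset.mem_univ _) h)
    have h2 := congrFun h1 ⟨0, H.pos⟩
    simp only [if_true] at h2
    rw [h2]
    exact (b _).2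
  · intro h
    exact H.algebraMap_mem_redG_O ⟨x, h⟩

theorem ETHyp.gen_mem_redG_O (H : ETHyp R n θ τ P0) : θ ∈ H.redG.O := by
  have := (ETπ R θ X).2
  rwa [coe_ETπ_X] at this

theorem ETHyp.redG_red_gen (H : ETHyp R n θ τ P0) (h : θ ∈ H.redG.O) :
    H.redG.red ⟨θ, h⟩ = τ := by
  have h1 : (⟨θ, h⟩ : H.redG.O) = ETπ R θ X := Subtype.ext (coe_ETπ_X R θ).symm
  rw [h1]
  exact H.red_X

/-- **(KER)** `red' x = 0` iff all the coordinates of `x` reduce to `0` -/
theorem ETHyp.redG_red_eq_zero_iff (H : ETHyp R n θ τ P0) (a : Fin n → R.O)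
    (h : ∑ i : Fin n, algebraMap F F' ((a i : R.O) : F) * θ ^ (i : ℕ) ∈ H.redG.O) :
    H.redG.red ⟨_, h⟩ = 0 ↔ ∀ i, R.red (a i) = 0 := by
  rw [H.redG_red_sum a h]
  constructor
  · intro h1 i
    exact congrFun (ET_vand_inj H.unit (fun i => R.red (a i)) (fun c => congrFun h1 c)) i
  · intro h1
    funext c
    exact Finset.sum_eq_zero fun i _ => by rw [h1 i, zero_mul]

end ET

end Fermat.Agent.S40Lib
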