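import Fermat.Agent.S40.ET

/-!
# S40 (COV), abstract lemma (ED): change of generator and descent of a split étale datum

`D : ETData R E ι`, `W ∈ O_E = D.redG.O` with `red W = τ`.
* (ORTH) `1, W, …, W ^ (n - 1)` is an orthonormal `F`-basis of `E`;
* (ED) if `(R₀, F₀, E₀)` sits inside `(R, F, E)` (`R₀.O = F₀ ∩ R.O`, same reduction), `W = e W₀` and
  `1, W₀, …, W₀ ^ (n - 1)` span `E₀` over `F₀`, then `ETData R₀ E₀ ι` with generator `W₀`, the same
  `τ`, `O_{E₀} = E₀ ∩ O_E` and the same reduction.  (`R₀ = R`: change of generator.)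
-/

set_option autoImplicit false
set_option linter.unusedSectionVars false

open Polynomial Fermat.Agent.S18Lib Fermat.Agent.S34Lib

namespace Fermat.Agent.S40Lib

section ED

variable {K k F Φ E ι : Type*} [Field K] [Field k] [Field F] [Algebra K F] [CommRing Φ]
  [Algebra k Φ] [Field E] [Algebra F E] [Algebra K E] [IsScalarTower K F E] [Fintype ι]
  [DecidableEq ι] {A : ValuationSubring K} {resK : A →+* k} {R : RedG A resK F Φ}

/-- common scaling of a finite family of functions -/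
theorem ED_scale (R : RedG A resK F Φ) {n : ℕ} (a : Fin n → F) (ha : a ≠ 0) :
    ∃ (c : K) (a' : Fin n → R.O), c ≠ 0 ∧ (∀ i, a i = algebraMap K F c * ((a' i : R.O) : F)) ∧
      ∃ i, R.red (a' i) ≠ 0 := by
  classical
  have h1 : ∀ i, ∃ (c : K) (y : R.O), (a i = 0 → c = 0) ∧ (a i ≠ 0 → c ≠ 0 ∧ R.red y ≠ 0) ∧
      a i = algebraMap K F c * ((y : R.O) : F) := by
    intro i
    by_cases hi : a i = 0
    · exact ⟨0, 0, fun _ => rfl, fun h => absurd hi h, by rw [hi]; simp⟩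
    · obtain ⟨c, hc, y, hy, hcy⟩ := R.exists_scale (a i) hi
      exact ⟨c, y, fun h => absurd h hi, fun _ => ⟨hc, hy⟩, hcy⟩
  choose c y hc0 hcy hay using h1
  obtain ⟨i1, hi1⟩ : ∃ i, a i ≠ 0 := by
    by_contra hcon
    push Not at hcon
    exact ha (funext hcon)
  obtain ⟨i0, -, hi0, hall⟩ := exists_scale_finset A Finset.univ c
    ⟨i1, Finset.mem_univ _, (hcy i1 hi1).1⟩
  refine ⟨c i0, fun i => R.const ⟨c i / c i0, hall i (Finset.mem_univ _)⟩ * y i, hi0, ?_, i0, ?_⟩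
  · intro i
    rw [hay i]
    change _ = algebraMap K F (c i0) * (algebraMap K F (c i / c i0) * ((y i : R.O) : F))
    rw [← mul_assoc, ← map_mul, mul_div_cancel₀ _ hi0]
  · have h3 : (⟨c i0 / c i0, hall i0 (Finset.mem_univ _)⟩ : A) = 1 := Subtype.ext (div_self hi0)
    rw [map_mul, R.red_const, h3, map_one, map_one, one_mul]
    exact (hcy i0 (fun h => hi0 (hc0 i0 h))).2

variable (D : ETData R E ι)

/-- `a ∈ O` as an element of `O_E` -/
noncomputable def EDc (a : R.O) : D.redG.O := ⟨algebraMap F E ((a : R.O) : F), D.algebraMap_mem_redG a⟩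

theorem ED_red_c (a : R.O) : D.redG.red (EDc D a) = fun _ => R.red a :=
  funext fun j => D.redG_red_algebraMap a j

/-- `∑ a_i W ^ i` -/
noncomputable def EDsum (W : D.redG.O) {n : ℕ} (a : Fin n → R.O) : D.redG.O :=
  ∑ i : Fin n, EDc D (a i) * W ^ (i : ℕ)

theorem coe_EDsum (W : D.redG.O) {n : ℕ} (a : Fin n → R.O) :
    ((EDsum D W a : D.redG.O) : E) =
      ∑ i : Fin n, algebraMap F E ((a i : R.O) : F) * (W : E) ^ (i : ℕ) := by
  rw [EDsum]
  exact map_sum D.redG.O.subtype _ _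

theorem red_EDsum (W : D.redG.O) (hW : D.redG.red W = D.τ) {n : ℕ} (a : Fin n → R.O) (j : ι) :
    D.redG.red (EDsum D W a) j = ∑ i : Fin n, R.red (a i) * D.τ j ^ (i : ℕ) := by
  rw [EDsum, map_sum, Finset.sum_apply]
  refine Finset.sum_congr rfl fun i _ => ?_
  rw [map_mul, map_pow, hW, ED_red_c]
  rfl

theorem ED_red_eq_zero (W : D.redG.O) (hW : D.redG.red W = D.τ) (a : Fin D.pb.dim → R.O)
    (h : D.redG.red (EDsum D W a) = 0) (i : Fin D.pb.dim) : R.red (a i) = 0 := by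
  have hnt := ET_nontrivial R
  have h1 := ET_vand D.τ D.isUnit_sub D.card_eq D.dim_pos (fun i => R.red (a i)) (fun j => by
    rw [← red_EDsum D W hW a j, h]
    rfl)
  exact congrFun h1 i

/-- `1, W, …, W ^ (n - 1)` are linearly independent over `F` -/
theorem ED_li (W : D.redG.O) (hW : D.redG.red W = D.τ) :
    LinearIndependent F (fun i : Fin D.pb.dim => (W : E) ^ (i : ℕ)) := by
  rw [Fintype.linearIndependent_iff]
  intro a ha
  by_contra hcon
  have ha0 : a ≠ 0 := fun h => hcon (fun i => congrFun h i)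
  obtain ⟨c, a', hc, haa', i0, hi0⟩ := ED_scale R a ha0
  have h1 : EDsum D W a' = 0 := by
    apply Subtype.ext
    rw [coe_EDsum]
    have hcE : algebraMap K E c ≠ 0 := by rwa [Ne, map_eq_zero]
    apply mul_left_cancel₀ hcE
    rw [Subring.coe_zero, mul_zero, ← ha, Finset.mul_sum]
    refine Finset.sum_congr rfl fun i _ => ?_
    rw [haa' i, Algebra.smul_def, map_mul, ← IsScalarTower.algebraMap_apply, mul_assoc]
  exact hi0 (ED_red_eq_zero D W hW a' (by rw [h1, map_zero]) i0)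

/-- coordinates with respect to `W` -/
theorem ED_exists_coord (W : D.redG.O) (hW : D.redG.red W = D.τ) (z : E) :
    ∃ a : Fin D.pb.dim → F, z = ∑ i, algebraMap F E (a i) * (W : E) ^ (i : ℕ) := by
  have hfd : FiniteDimensional F E := D.pb.finite
  have hsp := (ED_li D W hW).span_eq_top_of_card_eq_finrank'
    (by rw [Fintype.card_fin, D.pb.finrank])
  have hx : z ∈ Submodule.span F (Set.range fun i : Fin D.pb.dim => (W : E) ^ (i : ℕ)) := by
    rw [hsp]; trivial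
  obtain ⟨a, ha⟩ := (Submodule.mem_span_range_iff_exists_fun F).1 hx
  refine ⟨a, ?_⟩
  rw [← ha]
  exact Finset.sum_congr rfl fun i _ => Algebra.smul_def _ _

/-- **(ORTH)** the coordinates of an integral element are integral -/
theorem ED_orth (hres : Function.Surjective resK) (W : D.redG.O) (hW : D.redG.red W = D.τ)
    (a : Fin D.pb.dim → F)
    (h : ∑ i, algebraMap F E (a i) * (W : E) ^ (i : ℕ) ∈ D.redG.O) (i : Fin D.pb.dim) :
    a i ∈ R.O := by
  by_cases ha0 : a = 0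
  · rw [ha0]; exact R.O.zero_mem
  obtain ⟨c, a', hc, haa', i0, hi0⟩ := ED_scale R a ha0
  have hsum : ∑ i, algebraMap F E (a i) * (W : E) ^ (i : ℕ) =
      algebraMap K E c * ((EDsum D W a' : D.redG.O) : E) := by
    rw [coe_EDsum, Finset.mul_sum]
    refine Finset.sum_congr rfl fun i _ => ?_
    rw [haa' i, map_mul, ← IsScalarTower.algebraMap_apply, mul_assoc]
  have hcA : c ∈ A := by
    by_contra hcA
    obtain ⟨hinv, hres0⟩ := Fermat.Agent.S19Lib.bc_res_inv_eq_zero hres hcA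
    apply hi0
    apply ED_red_eq_zero D W hW a'
    have h1 : EDsum D W a' = D.redG.const ⟨c⁻¹, hinv⟩ * ⟨_, h⟩ := by
      apply Subtype.ext
      rw [Subring.coe_mul, D.redG.coe_const]
      change _ = algebraMap K E c⁻¹ * ∑ i, algebraMap F E (a i) * (W : E) ^ (i : ℕ)
      rw [hsum, ← mul_assoc, ← map_mul, inv_mul_cancel₀ hc, map_one, one_mul]
    rw [h1, map_mul, D.redG.red_const, hres0, map_zero, zero_mul]
  rw [haa' i]
  exact R.O.mul_mem ((R.algebraMap_mem_iff c).2 hcA) (a' i).2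

end ED

section Desc

variable {K k F Φ E ι : Type*} [Field K] [Field k] [Field F] [Algebra K F] [CommRing Φ]
  [Algebra k Φ] [Field E] [Algebra F E] [Algebra K E] [IsScalarTower K F E] [Fintype ι]
  [DecidableEq ι] {A : ValuationSubring K} {resK : A →+* k} {R : RedG A resK F Φ}
  {K₀ k₀ F₀ E₀ : Type*} [Field K₀] [Field k₀] [Field F₀] [Algebra K₀ F₀] [Algebra k₀ Φ]
  [Field E₀] [Algebra F₀ E₀] {A₀ : ValuationSubring K₀} {resK₀ : A₀ →+* k₀}

/-- the hypotheses of (ED) -/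
structure EDHyp (D : ETData R E ι) (R₀ : RedG A₀ resK₀ F₀ Φ) (i : F₀ →+* F) (e : E₀ →+* E)
    (W₀ : E₀) : Prop where
  hres : Function.Surjective resK
  comp : ∀ a : F₀, e (algebraMap F₀ E₀ a) = algebraMap F E (i a)
  mem_iff : ∀ a : F₀, a ∈ R₀.O ↔ i a ∈ R.O
  red_eq : ∀ (a : R₀.O) (h : i ((a : R₀.O) : F₀) ∈ R.O), R.red ⟨_, h⟩ = R₀.red a
  W_mem : e W₀ ∈ D.redG.O
  W_red : D.redG.red ⟨e W₀, W_mem⟩ = D.τ
  span : ∀ z : E₀, ∃ a : Fin D.pb.dim → F₀, z = ∑ j, algebraMap F₀ E₀ (a j) * W₀ ^ (j : ℕ)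

variable {D : ETData R E ι} {R₀ : RedG A₀ resK₀ F₀ Φ} {i : F₀ →+* F} {e : E₀ →+* E} {W₀ : E₀}

/-- `W = e W₀` in `O_E` -/
noncomputable def EDHyp.W (H : EDHyp D R₀ i e W₀) : D.redG.O := ⟨e W₀, H.W_mem⟩

theorem EDHyp.e_sum (H : EDHyp D R₀ i e W₀) {n : ℕ} (a : Fin n → F₀) :
    e (∑ j, algebraMap F₀ E₀ (a j) * W₀ ^ (j : ℕ)) =
      ∑ j, algebraMap F E (i (a j)) * ((H.W : D.redG.O) : E) ^ (j : ℕ) := by
  rw [map_sum]
  refine Finset.sum_congr rfl fun j _ => ?_
  rw [map_mul, map_pow, H.comp]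
  rfl

theorem EDHyp.li (H : EDHyp D R₀ i e W₀) :
    LinearIndependent F₀ (fun j : Fin D.pb.dim => W₀ ^ (j : ℕ)) := by
  rw [Fintype.linearIndependent_iff]
  intro a ha j
  have h1 : ∑ j, algebraMap F₀ E₀ (a j) * W₀ ^ (j : ℕ) = 0 := by
    rw [← ha]
    exact Finset.sum_congr rfl fun j _ => (Algebra.smul_def _ _).symm
  have h2 := congrArg e h1
  rw [H.e_sum, map_zero] at h2
  have h3 : ∑ j, (i (a j)) • ((H.W : D.redG.O) : E) ^ (j : ℕ) = 0 := by
    rw [← h2]
    exact Finset.sum_congr rfl fun j _ => Algebra.smul_def _ _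
  have h4 := Fintype.linearIndependent_iff.1 (ED_li D H.W H.W_red) _ h3 j
  exact (map_eq_zero i).1 h4

/-- the power basis `1, W₀, …` of `E₀ / F₀` -/
noncomputable def EDHyp.pb (H : EDHyp D R₀ i e W₀) : PowerBasis F₀ E₀ where
  gen := W₀
  dim := D.pb.dim
  basis := Module.Basis.mk H.li (by
    intro z _
    obtain ⟨a, ha⟩ := H.span z
    rw [ha]
    refine Submodule.sum_mem _ fun j _ => ?_
    rw [← Algebra.smul_def]
    exact Submodule.smul_mem _ _ (Submodule.subset_span ⟨j, rfl⟩))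
  basis_eq_pow := fun j => by rw [Module.Basis.mk_apply]

/-- integrality of the coordinates -/
theorem EDHyp.coord_mem (H : EDHyp D R₀ i e W₀) (a : Fin D.pb.dim → F₀)
    (h : e (∑ j, algebraMap F₀ E₀ (a j) * W₀ ^ (j : ℕ)) ∈ D.redG.O) (j : Fin D.pb.dim) :
    a j ∈ R₀.O := by
  rw [H.mem_iff]
  rw [H.e_sum] at h
  exact ED_orth D H.hres H.W H.W_red (fun j => i (a j)) h j

theorem EDHyp.exists_rel (H : EDHyp D R₀ i e W₀) :
    ∃ b : Fin D.pb.dim → R₀.O,
      W₀ ^ D.pb.dim = ∑ j, algebraMap F₀ E₀ ((b j : R₀.O) : F₀) * W₀ ^ (j : ℕ) := by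
  obtain ⟨a, ha⟩ := H.span (W₀ ^ D.pb.dim)
  have h1 : e (∑ j, algebraMap F₀ E₀ (a j) * W₀ ^ (j : ℕ)) ∈ D.redG.O := by
    rw [← ha, map_pow]
    exact D.redG.O.pow_mem H.W_mem _
  exact ⟨fun j => ⟨a j, H.coord_mem a h1 j⟩, ha⟩

/-- the coefficients of the relation -/
noncomputable def EDHyp.rel (H : EDHyp D R₀ i e W₀) : Fin D.pb.dim → R₀.O := H.exists_rel.choose

theorem EDHyp.rel_spec (H : EDHyp D R₀ i e W₀) :
    W₀ ^ D.pb.dim = ∑ j, algebraMap F₀ E₀ ((H.rel j : R₀.O) : F₀) * W₀ ^ (j : ℕ) :=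
  H.exists_rel.choose_spec

theorem EDHyp.red_W (H : EDHyp D R₀ i e W₀) : D.redG.red H.W = D.τ := H.W_red

/-- the image of `a : R₀.O` in `R.O` -/
noncomputable def EDHyp.up (H : EDHyp D R₀ i e W₀) (a : R₀.O) : R.O :=
  ⟨i ((a : R₀.O) : F₀), (H.mem_iff _).1 a.2⟩

theorem EDHyp.red_up (H : EDHyp D R₀ i e W₀) (a : R₀.O) : R.red (H.up a) = R₀.red a :=
  H.red_eq a _

theorem EDHyp.e_sum' (H : EDHyp D R₀ i e W₀) {n : ℕ} (a : Fin n → R₀.O) :
    e (∑ j, algebraMap F₀ E₀ ((a j : R₀.O) : F₀) * W₀ ^ (j : ℕ)) =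
      ((EDsum D H.W (fun j => H.up (a j)) : D.redG.O) : E) := by
  rw [H.e_sum, coe_EDsum]
  rfl

/-- the polynomial `P0` over `R₀.O` -/
noncomputable def EDHyp.poly (H : EDHyp D R₀ i e W₀) : R₀.O[X] :=
  X ^ D.pb.dim - ET_pol H.rel

theorem EDHyp.poly_monic (H : EDHyp D R₀ i e W₀) : H.poly.Monic :=
  monic_X_pow_sub (degree_sum_fin_lt _)

theorem EDHyp.poly_natDegree (H : EDHyp D R₀ i e W₀) : H.poly.natDegree = D.pb.dim := by
  have : Nontrivial R₀.O := inferInstance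
  apply natDegree_eq_of_degree_eq_some
  rw [EDHyp.poly, degree_sub_eq_left_of_degree_lt, degree_X_pow]
  rw [degree_X_pow]
  exact degree_sum_fin_lt _

theorem EDHyp.poly_root (H : EDHyp D R₀ i e W₀) :
    eval₂ ((algebraMap F₀ E₀).comp R₀.O.subtype) W₀ H.poly = 0 := by
  rw [EDHyp.poly, eval₂_sub, eval₂_pow, eval₂_X, H.rel_spec, sub_eq_zero, ET_pol,
    eval₂_finsetSum]
  refine Finset.sum_congr rfl fun j _ => ?_
  rw [eval₂_mul, eval₂_C, eval₂_pow, eval₂_X]
  rfl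

theorem EDHyp.poly_eval (H : EDHyp D R₀ i e W₀) (c : ι) :
    (H.poly.map R₀.red).eval (D.τ c) = 0 := by
  have h1 : H.W ^ D.pb.dim = EDsum D H.W (fun j => H.up (H.rel j)) := by
    apply Subtype.ext
    rw [← H.e_sum', ← H.rel_spec, map_pow]
    rfl
  have h2 := congrFun (congrArg D.redG.red h1) c
  rw [map_pow, H.red_W, red_EDsum D H.W H.red_W, Pi.pow_apply] at h2
  rw [EDHyp.poly, Polynomial.map_sub, Polynomial.map_pow, map_X, eval_sub, eval_pow, eval_X,
    ET_pol_map, ET_pol_eval, h2, sub_eq_zero]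
  exact Finset.sum_congr rfl fun j _ => by rw [H.red_up]

theorem EDHyp.poly_map (H : EDHyp D R₀ i e W₀) :
    H.poly.map R₀.red = ∏ c, (X - C (D.τ c)) := by
  have hnt := ET_nontrivial R
  have h1 := ET_prod_dvd D.τ D.isUnit_sub Finset.univ (H.poly.map R₀.red)
    (fun c _ => H.poly_eval c)
  refine eq_of_monic_of_dvd_of_natDegree_le
    (monic_prod_of_monic _ _ fun c _ => monic_X_sub_C _) (H.poly_monic.map _) h1 ?_
  rw [H.poly_monic.natDegree_map, H.poly_natDegree, natDegree_finsetProd_X_sub_C_eq_card,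
    Finset.card_univ, D.card_eq]

/-- **(ED)** the descended split étale datum -/
noncomputable def EDHyp.data (H : EDHyp D R₀ i e W₀) : ETData R₀ E₀ ι where
  pb := H.pb
  P0 := H.poly
  monic := H.poly_monic
  natDegree_eq := H.poly_natDegree
  root := H.poly_root
  τ := D.τ
  map_P0 := H.poly_map
  isUnit_sub := D.isUnit_sub

@[simp] theorem EDHyp.data_gen (H : EDHyp D R₀ i e W₀) : H.data.pb.gen = W₀ := rfl

@[simp] theorem EDHyp.data_dim (H : EDHyp D R₀ i e W₀) : H.data.pb.dim = D.pb.dim := rfl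

@[simp] theorem EDHyp.data_τ (H : EDHyp D R₀ i e W₀) : H.data.τ = D.τ := rfl

variable [Algebra K₀ E₀] [IsScalarTower K₀ F₀ E₀]

theorem EDHyp.ev_pol (H : EDHyp D R₀ i e W₀) (a : Fin D.pb.dim → R₀.O) :
    H.data.ev (ET_pol a) = ∑ j, algebraMap F₀ E₀ ((a j : R₀.O) : F₀) * W₀ ^ (j : ℕ) :=
  H.data.ev_pol a

/-- elements of `O_{E₀}` in coordinates -/
theorem EDHyp.exists_rep (H : EDHyp D R₀ i e W₀) (z : E₀) (hz : z ∈ H.data.redG.O) :
    ∃ a : Fin D.pb.dim → R₀.O, z = H.data.ev (ET_pol a) := by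
  obtain ⟨P, hP, rfl⟩ := (H.data.mem_redG_O z).1 hz
  have hP' : P.natDegree < D.pb.dim := hP
  exact ⟨fun j => P.coeff j, congrArg _ (ET_eq_pol P hP')⟩

/-- `O_{E₀} = E₀ ∩ O_E` -/
theorem EDHyp.mem_redG_iff (H : EDHyp D R₀ i e W₀) (z : E₀) :
    z ∈ H.data.redG.O ↔ e z ∈ D.redG.O := by
  constructor
  · intro hz
    obtain ⟨a, rfl⟩ := H.exists_rep z hz
    rw [H.ev_pol, H.e_sum']
    exact Subtype.property _
  · intro hz
    obtain ⟨a, rfl⟩ := H.span z
    have h1 : ∑ j, algebraMap F₀ E₀ (a j) * W₀ ^ (j : ℕ) =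
        H.data.ev (ET_pol (fun j => (⟨a j, H.coord_mem a hz j⟩ : R₀.O))) := by
      rw [H.ev_pol]
    rw [h1]
    exact H.data.ev_mem_redG _

/-- the reductions agree -/
theorem EDHyp.red_e (H : EDHyp D R₀ i e W₀) (z : H.data.redG.O)
    (h : e ((z : H.data.redG.O) : E₀) ∈ D.redG.O) :
    D.redG.red ⟨_, h⟩ = H.data.redG.red z := by
  obtain ⟨a, ha⟩ := H.exists_rep z z.2
  have h1 : z = ⟨H.data.ev (ET_pol a), H.data.ev_mem_redG _⟩ := Subtype.ext ha
  have h2 : (⟨_, h⟩ : D.redG.O) = EDsum D H.W (fun j => H.up (a j)) := by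
    apply Subtype.ext
    rw [← H.e_sum', ← H.ev_pol, ← ha]
  rw [h2]
  funext c
  rw [red_EDsum D H.W H.red_W, h1, H.data.redG_red_ev, ET_pol_map, ET_pol_eval]
  exact Finset.sum_congr rfl fun j _ => by rw [H.red_up]; rfl

theorem EDHyp.gen_red (H : EDHyp D R₀ i e W₀) (h : W₀ ∈ H.data.redG.O) :
    H.data.redG.red ⟨W₀, h⟩ = D.τ :=
  funext fun c => H.data.redG_red_gen c

end Desc

section Change

variable {K k F Φ E ι : Type*} [Field K] [Field k] [Field F] [Algebra K F] [CommRing Φ]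
  [Algebra k Φ] [Field E] [Algebra F E] [Algebra K E] [IsScalarTower K F E] [Fintype ι]
  [DecidableEq ι] {A : ValuationSubring K} {resK : A →+* k} {R : RedG A resK F Φ}

/-- **(ED1)** change of generator: any `W ∈ O_E` with `red W = τ` generates -/
theorem ED_change (D : ETData R E ι) (hres : Function.Surjective resK) (W : D.redG.O)
    (hW : D.redG.red W = D.τ) : EDHyp D R (RingHom.id F) (RingHom.id E) (W : E) where
  hres := hres
  comp := fun _ => rfl
  mem_iff := fun _ => Iff.rfl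
  red_eq := fun _ _ => rfl
  W_mem := W.2
  W_red := hW
  span := ED_exists_coord D W hW

end Change

end Fermat.Agent.S40Lib
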