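import Fermat.Agent.S40.Cov.EtDesc

/-!
# S40 (COV), abstract lemma (OP): idempotents descend (orbit products)

`T` a set of ring endomorphisms of a field `E`, stable under composition, which preserve a subring
`O` and commute with `red : O → Ψ`.  If `ε ∈ O` has a finite `T`-orbit, the product `Π` of the orbit
is `T`-fixed, lies in `O` and `red Π = (red ε) ^ n`, `n > 0`.  Consequence (VT): a `T`-fixed lift of
`τ` in `O_E`.
-/

set_option autoImplicit false
set_option linter.unusedSectionVars false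

open Polynomial Fermat.Agent.S18Lib Fermat.Agent.S34Lib

namespace Fermat.Agent.S40Lib

section OP

variable {E Ψ : Type*} [Field E] [CommRing Ψ]

/-- **(OP)** the product over a finite orbit -/
theorem OP_exists (T : Set (E →+* E)) (hT : ∀ σ ∈ T, ∀ τ ∈ T, σ.comp τ ∈ T) (hne : T.Nonempty)
    (O : Subring E) (red : O →+* Ψ)
    (hO : ∀ σ ∈ T, ∀ z : O, ∃ h : σ (z : E) ∈ O, red ⟨σ (z : E), h⟩ = red z)
    (ε : O) (hfin : {x : E | ∃ τ ∈ T, τ (ε : E) = x}.Finite) :
    ∃ (n : ℕ) (P : O), 0 < n ∧ (∀ σ ∈ T, σ (P : E) = (P : E)) ∧ red P = red ε ^ n := by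
  classical
  set S : Finset E := hfin.toFinset with hS
  have hmem : ∀ x, x ∈ S ↔ ∃ τ ∈ T, τ (ε : E) = x := by
    intro x
    rw [hS, Set.Finite.mem_toFinset]
    rfl
  have hSO : ∀ x ∈ S, ∃ h : x ∈ O, red ⟨x, h⟩ = red ε := by
    intro x hx
    obtain ⟨τ, hτ, rfl⟩ := (hmem x).1 hx
    exact hO τ hτ ε
  -- the product of a subset of `S`
  have hprod : ∀ S' : Finset E, S' ⊆ S →
      ∃ h : ∏ x ∈ S', x ∈ O, red ⟨∏ x ∈ S', x, h⟩ = red ε ^ S'.card := by
    intro S'
    induction S' using Finset.induction_on with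
    | empty =>
      intro _
      refine ⟨by rw [Finset.prod_empty]; exact O.one_mem, ?_⟩
      rw [Finset.card_empty, pow_zero, ← map_one red]
      congr 1
    | insert a s ha ih =>
      intro hs
      obtain ⟨h1, h2⟩ := ih (fun x hx => hs (Finset.mem_insert_of_mem hx))
      obtain ⟨h3, h4⟩ := hSO a (hs (Finset.mem_insert_self a s))
      have h5 : ∏ x ∈ insert a s, x = a * ∏ x ∈ s, x := Finset.prod_insert ha
      refine ⟨by rw [h5]; exact O.mul_mem h3 h1, ?_⟩
      have h6 : (⟨∏ x ∈ insert a s, x, by rw [h5]; exact O.mul_mem h3 h1⟩ : O) =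
          ⟨a, h3⟩ * ⟨∏ x ∈ s, x, h1⟩ := Subtype.ext h5
      rw [h6, map_mul, h2, h4, Finset.card_insert_of_notMem ha, pow_succ, mul_comm]
  obtain ⟨h1, h2⟩ := hprod S (Finset.Subset.refl S)
  refine ⟨S.card, ⟨_, h1⟩, ?_, ?_, h2⟩
  · obtain ⟨τ, hτ⟩ := hne
    exact Finset.card_pos.2 ⟨τ (ε : E), (hmem _).2 ⟨τ, hτ, rfl⟩⟩
  · intro σ hσ
    change σ (∏ x ∈ S, x) = ∏ x ∈ S, x
    rw [map_prod]
    have hmaps : ∀ x ∈ S, σ x ∈ S := by
      intro x hx
      obtain ⟨τ, hτ, rfl⟩ := (hmem x).1 hx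
      exact (hmem _).2 ⟨σ.comp τ, hT σ hσ τ hτ, rfl⟩
    have himg : S.image σ = S :=
      Finset.eq_of_subset_of_card_le
        (fun y hy => by
          obtain ⟨x, hx, rfl⟩ := Finset.mem_image.1 hy
          exact hmaps x hx)
        (by rw [Finset.card_image_of_injective S σ.injective])
    conv_rhs => rw [← himg]
    rw [Finset.prod_image (fun x _ y _ h => σ.injective h)]

end OP

section VT

variable {K k F Φ E ι : Type*} [Field K] [Field k] [Field F] [Algebra K F] [CommRing Φ]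
  [Algebra k Φ] [Field E] [Algebra F E] [Algebra K E] [IsScalarTower K F E] [Fintype ι]
  [DecidableEq ι] {A : ValuationSubring K} {resK : A →+* k} {R : RedG A resK F Φ}

/-- **(VT)** a `T`-fixed lift of `τ` -/
theorem OP_exists_fixed_lift (D : ETData R E ι) (T : Set (E →+* E))
    (hT : ∀ σ ∈ T, ∀ τ ∈ T, σ.comp τ ∈ T) (hne : T.Nonempty)
    (hO : ∀ σ ∈ T, ∀ z : D.redG.O, ∃ h : σ (z : E) ∈ D.redG.O,
      D.redG.red ⟨σ (z : E), h⟩ = D.redG.red z)
    (hfin : ∀ z : E, {x : E | ∃ τ ∈ T, τ z = x}.Finite)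
    (hlift : ∀ c, ∃ t : R.O, (∀ σ ∈ T, σ (algebraMap F E ((t : R.O) : F)) =
      algebraMap F E ((t : R.O) : F)) ∧ R.red t = D.τ c) :
    ∃ W : D.redG.O, (∀ σ ∈ T, σ (W : E) = (W : E)) ∧ D.redG.red W = D.τ := by
  choose ε hε using fun c : ι => D.redG.red_surjective (Pi.single c 1)
  choose n P hn hP hPred using fun c : ι =>
    OP_exists T hT hne D.redG.O D.redG.red hO (ε c) (hfin _)
  choose t ht htred using hlift
  have hidem : ∀ c, D.redG.red (P c) = Pi.single c 1 := by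
    intro c
    rw [hPred, hε]
    funext c'
    rw [Pi.pow_apply]
    by_cases h : c' = c
    · rw [h, Pi.single_eq_same, one_pow]
    · rw [Pi.single_eq_of_ne h, zero_pow (hn c).ne']
  refine ⟨∑ c, P c * EDc D (t c), fun σ hσ => ?_, ?_⟩
  · have h1 : ((∑ c, P c * EDc D (t c) : D.redG.O) : E) =
        ∑ c, ((P c : D.redG.O) : E) * algebraMap F E ((t c : R.O) : F) :=
      map_sum D.redG.O.subtype _ _
    rw [h1, map_sum]
    refine Finset.sum_congr rfl fun c _ => ?_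
    rw [map_mul, hP c σ hσ, ht c σ hσ]
  · rw [map_sum]
    funext c'
    rw [Finset.sum_apply, Finset.sum_eq_single c']
    · rw [map_mul, hidem, ED_red_c, Pi.mul_apply, Pi.single_eq_same, one_mul, htred]
    · intro c _ hc
      rw [map_mul, hidem, Pi.mul_apply, Pi.single_eq_of_ne (Ne.symm hc), zero_mul]
    · intro h
      exact absurd (Finset.mem_univ _) h

variable {K₀ k₀ F₀ E₀ : Type*} [Field K₀] [Field k₀] [Field F₀] [Algebra K₀ F₀] [Algebra k₀ Φ]
  [Field E₀] [Algebra F₀ E₀] {A₀ : ValuationSubring K₀} {resK₀ : A₀ →+* k₀}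

/-- **(ED) from invariance**: `E₀`, `F₀` the `T`-fixed elements -/
theorem ED_of_fixed (D : ETData R E ι) (R₀ : RedG A₀ resK₀ F₀ Φ) (i : F₀ →+* F) (e : E₀ →+* E)
    (W₀ : E₀) (T : Set (E →+* E)) (hres : Function.Surjective resK)
    (comp : ∀ a : F₀, e (algebraMap F₀ E₀ a) = algebraMap F E (i a))
    (mem_iff : ∀ a : F₀, a ∈ R₀.O ↔ i a ∈ R.O)
    (red_eq : ∀ (a : R₀.O) (h : i ((a : R₀.O) : F₀) ∈ R.O), R.red ⟨_, h⟩ = R₀.red a)
    (W_mem : e W₀ ∈ D.redG.O) (W_red : D.redG.red ⟨e W₀, W_mem⟩ = D.τ)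
    (hfix : ∀ z₀ : E₀, ∀ σ ∈ T, σ (e z₀) = e z₀)
    (hF : ∀ σ ∈ T, ∀ a : F, ∃ a' : F, σ (algebraMap F E a) = algebraMap F E a')
    (hi : ∀ a : F, (∀ σ ∈ T, σ (algebraMap F E a) = algebraMap F E a) → ∃ a₀ : F₀, i a₀ = a) :
    EDHyp D R₀ i e W₀ where
  hres := hres
  comp := comp
  mem_iff := mem_iff
  red_eq := red_eq
  W_mem := W_mem
  W_red := W_red
  span := by
    intro z
    obtain ⟨a, ha⟩ := ED_exists_coord D ⟨e W₀, W_mem⟩ W_red (e z)
    have hli := ED_li D ⟨e W₀, W_mem⟩ W_red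
    have hinv : ∀ j, ∀ σ ∈ T, σ (algebraMap F E (a j)) = algebraMap F E (a j) := by
      intro j σ hσ
      choose a' ha' using fun j => hF σ hσ (a j)
      have h1 := congrArg σ ha
      rw [hfix z σ hσ, map_sum] at h1
      have h2 : ∑ j, (a j - a' j) • (e W₀) ^ (j : ℕ) = 0 := by
        simp only [Algebra.smul_def, map_sub, sub_mul, Finset.sum_sub_distrib]
        rw [sub_eq_zero]
        change ∑ j, algebraMap F E (a j) * (e W₀) ^ (j : ℕ) = _
        rw [← ha, h1]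
        refine Finset.sum_congr rfl fun j _ => ?_
        rw [map_mul, map_pow, ha' j]
        change _ * σ (e W₀) ^ (j : ℕ) = _
        rw [hfix W₀ σ hσ]
      have h3 := Fintype.linearIndependent_iff.1 hli _ h2 j
      rw [ha' j, ← sub_eq_zero.1 h3]
    choose a₀ ha₀ using fun j => hi (a j) (hinv j)
    refine ⟨a₀, e.injective ?_⟩
    rw [ha, map_sum]
    refine Finset.sum_congr rfl fun j _ => ?_
    rw [map_mul, map_pow, comp, ha₀]

end VT

end Fermat.Agent.S40Lib
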