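import Fermat.Agent.S40.Cov.InertiaE
import Fermat.Agent.S40.Cov.OrbProd
import Fermat.Agent.S40.Cov.EtDesc
import Fermat.Agent.S40.BLX.RedG0

/-!
# S40 / S44, COV: descent of the étale datum of `E = covE (p M) η` to `E₀ = covE0 A E`
-/

set_option autoImplicit false
set_option synthInstance.maxHeartbeats 400000
set_option linter.unusedSectionVars false

open AlgebraicCurve ModularCurve

namespace Fermat.Agent.S40Lib

open Fermat.Agent.S18Lib Fermat.Agent.S24Lib Fermat.Agent.ESLib Fermat.Agent.S34Lib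
  Fermat.Agent.S33Lib Fermat.Agent.S36Lib Fermat.Agent.FFLib

noncomputable section

/-- the ring endomorphisms of `E` induced by inertia -/
def covT (A : ValuationSubring Qb) (N : ℕ) (η : LaurentSeries Qb)
    (hst : ∀ σ ∈ A.inertiaSubgroupIn ℚ, ∀ z ∈ covE N η,
      coeffMap ((σ : GQ) : Qb →+* Qb) z ∈ covE N η) : Set (covE N η →+* covE N η) :=
  {τ | ∃ (σ : GQ) (hσ : σ ∈ A.inertiaSubgroupIn ℚ), τ = covSig N η σ (hst σ hσ)}

section T

variable {A : ValuationSubring Qb} {N : ℕ} {η : LaurentSeries Qb}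
  (hst : ∀ σ ∈ A.inertiaSubgroupIn ℚ, ∀ z ∈ covE N η,
      coeffMap ((σ : GQ) : Qb →+* Qb) z ∈ covE N η)

theorem covT_comp : ∀ σ ∈ covT A N η hst, ∀ τ ∈ covT A N η hst, σ.comp τ ∈ covT A N η hst := by
  rintro _ ⟨σ, hσ, rfl⟩ _ ⟨τ, hτ, rfl⟩
  refine ⟨σ * τ, mul_mem hσ hτ, ?_⟩
  apply RingHom.ext
  intro z
  apply Subtype.ext
  rw [RingHom.comp_apply, coe_covSig, coe_covSig, coe_covSig, coeffMap_coeffMap]
  exact coeffMap_congr (RingHom.ext fun _ => rfl) _

theorem covT_nonempty : (covT A N η hst).Nonempty := ⟨_, 1, one_mem _, rfl⟩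

theorem covT_finite {p : ℕ} (hp : 0 < p) (y : FB N) (hη : η ^ p = (y : LaurentSeries Qb))
    (z : covE N η) : {x : covE N η | ∃ τ ∈ covT A N η hst, τ z = x}.Finite := by
  have h1 := finite_orbit_covE A N hp η y hη (z : LaurentSeries Qb) z.2
  refine (h1.preimage (Subtype.val_injective.injOn (s := _))).subset ?_
  rintro x ⟨_, ⟨σ, hσ, rfl⟩, rfl⟩
  exact ⟨σ, hσ, rfl⟩

theorem covT_fixed_iff (z : covE N η) :
    (∀ τ ∈ covT A N η hst, τ z = z) ↔ z ∈ covE0 A (covE N η) := by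
  rw [mem_covE0, mem_K0S]
  constructor
  · intro h σ hσ
    have := congrArg (fun w : covE N η => (w : LaurentSeries Qb)) (h _ ⟨σ, hσ, rfl⟩)
    exact this
  · rintro h _ ⟨σ, hσ, rfl⟩
    exact Subtype.ext (h σ hσ)

theorem covT_algebraMap (τ : covE N η →+* covE N η) (hτ : τ ∈ covT A N η hst) (a : FB N) :
    ∃ σ ∈ A.inertiaSubgroupIn ℚ, τ (algebraMap (FB N) (covE N η) a) =
      algebraMap (FB N) (covE N η) (gal N σ a) := by
  obtain ⟨σ, hσ, rfl⟩ := hτ
  refine ⟨σ, hσ, ?_⟩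
  apply Subtype.ext
  rw [coe_covSig, coe_algebraMap_FE, coe_algebraMap_FE, coe_gal]

theorem covT_fixedF_iff (a : FB N) :
    (∀ τ ∈ covT A N η hst, τ (algebraMap (FB N) (covE N η) a) =
      algebraMap (FB N) (covE N η) a) ↔ a ∈ F0 A N := by
  rw [covT_fixed_iff, mem_covE0, coe_algebraMap_FE, coe_mem_K0S_iff, mem_F0]

end T

variable {M p : ℕ} [NeZero M] [NeZero p] [hpF : Fact p.Prime] {hpM : ¬ p ∣ M}
variable {A : ValuationSubring Qb}
variable {R : RedG A (IsLocalRing.residue A) (FB (p * M)) (FT A M × FT A M)}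

/-- **(ED) on `covE`** : the étale datum descends to the inertia-fixed fields -/
theorem exists_edHyp [CharP (kk A) p] (hA : A.LiesOverPrime p) (hR : IsQRed2 M p hpM A R)
    {lam : A} {r : R.O} {τ₀ : FT A M × FT A M} {η : LaurentSeries Qb}
    (hfix : IsFixEta A R lam η) (y : FB (p * M)) (hη : η ^ p = (y : LaurentSeries Qb))
    (H : KEHyp R p lam r τ₀ (etaE (p * M) η)) :
    ∃ W₀ : covE0 A (covE (p * M) η),
      EDHyp H.data (RX0 hpM A hA (EH_isAL_wq M p hpM)) (F0 A (p * M)).subtype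
        (covE0 A (covE (p * M) η)).subtype W₀ := by
  set T := covT A (p * M) η hfix.stable with hT
  have hO : ∀ σ ∈ T, ∀ z : H.data.redG.O, ∃ h : σ (z : covE (p * M) η) ∈ H.data.redG.O,
      H.data.redG.red ⟨σ (z : covE (p * M) η), h⟩ = H.data.redG.red z := by
    rintro _ ⟨σ, hσ, rfl⟩ z
    exact claimA_cov hA hR hfix H σ hσ z
  have hlift : ∀ c, ∃ t : R.O, (∀ σ ∈ T, σ (algebraMap (FB (p * M)) (covE (p * M) η)
      ((t : R.O) : FB (p * M))) = algebraMap (FB (p * M)) (covE (p * M) η)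
      ((t : R.O) : FB (p * M))) ∧ R.red t = H.data.τ c := by
    intro c
    obtain ⟨x₀, hx₀⟩ := (RX0 hpM A hA (EH_isAL_wq M p hpM)).red_surjective (H.data.τ c)
    have hm := (RX0_mem_iff_R hpM A hA R hR _).1 x₀.2
    refine ⟨⟨_, hm⟩, ?_, ?_⟩
    · exact (covT_fixedF_iff hfix.stable _).2 (Subtype.mem _)
    · rw [RX0_red_eq_R hpM A hA R hR x₀ hm, hx₀]
  obtain ⟨W, hWfix, hWred⟩ := OP_exists_fixed_lift H.data T (covT_comp hfix.stable)
    (covT_nonempty hfix.stable) hO (covT_finite hfix.stable hpF.out.pos y hη) hlift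
  refine ⟨⟨(W : covE (p * M) η), (covT_fixed_iff hfix.stable _).1 hWfix⟩, ?_⟩
  refine ED_of_fixed H.data _ _ _ _ T IsLocalRing.residue_surjective ?_
    (RX0_mem_iff_R hpM A hA R hR) (RX0_red_eq_R hpM A hA R hR) W.2 hWred ?_ ?_ ?_
  · intro a
    show ((algebraMap (F0 A (p * M)) (covE0 A (covE (p * M) η)) a : covE0 A (covE (p * M) η)) :
      covE (p * M) η) = _
    rw [algebraMap_F0E0, algebraMap_FE]
    rfl
  · intro z₀ σ hσ
    exact (covT_fixed_iff hfix.stable _).2 z₀.2 σ hσ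
  · intro σ hσ a
    obtain ⟨s, -, hs⟩ := covT_algebraMap hfix.stable σ hσ a
    exact ⟨_, hs⟩
  · intro a ha
    exact ⟨⟨a, (covT_fixedF_iff hfix.stable a).1 ha⟩, rfl⟩

end

end Fermat.Agent.S40Lib
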