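import Fermat.Agent.S40.Fix.CuspPlace
import Fermat.Agent.ES.KDefs
import Fermat.Agent.S18.RiemannLower

/-!
# S40 / S44, COV, (ROOT2) (KD): the order of the `q`-expansion and the divisor of a Kummer generator
-/

set_option autoImplicit false
set_option synthInstance.maxHeartbeats 400000

open AlgebraicCurve ModularCurve

namespace Fermat.Agent.S40Lib

open Fermat.Agent.S18Lib Fermat.Agent.S24Lib Fermat.Agent.ESLib Fermat.Agent.FFLib

/-- (ROOT2) -/
theorem order_dvd_of_isKum (N p : ℕ) [NeZero N] (f : FB N) (hf : IsKum N p f) :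
    (p : ℤ) ∣ (f : LaurentSeries Qb).order := by
  obtain ⟨v, m, -, h⟩ := FX_exists_cusp N
  rw [h f hf.1]
  exact Dvd.dvd.mul_left (hf.2 v) _

/-- (KD) -/
theorem exists_kumDiv (N p : ℕ) [NeZero N] (hp : 0 < p) (f : FB N) (hf : IsKum N p f) :
    ∃ D : Divisor Qb (FB N), ∀ v : Place Qb (FB N), v.ord f = p * D v := by
  refine ⟨(divOf Qb f).mapRange (fun x => x / (p : ℤ)) (by simp), fun v => ?_⟩
  rw [Finsupp.mapRange_apply, divOf_apply (isFF_FB N), Int.mul_ediv_cancel' (hf.2 v)]

end Fermat.Agent.S40Lib
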