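import Fermat.Agent.S18.Defs

/-!
# S40 / S44, COV, (ROOT1): `p`-th roots of Laurent series over `ℚ̄`
-/

set_option autoImplicit false

namespace Fermat.Agent.S40Lib

open PowerSeries in
/-- `p`-th roots of `1 + g`, `g(0) = 0` -/
theorem RT_exists_root_one_add {K : Type*} [Field K] [CharZero K] (p : ℕ) (hp : 0 < p)
    (g : PowerSeries K) (hg : PowerSeries.constantCoeff g = 0) :
    ∃ ψ : PowerSeries K, ψ ^ p = 1 + g := by
  let _ : Algebra ℚ K := DivisionRing.toRatAlgebra
  have hs : PowerSeries.HasSubst g := PowerSeries.HasSubst.of_constantCoeff_zero' hg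
  have hpow : ∀ (r : ℚ) (n : ℕ), binomialSeries K ((n : ℚ) * r) = binomialSeries K r ^ n := by
    intro r n
    induction n with
    | zero => simp
    | succ n ih =>
      have e : ((n + 1 : ℕ) : ℚ) * r = (n : ℚ) * r + r := by push_cast; ring
      rw [e, binomialSeries_add, ih, pow_succ]
  refine ⟨PowerSeries.substAlgHom hs (binomialSeries K (1 / p : ℚ)), ?_⟩
  rw [← map_pow, ← hpow]
  have e : (p : ℚ) * (1 / p : ℚ) = ((1 : ℕ) : ℚ) := by
    have : (p : ℚ) ≠ 0 := by exact_mod_cast hp.ne'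
    field_simp
    simp
  rw [e, binomialSeries_nat, pow_one, map_add, map_one, PowerSeries.coe_substAlgHom,
    PowerSeries.subst_X hs]

/-- (ROOT1), general form -/
theorem RT_exists_root {K : Type*} [Field K] [CharZero K] [IsAlgClosed K] (p : ℕ) (hp : 0 < p)
    (f : LaurentSeries K) (hf : f ≠ 0) (hord : (p : ℤ) ∣ f.order) :
    ∃ φ : LaurentSeries K, φ ^ p = f := by
  obtain ⟨m, hm⟩ := hord
  set P : PowerSeries K := LaurentSeries.powerSeriesPart f with hP
  set a : K := PowerSeries.constantCoeff P with ha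
  have ha0 : a ≠ 0 := by
    rw [ha, hP, ← PowerSeries.coeff_zero_eq_constantCoeff_apply,
      LaurentSeries.powerSeriesPart_coeff]
    simpa using (not_congr HahnSeries.coeff_order_eq_zero).2 hf
  obtain ⟨b, hb⟩ := IsAlgClosed.exists_pow_nat_eq a hp
  set g : PowerSeries K := PowerSeries.C a⁻¹ * P - 1 with hg
  have hg0 : PowerSeries.constantCoeff g = 0 := by
    rw [hg, map_sub, map_mul, PowerSeries.constantCoeff_C, map_one, ← ha, inv_mul_cancel₀ ha0,
      sub_self]
  obtain ⟨ψ, hψ⟩ := RT_exists_root_one_add p hp g hg0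
  refine ⟨HahnSeries.single m 1 * HahnSeries.ofPowerSeries ℤ K (PowerSeries.C b * ψ), ?_⟩
  have e1 : (PowerSeries.C b * ψ) ^ p = P := by
    rw [mul_pow, hψ, ← map_pow, hb, hg, add_sub_cancel, ← mul_assoc, ← map_mul,
      mul_inv_cancel₀ ha0, map_one, one_mul]
  rw [mul_pow, ← map_pow (HahnSeries.ofPowerSeries ℤ K), e1, HahnSeries.single_pow, one_pow,
    nsmul_eq_mul, ← hm, hP]
  exact LaurentSeries.single_order_mul_powerSeriesPart f

open Fermat.Agent.S18Lib in
/-- (ROOT1) -/
theorem exists_root_LS (p : ℕ) (hp : 0 < p) (f : LaurentSeries Qb) (hf : f ≠ 0)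
    (hord : (p : ℤ) ∣ f.order) : ∃ φ : LaurentSeries Qb, φ ^ p = f :=
  RT_exists_root p hp f hf hord

end Fermat.Agent.S40Lib
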