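import Fermat.Agent.S40.Cov.KumEt
import Fermat.Agent.S33.GTame
import Fermat.Agent.S18.ResField

/-!
# S40 / S44, COV (Y): (ZL) `ζ = 1 + λ ε`, `ε̄ ∈ 𝔽_p^×` and (DECK) the deck transformation
-/

set_option autoImplicit false

open Polynomial Fermat.Agent.S18Lib Fermat.Agent.S34Lib Fermat.Agent.S33Lib

namespace Fermat.Agent.S40Lib

/-- the solutions of `e ^ p = e` in a domain of characteristic `p` -/
theorem ZL_mem_prime_field (p : ℕ) [Fact p.Prime] {k : Type*} [CommRing k] [IsDomain k] [CharP k p]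
    (e : k) (he : e ^ p = e) : ∃ m : ZMod p, e = ZMod.castHom (dvd_refl p) k m := by
  have h1 := congrArg (Polynomial.eval e) (KE_prod p (ZMod.castHom (dvd_refl p) k) 0)
  rw [eval_prod] at h1
  simp only [eval_sub, eval_X, eval_C, eval_pow, zero_add] at h1
  rw [he, sub_self, zero_pow (Fact.out : p.Prime).ne_zero, sub_self, sub_self] at h1
  obtain ⟨m, -, hm⟩ := Finset.prod_eq_zero_iff.1 h1
  exact ⟨m, sub_eq_zero.1 hm⟩

/-- **(ZL)** -/
theorem exists_zeta_eps (p : ℕ) [hpF : Fact p.Prime] (A : ValuationSubring Qb)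
    [CharP (kk A) p] (hA : A.LiesOverPrime p) (lam : A) (hlam : lam ^ (p - 1) = -(p : A)) (ζ : Qb)
    (hζ : IsPrimitiveRoot ζ p) :
    ∃ (z ε : A) (m : ZMod p), (z : Qb) = ζ ∧ z = 1 + lam * ε ∧
      IsLocalRing.residue A ε = ZMod.castHom (dvd_refl p) (kk A) m ∧ m ≠ 0 := by
  have hp := hpF.out
  have hp1 : p - 1 ≠ 0 := by have := hp.two_le; omega
  have hζp : ζ ^ p = 1 := hζ.pow_eq_one
  have hζ1 : ζ ≠ 1 := hζ.ne_one hp.one_lt
  have hζA : ζ ∈ A := (A.valuation_le_one_iff ζ).1 (G_root_mem A ζ hp.ne_zero hζp).le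
  have hpA : (p : A) ≠ 0 := by
    intro h0
    have h1 : ((p : A) : Qb) = 0 := by rw [h0]; rfl
    have h2 : ((p : A) : Qb) = (p : Qb) := by push_cast; rfl
    rw [h2] at h1
    exact hp.ne_zero (by exact_mod_cast h1)
  have hl0 : lam ≠ 0 := by
    intro h0
    rw [h0, zero_pow hp1] at hlam
    exact hpA (neg_eq_zero.1 hlam.symm)
  have hl0' : (lam : Qb) ≠ 0 := fun h => hl0 (Subtype.ext h)
  have hlr : IsLocalRing.residue A lam = 0 := by
    have h1 : IsLocalRing.residue A lam ^ (p - 1) = 0 := by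
      rw [← map_pow, hlam, map_neg, map_natCast, CharP.cast_eq_zero, neg_zero]
    exact (pow_eq_zero_iff hp1).1 h1
  have hval : A.valuation (lam : Qb) ^ (p - 1) = A.valuation (p : Qb) := by
    rw [← map_pow]
    have h1 : (lam : Qb) ^ (p - 1) = -(p : Qb) := by
      have := congrArg (fun z : A => (z : Qb)) hlam
      simpa using this
    rw [h1, Valuation.map_neg]
  have hveq : A.valuation (1 - ζ) = A.valuation (lam : Qb) :=
    (pow_left_injective hp1) (by
      show A.valuation (1 - ζ) ^ (p - 1) = A.valuation (lam : Qb) ^ (p - 1)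
      rw [hval, valuation_one_sub_zeta p hp A hA ζ hζp hζ1])
  have hεA : (ζ - 1) / (lam : Qb) ∈ A := by
    rw [← A.valuation_le_one_iff, map_div₀, ← neg_sub, Valuation.map_neg, hveq,
      div_self (by rw [Ne, map_eq_zero]; exact hl0')]
  set z : A := ⟨ζ, hζA⟩ with hz
  set ε : A := ⟨_, hεA⟩ with hε
  have hzε : z = 1 + lam * ε := by
    apply Subtype.ext
    show ζ = 1 + (lam : Qb) * ((ζ - 1) / (lam : Qb))
    field_simp
    ring
  have hzprim : IsPrimitiveRoot z p :=
    IsPrimitiveRoot.of_map_of_injective (f := A.subtype) hζ Subtype.val_injective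
  obtain ⟨n, hn⟩ : ∃ n, p = n + 1 := ⟨p - 1, by omega⟩
  have hn' : p - 1 = n := by omega
  have hprod : ∏ i ∈ Finset.range n, (1 - z ^ (i + 1)) = (p : A) := by
    have := IsPrimitiveRoot.prod_one_sub_pow_eq_order (n := n) (μ := z) (by rw [← hn]; exact hzprim)
    rw [this, hn]
    push_cast
    rfl
  have hfac : ∏ i ∈ Finset.range n, (1 - z ^ (i + 1)) =
      (1 - z) ^ n * ∏ i ∈ Finset.range n, ∑ j ∈ Finset.range (i + 1), z ^ j := by
    rw [← Finset.card_range n, ← Finset.prod_const, Finset.card_range, ← Finset.prod_mul_distrib]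
    exact Finset.prod_congr rfl fun i _ => (mul_neg_geom_sum z (i + 1)).symm
  set P : A := ∏ i ∈ Finset.range n, ∑ j ∈ Finset.range (i + 1), z ^ j with hP
  have hzr : IsLocalRing.residue A z = 1 := by
    rw [hzε, map_add, map_one, map_mul, hlr, zero_mul, add_zero]
  have hPr : IsLocalRing.residue A P = -1 := by
    rw [hP, map_prod]
    have h1 : ∀ i ∈ Finset.range n, IsLocalRing.residue A (∑ j ∈ Finset.range (i + 1), z ^ j) =
        ((i + 1 : ℕ) : kk A) := by
      intro i _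
      rw [map_sum]
      simp [hzr]
    rw [Finset.prod_congr rfl h1, ← Nat.cast_prod, Finset.prod_range_add_one_eq_factorial, ← hn']
    have h2 := congrArg (ZMod.castHom (dvd_refl p) (kk A)) (ZMod.wilsons_lemma p)
    rw [map_natCast, map_neg, map_one] at h2
    exact h2
  have hkey : (1 : A) = (-1) ^ p * ε ^ n * P := by
    apply mul_left_cancel₀ hpA
    have h1 : (1 - z) = -(lam * ε) := by rw [hzε]; ring
    have h2 : (p : A) = (1 - z) ^ n * P := by rw [← hfac, hprod]
    rw [mul_one]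
    have hlam' : lam ^ n = -(p : A) := by rw [← hn']; exact hlam
    conv_lhs => rw [h2, h1, neg_pow, mul_pow, hlam']
    have h3 : ((-1 : A)) ^ p = (-1) ^ n * (-1) := by rw [hn, pow_succ]
    rw [h3]
    ring
  have hres : IsLocalRing.residue A ε ^ n = 1 := by
    have h1 := congrArg (IsLocalRing.residue A) hkey
    rw [map_one, map_mul, map_mul, map_pow, map_pow, map_neg, map_one, hPr,
      neg_one_pow_char (kk A) p] at h1
    rw [h1]
    ring
  obtain ⟨m, hm⟩ := ZL_mem_prime_field p (IsLocalRing.residue A ε) (by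
    rw [hn, pow_succ, hres, one_mul])
  refine ⟨z, ε, m, rfl, hzε, hm, ?_⟩
  rintro rfl
  rw [map_zero] at hm
  rw [hm, zero_pow (by omega)] at hres
  exact zero_ne_one hres

section Deck

variable {F Φ E : Type*} [Field F] [Algebra Qb F] [CommRing Φ] {A : ValuationSubring Qb}
  [Algebra (kk A) Φ] [Field E] [Algebra F E] [Algebra Qb E] [IsScalarTower Qb F E]
  {R : RedG A (IsLocalRing.residue A) F Φ} {p : ℕ} [hpF : Fact p.Prime] {l : A} {r : R.O}
  {τ₀ : Φ} {η : E} [CharP (kk A) p]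

/-- **(DECK)** the fields `m m_ne g_mem g_mem' g_red` of `CovY` -/
theorem KEHyp.deck_all (H : KEHyp R p l r τ₀ η) (hA : A.LiesOverPrime p) (g : E ≃ₐ[F] E) (ζ : Qb)
    (hζ : IsPrimitiveRoot ζ p) (hg : g η = algebraMap Qb E ζ * η) :
    ∃ (m : ZMod p) (h1 : ∀ z : E, z ∈ H.data.redG.O → g z ∈ H.data.redG.O), m ≠ 0 ∧
      (∀ z : E, z ∈ H.data.redG.O → g.symm z ∈ H.data.redG.O) ∧
      ∀ (z : H.data.redG.O) (c : ZMod p),
        H.data.redG.red ⟨g (z : E), h1 _ z.2⟩ c = H.data.redG.red z (c + m) := by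
  obtain ⟨z, ε, m, hz, hzε, hε, hm⟩ := exists_zeta_eps p A hA l H.l_pow ζ hζ
  obtain ⟨z', ε', m', hz', hzε', hε', -⟩ := exists_zeta_eps p A hA l H.l_pow ζ⁻¹ hζ.inv
  have hζ0 : ζ ≠ 0 := hζ.ne_zero hpF.out.ne_zero
  have hg' : g.symm η = algebraMap Qb E ((z' : A) : Qb) * η := by
    rw [hz', AlgEquiv.symm_apply_eq, map_mul, hg, IsScalarTower.algebraMap_apply Qb F E ζ⁻¹,
      g.commutes, ← IsScalarTower.algebraMap_apply, ← mul_assoc, ← map_mul, inv_mul_cancel₀ hζ0,
      map_one, one_mul]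
  have hg1 : g η = algebraMap Qb E ((z : A) : Qb) * η := by rw [hz, hg]
  refine ⟨m, fun x hx => (H.deck g z ε m hg1 hzε hε ⟨x, hx⟩).1, hm,
    fun x hx => (H.deck g.symm z' ε' m' hg' hzε' hε' ⟨x, hx⟩).1, fun x c => ?_⟩
  exact (H.deck g z ε m hg1 hzε hε x).2 c

end Deck

end Fermat.Agent.S40Lib
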