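import Fermat.Agent.S40.Cov.CovY
import Fermat.Agent.S40.Cov.Y.Lam
import Fermat.Agent.S40.Cov.Y.AdjoinTop
import Fermat.Agent.S40.Cov.Y.Deck
import Fermat.Agent.S40.Cov.Y.CovGen
import Fermat.Agent.S40.Cov.ZetaLam
import Fermat.Agent.S40.Cov.ExED
import Fermat.Agent.S40.Cov.RootLS
import Fermat.Agent.S40.Cov.KumDiv
import Fermat.Agent.S40.Fix.Main
import Fermat.Agent.S40.Lvl.Defs

/-!
# S40 / S44, COV, block (Y): existence of the cover datum `CovY` (assembly)
-/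

set_option autoImplicit false
set_option synthInstance.maxHeartbeats 400000
set_option linter.unusedSectionVars false

open AlgebraicCurve ModularCurve Polynomial

namespace Fermat.Agent.S40Lib

open Fermat.Agent.S18Lib Fermat.Agent.S24Lib Fermat.Agent.ESLib Fermat.Agent.S34Lib
  Fermat.Agent.S33Lib Fermat.Agent.S36Lib Fermat.Agent.FFLib

noncomputable section

/-- **(Y)** -/
theorem exists_covY (M p : ℕ) [NeZero M] [NeZero p] [hpF : Fact p.Prime] (hpM : ¬ p ∣ M)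
    (hp5 : 5 ≤ p)
    (A : ValuationSubring Qb) (hA : A.LiesOverPrime p) (hbase : 2 ∣ M ∨ 3 ∣ M)
    (x y : FB (p * M)) (c : CovCfg M p hpM A x y) :
    ∃ (G : FB (p * M)) (η : LaurentSeries Qb) (ζ : Qb), G ≠ 0 ∧
      η ^ p = ((G ^ p * y : FB (p * M)) : LaurentSeries Qb) ∧ IsPrimitiveRoot ζ p ∧
      Nonempty (CovY M p A (R2 M p hpM A hA) η ζ) := by
  have hp := hpF.out
  have : CharP (kk A) p := charP_kk hp hA
  have hR := isQRed2_R2 M p hpM A hA
  obtain ⟨lam, hlam⟩ := exists_lam p hp.one_lt A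
  obtain ⟨ζ, hζ⟩ : ∃ ζ : Qb, IsPrimitiveRoot ζ p :=
    HasEnoughRootsOfUnity.exists_primitiveRoot Qb p
  obtain ⟨a₁, hn1⟩ := c.ny1
  obtain ⟨a₂, hn2⟩ := c.ny2
  obtain ⟨n, g, r, t₁, t₂, hg0, hrep, hrL, hred, hfixall⟩ :=
    fix_main M p hpM A hbase hA (R2 M p hpM A hA) hR lam hlam y c.ky c.y1 c.y2 a₁ a₂ hn1 hn2
  have hy' : IsKum (p * M) p (g ^ p * y) := by
    refine ⟨mul_ne_zero (pow_ne_zero _ hg0) c.ky.1, fun P => ?_⟩
    rw [P.ord_mul (pow_ne_zero _ hg0) c.ky.1]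
    refine dvd_add ?_ (c.ky.2 P)
    rw [pl_ord_pow]
    exact Dvd.intro _ rfl
  obtain ⟨η, hη⟩ := exists_root_LS p hp.pos ((g ^ p * y : FB (p * M)) : LaurentSeries Qb)
    (fun h0 => hy'.1 (Subtype.ext h0)) (order_dvd_of_isKum (p * M) p _ hy')
  have hfix : IsFixEta A (R2 M p hpM A hA) lam η := hfixall η (by rw [hη, hrep])
  have hnp : ∀ f : FB (p * M), f ^ p ≠ g ^ p * y := by
    intro f hf
    apply c.yne
    refine ⟨f / g, ?_⟩
    rw [div_pow, hf]
    field_simp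
  have hl0 : lam ≠ 0 := by
    intro h0
    have hp1 : p - 1 ≠ 0 := by have := hp.two_le; omega
    rw [h0, zero_pow hp1] at hlam
    have h1 : (p : A) = 0 := neg_eq_zero.1 hlam.symm
    have h2 : ((p : A) : Qb) = 0 := by rw [h1]; rfl
    rw [show ((p : A) : Qb) = (p : Qb) from by push_cast; rfl] at h2
    exact hp.ne_zero (by exact_mod_cast h2)
  have hrepF : g ^ p * y = 1 + algebraMap Qb (FB (p * M)) (lam : Qb) ^ p *
      ((r : (R2 M p hpM A hA).O) : FB (p * M)) := by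
    rw [hrep, ← map_pow]
    rfl
  have H : KEHyp (R2 M p hpM A hA) p lam r (t₁, t₂) (etaE (p * M) η) :=
    { l_pow := hlam
      l_ne := hl0
      red_r := hred
      η_pow := by
        apply Subtype.ext
        show η ^ p = _
        rw [hη, hrepF]
        rfl
      not_pow := fun f hf => hnp f (by rw [hf, hrepF])
      gen := adjoin_etaE_eq_top (p * M) hp.pos η _ hη }
  obtain ⟨W₀, hED⟩ := exists_edHyp hA hR hfix _ hη H
  obtain ⟨gg, hgg⟩ := exists_deck (p * M) η _ hη hnp ζ hζ.pow_eq_one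
  have hgen : IsCovGen A (p * M) η ζ gg := by
    refine isCovGen_of_fix A (p * M) hp.pos η _ hη _ gg hgg ?_
    intro σ hσ
    have h1 : (σ ζ) ^ p = 1 := by rw [← map_pow, hζ.pow_eq_one, map_one]
    obtain ⟨j, -, hj⟩ := hζ.eq_pow_of_pow_eq_one h1
    obtain ⟨G, -, hG⟩ := hfix σ hσ ζ hζ.pow_eq_one (hζ.ne_one hp.one_lt) j hj.symm
    exact ⟨j, _, hj.symm, hG⟩
  obtain ⟨m, hgmem, hm, hgsymm, hgred⟩ := H.deck_all hA gg ζ hζ hgg
  exact ⟨g, η, ζ, hg0, hη, hζ, ⟨{
    g := gg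
    gen := hgen
    RE := H.data.redG
    RE0 := hED.data.redG
    mem0 := hED.mem_redG_iff
    red0 := fun z h => hED.red_e z h
    memF := fun f => H.data.algebraMap_mem_redG f
    redF := fun f c => H.data.redG_red_algebraMap f c
    m := m
    m_ne := hm
    g_mem := hgmem
    g_mem' := hgsymm
    g_red := hgred }⟩⟩

end

end Fermat.Agent.S40Lib
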