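import Fermat.Agent.S40.Cov.Stab
import Fermat.Agent.S40.Cov.DescBasic
import Fermat.Agent.S40.Cov.Rk

/-!
# S40 / S44, COV (DESC): (DS6) existence of the descent datum `S₀`, `u = S₀^p`
-/

set_option autoImplicit false
set_option synthInstance.maxHeartbeats 400000
set_option linter.unusedSectionVars false

open AlgebraicCurve ModularCurve Polynomial IntermediateField

namespace Fermat.Agent.S40Lib

open Fermat.Agent.S18Lib Fermat.Agent.S24Lib Fermat.Agent.S28Lib Fermat.Agent.ESLib
  Fermat.Agent.S34Lib Fermat.Agent.S33Lib Fermat.Agent.S36Lib Fermat.Agent.FFLib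

noncomputable section

section Desc

variable {A : ValuationSubring Qb} {N p : ℕ} [NeZero N] [hpF : Fact p.Prime] {x y : FB N}
  {φ η : LaurentSeries Qb} {Dx Dy : Divisor Qb (FB N)}

/-- (DS6) -/
theorem exists_desc (h : DescCfg A N p x y φ η Dx Dy) :
    ∃ (S₀ : LaurentSeries Qb) (u : covE0 A (covE N η)), IsDesc A N p φ η S₀ u := by
  classical
  set n : ℕ := gS N with hn
  set V : Submodule Qb (LaurentSeries Qb) := covSp N p φ η Dx Dy n with hV
  have hfd : FiniteDimensional Qb V := RK_finite_covSp (p := p) φ η Dx Dy n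
  have hφ0 : φ ≠ 0 := by
    intro h0
    apply h.x0
    apply Subtype.ext
    rw [← h.hφ, h0, zero_pow hpF.out.ne_zero]
    rfl
  -- `V` has positive dimension
  have hpos : 0 < Module.finrank Qb V := by
    have h3 := RK_sum_le hpF.out φ η hφ0 y h.hη h.yne Dx Dy n
    have hidx : 0 < idx N := Nat.pos_of_ne_zero (Subgroup.FiniteIndex.index_ne_zero)
    have h4 : ∀ i : Fin p, 1 ≤ Module.finrank Qb (twW N Dx Dy n i) := by
      intro i
      have h5 := RK_riemann hpF.out.pos x y Dx Dy h.hDx h.hDy n i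
      have h6 : (n : ℤ) ≤ (n : ℤ) * idx N := by
        have : (1 : ℤ) ≤ idx N := by exact_mod_cast hidx
        nlinarith [Int.natCast_nonneg n]
      have h7 : (1 : ℤ) ≤ Module.finrank Qb (twW N Dx Dy n i) := by
        rw [hn] at h5 h6
        linarith
      exact_mod_cast h7
    have h8 : p ≤ ∑ i : Fin p, Module.finrank Qb (twW N Dx Dy n i) := by
      calc p = ∑ _i : Fin p, 1 := by simp
        _ ≤ _ := Finset.sum_le_sum fun i _ => h4 i
    exact lt_of_lt_of_le hpF.out.pos (h8.trans h3)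
  obtain ⟨m, b, hbV, hbm, hexp⟩ := exists_echelon V
  have hfix : ∀ s, b s ∈ K0S A := by
    intro s σ hσ
    have h1 := covSp_stable h n σ hσ _ (hbV s)
    rw [hexp _ h1]
    have h2 : ∀ t, (coeffMap ((σ : GQ) : Qb →+* Qb) (b s)).coeff (m t) =
        if s = t then 1 else 0 := by
      intro t
      rw [coeffMap_coeff, hbm]
      split_ifs <;> simp
    simp [h2]
  set s₀ : Fin (Module.finrank Qb V) := ⟨0, hpos⟩ with hs₀
  have hne : b s₀ ≠ 0 := by
    intro h0
    have h1 := hbm s₀ s₀
    rw [h0] at h1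
    simp at h1
  have hpow : b s₀ ^ p ∈ covE N η := usp_pow_mem φ η x h.hφ Dx Dy n _ (hbV s₀)
  refine ⟨b s₀, ⟨⟨b s₀ ^ p, hpow⟩, (K0S A).pow_mem (hfix s₀) p⟩, ?_⟩
  exact
    { ne := hne
      fix := hfix s₀
      ex := exists_of_mem_covSp n _ (hbV s₀)
      hu := rfl }

end Desc

end

end Fermat.Agent.S40Lib
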