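import Fermat.Agent.S40.Cov.DescDefs

/-!
# S40 / S44, COV, (FO): finite inertia orbits on `covE N η`

Every element of `E = F(η)` (`η ^ p ∈ F = FB N`) is algebraic over the field `K0S A` of the series
with coefficients in the inertia field, hence has a finite orbit under the coefficientwise action of
inertia.
-/

set_option autoImplicit false
set_option synthInstance.maxHeartbeats 400000

open AlgebraicCurve ModularCurve Polynomial

namespace Fermat.Agent.S40Lib

open Fermat.Agent.S18Lib Fermat.Agent.S24Lib Fermat.Agent.ESLib Fermat.Agent.S34Lib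
  Fermat.Agent.S33Lib Fermat.Agent.S36Lib Fermat.Agent.FFLib

noncomputable section

/-- `ℚ → K0S A` -/
def ratK0S (A : ValuationSubring Qb) : ℚ →+* K0S A where
  toFun c := ⟨algebraMap Qb (LaurentSeries Qb) (algebraMap ℚ Qb c), fun σ _ => by
    rw [coeffMap_algebraMap]
    congr 1
    exact σ.commutes c⟩
  map_one' := by apply Subtype.ext; simp
  map_mul' := fun a b => by apply Subtype.ext; simp
  map_zero' := by apply Subtype.ext; simp
  map_add' := fun a b => by apply Subtype.ext; simp

theorem isAlgebraic_const (A : ValuationSubring Qb) (c : Qb) :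
    IsAlgebraic (K0S A) (algebraMap Qb (LaurentSeries Qb) c) := by
  have hint : IsIntegral ℚ c := (AlgebraicClosure.isAlgebraic ℚ).isIntegral.isIntegral c
  refine ⟨(minpoly ℚ c).map (ratK0S A), Polynomial.map_ne_zero (minpoly.ne_zero hint), ?_⟩
  rw [aeval_def, eval₂_map]
  have h1 : (algebraMap (K0S A) (LaurentSeries Qb)).comp (ratK0S A) =
      (algebraMap Qb (LaurentSeries Qb)).comp (algebraMap ℚ Qb) := RingHom.ext fun _ => rfl
  rw [h1, ← hom_eval₂, ← aeval_def, minpoly.aeval, map_zero]

/-- the series which are algebraic over `K0S A`, as an intermediate field over `Qb` -/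
def algK0S (A : ValuationSubring Qb) : IntermediateField Qb (LaurentSeries Qb) :=
  (algebraicClosure (K0S A) (LaurentSeries Qb)).toSubfield.toIntermediateField (by
    intro c
    show algebraMap Qb (LaurentSeries Qb) c ∈ algebraicClosure (K0S A) (LaurentSeries Qb)
    rw [mem_algebraicClosure_iff]
    exact isAlgebraic_const A c)

theorem mem_algK0S {A : ValuationSubring Qb} {z : LaurentSeries Qb} :
    z ∈ algK0S A ↔ IsAlgebraic (K0S A) z := by
  rw [← mem_algebraicClosure_iff]
  rfl

theorem FB_le_algK0S (A : ValuationSubring Qb) (N : ℕ) : FB N ≤ algK0S A := by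
  show IntermediateField.adjoin Qb _ ≤ _
  rw [IntermediateField.adjoin_le_iff]
  rintro _ ⟨x, -, rfl⟩
  show coeffEmb Qb x ∈ algK0S A
  rw [mem_algK0S]
  have hx : coeffEmb Qb x ∈ K0S A := fun σ _ => coeffMap_coeffEmb σ x
  exact isAlgebraic_algebraMap (⟨_, hx⟩ : K0S A)

/-- `E = F(η)` is algebraic over `K0S A` -/
theorem isAlgebraic_covE (A : ValuationSubring Qb) (N : ℕ) {p : ℕ} (hp : 0 < p)
    (η : LaurentSeries Qb) (y : FB N) (hη : η ^ p = (y : LaurentSeries Qb))
    (z : LaurentSeries Qb) (hz : z ∈ covE N η) : IsAlgebraic (K0S A) z := by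
  rw [← mem_algK0S]
  have h1 : covE N η ≤ algK0S A := by
    refine sup_le (FB_le_algK0S A N) ?_
    rw [IntermediateField.adjoin_le_iff]
    intro x hx
    rw [Set.mem_singleton_iff] at hx
    subst hx
    show x ∈ algK0S A
    rw [mem_algK0S]
    apply IsAlgebraic.of_pow hp
    rw [hη, ← mem_algK0S]
    exact FB_le_algK0S A N y.2
  exact h1 hz

/-- a series which is algebraic over `K0S A` has a finite inertia orbit -/
theorem finite_orbit_of_isAlgebraic (A : ValuationSubring Qb) {z : LaurentSeries Qb}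
    (hz : IsAlgebraic (K0S A) z) :
    {x | ∃ σ ∈ A.inertiaSubgroupIn ℚ, x = coeffMap ((σ : GQ) : Qb →+* Qb) z}.Finite := by
  obtain ⟨P, hP0, hP⟩ := hz
  refine (P.rootSet_finite (LaurentSeries Qb)).subset ?_
  rintro _ ⟨σ, hσ, rfl⟩
  rw [mem_rootSet]
  refine ⟨hP0, ?_⟩
  have h1 : aeval (coeffMap ((σ : GQ) : Qb →+* Qb) z) P =
      coeffMap ((σ : GQ) : Qb →+* Qb) (aeval z P) := by
    rw [aeval_def, aeval_def, hom_eval₂]
    congr 1
    exact RingHom.ext fun c => (c.2 σ hσ).symm
  rw [h1, hP, map_zero]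

/-- **(FO)** finite inertia orbits on `E = F(η)` -/
theorem finite_orbit_covE (A : ValuationSubring Qb) (N : ℕ) {p : ℕ} (hp : 0 < p)
    (η : LaurentSeries Qb) (y : FB N) (hη : η ^ p = (y : LaurentSeries Qb))
    (z : LaurentSeries Qb) (hz : z ∈ covE N η) :
    {x | ∃ σ ∈ A.inertiaSubgroupIn ℚ, x = coeffMap ((σ : GQ) : Qb →+* Qb) z}.Finite :=
  finite_orbit_of_isAlgebraic A (isAlgebraic_covE A N hp η y hη z hz)

end

end Fermat.Agent.S40Lib
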