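import Fermat.Agent.S40.Cov.ClaimA
import Fermat.Agent.S40.Cov.DescDefs
import Fermat.Agent.S40.Cov.FinOrbit
import Fermat.Agent.S40.Cov.Y.Defs
import Fermat.Agent.S40.GapwTame
import Fermat.Agent.S34.RedG2Cor

/-!
# S40 / S44, COV: the inertia group acting on `E = covE N η`, (CLAIM A) on `covE`
-/

set_option autoImplicit false
set_option synthInstance.maxHeartbeats 400000
set_option linter.unusedSectionVars false

open AlgebraicCurve ModularCurve

namespace Fermat.Agent.S40Lib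

open Fermat.Agent.S18Lib Fermat.Agent.S24Lib Fermat.Agent.ESLib Fermat.Agent.S34Lib
  Fermat.Agent.S33Lib Fermat.Agent.S36Lib Fermat.Agent.FFLib

noncomputable section

/-- (IE1) `E = F(η)` is stable under `σ` as soon as `σ η ∈ E` -/
theorem covE_stable (N : ℕ) (η : LaurentSeries Qb) (σ : GQ)
    (h : coeffMap ((σ : GQ) : Qb →+* Qb) η ∈ covE N η) :
    ∀ z ∈ covE N η, coeffMap ((σ : GQ) : Qb →+* Qb) z ∈ covE N η := by
  let T : IntermediateField Qb (LaurentSeries Qb) :=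
    ((covE N η).toSubfield.comap (coeffMap ((σ : GQ) : Qb →+* Qb))).toIntermediateField
      (fun c => by
        show coeffMap ((σ : GQ) : Qb →+* Qb) (algebraMap Qb (LaurentSeries Qb) c) ∈ covE N η
        rw [coeffMap_algebraMap]
        exact (covE N η).algebraMap_mem _)
  have hT : covE N η ≤ T := by
    refine sup_le ?_ ?_
    · intro f hf
      show coeffMap ((σ : GQ) : Qb →+* Qb) f ∈ covE N η
      exact FB_le_covE N η (gal N σ ⟨f, hf⟩).2
    · rw [IntermediateField.adjoin_le_iff]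
      intro x hx
      rw [Set.mem_singleton_iff] at hx
      subst hx
      exact h
  exact fun z hz => hT hz

/-- the action of `σ` on `E` -/
def covSig (N : ℕ) (η : LaurentSeries Qb) (σ : GQ)
    (hst : ∀ z ∈ covE N η, coeffMap ((σ : GQ) : Qb →+* Qb) z ∈ covE N η) :
    covE N η →+* covE N η :=
  ((coeffMap ((σ : GQ) : Qb →+* Qb)).comp (algebraMap (covE N η) (LaurentSeries Qb))).codRestrict
    (covE N η) (fun z => hst _ z.2)

theorem coe_covSig (N : ℕ) (η : LaurentSeries Qb) (σ : GQ)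
    (hst : ∀ z ∈ covE N η, coeffMap ((σ : GQ) : Qb →+* Qb) z ∈ covE N η) (z : covE N η) :
    ((covSig N η σ hst z : covE N η) : LaurentSeries Qb) =
      coeffMap ((σ : GQ) : Qb →+* Qb) (z : LaurentSeries Qb) := rfl

variable {M p : ℕ} [NeZero M] [NeZero p] [hpF : Fact p.Prime] {hpM : ¬ p ∣ M}
variable {A : ValuationSubring Qb}
variable {R : RedG A (IsLocalRing.residue A) (FB (p * M)) (FT A M × FT A M)}

/-- the action of `σ ∈ I` on `R.O` -/
def sigO (hR : IsQRed2 M p hpM A R) (σ : GQ) (hσ : σ ∈ A.inertiaSubgroupIn ℚ) : R.O →+* R.O :=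
  (((gal (p * M) σ : FB (p * M) ≃+* FB (p * M)) : FB (p * M) →+* FB (p * M)).comp
    R.O.subtype).codRestrict R.O (fun x => (inertia_mem hR σ hσ x).1)

theorem coe_sigO (hR : IsQRed2 M p hpM A R) (σ : GQ) (hσ : σ ∈ A.inertiaSubgroupIn ℚ) (x : R.O) :
    ((sigO hR σ hσ x : R.O) : FB (p * M)) = gal (p * M) σ (x : FB (p * M)) := rfl

theorem red_sigO (hR : IsQRed2 M p hpM A R) (σ : GQ) (hσ : σ ∈ A.inertiaSubgroupIn ℚ) (x : R.O) :
    R.red (sigO hR σ hσ x) = R.red x := (inertia_mem hR σ hσ x).2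

/-- the conclusion of `fix_main` -/
def IsFixEta (A : ValuationSubring Qb)
    (R : RedG A (IsLocalRing.residue A) (FB (p * M)) (FT A M × FT A M)) (lam : A)
    (η : LaurentSeries Qb) : Prop :=
  ∀ σ ∈ A.inertiaSubgroupIn ℚ, ∀ ζ : Qb, ζ ^ p = 1 → ζ ≠ 1 → ∀ j : ℕ, σ ζ = ζ ^ j →
    ∃ G : R.O, R.red G = 0 ∧ coeffMap ((σ : GQ) : Qb →+* Qb) η =
      η ^ j * (((1 + R.const lam * G : R.O) : FB (p * M)) : LaurentSeries Qb)

/-- a primitive `p`-th root of unity and the exponent of `σ` -/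
theorem IE_exists_exp (hp : p.Prime) (σ : GQ) :
    ∃ (ζ : Qb) (j : ℕ), ζ ^ p = 1 ∧ ζ ≠ 1 ∧ σ ζ = ζ ^ j ∧ ¬ p ∣ j := by
  obtain ⟨ζ, hζ⟩ : ∃ ζ : Qb, IsPrimitiveRoot ζ p :=
    HasEnoughRootsOfUnity.exists_primitiveRoot Qb p
  have h1 : (σ ζ) ^ p = 1 := by rw [← map_pow, hζ.pow_eq_one, map_one]
  obtain ⟨j, -, hj⟩ := hζ.eq_pow_of_pow_eq_one h1
  refine ⟨ζ, j, hζ.pow_eq_one, hζ.ne_one hp.one_lt, hj.symm, ?_⟩
  intro hd
  have h2 : ζ ^ j = 1 := (hζ.pow_eq_one_iff_dvd j).2 hd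
  rw [h2] at hj
  have h3 : σ ζ = σ 1 := by rw [← hj, map_one]
  exact hζ.ne_one hp.one_lt (σ.injective h3)

/-- (IE2) stability of `E` under inertia -/
theorem IsFixEta.stable {lam : A} {η : LaurentSeries Qb} (hfix : IsFixEta A R lam η) :
    ∀ σ ∈ A.inertiaSubgroupIn ℚ, ∀ z ∈ covE (p * M) η,
      coeffMap ((σ : GQ) : Qb →+* Qb) z ∈ covE (p * M) η := by
  intro σ hσ
  obtain ⟨ζ, j, hζ, hζ1, hj, -⟩ := IE_exists_exp hpF.out σ
  obtain ⟨G, -, hG⟩ := hfix σ hσ ζ hζ hζ1 j hj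
  apply covE_stable
  rw [hG]
  exact mul_mem (pow_mem (eta_mem_covE _ η) j) (FB_le_covE _ η (Subtype.mem _))

/-- (IE3) **(CLAIM A)** on `covE` -/
theorem claimA_cov [CharP (kk A) p] (hA : A.LiesOverPrime p) (hR : IsQRed2 M p hpM A R) {lam : A} {r : R.O}
    {τ₀ : FT A M × FT A M} {η : LaurentSeries Qb} (hfix : IsFixEta A R lam η)
    (H : KEHyp R p lam r τ₀ (etaE (p * M) η)) (σ : GQ) (hσ : σ ∈ A.inertiaSubgroupIn ℚ)
    (z : H.data.redG.O) :
    ∃ h : covSig (p * M) η σ (hfix.stable σ hσ) (z : covE (p * M) η) ∈ H.data.redG.O,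
      H.data.redG.red ⟨_, h⟩ = H.data.redG.red z := by
  have hp := hpF.out
  obtain ⟨ζ, j, hζ, hζ1, hj, hpj⟩ := IE_exists_exp hp σ
  obtain ⟨G, hG0, hG⟩ := hfix σ hσ ζ hζ hζ1 j hj
  have hval : A.valuation (lam : Qb) ^ (p - 1) = A.valuation (p : Qb) := by
    rw [← map_pow]
    have : (lam : Qb) ^ (p - 1) = -(p : Qb) := by
      have := congrArg (fun z : A => (z : Qb)) H.l_pow
      simpa using this
    rw [this, Valuation.map_neg]
  obtain ⟨θ, hθ, hθj⟩ := tame_theta p hp A hA σ hσ ζ hζ hζ1 j hj lam hval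
  refine H.claimA (covSig (p * M) η σ (hfix.stable σ hσ)) (sigO hR σ hσ) ?_ (red_sigO hR σ hσ)
    θ j ?_ hθj ?_ G hG0 ?_ z
  · intro x
    apply Subtype.ext
    rw [coe_covSig, coe_algebraMap_FE, coe_algebraMap_FE, coe_sigO, coe_gal]
  · apply Subtype.ext
    rw [coe_covSig]
    show coeffMap ((σ : GQ) : Qb →+* Qb) (algebraMap Qb (LaurentSeries Qb) (lam : Qb)) =
      algebraMap Qb (LaurentSeries Qb) (θ : Qb) * algebraMap Qb (LaurentSeries Qb) (lam : Qb)
    rw [coeffMap_algebraMap, ← map_mul]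
    congr 1
  · intro h0
    exact hpj ((CharP.cast_eq_zero_iff (kk A) p j).1 h0)
  · apply Subtype.ext
    rw [coe_covSig]
    show coeffMap ((σ : GQ) : Qb →+* Qb) η = η ^ j *
      ((algebraMap (FB (p * M)) (covE (p * M) η) ((1 + R.const lam * G : R.O) : FB (p * M)) :
        covE (p * M) η) : LaurentSeries Qb)
    rw [coe_algebraMap_FE, hG]

end

end Fermat.Agent.S40Lib
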