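import Fermat.Agent.S40.ET

/-!
# S40 (COV), abstract lemma (KE): a Kummer extension `E = F(η)`, `η ^ p = 1 + λ ^ p r`,
`λ ^ (p - 1) = - p`, `red r = τ₀ ^ p - τ₀`, is split étale: `θ = (η - 1) / λ` is a root of
`P0 = X ^ p - ∑_{0 < i < p} (binom(p, i) / p) λ ^ (i - 1) X ^ i - r`, `red P0 = ∏_c (X - τ₀ - c)`.
-/

set_option autoImplicit false
set_option linter.unusedSectionVars false

open Polynomial Fermat.Agent.S18Lib Fermat.Agent.S34Lib

namespace Fermat.Agent.S40Lib

section Formal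

/-- `∏_{c ∈ 𝔽_p} (X - c) = X ^ p - X` -/
theorem KE_prod_zmod (p : ℕ) [Fact p.Prime] :
    ∏ c : ZMod p, (X - C c) = (X ^ p - X : (ZMod p)[X]) := by
  have hp1 : 1 < p := (Fact.out : p.Prime).one_lt
  have hroots : (X ^ p - X : (ZMod p)[X]).roots = Finset.univ.val := by
    have := FiniteField.roots_X_pow_card_sub_X (ZMod p)
    rwa [ZMod.card] at this
  have hdeg : (X ^ p - X : (ZMod p)[X]).natDegree = p :=
    FiniteField.X_pow_card_sub_X_natDegree_eq (ZMod p) hp1
  have hmonic : (X ^ p - X : (ZMod p)[X]).Monic := by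
    apply monic_X_pow_sub
    rw [degree_X]
    exact_mod_cast hp1
  have h := prod_multiset_X_sub_C_of_monic_of_roots_card_eq hmonic (by
    rw [hroots, hdeg]
    simp [ZMod.card])
  rw [hroots] at h
  exact h

/-- `∏_{c ∈ 𝔽_p} (X - τ - c) = X ^ p - X - (τ ^ p - τ)` in characteristic `p` -/
theorem KE_prod (p : ℕ) [Fact p.Prime] {Φ : Type*} [CommRing Φ] [CharP Φ p]
    (j : ZMod p →+* Φ) (τ : Φ) :
    ∏ c : ZMod p, (X - C (τ + j c)) = (X ^ p - X - C (τ ^ p - τ) : Φ[X]) := by
  have h1 := congrArg (fun P : (ZMod p)[X] => (P.map j).comp (X - C τ)) (KE_prod_zmod p)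
  simp only [Polynomial.map_prod, Polynomial.map_sub, Polynomial.map_pow, map_X, map_C,
    prod_comp, sub_comp, pow_comp, X_comp, C_comp] at h1
  have h2 : ∀ c : ZMod p, (X - C (τ + j c) : Φ[X]) = X - C τ - C (j c) := by
    intro c
    rw [C_add]
    ring
  rw [Finset.prod_congr rfl fun c _ => h2 c, h1, sub_pow_char, C_sub, C_pow]
  ring

/-- the binomial identity -/
theorem KE_binom (p : ℕ) (hp : p.Prime) {S : Type*} [CommRing S] (l x : S)
    (hl : l ^ (p - 1) = -(p : S)) :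
    l ^ p * (x ^ p - ∑ i ∈ Finset.Ico 1 p, ((p.choose i / p : ℕ) : S) * l ^ (i - 1) * x ^ i) =
      (1 + l * x) ^ p - 1 := by
  have hp1 : 1 ≤ p := hp.one_lt.le
  have h1 : (1 + l * x) ^ p = ∑ i ∈ Finset.range (p + 1), (l * x) ^ i * (p.choose i : S) := by
    rw [add_comm, add_pow]
    refine Finset.sum_congr rfl fun i _ => ?_
    rw [one_pow, mul_one]
  rw [h1, Finset.sum_range_succ, Finset.range_eq_Ico, Finset.sum_eq_sum_Ico_succ_bot hp.pos,
    Nat.choose_self, Nat.choose_zero_right, pow_zero, Nat.cast_one, mul_one, mul_one, zero_add,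
    mul_sub, Finset.mul_sum, mul_pow]
  have h2 : ∀ i ∈ Finset.Ico 1 p,
      l ^ p * (((p.choose i / p : ℕ) : S) * l ^ (i - 1) * x ^ i) =
        -((l * x) ^ i * (p.choose i : S)) := by
    intro i hi
    rw [Finset.mem_Ico] at hi
    have h3 : p * (p.choose i / p) = p.choose i :=
      Nat.mul_div_cancel' (hp.dvd_choose_self (by omega) hi.2)
    have h4 : (p.choose i : S) = (p : S) * ((p.choose i / p : ℕ) : S) := by
      rw [← Nat.cast_mul, h3]
    have h5 : l ^ p * l ^ (i - 1) = l ^ (p - 1) * l ^ i := by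
      rw [← pow_add, ← pow_add]
      congr 1
      omega
    calc l ^ p * (((p.choose i / p : ℕ) : S) * l ^ (i - 1) * x ^ i)
        = (l ^ p * l ^ (i - 1)) * (((p.choose i / p : ℕ) : S) * x ^ i) := by ring
      _ = -((l * x) ^ i * (p.choose i : S)) := by
        rw [h5, hl, h4, mul_pow]
        ring
  rw [Finset.sum_congr rfl h2, Finset.sum_neg_distrib]
  ring

end Formal

section KE

variable {K k F Φ E : Type*} [Field K] [Field k] [Field F] [Algebra K F] [CommRing Φ]
  [Algebra k Φ] [Field E] [Algebra F E] [Algebra K E] [IsScalarTower K F E]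
  {A : ValuationSubring K} {resK : A →+* k}

/-- the hypotheses of (KE) -/
structure KEHyp (R : RedG A resK F Φ) (p : ℕ) (l : A) (r : R.O) (τ₀ : Φ) (η : E) : Prop where
  l_pow : l ^ (p - 1) = -(p : A)
  l_ne : l ≠ 0
  red_r : R.red r = τ₀ ^ p - τ₀
  η_pow : η ^ p = 1 + algebraMap K E (l : K) ^ p * algebraMap F E ((r : R.O) : F)
  not_pow : ∀ g : F, g ^ p ≠ 1 + algebraMap K F (l : K) ^ p * ((r : R.O) : F)
  gen : Algebra.adjoin F {η} = ⊤

/-- the lower part of `P0` -/
noncomputable def KElow (R : RedG A resK F Φ) (p : ℕ) (l : A) (r : R.O) : R.O[X] :=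
  ∑ i ∈ Finset.Ico 1 p, C (R.const (((p.choose i / p : ℕ) : A) * l ^ (i - 1))) * X ^ i + C r

/-- the polynomial `P0` -/
noncomputable def KEpoly (R : RedG A resK F Φ) (p : ℕ) (l : A) (r : R.O) : R.O[X] :=
  X ^ p - KElow R p l r

theorem KElow_degree_lt (R : RedG A resK F Φ) (p : ℕ) (hp : 0 < p) (l : A) (r : R.O) :
    (KElow R p l r).degree < p := by
  refine lt_of_le_of_lt (degree_add_le _ _) (max_lt ?_ ?_)
  · refine lt_of_le_of_lt (degree_sum_le _ _) ?_
    refine (Finset.sup_lt_iff (WithBot.bot_lt_coe p)).2 ?_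
    intro i hi
    rw [Finset.mem_Ico] at hi
    exact lt_of_le_of_lt (degree_C_mul_X_pow_le _ _) (WithBot.coe_lt_coe.2 hi.2)
  · exact lt_of_le_of_lt degree_C_le (by exact_mod_cast hp)

theorem KEpoly_monic (R : RedG A resK F Φ) (p : ℕ) (hp : 0 < p) (l : A) (r : R.O) :
    (KEpoly R p l r).Monic :=
  monic_X_pow_sub (KElow_degree_lt R p hp l r)

theorem KEpoly_natDegree (R : RedG A resK F Φ) (p : ℕ) (hp : 0 < p) (l : A) (r : R.O) :
    (KEpoly R p l r).natDegree = p := by
  have : Nontrivial R.O := inferInstance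
  apply natDegree_eq_of_degree_eq_some
  rw [KEpoly, degree_sub_eq_left_of_degree_lt, degree_X_pow]
  rw [degree_X_pow]
  exact KElow_degree_lt R p hp l r

variable {R : RedG A resK F Φ} {p : ℕ} [hpF : Fact p.Prime] {l : A} {r : R.O} {τ₀ : Φ} {η : E}

theorem KEHyp.algl_ne (H : KEHyp R p l r τ₀ η) : algebraMap K E (l : K) ≠ 0 := by
  rw [Ne, map_eq_zero]
  exact fun h => H.l_ne (Subtype.ext h)

/-- `θ = (η - 1) / λ` -/
noncomputable def KEθ (l : A) (η : E) : E := (η - 1) * (algebraMap K E (l : K))⁻¹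

theorem KEHyp.η_eq (H : KEHyp R p l r τ₀ η) : η = 1 + algebraMap K E (l : K) * KEθ l η := by
  have := H.algl_ne
  rw [KEθ]
  field_simp
  ring

theorem KEHyp.root (H : KEHyp R p l r τ₀ η) :
    eval₂ ((algebraMap F E).comp R.O.subtype) (KEθ l η) (KEpoly R p l r) = 0 := by
  have hL := H.algl_ne
  have hl : algebraMap K E (l : K) ^ (p - 1) = -(p : E) := by
    have h1 := congrArg (fun a : A => algebraMap K E (a : K)) H.l_pow
    simpa using h1
  have h1 := KE_binom p hpF.out (algebraMap K E (l : K)) (KEθ l η) hl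
  rw [← H.η_eq, H.η_pow, add_sub_cancel_left] at h1
  have h2 := mul_left_cancel₀ (pow_ne_zero p hL) h1
  rw [KEpoly, KElow, eval₂_sub, eval₂_add, eval₂_pow, eval₂_X, eval₂_C, eval₂_finsetSum,
    ← sub_sub, sub_eq_zero]
  change _ = algebraMap F E ((r : R.O) : F)
  rw [← h2]
  congr 1
  refine Finset.sum_congr rfl fun i _ => ?_
  rw [eval₂_mul, eval₂_C, eval₂_pow, eval₂_X]
  congr 1
  change algebraMap F E (algebraMap K F (((((p.choose i / p : ℕ) : A) * l ^ (i - 1) : A)) : K)) = _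
  rw [← IsScalarTower.algebraMap_apply]
  simp

variable [CharP k p]

theorem KEHyp.res_l (H : KEHyp R p l r τ₀ η) : resK l = 0 := by
  have h1 := congrArg resK H.l_pow
  rw [map_pow, map_neg, map_natCast, CharP.cast_eq_zero, neg_zero] at h1
  exact pow_eq_zero_iff (by have := hpF.out.two_le; omega) |>.1 h1

/-- `𝔽_p → Φ` -/
noncomputable def KEj (k Φ : Type*) [Field k] [CommRing Φ] [Algebra k Φ] (p : ℕ) [CharP k p] :
    ZMod p →+* Φ :=
  (algebraMap k Φ).comp (ZMod.castHom (dvd_refl p) k)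

theorem KEHyp.map_poly (H : KEHyp R p l r τ₀ η) :
    (KEpoly R p l r).map R.red = ∏ c : ZMod p, (X - C (τ₀ + KEj k Φ p c)) := by
  have hnt : Nontrivial Φ := ET_nontrivial R
  have hchar : CharP Φ p := charP_of_injective_algebraMap (algebraMap k Φ).injective p
  rw [KE_prod, KEpoly, KElow, Polynomial.map_sub, Polynomial.map_add, Polynomial.map_pow, map_X,
    map_C, H.red_r, Polynomial.map_sum, ← sub_sub]
  congr 2
  have hp2 := hpF.out.two_le
  rw [Finset.sum_eq_single 1]
  · rw [Polynomial.map_mul, map_C, Polynomial.map_pow, map_X, R.red_const, Nat.choose_one_right,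
      Nat.div_self hpF.out.pos]
    simp
  · intro i hi hi1
    rw [Finset.mem_Ico] at hi
    rw [Polynomial.map_mul, map_C, R.red_const, map_mul, map_pow, H.res_l,
      zero_pow (by omega), mul_zero, map_zero, map_zero, zero_mul]
  · intro h
    exact absurd (Finset.mem_Ico.2 ⟨le_refl 1, by omega⟩) h

theorem KEHyp.isUnit_sub (_H : KEHyp R p l r τ₀ η) (c c' : ZMod p) (h : c ≠ c') :
    IsUnit ((τ₀ + KEj k Φ p c) - (τ₀ + KEj k Φ p c')) := by
  have h1 : (τ₀ + KEj k Φ p c) - (τ₀ + KEj k Φ p c') = KEj k Φ p (c - c') := by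
    rw [map_sub]; ring
  rw [h1]
  exact (IsUnit.mk0 _ (sub_ne_zero.2 h)).map _

theorem KEHyp.isIntegral_η (H : KEHyp R p l r τ₀ η) : IsIntegral F η := by
  refine ⟨X ^ p - C (1 + algebraMap K F (l : K) ^ p * ((r : R.O) : F)),
    monic_X_pow_sub_C _ hpF.out.ne_zero, ?_⟩
  rw [eval₂_sub, eval₂_pow, eval₂_X, eval₂_C, H.η_pow, map_add, map_one, map_mul, map_pow,
    ← IsScalarTower.algebraMap_apply, sub_self]

theorem KEHyp.minpoly_η (H : KEHyp R p l r τ₀ η) :
    minpoly F η = X ^ p - C (1 + algebraMap K F (l : K) ^ p * ((r : R.O) : F)) := by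
  symm
  apply minpoly.eq_of_irreducible_of_monic
  · exact X_pow_sub_C_irreducible_of_prime hpF.out H.not_pow
  · rw [map_sub, map_pow, aeval_X, aeval_C, H.η_pow, map_add, map_one, map_mul, map_pow,
      ← IsScalarTower.algebraMap_apply, sub_self]
  · exact monic_X_pow_sub_C _ hpF.out.ne_zero

theorem KEHyp.finrank_eq (H : KEHyp R p l r τ₀ η) : Module.finrank F E = p := by
  rw [(PowerBasis.ofAdjoinEqTop H.isIntegral_η H.gen).finrank, PowerBasis.ofAdjoinEqTop_dim,
    H.minpoly_η, natDegree_X_pow_sub_C]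

theorem KEHyp.isIntegral_θ (H : KEHyp R p l r τ₀ η) : IsIntegral F (KEθ l η) := by
  rw [KEθ]
  refine (H.isIntegral_η.sub isIntegral_one).mul ?_
  rw [← map_inv₀, IsScalarTower.algebraMap_apply K F E]
  exact isIntegral_algebraMap

theorem KEHyp.gen_θ (H : KEHyp R p l r τ₀ η) : Algebra.adjoin F {KEθ l η} = ⊤ := by
  rw [eq_top_iff, ← H.gen]
  apply Algebra.adjoin_le
  rw [Set.singleton_subset_iff]
  have h1 : KEθ l η ∈ Algebra.adjoin F {KEθ l η} := Algebra.subset_adjoin rfl
  have h2 : η = 1 + algebraMap F E (algebraMap K F (l : K)) * KEθ l η := by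
    rw [← IsScalarTower.algebraMap_apply]
    exact H.η_eq
  have h3 : 1 + algebraMap F E (algebraMap K F (l : K)) * KEθ l η ∈
      Algebra.adjoin F {KEθ l η} :=
    Subalgebra.add_mem _ (Subalgebra.one_mem _)
      (Subalgebra.mul_mem _ (Subalgebra.algebraMap_mem _ _) h1)
  rw [← h2] at h3
  exact h3

/-- the power basis `1, θ, …, θ ^ (p - 1)` -/
noncomputable def KEHyp.pb (H : KEHyp R p l r τ₀ η) : PowerBasis F E :=
  PowerBasis.ofAdjoinEqTop H.isIntegral_θ H.gen_θ

@[simp] theorem KEHyp.pb_gen (H : KEHyp R p l r τ₀ η) : H.pb.gen = KEθ l η :=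
  PowerBasis.ofAdjoinEqTop_gen _ _

theorem KEHyp.pb_dim (H : KEHyp R p l r τ₀ η) : H.pb.dim = p := by
  rw [← H.pb.finrank, H.finrank_eq]

/-- **(KE)** the split étale datum of a toric Kummer extension -/
noncomputable def KEHyp.data (H : KEHyp R p l r τ₀ η) : ETData R E (ZMod p) where
  pb := H.pb
  P0 := KEpoly R p l r
  monic := KEpoly_monic R p hpF.out.pos l r
  natDegree_eq := by rw [KEpoly_natDegree R p hpF.out.pos l r, H.pb_dim]
  root := by rw [H.pb_gen]; exact H.root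
  τ := fun c => τ₀ + KEj k Φ p c
  map_P0 := H.map_poly
  isUnit_sub := H.isUnit_sub

@[simp] theorem KEHyp.data_gen (H : KEHyp R p l r τ₀ η) : H.data.pb.gen = KEθ l η := H.pb_gen

@[simp] theorem KEHyp.data_τ (H : KEHyp R p l r τ₀ η) (c : ZMod p) :
    H.data.τ c = τ₀ + KEj k Φ p c := rfl

theorem KEHyp.data_dim (H : KEHyp R p l r τ₀ η) : H.data.pb.dim = p := H.pb_dim

end KE

/-! ## functoriality of (ET): ring endomorphisms of `E` which preserve `O[ϑ]` -/

section Shift

variable {K k F Φ E ι : Type*} [Field K] [Field k] [Field F] [Algebra K F] [CommRing Φ]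
  [Algebra k Φ] [Field E] [Algebra F E] [Algebra K E] [IsScalarTower K F E] [Fintype ι]
  [DecidableEq ι] {A : ValuationSubring K} {resK : A →+* k} {R : RedG A resK F Φ}

/-- `g (P(ϑ)) = (P^s ∘ Q)(ϑ)` if `g = s` on `O` and `g ϑ = Q(ϑ)` -/
theorem KE_map_ev (D : ETData R E ι) (g : E →+* E) (s : R.O →+* R.O)
    (hs : ∀ x : R.O, g (algebraMap F E ((x : R.O) : F)) = algebraMap F E ((s x : R.O) : F))
    (Q : R.O[X]) (hQ : g D.pb.gen = D.ev Q) (P : R.O[X]) :
    g (D.ev P) = D.ev ((P.map s).comp Q) := by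
  induction P using Polynomial.induction_on' with
  | add P₁ P₂ h₁ h₂ => rw [map_add, map_add, h₁, h₂, Polynomial.map_add, add_comp, map_add]
  | monomial n a =>
    rw [← C_mul_X_pow_eq_monomial, map_mul, map_pow, map_mul, map_pow, D.ev_C, D.ev_X, hs, hQ,
      Polynomial.map_mul, Polynomial.map_pow, map_C, map_X, mul_comp, pow_comp, C_comp, X_comp,
      map_mul, map_pow, D.ev_C]

/-- **(SHIFT)** a ring endomorphism `g` of `E` which acts on `O` through `s` with
`red ∘ s = red`, and with `g ϑ = Q(ϑ)`, `Q̄(τ c) = τ (π c)`: it preserves `O[ϑ]` and permutes the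
sheets by `π`. -/
theorem KE_shift (D : ETData R E ι) (g : E →+* E) (s : R.O →+* R.O)
    (hs : ∀ x : R.O, g (algebraMap F E ((x : R.O) : F)) = algebraMap F E ((s x : R.O) : F))
    (hred : ∀ x : R.O, R.red (s x) = R.red x)
    (Q : R.O[X]) (hQ : g D.pb.gen = D.ev Q) (π : ι → ι)
    (hπ : ∀ c, (Q.map R.red).eval (D.τ c) = D.τ (π c)) (z : D.redG.O) :
    ∃ h : g (z : E) ∈ D.redG.O, ∀ c, D.redG.red ⟨g (z : E), h⟩ c = D.redG.red z (π c) := by
  obtain ⟨P, -, hP⟩ := (D.mem_redG_O (z : E)).1 z.2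
  have hz : z = ⟨D.ev P, D.ev_mem_redG P⟩ := Subtype.ext hP.symm
  have h1 : g (z : E) = D.ev ((P.map s).comp Q) := by
    rw [← hP]
    exact KE_map_ev D g s hs Q hQ P
  have h2 : g (z : E) ∈ D.redG.O := by
    rw [h1]
    exact D.ev_mem_redG _
  refine ⟨h2, fun c => ?_⟩
  have h3 : (⟨g (z : E), h2⟩ : D.redG.O) = ⟨D.ev ((P.map s).comp Q), D.ev_mem_redG _⟩ :=
    Subtype.ext h1
  rw [h3, hz, D.redG_red_ev, D.redG_red_ev, map_comp, eval_comp, hπ, Polynomial.map_map]
  congr 2
  exact RingHom.ext hred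

end Shift

section Deck

variable {K k F Φ E : Type*} [Field K] [Field k] [Field F] [Algebra K F] [CommRing Φ]
  [Algebra k Φ] [Field E] [Algebra F E] [Algebra K E] [IsScalarTower K F E]
  {A : ValuationSubring K} {resK : A →+* k}
  {R : RedG A resK F Φ} {p : ℕ} [hpF : Fact p.Prime] {l : A} {r : R.O} {τ₀ : Φ} {η : E}
  [CharP k p]

/-- **the deck transformation** `η ↦ ζ η`, `ζ = 1 + λ ε`, `ε̄ = m ∈ 𝔽_p`, shifts the sheets by `m` -/
theorem KEHyp.deck (H : KEHyp R p l r τ₀ η) (g : E ≃ₐ[F] E) (ζ ε : A) (m : ZMod p)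
    (hg : g η = algebraMap K E (ζ : K) * η) (hζ : ζ = 1 + l * ε)
    (hε : resK ε = ZMod.castHom (dvd_refl p) k m) (z : H.data.redG.O) :
    ∃ h : g (z : E) ∈ H.data.redG.O,
      ∀ c, H.data.redG.red ⟨g (z : E), h⟩ c = H.data.redG.red z (c + m) := by
  have hL := H.algl_ne
  have hLg : g (algebraMap K E (l : K)) = algebraMap K E (l : K) := by
    rw [IsScalarTower.algebraMap_apply K F E, g.commutes]
  have hζE : algebraMap K E (ζ : K) = 1 + algebraMap K E (l : K) * algebraMap K E (ε : K) := by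
    rw [hζ]
    simp
  refine KE_shift H.data (g : E →+* E) (RingHom.id _) (fun x => g.commutes _) (fun _ => rfl)
    (C (R.const ζ) * X + C (R.const ε)) ?_ (fun c => c + m) ?_ z
  · rw [H.data_gen, map_add, map_mul, H.data.ev_C, H.data.ev_C, H.data.ev_X, H.data_gen,
      R.coe_const, R.coe_const, ← IsScalarTower.algebraMap_apply,
      ← IsScalarTower.algebraMap_apply]
    change g (KEθ l η) = _
    rw [KEθ, map_mul, map_sub, map_one, map_inv₀, hLg, hg, hζE]
    field_simp
    ring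
  · intro c
    have hres : resK ζ = 1 := by rw [hζ, map_add, map_one, map_mul, H.res_l, zero_mul, add_zero]
    rw [Polynomial.map_add, Polynomial.map_mul, map_C, map_C, map_X, eval_add, eval_mul, eval_C,
      eval_C, eval_X, R.red_const, R.red_const, hres, map_one, one_mul, hε, H.data_τ, H.data_τ,
      map_add, add_assoc]
    rfl

/-- `red η = 1` on all the sheets -/
theorem KEHyp.η_mem (H : KEHyp R p l r τ₀ η) : η ∈ H.data.redG.O := by
  have h1 : η = H.data.ev (1 + C (R.const l) * X) := by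
    rw [map_add, map_one, map_mul, H.data.ev_C, H.data.ev_X, H.data_gen, R.coe_const,
      ← IsScalarTower.algebraMap_apply]
    exact H.η_eq
  have h2 := H.data.ev_mem_redG (1 + C (R.const l) * X)
  rwa [← h1] at h2

theorem KEHyp.red_η (H : KEHyp R p l r τ₀ η) (h : η ∈ H.data.redG.O) :
    H.data.redG.red ⟨η, h⟩ = 1 := by
  have h1 : η = H.data.ev (1 + C (R.const l) * X) := by
    rw [map_add, map_one, map_mul, H.data.ev_C, H.data.ev_X, H.data_gen, R.coe_const,
      ← IsScalarTower.algebraMap_apply]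
    exact H.η_eq
  have h2 : (⟨η, h⟩ : H.data.redG.O) = ⟨H.data.ev (1 + C (R.const l) * X),
      H.data.ev_mem_redG _⟩ := Subtype.ext h1
  rw [h2]
  funext c
  rw [H.data.redG_red_ev, Polynomial.map_add, Polynomial.map_one, Polynomial.map_mul, map_C,
    map_X, R.red_const, H.res_l, map_zero, map_zero, zero_mul, add_zero, eval_one]
  rfl

end Deck

end Fermat.Agent.S40Lib
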