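import Fermat.Agent.S40.Cov.ShDefs

/-!
# S40 / S44, block (COV), (LEAD)

`E₀ ⊆ E`, `R₀` a sheeted `RedG` on `E₀` over the discretely valued `K₀`, `R` a `RedG` on `E` over
`K ⊇ K₀` (not discrete), compatible with `R₀`.  If `u ∈ E₀` is `x * t₀ ^ p` in `E`, `x` a unit of
`R.O`, then the leading term of `u` on every sheet `w` is `x̄_w` times a `p`-th power.

No valuation on `E` is needed: `t' = t₀ ε ^ μ / c` (`ε` the idempotent of the sheet `w`,
`c ^ p = ϖ ^ μ`) satisfies `t' ^ p = x⁻¹ (u (ε ^ p / ϖ) ^ μ) ∈ R.O` and `R.O` is integrally closed.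
-/

set_option autoImplicit false

open AlgebraicCurve Fermat.Agent.S24Lib Fermat.Agent.FFLib
  Fermat.Agent.S18Lib Fermat.Agent.S34Lib Fermat.Agent.S36Lib

namespace Fermat.Agent.S40Lib

/-- the ring of integers of a `RedG` with reduced target is integrally closed (for powers) -/
theorem RG_mem_of_pow_mem {K k F Φ : Type*} [Field K] [Field k] [Field F] [Algebra K F]
    [CommRing Φ] [Algebra k Φ] [IsReduced Φ] {A : ValuationSubring K} {resK : A →+* k}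
    (R : RedG A resK F Φ) (hloc : ∀ a : A, ¬ IsUnit a → resK a = 0)
    (g : F) (n : ℕ) (h : g ^ n ∈ R.O) (hn : 0 < n) : g ∈ R.O := by
  by_cases hg0 : g = 0
  · rw [hg0]; exact R.O.zero_mem
  obtain ⟨c, hc, y, hy, hg⟩ := R.exists_scale g hg0
  by_cases hcA : c ∈ A
  · rw [hg]
    exact R.O.mul_mem ((R.algebraMap_mem_iff c).2 hcA) y.2
  exfalso
  have hci : c⁻¹ ∈ A := (A.mem_or_inv_mem c).resolve_left hcA
  have hnu : ¬ IsUnit (⟨c⁻¹, hci⟩ : A) := by
    intro hu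
    obtain ⟨d, hd⟩ := hu.exists_right_inv
    apply hcA
    have h1 : c⁻¹ * (d : K) = 1 := congrArg Subtype.val hd
    have h2 : (d : K) = c := by
      field_simp at h1
      exact h1
    rw [← h2]
    exact d.2
  have hres := hloc _ hnu
  apply hy
  have e : y ^ n = R.const ⟨c⁻¹, hci⟩ ^ n * ⟨g ^ n, h⟩ := by
    apply Subtype.ext
    show ((y : R.O) : F) ^ n = (algebraMap K F c⁻¹) ^ n * g ^ n
    rw [hg, mul_pow, ← mul_assoc, ← mul_pow, ← map_mul, inv_mul_cancel₀ hc, map_one, one_pow,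
      one_mul]
  have e2 : R.red y ^ n = 0 := by
    rw [← map_pow, e, map_mul, map_pow, R.red_const, hres, map_zero, zero_pow hn.ne', zero_mul]
  exact pow_eq_zero_iff hn.ne' |>.1 e2

variable {K₀ k₀ : Type*} [Field K₀] [Field k₀] {A₀ : ValuationSubring K₀} {res₀ : A₀ →+* k₀}
  {E₀ κ Φ₀ : Type*} [Field E₀] [Field κ] [Algebra K₀ E₀] [Algebra k₀ κ] [CommRing Φ₀]
  [Algebra k₀ Φ₀] {Ω : Type*} [DecidableEq Ω]
  {K k E Φ : Type*} [Field K] [Field k] [Field E] [Algebra K E] [CommRing Φ] [Algebra k Φ]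
  {A : ValuationSubring K} {resK : A →+* k}

/-- **(LEAD)** -/
theorem lead_main [IsReduced Φ] (R₀ : RedG A₀ res₀ E₀ Φ₀) (ϖ : A₀) (pr₀ : Ω → Φ₀ →+* κ)
    (v : Ω → DVal E₀ κ) (hS : IsSheeted R₀ ϖ pr₀) (hv : IsSheets R₀ ϖ pr₀ v)
    (R : RedG A resK E Φ) (hloc : ∀ a : A, ¬ IsUnit a → resK a = 0) (pr : Ω → Φ →+* κ)
    (ι : E₀ →+* E)
    (compat : ∀ z : R₀.O, ∃ h : ι (z : E₀) ∈ R.O, ∀ w, pr w (R.red ⟨_, h⟩) = pr₀ w (R₀.red z))
    (c : K) (p : ℕ) (hp : 0 < p)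
    (hc : algebraMap K E c ^ p = ι (algebraMap K₀ E₀ (ϖ : K₀)))
    (x xi : R.O) (hx : x * xi = 1) (u : E₀) (t₀ : E) (hu : ι u = (x : E) * t₀ ^ p)
    (hO : ∀ w, u ∈ (v w).O) (w : Ω) (μ : ℕ) (hge : (v w).ge μ u) :
    ∃ γ : κ, (v w).lead μ u = pr w (R.red x) * γ ^ p := by
  obtain ⟨e, he1, he0⟩ := hS.idem w
  obtain ⟨ε, rfl⟩ := R₀.red_surjective e
  set P : E₀ := algebraMap K₀ E₀ (ϖ : K₀) with hP
  have hP0 : P ≠ 0 := by
    rw [hP, Ne, map_eq_zero]
    exact fun h => hS.ne (Subtype.ext h)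
  set z : E₀ := u * ((ε : E₀) ^ p * P⁻¹) ^ μ with hz
  -- `z` is integral on every sheet
  have hzw : ∀ w', z ∈ (v w').O := by
    intro w'
    by_cases hw : w' = w
    · subst hw
      have e1 : z = (u * (v w').π⁻¹ ^ μ) * ((ε : E₀) ^ p) ^ μ := by
        rw [hz, hv.unif w', mul_pow]
        ring
      rw [e1]
      exact (v w').O.mul_mem hge (pow_mem (pow_mem ((hv.mem_O _).1 ε.2 w') _) _)
    · have h1 : (ε : E₀) ∈ (v w').O := (hv.mem_O _).1 ε.2 w'
      have h2 : (v w').red ⟨_, h1⟩ = 0 := by rw [hv.red ε w' h1, he0 w' hw]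
      have h3 := ((v w').red_eq_zero_iff _).1 h2
      rw [hv.unif w'] at h3
      obtain ⟨q, rfl⟩ : ∃ q, p = q + 1 := ⟨p - 1, by omega⟩
      have e1 : (ε : E₀) ^ (q + 1) * P⁻¹ = (ε : E₀) ^ q * ((ε : E₀) * P⁻¹) := by ring
      rw [hz, e1]
      exact (v w').O.mul_mem (hO w') (pow_mem ((v w').O.mul_mem (pow_mem h1 _) h3) _)
  have hzO : z ∈ R₀.O := (hv.mem_O z).2 hzw
  -- its reduction on the sheet `w`
  have hzred : pr₀ w (R₀.red ⟨z, hzO⟩) = (v w).lead μ u := by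
    rw [← hv.red ⟨z, hzO⟩ w (hzw w), (v w).lead_of_ge hge]
    have hε : (ε : E₀) ∈ (v w).O := (hv.mem_O _).1 ε.2 w
    have e1 : (⟨z, hzw w⟩ : (v w).O) = ⟨u * (v w).π⁻¹ ^ μ, hge⟩ * (⟨_, hε⟩ ^ p) ^ μ := by
      apply Subtype.ext
      show z = (u * (v w).π⁻¹ ^ μ) * ((ε : E₀) ^ p) ^ μ
      rw [hz, hv.unif w, mul_pow]
      ring
    rw [e1, map_mul, map_pow, map_pow, hv.red ε w hε, he1, one_pow, one_pow, mul_one]
  obtain ⟨hzE, hzc⟩ := compat ⟨z, hzO⟩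
  -- the `p`-th root
  have hc0 : algebraMap K E c ≠ 0 := by
    intro h0
    rw [h0, zero_pow hp.ne'] at hc
    exact hP0 ((map_eq_zero ι).1 hc.symm)
  set t' : E := t₀ * ι (ε : E₀) ^ μ * (algebraMap K E c)⁻¹ ^ μ with ht'
  have hxx : ((x : R.O) : E) * ((xi : R.O) : E) = 1 := by
    have := congrArg (fun a : R.O => (a : E)) hx
    simpa using this
  have ht'p : t' ^ p = ((xi * ⟨_, hzE⟩ : R.O) : E) := by
    show t' ^ p = (xi : E) * ι z
    have e1 : ι z = ι u * (ι (ε : E₀) ^ p * (algebraMap K E c ^ p)⁻¹) ^ μ := by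
      rw [hz, map_mul, map_pow, map_mul, map_pow, map_inv₀, hc]
    rw [e1, hu, ht', mul_pow, mul_pow, ← mul_assoc, ← mul_assoc, mul_comm (xi : E), hxx, one_mul,
      mul_pow, mul_assoc, ← pow_mul, ← pow_mul, ← pow_mul, ← inv_pow, ← pow_mul, mul_comm μ p]
  have ht'O : t' ∈ R.O := RG_mem_of_pow_mem R hloc t' p (by rw [ht'p]; exact Subtype.mem _) hp
  refine ⟨pr w (R.red ⟨t', ht'O⟩), ?_⟩
  have e2 : (⟨t', ht'O⟩ : R.O) ^ p = xi * ⟨_, hzE⟩ := Subtype.ext ht'p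
  rw [← map_pow, ← map_pow, e2, map_mul, map_mul, hzc w, hzred, ← mul_assoc, ← map_mul, ← map_mul,
    hx, map_one, map_one, one_mul]

/-- the residue map of a `RedG` kills the non units -/
theorem RG_hloc {K k F Φ : Type*} [Field K] [Field k] [Field F] [Algebra K F]
    [CommRing Φ] [Algebra k Φ] {A : ValuationSubring K} {resK : A →+* k}
    (R : RedG A resK F Φ) (a : A) (ha : ¬ IsUnit a) : resK a = 0 := by
  by_contra h0
  apply ha
  have hu : IsUnit (R.red (R.const a)) := by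
    rw [R.red_const]
    exact (isUnit_iff_ne_zero.2 h0).map (algebraMap k Φ)
  obtain ⟨b, hb⟩ := (R.isUnit_of_red _ hu).exists_right_inv
  have h1 : algebraMap K F (a : K) * ((b : R.O) : F) = 1 := congrArg Subtype.val hb
  have ha0 : (a : K) ≠ 0 := by
    intro h
    rw [h, map_zero, zero_mul] at h1
    exact zero_ne_one h1
  have h2 : ((b : R.O) : F) = algebraMap K F (a : K)⁻¹ := by
    rw [map_inv₀]
    exact eq_inv_of_mul_eq_one_right h1
  have h3 : (a : K)⁻¹ ∈ A := (R.algebraMap_mem_iff _).1 (h2 ▸ b.2)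
  exact IsUnit.of_mul_eq_one (⟨_, h3⟩ : A) (Subtype.ext (mul_inv_cancel₀ ha0))

/-- (LEAD), the shape of `cov_main` -/
theorem lead_abs {K k E κ J : Type*} [Field K] [Field k] [Field E] [Algebra K E] [Field κ]
    [Algebra k κ] {A : ValuationSubring K} {resK : A →+* k}
    (RE : RedG A resK E (J → κ × κ)) {p : ℕ} (x u₁ : RE.O) (t₀ : E) (d : K) (hd : d ≠ 0)
    (hx : ∀ c, (RE.red x c).1 ≠ 0 ∧ (RE.red x c).2 ≠ 0) (hu : RE.red u₁ ≠ 0)
    (h : algebraMap K E d * (u₁ : E) = (x : E) * t₀ ^ p) :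
    ∃ (a : k) (γ : J → κ × κ), a ≠ 0 ∧
      RE.red u₁ = algebraMap k (J → κ × κ) a * RE.red x * γ ^ p := by
  have hu0 : (u₁ : E) ≠ 0 := by
    intro h0
    apply hu
    have : u₁ = 0 := Subtype.ext h0
    rw [this, map_zero]
  have hdE : algebraMap K E d ≠ 0 := by rwa [Ne, map_eq_zero]
  have hT : t₀ ^ p ≠ 0 := by
    intro h0
    rw [h0, mul_zero] at h
    exact mul_ne_zero hdE hu0 h
  -- scaling of `t₀`
  obtain ⟨c₀, y₀, hc₀, hy₀, ht⟩ : ∃ (c₀ : K) (y₀ : RE.O), c₀ ≠ 0 ∧ RE.red y₀ ≠ 0 ∧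
      t₀ ^ p = algebraMap K E c₀ ^ p * (y₀ : E) ^ p := by
    have ht0 : t₀ ≠ 0 ∨ p = 0 := by
      by_cases hp : p = 0
      · exact Or.inr hp
      · left
        rintro rfl
        exact hT (zero_pow hp)
    rcases ht0 with ht0 | rfl
    · obtain ⟨c₀, hc₀, y₀, hy₀, ht⟩ := RE.exists_scale t₀ ht0
      exact ⟨c₀, y₀, hc₀, hy₀, by rw [ht, mul_pow]⟩
    · refine ⟨1, u₁, one_ne_zero, hu, by simp⟩
  set Y : RE.O := x * y₀ ^ p with hY
  have hYred : RE.red Y ≠ 0 := by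
    intro h0
    apply hy₀
    funext c
    have h1 := congrFun h0 c
    rw [hY, map_mul, map_pow] at h1
    have h2 : (RE.red x c).1 * (RE.red y₀ c).1 ^ p = 0 := congrArg Prod.fst h1
    have h3 : (RE.red x c).2 * (RE.red y₀ c).2 ^ p = 0 := congrArg Prod.snd h1
    have h4 := eq_zero_of_pow_eq_zero ((mul_eq_zero.1 h2).resolve_left (hx c).1)
    have h5 := eq_zero_of_pow_eq_zero ((mul_eq_zero.1 h3).resolve_left (hx c).2)
    exact Prod.ext h4 h5
  set e : K := c₀ ^ p * d⁻¹ with he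
  have he0 : e ≠ 0 := mul_ne_zero (pow_ne_zero _ hc₀) (inv_ne_zero hd)
  have hrel : (u₁ : E) = algebraMap K E e * (Y : E) := by
    have h1 : (Y : E) = (x : E) * (y₀ : E) ^ p := by rw [hY]; rfl
    rw [h1, he, map_mul, map_pow, map_inv₀]
    have h2 : (u₁ : E) = (algebraMap K E d)⁻¹ * ((x : E) * t₀ ^ p) := by
      rw [← h, ← mul_assoc, inv_mul_cancel₀ hdE, one_mul]
    rw [h2, ht]
    ring
  -- `e` is a unit of `A`
  have heA : e ∈ A := by
    by_contra hn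
    have hei : e⁻¹ ∈ A := (A.mem_or_inv_mem e).resolve_left hn
    have hnu : ¬ IsUnit (⟨e⁻¹, hei⟩ : A) := by
      intro hun
      obtain ⟨b, hb⟩ := hun.exists_right_inv
      apply hn
      have h1 : e⁻¹ * (b : K) = 1 := congrArg Subtype.val hb
      have h2 : (b : K) = e := by
        field_simp at h1
        exact h1
      rw [← h2]
      exact b.2
    apply hYred
    have e1 : Y = RE.const ⟨e⁻¹, hei⟩ * u₁ := by
      apply Subtype.ext
      show (Y : E) = algebraMap K E e⁻¹ * (u₁ : E)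
      rw [hrel, ← mul_assoc, ← map_mul, inv_mul_cancel₀ he0, map_one, one_mul]
    rw [e1, map_mul, RE.red_const, RG_hloc RE _ hnu, map_zero, zero_mul]
  have e2 : u₁ = RE.const ⟨e, heA⟩ * Y := Subtype.ext hrel
  refine ⟨resK ⟨e, heA⟩, RE.red y₀, ?_, ?_⟩
  · intro h0
    apply hu
    rw [e2, map_mul, RE.red_const, h0, map_zero, zero_mul]
  · rw [e2, map_mul, RE.red_const, hY, map_mul, map_pow, mul_assoc]

end Fermat.Agent.S40Lib
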