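import Fermat.Agent.S40.Cov.NormLead
import Fermat.Agent.S40.Cov.RootLS
import Fermat.Agent.S40.Cov.KumDiv
import Fermat.Agent.S40.Cov.DescBasic
import Fermat.Agent.S40.Cov.ExDesc
import Fermat.Agent.S40.Lvl.Defs

/-!
# S40 / S44, COV: `CovCore` from the existence of the cover data `CovY`
-/

set_option autoImplicit false
set_option synthInstance.maxHeartbeats 400000
set_option linter.unusedSectionVars false

open AlgebraicCurve ModularCurve Polynomial IntermediateField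

namespace Fermat.Agent.S40Lib

open Fermat.Agent.S18Lib Fermat.Agent.S24Lib Fermat.Agent.ESLib Fermat.Agent.S34Lib
  Fermat.Agent.S33Lib Fermat.Agent.S36Lib Fermat.Agent.FFLib Fermat.Agent.S28Lib

noncomputable section

section Twist

variable {M p : ℕ} [NeZero M] [NeZero p] [hpF : Fact p.Prime] {hpM : ¬ p ∣ M}
  {A : ValuationSubring Qb}

/-- replacing `y` by `G^p y` -/
theorem tresFn_twist (x y G : FB (p * M)) (h : TresFn M p A x (G ^ p * y)) : TresFn M p A x y := by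
  obtain ⟨ζ, ϖ, u, n, h1, h2, h3, h4, h5, h6, h7⟩ := h
  refine ⟨ζ, ϖ, u, n, h1, h2, h3, h4, h5, h6, fun σ hσ hσζ j hj => ?_⟩
  obtain ⟨g, hg⟩ := h7 σ hσ hσζ j hj
  exact ⟨g * G ^ j, by rw [hg]; ring⟩

theorem isKum_twist {N : ℕ} (y G : FB N) (hG : G ≠ 0) (h : IsKum N p y) :
    IsKum N p (G ^ p * y) := by
  refine ⟨mul_ne_zero (pow_ne_zero _ hG) h.1, fun P => ?_⟩
  rw [P.ord_mul (pow_ne_zero _ hG) h.1, pl_ord_pow]
  exact dvd_add (dvd_mul_right _ _) (h.2 P)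

theorem CovCfg.desc {x y : FB (p * M)} (c : CovCfg M p hpM A x y) (G : FB (p * M)) (hG : G ≠ 0)
    (φ η : LaurentSeries Qb) (ζ : Qb) (hζ : IsPrimitiveRoot ζ p)
    (hφ : φ ^ p = (x : LaurentSeries Qb))
    (hη : η ^ p = ((G ^ p * y : FB (p * M)) : LaurentSeries Qb))
    (Dx Dy : Divisor Qb (FB (p * M))) (hDx : ∀ v : Place Qb (FB (p * M)), v.ord x = p * Dx v)
    (hDy : ∀ v : Place Qb (FB (p * M)), v.ord (G ^ p * y) = p * Dy v) :
    DescCfg A (p * M) p x (G ^ p * y) φ η Dx Dy where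
  x0 := c.kx.1
  y0 := mul_ne_zero (pow_ne_zero _ hG) c.ky.1
  hφ := hφ
  hη := hη
  hDx := hDx
  hDy := hDy
  yne := by
    rintro ⟨g, hg⟩
    apply c.yne
    refine ⟨g * G⁻¹, ?_⟩
    rw [mul_pow, ← hg, inv_pow]
    exact (mul_inv_cancel_left₀ (pow_ne_zero _ hG) y).symm.trans (by ring)
  galy := by
    intro σ hσ
    have h1 : (σ ζ) ^ p = 1 := by rw [← map_pow, hζ.pow_eq_one, map_one]
    obtain ⟨j, -, hj⟩ := hζ.eq_pow_of_pow_eq_one h1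
    obtain ⟨g, hg⟩ := c.galy ζ hζ σ hσ j hj.symm
    refine ⟨j, gal (p * M) σ G * g * (G⁻¹) ^ j, ?_⟩
    rw [map_mul, map_pow, hg]
    have : (G⁻¹ ^ j) ^ p * (G ^ p) ^ j = 1 := by
      rw [← pow_mul, ← pow_mul, mul_comm j p, ← mul_pow, inv_mul_cancel₀ hG, one_pow]
    calc gal (p * M) σ G ^ p * (g ^ p * y ^ j)
        = gal (p * M) σ G ^ p * (g ^ p * y ^ j) * ((G⁻¹ ^ j) ^ p * (G ^ p) ^ j) := by
          rw [this, mul_one]
      _ = _ := by ring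
  galx := by
    intro σ hσ
    obtain ⟨j, g, hg⟩ := c.galx σ hσ
    refine ⟨j, g * (G⁻¹) ^ j, ?_⟩
    have : (G⁻¹ ^ j) ^ p * (G ^ p) ^ j = 1 := by
      rw [← pow_mul, ← pow_mul, mul_comm j p, ← mul_pow, inv_mul_cancel₀ hG, one_pow]
    calc gal (p * M) σ x = g ^ p * x * y ^ j * ((G⁻¹ ^ j) ^ p * (G ^ p) ^ j) := by
          rw [this, mul_one, hg]
      _ = _ := by ring

end Twist

/-- the output of the block (Y) -/
def CovYCore : Prop :=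
  ∀ (M p : ℕ) [NeZero M] [NeZero p] [Fact p.Prime] (hpM : ¬ p ∣ M), 5 ≤ p →
    ∀ (A : ValuationSubring Qb) (hA : A.LiesOverPrime p), (2 ∣ M ∨ 3 ∣ M) →
    ∀ x y : FB (p * M), CovCfg M p hpM A x y →
    ∃ (G : FB (p * M)) (η : LaurentSeries Qb) (ζ : Qb), G ≠ 0 ∧
      η ^ p = ((G ^ p * y : FB (p * M)) : LaurentSeries Qb) ∧ IsPrimitiveRoot ζ p ∧
      Nonempty (CovY M p A (R2 M p hpM A hA) η ζ)

/-- **(COV)** -/
theorem covCore_of (HY : CovYCore) : CovCore := by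
  intro M p _ _ hpF hpM hp5 A hA hbase r hr hr12 hrM H hH x y cfg xb hxb
  have hp := hpF.out
  obtain ⟨G, η, ζ, hG, hη, hζ, ⟨Y⟩⟩ := HY M p hpM hp5 A hA hbase x y cfg
  have hR := isQRed2_R2 M p hpM A hA
  have hx0 : (x : LaurentSeries Qb) ≠ 0 := fun h => cfg.kx.1 (Subtype.ext h)
  obtain ⟨φ, hφ⟩ := exists_root_LS p hp.pos (x : LaurentSeries Qb) hx0
    (order_dvd_of_isKum _ p x cfg.kx)
  obtain ⟨Dx, hDx⟩ := exists_kumDiv _ p hp.pos x cfg.kx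
  obtain ⟨Dy, hDy⟩ := exists_kumDiv _ p hp.pos (G ^ p * y) (isKum_twist y G hG cfg.ky)
  have hcfg := cfg.desc G hG φ η ζ hζ hφ hη Dx Dy hDx hDy
  obtain ⟨S₀, u, hS⟩ := exists_desc hcfg
  obtain ⟨t₀, ht₀⟩ := hS.ex
  have ht₀0 : t₀ ≠ 0 := by
    rintro rfl
    apply hS.ne
    rw [ht₀]
    simp
  have hucoe := hS.coe_u x hφ t₀ ht₀
  have hu0 : u ≠ 0 := by
    intro h0
    have h1 := hS.hu
    rw [h0] at h1
    exact pow_ne_zero p hS.ne h1.symm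
  have huK : (x : LaurentSeries Qb) * (t₀ : LaurentSeries Qb) ^ p ∈ K0S A := by
    have h1 : (x : LaurentSeries Qb) * (t₀ : LaurentSeries Qb) ^ p = S₀ ^ p := by
      rw [ht₀, mul_pow, hφ]
    rw [h1]
    exact (K0S A).pow_mem hS.fix p
  obtain ⟨ϖ, r', m, e, hϖ, hr0, hrK, -, hgu, -, heK, heU, hϖe, htres⟩ :=
    cg_main M p A hA ζ hζ η Y.g Y.gen x (G ^ p * y) hcfg.x0 hcfg.y0 hη hcfg.galx t₀ ht₀0 huK
  by_cases hm : (p : ℤ) ∣ m
  swap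
  · exact Or.inl (tresFn_twist x y G (htres hm))
  right
  obtain ⟨m', rfl⟩ := hm
  -- the relation in `E₀`
  have hgu0 : Y.g0 u = algebraMap (K0 A) (covE0 A (covE (p * M) η))
      (((((p : ℕ) : A0 A) : A0 A) : K0 A) ^ ((p : ℤ) * m') * (⟨e, heK⟩ : K0 A)) *
        (⟨r', hrK⟩ : covE0 A (covE (p * M) η)) ^ p * u := by
    apply Subtype.ext
    have e1 : ((Y.g0 u : covE0 A (covE (p * M) η)) : covE (p * M) η) =
        Y.g (u : covE (p * M) η) := rfl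
    rw [e1, hucoe, hgu, hϖe]
    push_cast
    rw [coe_algebraMap_E0, hucoe]
    push_cast
    rfl
  have hr0' : (⟨r', hrK⟩ : covE0 A (covE (p * M) η)) ≠ 0 := fun h => hr0 (congrArg Subtype.val h)
  obtain ⟨t, μI, μZ, ht, hle, hI, hZ⟩ := Y.exists_norm hA u ⟨r', hrK⟩ hu0 hr0' m' ⟨e, heK⟩
    heU.1 heU.2 hgu0
  have hS' := hS.mul t ht
  -- `x` in `R.O`
  obtain ⟨hx1, hx1'⟩ := cfg.x1
  obtain ⟨hx2, hx2'⟩ := cfg.x2
  have hxO : x ∈ (R2 M p hpM A hA).O := (hR.mem_iff x).2 ⟨hx1, hx2⟩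
  have hxb : (R2 M p hpM A hA).red ⟨x, hxO⟩ = (xb, ((R2 M p hpM A hA).red ⟨x, hxO⟩).2) := by
    apply Prod.ext
    · apply Subtype.ext
      obtain ⟨h, hh⟩ := hxb
      rw [hR.red_fst ⟨x, hxO⟩ hx1, hh]
    · rfl
  have hxb1 : ((R2 M p hpM A hA).red ⟨x, hxO⟩).1 = xb := by rw [hxb]
  have hne1 : ((R2 M p hpM A hA).red ⟨x, hxO⟩).1 ≠ 0 := by
    intro h0
    apply hx1'
    rw [← hR.red_fst ⟨x, hxO⟩ hx1, h0]
    rfl
  have hne2 : ((R2 M p hpM A hA).red ⟨x, hxO⟩).2 ≠ 0 := by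
    intro h0
    apply hx2'
    rw [← hR.red_snd ⟨x, hxO⟩ hx2, h0]
    rfl
  obtain ⟨a, γ, ha, hγ⟩ := Y.lead hA ⟨x, hxO⟩ hne1 hne2 φ _ hφ _ hS' μI μZ hle hI
    (fun c => (hZ c).1) 0
  rw [hxb1] at hγ hne1
  have hγ0 : γ ≠ 0 := by
    rintro rfl
    apply (hI 0).2
    rw [hγ, zero_pow hp.ne_zero, mul_zero]
  refine ⟨(μZ : ℤ) - μI, fun P => ?_⟩
  have key := cov_count hpM hA hbase hr hr12 hrM H hH hR Y hζ hcfg _ _ hS' μI μZ hI hZ 0 P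
  have ha' : algebraMap (kk A) (FT A M) a ≠ 0 := by rwa [Ne, map_eq_zero]
  rw [hγ, P.ord_mul (mul_ne_zero ha' hne1) (pow_ne_zero _ hγ0), P.ord_mul ha' hne1,
    ord_algebraMap, pl_ord_pow, zero_add] at key
  have e2 : ((μZ : ℤ) - μI) * ZZ3 A H P - 12 * P.ord xb =
      (((μZ : ℤ) - μI) * ZZ3 A H P - 12 * (P.ord xb + p * P.ord γ)) + 12 * p * P.ord γ := by ring
  rw [e2]
  exact dvd_add key (dvd_mul_right _ _)

end

end Fermat.Agent.S40Lib
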