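import Fermat.Agent.S40.Cov.Nrm

/-!
# S40 / S44, COV, (NORM): `norm_abs` (two classes of sheets, `μI ≤ μZ`)
-/

set_option autoImplicit false

namespace Fermat.Agent.S40Lib

open Fermat.Agent.S18Lib Fermat.Agent.S34Lib Fermat.Agent.S36Lib

section Abs

variable {K k F Φ κ Ω : Type*} [Field K] [Field k] [Field F] [Algebra K F] [CommRing Φ]
  [Algebra k Φ] [Field κ] [Fintype Ω]
  {A : ValuationSubring K} {resK : A →+* k} {R : RedG A resK F Φ} {pr : Ω → Φ →+* κ} {π : A}

/-- (NORM) normalisation: if `g0 u = π^(p m') e r^p u` then `u t^p` has uniform valuations on the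
two classes of sheets, for a suitable `t` -/
theorem norm_abs (H : DVHyp R pr π) (harch : ∀ c : K, ∃ N : ℕ, c * (π : K) ^ N ∈ A)
    (g0 : F ≃+* F) (s : Ω → Ω) (hs : IsShift H g0 s) (cl : Ω → Bool)
    (hcl : ∀ w w', cl w = cl w' → ∃ n : ℕ, s^[n] w = w')
    {p : ℕ} (hp : 0 < p) (u r : F) (hu : u ≠ 0) (hr : r ≠ 0) (e : A) (he : IsUnit e) (m' : ℤ)
    (hg : g0 u = algebraMap K F ((π : K) ^ (p * m') * (e : K)) * r ^ p * u) :
    ∃ (t : F) (μI μZ : ℕ), t ≠ 0 ∧ μI ≤ μZ ∧
      ∀ w, (H.dv w).ge (if cl w then μZ else μI) (u * t ^ p) ∧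
        (H.dv w).lead (if cl w then μZ else μI) (u * t ^ p) ≠ 0 := by
  rcases isEmpty_or_nonempty Ω with hemp | ⟨⟨w0⟩⟩
  · exact ⟨1, 0, 0, one_ne_zero, le_rfl, fun w => (hemp.false w).elim⟩
  have he' : ((e : A) : K)⁻¹ ∈ A := by
    obtain ⟨e', he'⟩ := he.exists_right_inv
    have h1 : ((e : A) : K) * ((e' : A) : K) = 1 := by
      have := congrArg (fun z : A => (z : K)) he'
      simpa using this
    rw [inv_eq_of_mul_eq_one_right h1]
    exact e'.2
  obtain ⟨t, μ, ht, hμs, hμp, hmain⟩ := nrm_main H harch g0 s hs hp u r hu hr m' (e : K) e.2 he' hg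
  have hiter : ∀ (n : ℕ) (w : Ω), μ (s^[n] w) = μ w := by
    intro n
    induction n with
    | zero => intro w; rfl
    | succ n ih =>
      intro w
      rw [Function.iterate_succ_apply', hμs, ih]
  have hfac : Function.FactorsThrough μ cl := by
    intro w w' hw
    obtain ⟨n, rfl⟩ := hcl w w' hw
    exact (hiter n w).symm
  obtain ⟨f, hf⟩ := (Function.factorsThrough_iff μ).1 hfac
  have hf' : ∀ w, μ w = f (cl w) % p := by
    intro w
    have h1 : μ w = f (cl w) := congrFun hf w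
    rw [← h1, Nat.mod_eq_of_lt (hμp w)]
  obtain ⟨t2, ht2⟩ := exists_isV_approx H (fun w => if cl w then 1 else 0)
  refine ⟨t * t2, f false % p, f true % p + p, mul_ne_zero ht (ht2 w0).ne_zero,
    ((Nat.mod_lt _ hp).le).trans (Nat.le_add_left _ _), fun w => ?_⟩
  rw [← isV_natCast_iff]
  have h1 := ((isV_natCast_iff H w _ _).2 (hmain w)).mul ((ht2 w).pow p)
  have e1 : u * (t * t2) ^ p = u * t ^ p * t2 ^ p := by rw [mul_pow, mul_assoc]
  rw [e1]
  convert h1 using 1
  rw [hf' w]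
  cases cl w <;> simp

end Abs

end Fermat.Agent.S40Lib
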