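import Fermat.Agent.S40.Cov.DescDefs

/-!
# S40 / S44, COV, (NI): norm idempotents

If inertia preserves `O_E` and acts trivially on the reduction, every idempotent of the reduction
lifts to an inertia-fixed element of `O_E`: take the product of the (finite) orbit of any lift.
-/

set_option autoImplicit false
set_option synthInstance.maxHeartbeats 400000

open AlgebraicCurve ModularCurve

namespace Fermat.Agent.S40Lib

open Fermat.Agent.S18Lib Fermat.Agent.S24Lib Fermat.Agent.ESLib Fermat.Agent.S34Lib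
  Fermat.Agent.S33Lib Fermat.Agent.S36Lib Fermat.Agent.FFLib

noncomputable section

/-! ### abstract lemmas -/

/-- an injective ring endomorphism preserving a finite set fixes its product -/
theorem NI_map_prod {E : Type*} [CommRing E] [DecidableEq E] (σ : E →+* E)
    (hinj : Function.Injective σ) (S : Finset E) (hσ : ∀ s ∈ S, σ s ∈ S) :
    σ (∏ s ∈ S, s) = ∏ s ∈ S, s := by
  rw [map_prod]
  have himg : S.image σ = S := by
    apply Finset.eq_of_subset_of_card_le
    · intro t ht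
      obtain ⟨s, hs, rfl⟩ := Finset.mem_image.1 ht
      exact hσ s hs
    · rw [Finset.card_image_of_injective _ hinj]
  conv_rhs => rw [← himg]
  rw [Finset.prod_image (fun a _ b _ h => hinj h)]

/-- the product of elements of `O` with the same idempotent reduction -/
theorem NI_prod_mem {E Φ : Type*} [CommRing E] [CommRing Φ] (O : Subring E) (red : O →+* Φ)
    (e : Φ) (he : e * e = e) (S : Finset E) (hne : S.Nonempty)
    (hS : ∀ s ∈ S, ∃ h : s ∈ O, red ⟨s, h⟩ = e) :
    ∃ h : ∏ s ∈ S, s ∈ O, red ⟨_, h⟩ = e := by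
  classical
  induction hne using Finset.Nonempty.cons_induction with
  | singleton a =>
    obtain ⟨h, h'⟩ := hS a (Finset.mem_singleton_self a)
    refine ⟨by rw [Finset.prod_singleton]; exact h, ?_⟩
    rw [← h']
    congr 1
    exact Subtype.ext (Finset.prod_singleton (fun s : E => s) a)
  | cons a s ha hs ih =>
    obtain ⟨h1, h1'⟩ := hS a (Finset.mem_cons_self a s)
    obtain ⟨h2, h2'⟩ := ih (fun t ht => hS t (Finset.mem_cons_of_mem ht))
    refine ⟨by rw [Finset.prod_cons]; exact O.mul_mem h1 h2, ?_⟩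
    have : (⟨∏ t ∈ Finset.cons a s ha, t, by rw [Finset.prod_cons]; exact O.mul_mem h1 h2⟩ : O)
        = ⟨a, h1⟩ * ⟨_, h2⟩ := Subtype.ext (Finset.prod_cons _)
    rw [this, map_mul, h1', h2', he]

/-! ### the inertia orbit -/

/-- the inertia orbit -/
def iOrb (A : ValuationSubring Qb) (S : LaurentSeries Qb) : Set (LaurentSeries Qb) :=
  {T | ∃ σ ∈ A.inertiaSubgroupIn ℚ, T = coeffMap ((σ : GQ) : Qb →+* Qb) S}

theorem self_mem_iOrb (A : ValuationSubring Qb) (S : LaurentSeries Qb) : S ∈ iOrb A S := by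
  refine ⟨1, one_mem _, ?_⟩
  rw [show (((1 : GQ) : GQ) : Qb →+* Qb) = RingHom.id Qb from RingHom.ext fun _ => rfl, coeffMap_id]

theorem coeffMap_mem_iOrb (A : ValuationSubring Qb) (S : LaurentSeries Qb) (τ : GQ)
    (hτ : τ ∈ A.inertiaSubgroupIn ℚ) (T : LaurentSeries Qb) (hT : T ∈ iOrb A S) :
    coeffMap ((τ : GQ) : Qb →+* Qb) T ∈ iOrb A S := by
  obtain ⟨σ, hσ, rfl⟩ := hT
  refine ⟨τ * σ, mul_mem hτ hσ, ?_⟩
  rw [coeffMap_coeffMap]
  exact coeffMap_congr (RingHom.ext fun _ => rfl) _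

theorem coeffMap_injective_GQ (τ : GQ) :
    Function.Injective (coeffMap ((τ : GQ) : Qb →+* Qb)) :=
  (coeffMap ((τ : GQ) : Qb →+* Qb)).injective

/-- **(NI)** an idempotent of the reduction lifts to an inertia-fixed integral element -/
theorem NI_exists_fixed (A : ValuationSubring Qb) (E : IntermediateField Qb (LaurentSeries Qb))
    {Φ : Type*} [CommRing Φ] (O : Subring E) (red : O →+* Φ)
    (hfix : ∀ σ ∈ A.inertiaSubgroupIn ℚ, ∀ z : O,
      ∃ (h : coeffMap ((σ : GQ) : Qb →+* Qb) ((z : E) : LaurentSeries Qb) ∈ E)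
        (h' : (⟨_, h⟩ : E) ∈ O), red ⟨_, h'⟩ = red z)
    (z : O) (hz : (iOrb A ((z : E) : LaurentSeries Qb)).Finite) (hid : red z * red z = red z) :
    ∃ z' : O, (z' : E) ∈ covE0 A E ∧ red z' = red z := by
  classical
  set S : Finset (LaurentSeries Qb) := hz.toFinset with hS
  have hmem : ∀ s ∈ S, ∃ (h : s ∈ E) (h' : (⟨s, h⟩ : E) ∈ O), red ⟨_, h'⟩ = red z := by
    intro s hs
    obtain ⟨σ, hσ, rfl⟩ := (Set.Finite.mem_toFinset _).1 hs
    exact hfix σ hσ z
  -- transport to `E`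
  let f : {s // s ∈ S} ↪ E :=
    ⟨fun s => (⟨s.1, (hmem s.1 s.2).choose⟩ : E),
      fun a b h => Subtype.ext (congrArg (fun z : E => (z : LaurentSeries Qb)) h)⟩
  set S' : Finset E := S.attach.map f with hS'
  have hne : S'.Nonempty := by
    refine Finset.Nonempty.map ?_
    rw [Finset.attach_nonempty_iff]
    exact ⟨_, (Set.Finite.mem_toFinset _).2 (self_mem_iOrb A _)⟩
  have hS'mem : ∀ s ∈ S', ∃ h : s ∈ O, red ⟨s, h⟩ = red z := by
    intro s hs
    obtain ⟨t, _, rfl⟩ := Finset.mem_map.1 hs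
    exact (hmem t.1 t.2).choose_spec
  obtain ⟨h, h'⟩ := NI_prod_mem O red (red z) hid S' hne hS'mem
  refine ⟨⟨_, h⟩, ?_, h'⟩
  rw [mem_covE0, mem_K0S]
  intro σ hσ
  have hcoe : (((∏ s ∈ S', s : E)) : LaurentSeries Qb) = ∏ s ∈ S, s := by
    rw [hS', Finset.prod_map]
    rw [← Finset.prod_attach S]
    exact map_prod (algebraMap E (LaurentSeries Qb)) _ _
  show coeffMap _ (((∏ s ∈ S', s : E)) : LaurentSeries Qb) = _
  rw [hcoe]
  apply NI_map_prod _ (coeffMap_injective_GQ σ)
  intro s hs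
  rw [Set.Finite.mem_toFinset] at hs ⊢
  exact coeffMap_mem_iOrb A _ σ hσ s hs

end

end Fermat.Agent.S40Lib
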