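import Fermat.Agent.S40.Cov.DescCfg

/-!
# S40 / S44, COV, (NRM): normalisation of `u` by a `p`-th power

`H : DVHyp R pr π` (sheets `v_w`, `w : Ω`), `g0` an automorphism shifting the sheets by `s`.
If `g0 u = π^(p m) e r^p u` (`e` a unit of `A`), then the valuations of `u` mod `p` are constant on
the orbits of `s`, and after multiplication by a `p`-th power `v_w(u t^p) = μ w ∈ [0, p)`,
`μ ∘ s = μ`.

`IsV H w n x` : `v_w(x) = n` (`n : ℤ`).
-/

set_option autoImplicit false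

namespace Fermat.Agent.S40Lib

open Fermat.Agent.S18Lib Fermat.Agent.S34Lib Fermat.Agent.S36Lib

section Nrm

variable {K k F Φ κ Ω : Type*} [Field K] [Field k] [Field F] [Algebra K F] [CommRing Φ]
  [Algebra k Φ] [Field κ] [Fintype Ω]
  {A : ValuationSubring K} {resK : A →+* k} {R : RedG A resK F Φ} {pr : Ω → Φ →+* κ} {π : A}

/-- `v_w(x) = n` -/
def IsV (H : DVHyp R pr π) (w : Ω) (n : ℤ) (x : F) : Prop :=
  ∃ h : x * algebraMap K F (π : K) ^ (-n) ∈ (H.dv w).O, (H.dv w).red ⟨_, h⟩ ≠ 0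

theorem IsV.ne_zero {H : DVHyp R pr π} {w : Ω} {n : ℤ} {x : F} (h : IsV H w n x) : x ≠ 0 := by
  rintro rfl
  obtain ⟨h1, h2⟩ := h
  apply h2
  rw [← map_zero (H.dv w).red]
  congr 1
  apply Subtype.ext
  simp

theorem IsV.mul {H : DVHyp R pr π} {w : Ω} {n m : ℤ} {x y : F} (hx : IsV H w n x)
    (hy : IsV H w m y) : IsV H w (n + m) (x * y) := by
  obtain ⟨h1, h2⟩ := hx
  obtain ⟨h3, h4⟩ := hy
  have e : x * y * algebraMap K F (π : K) ^ (-(n + m)) =
      x * algebraMap K F (π : K) ^ (-n) * (y * algebraMap K F (π : K) ^ (-m)) := by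
    rw [neg_add, zpow_add₀ H.algπ_ne]
    ring
  refine ⟨by rw [e]; exact (H.dv w).O.mul_mem h1 h3, ?_⟩
  have e2 : (⟨x * y * algebraMap K F (π : K) ^ (-(n + m)),
      by rw [e]; exact (H.dv w).O.mul_mem h1 h3⟩ : (H.dv w).O) = ⟨_, h1⟩ * ⟨_, h3⟩ :=
    Subtype.ext e
  rw [e2, map_mul]
  exact mul_ne_zero h2 h4

theorem IsV.one (H : DVHyp R pr π) (w : Ω) : IsV H w 0 (1 : F) := by
  have e : (1 : F) * algebraMap K F (π : K) ^ (-(0 : ℤ)) = 1 := by simp
  refine ⟨by rw [e]; exact (H.dv w).O.one_mem, ?_⟩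
  have e2 : (⟨(1 : F) * algebraMap K F (π : K) ^ (-(0 : ℤ)),
      by rw [e]; exact (H.dv w).O.one_mem⟩ : (H.dv w).O) = 1 := Subtype.ext e
  rw [e2, map_one]
  exact one_ne_zero

theorem IsV.pow {H : DVHyp R pr π} {w : Ω} {n : ℤ} {x : F} (hx : IsV H w n x) (j : ℕ) :
    IsV H w (j * n) (x ^ j) := by
  induction j with
  | zero => simpa using IsV.one H w
  | succ j ih =>
    have := ih.mul hx
    rw [pow_succ]
    convert this using 1
    push_cast
    ring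

theorem IsV.π_zpow (H : DVHyp R pr π) (w : Ω) (n : ℤ) :
    IsV H w n (algebraMap K F (π : K) ^ n) := by
  have e : algebraMap K F (π : K) ^ n * algebraMap K F (π : K) ^ (-n) = 1 := by
    rw [← zpow_add₀ H.algπ_ne, add_neg_cancel, zpow_zero]
  refine ⟨by rw [e]; exact (H.dv w).O.one_mem, ?_⟩
  have e2 : (⟨algebraMap K F (π : K) ^ n * algebraMap K F (π : K) ^ (-n),
      by rw [e]; exact (H.dv w).O.one_mem⟩ : (H.dv w).O) = 1 := Subtype.ext e
  rw [e2, map_one]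
  exact one_ne_zero

/-- units of `O_w` -/
theorem IsV.of_mul_eq_one (H : DVHyp R pr π) (w : Ω) {x y : F} (hx : x ∈ (H.dv w).O)
    (hy : y ∈ (H.dv w).O) (hxy : x * y = 1) : IsV H w 0 x := by
  have e : x * algebraMap K F (π : K) ^ (-(0 : ℤ)) = x := by simp
  refine ⟨by rw [e]; exact hx, fun h0 => ?_⟩
  have e2 : (⟨x * algebraMap K F (π : K) ^ (-(0 : ℤ)), by rw [e]; exact hx⟩ : (H.dv w).O) =
      ⟨x, hx⟩ := Subtype.ext e
  rw [e2] at h0
  have h1 : (H.dv w).red (⟨x, hx⟩ * ⟨y, hy⟩) = 1 := by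
    rw [← map_one (H.dv w).red]
    congr 1
    exact Subtype.ext hxy
  rw [map_mul, h0, zero_mul] at h1
  exact zero_ne_one h1

theorem IsV.const (H : DVHyp R pr π) (w : Ω) {e : K} (he : e ∈ A) (he' : e⁻¹ ∈ A) (h0 : e ≠ 0) :
    IsV H w 0 (algebraMap K F e) :=
  IsV.of_mul_eq_one H w (H.coe_mem_dv_O w (R.const ⟨e, he⟩)) (H.coe_mem_dv_O w (R.const ⟨_, he'⟩))
    (by
      show algebraMap K F e * algebraMap K F e⁻¹ = 1
      rw [← map_mul, mul_inv_cancel₀ h0, map_one])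

theorem IsV.unique {H : DVHyp R pr π} {w : Ω} {n m : ℤ} {x : F} (hx : IsV H w n x)
    (hy : IsV H w m x) : n = m := by
  have key : ∀ {n m : ℤ}, IsV H w n x → IsV H w m x → ¬ n < m := by
    intro n m hx hy hlt
    obtain ⟨h1, h2⟩ := hx
    obtain ⟨h3, -⟩ := hy
    obtain ⟨d, hd⟩ : ∃ d : ℕ, m = n + (d + 1 : ℕ) := ⟨(m - n - 1).toNat, by
      have : ((m - n - 1).toNat : ℤ) = m - n - 1 := Int.toNat_of_nonneg (by omega)
      push_cast
      omega⟩
    apply h2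
    rw [(H.dv w).red_eq_zero_iff]
    have e : x * algebraMap K F (π : K) ^ (-n) * (H.dv w).π⁻¹ =
        x * algebraMap K F (π : K) ^ (-m) * algebraMap K F (π : K) ^ d := by
      have hπ := H.algπ_ne
      rw [H.dv_π, hd, neg_add, zpow_add₀ hπ, mul_assoc, mul_assoc, mul_assoc]
      congr 2
      rw [← zpow_natCast, ← zpow_add₀ hπ, ← zpow_neg_one]
      congr 1
      push_cast
      ring
    show x * algebraMap K F (π : K) ^ (-n) * (H.dv w).π⁻¹ ∈ (H.dv w).O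
    rw [e]
    exact (H.dv w).O.mul_mem h3 ((H.dv w).O.pow_mem (H.dv w).π_mem d)
  rcases lt_trichotomy n m with h | h | h
  · exact absurd h (key hx hy)
  · exact h
  · exact absurd h (key hy hx)

theorem isV_natCast_iff (H : DVHyp R pr π) (w : Ω) (n : ℕ) (x : F) :
    IsV H w n x ↔ (H.dv w).ge n x ∧ (H.dv w).lead n x ≠ 0 := by
  have e : x * algebraMap K F (π : K) ^ (-(n : ℤ)) = x * (H.dv w).π⁻¹ ^ n := by
    rw [H.dv_π, zpow_neg, zpow_natCast, inv_pow]
  constructor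
  · rintro ⟨h1, h2⟩
    have h3 : (H.dv w).ge n x := by
      unfold DVal.ge
      rw [← e]
      exact h1
    refine ⟨h3, ?_⟩
    rw [(H.dv w).lead_of_ge h3]
    have e2 : (⟨x * (H.dv w).π⁻¹ ^ n, h3⟩ : (H.dv w).O) = ⟨_, h1⟩ := Subtype.ext e.symm
    rw [e2]
    exact h2
  · rintro ⟨h3, h4⟩
    rw [(H.dv w).lead_of_ge h3] at h4
    refine ⟨by rw [e]; exact h3, ?_⟩
    have e2 : (⟨x * algebraMap K F (π : K) ^ (-(n : ℤ)), by rw [e]; exact h3⟩ : (H.dv w).O) =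
        ⟨x * (H.dv w).π⁻¹ ^ n, h3⟩ := Subtype.ext e
    rw [e2]
    exact h4

theorem exists_isV (H : DVHyp R pr π) (harch : ∀ c : K, ∃ N : ℕ, c * (π : K) ^ N ∈ A) (w : Ω)
    (x : F) (hx : x ≠ 0) : ∃ n : ℤ, IsV H w n x := by
  obtain ⟨N, hN⟩ := H.exists_pow_mul_mem harch x
  have hπ := H.algπ_ne
  obtain ⟨μ, h1, h2⟩ := H.exists_lead_ne_zero harch w (x * algebraMap K F (π : K) ^ N)
    (mul_ne_zero hx (pow_ne_zero _ hπ)) (H.coe_mem_dv_O w ⟨_, hN⟩)
  have h3 := ((isV_natCast_iff H w μ _).2 ⟨h1, h2⟩).mul (IsV.π_zpow H w (-(N : ℤ)))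
  refine ⟨μ + -(N : ℤ), ?_⟩
  convert h3 using 1
  rw [zpow_neg, zpow_natCast, mul_assoc, mul_inv_cancel₀ (pow_ne_zero _ hπ), mul_one]

/-- weak approximation with prescribed valuations in `ℤ` -/
theorem exists_isV_approx (H : DVHyp R pr π) (b : Ω → ℤ) : ∃ t : F, ∀ w, IsV H w (b w) t := by
  classical
  set N : ℕ := ∑ w, (b w).natAbs with hN
  have hbN : ∀ w, 0 ≤ b w + N := by
    intro w
    have := Finset.single_le_sum (f := fun w => (b w).natAbs) (fun i _ => Nat.zero_le _)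
      (Finset.mem_univ w)
    omega
  obtain ⟨t, ht⟩ := H.exists_approx (fun w => (b w + N).toNat)
  refine ⟨(t : F) * algebraMap K F (π : K) ^ (-(N : ℤ)), fun w => ?_⟩
  have h1 : IsV H w ((b w + N).toNat : ℕ) ((t : R.O) : F) :=
    (isV_natCast_iff H w _ _).2 ⟨(ht w).1, by rw [(ht w).2]; exact one_ne_zero⟩
  have h2 := h1.mul (IsV.π_zpow H w (-(N : ℤ)))
  convert h2 using 1
  rw [Int.toNat_of_nonneg (hbN w)]
  ring

theorem IsShift.isV {H : DVHyp R pr π} {g0 : F ≃+* F} {s : Ω → Ω} (hs : IsShift H g0 s) (w : Ω)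
    (n : ℤ) (x : F) (hx : IsV H (s w) n x) : IsV H w n (g0 x) := by
  obtain ⟨h1, h2⟩ := hx
  have e : g0 x * algebraMap K F (π : K) ^ (-n) = g0 (x * algebraMap K F (π : K) ^ (-n)) := by
    rw [map_mul, map_zpow₀, hs.const]
  have h3 : g0 (x * algebraMap K F (π : K) ^ (-n)) ∈ (H.dv w).O := (hs.mem w _).2 h1
  refine ⟨by rw [e]; exact h3, ?_⟩
  have e2 : (⟨g0 x * algebraMap K F (π : K) ^ (-n), by rw [e]; exact h3⟩ : (H.dv w).O) =
      ⟨_, h3⟩ := Subtype.ext e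
  rw [e2, hs.red w _ h3 h1]
  exact h2

/-- **(NRM)** -/
theorem nrm_main (H : DVHyp R pr π) (harch : ∀ c : K, ∃ N : ℕ, c * (π : K) ^ N ∈ A)
    (g0 : F ≃+* F) (s : Ω → Ω) (hs : IsShift H g0 s) {p : ℕ} (hp : 0 < p)
    (u r : F) (hu : u ≠ 0) (hr : r ≠ 0) (m : ℤ) (e : K) (he : e ∈ A) (he' : e⁻¹ ∈ A)
    (hgu : g0 u = algebraMap K F ((π : K) ^ ((p : ℤ) * m) * e) * r ^ p * u) :
    ∃ (t : F) (μ : Ω → ℕ), t ≠ 0 ∧ (∀ w, μ (s w) = μ w) ∧ (∀ w, μ w < p) ∧
      ∀ w, (H.dv w).ge (μ w) (u * t ^ p) ∧ (H.dv w).lead (μ w) (u * t ^ p) ≠ 0 := by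
  have he0 : e ≠ 0 := by
    rintro rfl
    rw [mul_zero, map_zero, zero_mul, zero_mul] at hgu
    exact hu ((map_eq_zero_iff g0 g0.injective).1 hgu)
  choose a ha using fun w => exists_isV H harch w u hu
  choose ρ hρ using fun w => exists_isV H harch w r hr
  have hp' : (0 : ℤ) < p := by exact_mod_cast hp
  have hrel : ∀ w, a (s w) = (p : ℤ) * m + 0 + p * ρ w + a w := by
    intro w
    have h1 := hs.isV w _ u (ha (s w))
    have h2 : IsV H w ((p : ℤ) * m + 0 + p * ρ w + a w) (g0 u) := by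
      rw [hgu, map_mul, map_zpow₀]
      exact (((IsV.π_zpow H w _).mul (IsV.const H w he he' he0)).mul ((hρ w).pow p)).mul (ha w)
    exact h1.unique h2
  obtain ⟨t, ht⟩ := exists_isV_approx H (fun w => -(a w / p))
  have hne : Nonempty Ω ∨ IsEmpty Ω := (isEmpty_or_nonempty Ω).symm
  have hmod : ∀ w, 0 ≤ a w % p := fun w => Int.emod_nonneg _ hp'.ne'
  have hmain : ∀ w, IsV H w ((a w % p).toNat : ℕ) (u * t ^ p) := by
    intro w
    have h1 := (ha w).mul ((ht w).pow p)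
    convert h1 using 1
    rw [Int.toNat_of_nonneg (hmod w)]
    have := Int.emod_add_mul_ediv (a w) p
    linarith
  rcases hne with ⟨⟨w0⟩⟩ | hemp
  · refine ⟨t, fun w => (a w % p).toNat, (ht w0).ne_zero, fun w => ?_, fun w => ?_, fun w =>
      (isV_natCast_iff H w _ _).1 (hmain w)⟩
    · show (a (s w) % p).toNat = (a w % p).toNat
      congr 1
      rw [hrel w]
      have : (p : ℤ) * m + 0 + p * ρ w + a w = a w + p * (m + ρ w) := by ring
      rw [this, Int.add_mul_emod_self_left]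
    · have := Int.emod_lt_of_pos (a w) hp'
      have h2 := hmod w
      show (a w % p).toNat < p
      omega
  · exact ⟨1, fun _ => 0, one_ne_zero, fun _ => rfl, fun _ => hp, fun w => (hemp.false w).elim⟩

end Nrm

/-- a function on `ZMod p × β` invariant under the shift by `m ≠ 0` depends only on `β` -/
theorem nrm_const_of_shift {p : ℕ} [Fact p.Prime] {β X : Type*} (μ : ZMod p × β → X) (m : ZMod p)
    (hm : m ≠ 0) (h : ∀ w, μ (w.1 + m, w.2) = μ w) (c : ZMod p) (b : β) : μ (c, b) = μ (0, b) := by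
  have h1 : ∀ n : ℕ, μ ((n : ZMod p) * m, b) = μ (0, b) := by
    intro n
    induction n with
    | zero => simp
    | succ n ih =>
      rw [← ih, ← h ((n : ZMod p) * m, b)]
      congr 2
      push_cast
      ring
  have h2 := h1 (c / m).val
  rwa [ZMod.natCast_zmod_val, div_mul_cancel₀ _ hm] at h2

end Fermat.Agent.S40Lib
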