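import Fermat.Agent.S40.Cov.Cg
import Fermat.Agent.S33.GTame
import Fermat.Agent.S36.K0a

/-!
# S40 / S44, COV, block (TRES): if `p ∤ v(c_g)` the extension is très ramifiée
-/

set_option autoImplicit false
set_option synthInstance.maxHeartbeats 400000

open AlgebraicCurve ModularCurve

namespace Fermat.Agent.S40Lib

open Fermat.Agent.S18Lib Fermat.Agent.S24Lib Fermat.Agent.ESLib Fermat.Agent.S34Lib
  Fermat.Agent.S33Lib Fermat.Agent.S36Lib Fermat.Agent.FFLib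

theorem TR_isU_mul {A : ValuationSubring Qb} {a b : Qb} (ha : IsU A a) (hb : IsU A b) :
    IsU A (a * b) :=
  ⟨A.mul_mem _ _ ha.1 hb.1, by rw [mul_inv]; exact A.mul_mem _ _ ha.2 hb.2⟩

theorem TR_isU_inv {A : ValuationSubring Qb} {a : Qb} (ha : IsU A a) : IsU A a⁻¹ :=
  ⟨ha.2, by rw [inv_inv]; exact ha.1⟩

theorem TR_isU_pow {A : ValuationSubring Qb} {a : Qb} (ha : IsU A a) (n : ℕ) : IsU A (a ^ n) :=
  ⟨pow_mem ha.1 n, by rw [← inv_pow]; exact pow_mem ha.2 n⟩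

theorem TR_isU_zpow {A : ValuationSubring Qb} {a : Qb} (ha : IsU A a) (n : ℤ) : IsU A (a ^ n) := by
  cases n with
  | ofNat n => simpa using TR_isU_pow ha n
  | negSucc n =>
    rw [zpow_negSucc]
    exact TR_isU_inv (TR_isU_pow ha _)

/-- `p = (ζ - 1)^(p-1) ε`, `ε` a unit -/
theorem TR_isU_eps {A : ValuationSubring Qb} {p : ℕ} (hp : p.Prime) (hA : A.LiesOverPrime p)
    {ζ : Qb} (hζ : IsPrimitiveRoot ζ p) : IsU A ((p : Qb) / (ζ - 1) ^ (p - 1)) := by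
  have hζ1 : ζ ≠ 1 := hζ.ne_one hp.one_lt
  have h1 := valuation_one_sub_zeta p hp A hA ζ hζ.pow_eq_one hζ1
  have h2 : A.valuation (ζ - 1) = A.valuation (1 - ζ) := Valuation.map_sub_swap _ _ _
  have hp0 : (p : Qb) ≠ 0 := Nat.cast_ne_zero.2 hp.ne_zero
  have hv0 : A.valuation (p : Qb) ≠ 0 := (Valuation.ne_zero_iff _).2 hp0
  have h3 : A.valuation ((p : Qb) / (ζ - 1) ^ (p - 1)) = 1 := by
    rw [map_div₀, map_pow, h2, h1, div_self hv0]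
  constructor
  · exact (A.valuation_le_one_iff _).1 h3.le
  · apply (A.valuation_le_one_iff _).1
    rw [map_inv₀, h3, inv_one]

variable (M p : ℕ) [NeZero M] [NeZero p] [hpF : Fact p.Prime]

/-- **(TRES)** -/
theorem tresFn_of_cg (A : ValuationSubring Qb) (hA : A.LiesOverPrime p) (ζ : Qb)
    (hζ : IsPrimitiveRoot ζ p) (x y : FB (p * M)) (hy0 : y ≠ 0)
    (galx : ∀ σ ∈ A.inertiaSubgroupIn ℚ, ∃ (j : ℕ) (g : FB (p * M)),
      gal (p * M) σ x = g ^ p * x * y ^ j)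
    (ϖ : Qb) (hϖ : ϖ ≠ 0)
    (htw : ∀ σ ∈ A.inertiaSubgroupIn ℚ, ∀ (c : ℕ) (G : FB (p * M)),
      gal (p * M) σ x = G ^ p * x * y ^ c → ζ ^ c * σ ϖ = ϖ)
    (m : ℤ) (e : Qb) (heK : e ∈ K0 A) (he : IsU A e) (hc : ϖ ^ p = (p : Qb) ^ m * e)
    (hm : ¬ (p : ℤ) ∣ m) : TresFn M p A x y := by
  have hp : p.Prime := hpF.out
  have hζ1 : ζ ≠ 1 := hζ.ne_one hp.one_lt
  have hz0 : ζ - 1 ≠ 0 := sub_ne_zero.2 hζ1
  have hζ0 : ζ ≠ 0 := hζ.ne_zero hp.ne_zero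
  have hp0 : (p : Qb) ≠ 0 := Nat.cast_ne_zero.2 hp.ne_zero
  set ε : Qb := (p : Qb) / (ζ - 1) ^ (p - 1) with hε
  have hεU : IsU A ε := TR_isU_eps hp hA hζ
  have hpε : (p : Qb) = (ζ - 1) ^ (p - 1) * ε := by
    rw [hε]; field_simp
  have he0 : e ≠ 0 := by
    rintro rfl
    have := he.2
    rw [mul_zero] at hc
    exact hϖ (pow_eq_zero_iff hp.ne_zero |>.1 hc)
  have hε0 : ε ≠ 0 := div_ne_zero hp0 (pow_ne_zero _ hz0)
  refine ⟨ζ, ϖ⁻¹, (ε ^ m * e)⁻¹, -(((p - 1 : ℕ) : ℤ) * m), hζ,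
    inv_ne_zero (mul_ne_zero (zpow_ne_zero _ hε0) he0),
    TR_isU_inv (TR_isU_mul (TR_isU_zpow hεU m) he), ?_, ?_, ?_, ?_⟩
  · intro σ hσ hσζ
    have h1 : σ ε = ε := by
      rw [hε, map_div₀, map_pow, map_sub, map_natCast, map_one, hσζ]
    rw [map_inv₀, map_mul, map_zpow₀, h1, mem_K0_iff.1 heK σ hσ]
  · rw [inv_pow, hc, hpε, mul_zpow, zpow_neg, ← zpow_natCast (ζ - 1) (p - 1), ← zpow_mul,
      ← mul_inv, mul_assoc]
  · intro hd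
    rw [Int.dvd_neg] at hd
    rcases (Nat.prime_iff_prime_int.1 hp).dvd_or_dvd hd with h | h
    · have h1 : p ∣ p - 1 := by exact_mod_cast h
      have := Nat.le_of_dvd (by have := hp.two_le; omega) h1
      have := hp.two_le
      omega
    · exact hm h
  · intro σ hσ _ j hj
    obtain ⟨c, G, hG⟩ := galx σ hσ
    have h1 := htw σ hσ c G hG
    have hσϖ : σ ϖ ≠ 0 := by rw [Ne, map_eq_zero]; exact hϖ
    -- `ζ ^ j = ζ ^ c`
    have h2 : ζ ^ j = ζ ^ c := by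
      rw [map_inv₀] at hj
      have h3 : ϖ = ζ ^ j * σ ϖ := by
        have h30 : (σ ϖ)⁻¹ * (σ ϖ * ϖ) = ζ ^ j * ϖ⁻¹ * (σ ϖ * ϖ) := by rw [hj]
        rw [← mul_assoc, inv_mul_cancel₀ hσϖ, one_mul] at h30
        calc ϖ = ζ ^ j * ϖ⁻¹ * (σ ϖ * ϖ) := h30
          _ = ζ ^ j * σ ϖ * (ϖ⁻¹ * ϖ) := by ring
          _ = ζ ^ j * σ ϖ := by rw [inv_mul_cancel₀ hϖ, mul_one]
      have h4 : ζ ^ j * σ ϖ = ζ ^ c * σ ϖ := by rw [← h3, h1]
      exact mul_right_cancel₀ hσϖ h4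
    have h5 : (p : ℤ) ∣ (c : ℤ) - j := by
      rw [← hζ.zpow_eq_one_iff_dvd, zpow_sub₀ hζ0, zpow_natCast, zpow_natCast, h2,
        div_self (pow_ne_zero _ hζ0)]
    obtain ⟨d, hd⟩ := h5
    refine ⟨G * y ^ d, ?_⟩
    rw [hG, mul_pow, ← zpow_natCast (y ^ d) p, ← zpow_mul]
    have h6 : y ^ c = y ^ (d * (p : ℤ)) * y ^ j := by
      rw [← zpow_natCast y c, ← zpow_natCast y j, ← zpow_add₀ hy0]
      congr 1
      linarith
    rw [h6]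
    ring

/-- **(CG) + (TW) + (TRES)**, packaged for `cov_main`: `u = x t₀^p` fixed by inertia; then
`g u = c r^p u`, `c = ϖ^p = p^m e ∈ K0`, `r ∈ E₀`, and `p ∤ m` implies the très ramifiée
alternative. -/
theorem cg_main (A : ValuationSubring Qb) (hA : A.LiesOverPrime p) (ζ : Qb)
    (hζ : IsPrimitiveRoot ζ p) (η : LaurentSeries Qb)
    (g : covE (p * M) η ≃ₐ[FB (p * M)] covE (p * M) η) (hg : IsCovGen A (p * M) η ζ g)
    (x y : FB (p * M)) (hx : x ≠ 0) (hy0 : y ≠ 0) (hy : η ^ p = (y : LaurentSeries Qb))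
    (galx : ∀ σ ∈ A.inertiaSubgroupIn ℚ, ∃ (j : ℕ) (g : FB (p * M)),
      gal (p * M) σ x = g ^ p * x * y ^ j)
    (t₀ : covE (p * M) η) (ht₀ : t₀ ≠ 0)
    (hu : (x : LaurentSeries Qb) * (t₀ : LaurentSeries Qb) ^ p ∈ K0S A) :
    ∃ (ϖ : Qb) (r : covE (p * M) η) (m : ℤ) (e : Qb), ϖ ≠ 0 ∧ r ≠ 0 ∧
      (r : LaurentSeries Qb) ∈ K0S A ∧
      g t₀ = algebraMap Qb (covE (p * M) η) ϖ * r * t₀ ∧
      g (algebraMap (FB (p * M)) (covE (p * M) η) x * t₀ ^ p) =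
        algebraMap Qb (covE (p * M) η) (ϖ ^ p) * r ^ p *
          (algebraMap (FB (p * M)) (covE (p * M) η) x * t₀ ^ p) ∧
      ϖ ^ p ∈ K0 A ∧ e ∈ K0 A ∧ IsU A e ∧ ϖ ^ p = (p : Qb) ^ m * e ∧
      (¬ (p : ℤ) ∣ m → TresFn M p A x y) := by
  obtain ⟨ϖ, r, hϖ, hr0, hr, hgt, hϖK⟩ := exists_cg hζ hg x hx t₀ ht₀ hu
  obtain ⟨m, e, heK, he, hc⟩ := exists_zpow_mul_unit A hpF.out hA hϖK (pow_ne_zero _ hϖ)
  refine ⟨ϖ, r, m, e, hϖ, hr0, hr, hgt, ?_, hϖK, heK, he, hc, fun hm => ?_⟩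
  · rw [map_mul, g.commutes, map_pow, hgt, map_pow]
    ring
  · exact tresFn_of_cg M p A hA ζ hζ x y hy0 galx ϖ hϖ
      (fun σ hσ c G hG => cg_twist hζ hg x y hx hy t₀ ht₀ hu ϖ r hr0 hr hgt σ hσ c G hG)
      m e heK he hc hm

end Fermat.Agent.S40Lib
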