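import Fermat.Agent.S40.Cov.Count
import Fermat.Agent.S40.Cov.Nrm
import Fermat.Agent.S40.Cov.Lead
import Fermat.Agent.S40.Cov.Tres

/-!
# S40 / S44, COV: normalisation and leading terms on a `CovY`
-/

set_option autoImplicit false
set_option synthInstance.maxHeartbeats 400000

open AlgebraicCurve ModularCurve Polynomial IntermediateField

namespace Fermat.Agent.S40Lib

open Fermat.Agent.S18Lib Fermat.Agent.S24Lib Fermat.Agent.ESLib Fermat.Agent.S34Lib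
  Fermat.Agent.S33Lib Fermat.Agent.S36Lib Fermat.Agent.FFLib Fermat.Agent.S28Lib

noncomputable section

theorem K0_harch (A : ValuationSubring Qb) {p : ℕ} (hp : p.Prime) (hA : A.LiesOverPrime p)
    (c : K0 A) : ∃ N : ℕ, c * ((((p : ℕ) : A0 A) : A0 A) : K0 A) ^ N ∈ A0 A := by
  by_cases hc : c = 0
  · exact ⟨0, by rw [hc, zero_mul]; exact (A0 A).zero_mem⟩
  have hc' : (c : Qb) ≠ 0 := fun h => hc (Subtype.ext h)
  obtain ⟨n, u, -, hu, hcu⟩ := exists_zpow_mul_unit A hp hA c.2 hc'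
  have hp0 : (p : Qb) ≠ 0 := by exact_mod_cast hp.ne_zero
  have hpA : (p : Qb) ∈ A := natCast_mem A p
  refine ⟨(-n).toNat, ?_⟩
  rw [mem_A0_iff]
  obtain ⟨j, hj⟩ : ∃ j : ℕ, n + ((-n).toNat : ℤ) = j := ⟨(n + ((-n).toNat : ℤ)).toNat, by omega⟩
  have e : ((c * ((((p : ℕ) : A0 A) : A0 A) : K0 A) ^ (-n).toNat : K0 A) : Qb) =
      (p : Qb) ^ j * u := by
    push_cast
    rw [hcu, ← zpow_natCast, ← zpow_natCast, ← hj, zpow_add₀ hp0]
    ring
  rw [e]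
  exact A.mul_mem _ _ (A.pow_mem hpA j) hu.1

section Norm

variable {M p : ℕ} [NeZero M] [NeZero p] [hpF : Fact p.Prime] (hpM : ¬ p ∣ M)
  {A : ValuationSubring Qb} (hA : A.LiesOverPrime p)
  {R : RedG A (IsLocalRing.residue A) (FB (p * M)) (FT A M × FT A M)}
  {η : LaurentSeries Qb} {ζ : Qb}

theorem CovY.exists_norm (Y : CovY M p A R η ζ) (u r : covE0 A (covE (p * M) η)) (hu : u ≠ 0)
    (hr : r ≠ 0) (m' : ℤ) (e : K0 A) (he : e ∈ A0 A) (he' : e⁻¹ ∈ A0 A)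
    (hgu : Y.g0 u = algebraMap (K0 A) (covE0 A (covE (p * M) η))
      (((((p : ℕ) : A0 A) : A0 A) : K0 A) ^ ((p : ℤ) * m') * e) * r ^ p * u) :
    ∃ (t : covE0 A (covE (p * M) η)) (μI μZ : ℕ), t ≠ 0 ∧ μI ≤ μZ ∧
      (∀ c, (Y.dv hA (c, false)).ge μI (u * t ^ p) ∧
        (Y.dv hA (c, false)).lead μI (u * t ^ p) ≠ 0) ∧
      (∀ c, (Y.dv hA (c, true)).ge μZ (u * t ^ p) ∧
        (Y.dv hA (c, true)).lead μZ (u * t ^ p) ≠ 0) := by
  obtain ⟨t, μ, ht, hμs, hμp, hv⟩ := nrm_main (Y.hyp hA) (K0_harch A hpF.out hA) Y.g0 _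
    (Y.isShift hA) hpF.out.pos u r hu hr m' e he he' hgu
  obtain ⟨t', ht'⟩ := exists_isV_approx (Y.hyp hA)
    (fun w : ZMod p × Bool => if w.2 then (1 : ℤ) else 0)
  have hc : ∀ (c : ZMod p) (b : Bool), μ (c, b) = μ (0, b) :=
    nrm_const_of_shift μ Y.m Y.m_ne hμs
  have key : ∀ w : ZMod p × Bool, IsV (Y.hyp hA) w
      ((μ w : ℤ) + (p : ℕ) * (if w.2 then (1 : ℤ) else 0)) (u * (t * t') ^ p) := by
    intro w
    have h1 := ((isV_natCast_iff (Y.hyp hA) w (μ w) _).2 (hv w)).mul ((ht' w).pow p)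
    have e1 : u * (t * t') ^ p = u * t ^ p * t' ^ p := by ring
    rw [e1]
    exact h1
  refine ⟨t * t', μ (0, false), μ (0, true) + p, mul_ne_zero ht (ht' (0, false)).ne_zero,
    le_trans (hμp _).le (Nat.le_add_left _ _), fun c => ?_, fun c => ?_⟩
  · have h1 := key (c, false)
    rw [hc c false] at h1
    simp only [Bool.false_eq_true, if_false, mul_zero, add_zero] at h1
    exact (isV_natCast_iff (Y.hyp hA) (c, false) _ _).1 h1
  · have h1 := key (c, true)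
    rw [hc c true] at h1
    simp only [if_true, mul_one] at h1
    exact (isV_natCast_iff (Y.hyp hA) (c, true) _ _).1 (by exact_mod_cast h1)

theorem CM_mul_mul_inv {E : Type*} [Field E] {a : E} (ha : a ≠ 0) (b : E) :
    a * (b * a⁻¹) = b := by
  rw [mul_comm b, ← mul_assoc, mul_inv_cancel₀ ha, one_mul]

omit [NeZero p] hpF in
theorem IsDesc.coe_u {N : ℕ} {φ S₀ : LaurentSeries Qb} {u : covE0 A (covE N η)}
    (hS : IsDesc A N p φ η S₀ u) (x : FB N) (hφ : φ ^ p = (x : LaurentSeries Qb))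
    (t₀ : covE N η) (ht₀ : S₀ = φ * (t₀ : LaurentSeries Qb)) :
    (u : covE N η) = algebraMap (FB N) (covE N η) x * t₀ ^ p := by
  apply Subtype.ext
  rw [hS.hu, ht₀, mul_pow, hφ]
  push_cast
  rw [coe_algebraMap_FE]

theorem CovY.lead (Y : CovY M p A R η ζ) (x : R.O) (hx1 : (R.red x).1 ≠ 0)
    (hx2 : (R.red x).2 ≠ 0) (φ S₀ : LaurentSeries Qb)
    (hφ : φ ^ p = (((x : R.O) : FB (p * M)) : LaurentSeries Qb))
    (u : covE0 A (covE (p * M) η)) (hS : IsDesc A (p * M) p φ η S₀ u) (μI μZ : ℕ)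
    (hle : μI ≤ μZ)
    (hI : ∀ c, (Y.dv hA (c, false)).ge μI u ∧ (Y.dv hA (c, false)).lead μI u ≠ 0)
    (hZ : ∀ c, (Y.dv hA (c, true)).ge μZ u) (c : ZMod p) :
    ∃ (a : kk A) (γ : FT A M), a ≠ 0 ∧
      (Y.dv hA (c, false)).lead μI u = algebraMap (kk A) (FT A M) a * (R.red x).1 * γ ^ p := by
  set π0 : covE0 A (covE (p * M) η) :=
    algebraMap (K0 A) (covE0 A (covE (p * M) η)) ((((p : ℕ) : A0 A) : A0 A) : K0 A) with hπ0
  have hmem : u * π0⁻¹ ^ μI ∈ Y.RE0.O :=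
    (Y.mem_O hA _).2 ⟨fun i => (hI i).1, fun j => (Y.dv hA (j, true)).ge_mono hle (hZ j)⟩
  have hlead : ∀ c : ZMod p, (Y.dv hA (c, false)).lead μI u =
      (Y.RE0.red ⟨_, hmem⟩ c).1 := by
    intro c
    rw [(Y.dv hA (c, false)).lead_of_ge (hI c).1]
    exact (Y.hyp hA).dv_red_coe (c, false) ⟨_, hmem⟩ _
  have hE := (Y.mem0 _).1 hmem
  have hred := Y.red0 ⟨_, hmem⟩ hE
  obtain ⟨t₀, ht₀⟩ := hS.ex
  have hp0 : (p : Qb) ≠ 0 := by exact_mod_cast hpF.out.ne_zero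
  have hπE : ((π0 : covE0 A (covE (p * M) η)) : covE (p * M) η) =
      algebraMap Qb (covE (p * M) η) (p : Qb) := by
    rw [hπ0, coe_algebraMap_E0]
    simp
  obtain ⟨a, γ, ha, hγ⟩ := lead_abs Y.RE (p := p) ⟨_, Y.memF x⟩ ⟨_, hE⟩ t₀ ((p : Qb) ^ μI)
    (pow_ne_zero _ hp0)
    (fun c => by rw [Y.redF]; exact ⟨hx1, hx2⟩)
    (by
      rw [hred]
      intro h0
      apply (hI c).2
      rw [hlead c, h0]
      rfl)
    (by
      show algebraMap Qb (covE (p * M) η) ((p : Qb) ^ μI) *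
        ((u * π0⁻¹ ^ μI : covE0 A (covE (p * M) η)) : covE (p * M) η) = _
      have h1 : algebraMap Qb (covE (p * M) η) (p : Qb) ≠ 0 := by
        rw [Ne, map_eq_zero]; exact hp0
      have h2 : ((u * π0⁻¹ ^ μI : covE0 A (covE (p * M) η)) : covE (p * M) η) =
          (u : covE (p * M) η) * ((π0 : covE0 A (covE (p * M) η)) : covE (p * M) η)⁻¹ ^ μI := by
        push_cast
        rfl
      rw [h2, hπE, hS.coe_u _ hφ t₀ ht₀, map_pow, inv_pow]
      exact CM_mul_mul_inv (pow_ne_zero _ h1) _)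
  refine ⟨a, (γ c).1, ha, ?_⟩
  rw [hlead c, ← hred, hγ]
  show (algebraMap (kk A) (ZMod p → FT A M × FT A M) a c).1 * (Y.RE.red ⟨_, Y.memF x⟩ c).1 *
    ((γ ^ p) c).1 = _
  rw [Y.redF]
  rfl

end Norm

end

end Fermat.Agent.S40Lib
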