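import Fermat.Agent.S40.Cov.ShDefs

/-!
# S40/S44, COV, (SH4): weak approximation on the sheets
-/

set_option autoImplicit false

open AlgebraicCurve IntermediateField Polynomial Fermat.Agent.S24Lib Fermat.Agent.FFLib
  Fermat.Agent.S18Lib Fermat.Agent.S34Lib Fermat.Agent.S36Lib

namespace Fermat.Agent.S40Lib

section aux

variable {F₀ κ : Type*} [Field F₀] [Field κ]

theorem shapprox_ge_sum (v : DVal F₀ κ) {ι : Type*} (s : Finset ι) (f : ι → F₀) (n : ℕ)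
    (h : ∀ i ∈ s, v.ge n (f i)) : v.ge n (∑ i ∈ s, f i) := by
  classical
  induction s using Finset.induction_on with
  | empty => simpa using v.ge_zero' n
  | insert a s ha ih =>
    rw [Finset.sum_insert ha]
    exact v.ge_add (h a (Finset.mem_insert_self a s))
      (ih fun i hi => h i (Finset.mem_insert_of_mem hi))

/-- `π ^ m e ^ N` has positive valuation if `e` has and `m + N ≥ 1` -/
theorem shapprox_term (v : DVal F₀ κ) {e : F₀} (he : v.ge 1 e) (N : ℕ) (m : ℤ)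
    (hm : 1 ≤ m + N) : v.ge 1 (v.π ^ m * e ^ N) := by
  obtain ⟨j, hj⟩ : ∃ j : ℕ, m + N = j + 1 := ⟨(m + N - 1).toNat, by omega⟩
  have h1 : (e * v.π⁻¹ ^ 1) ^ N ∈ v.O := v.O.pow_mem he N
  have h2 : v.π ^ j ∈ v.O := v.O.pow_mem v.π_mem j
  have hπ0 := v.π_ne
  have hm' : m = (j : ℤ) + 1 + -(N : ℤ) := by omega
  have e1 : v.π ^ m * e ^ N * v.π⁻¹ ^ 1 = v.π ^ j * (e * v.π⁻¹ ^ 1) ^ N := by
    rw [hm', zpow_add₀ hπ0, zpow_add₀ hπ0, zpow_neg, zpow_natCast, zpow_natCast, zpow_one,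
      pow_one, mul_pow, inv_pow]
    field_simp
  unfold DVal.ge
  rw [e1]
  exact v.O.mul_mem h2 h1

/-- `z₀ + z₁` reduces to `1` if `z₀` does and `z₁` has positive valuation -/
theorem shapprox_add (v : DVal F₀ κ) {z₀ z₁ : F₀} (h₀ : z₀ ∈ v.O) (hr : v.red ⟨z₀, h₀⟩ = 1)
    (h₁ : v.ge 1 z₁) : ∃ h : z₀ + z₁ ∈ v.O, v.red ⟨_, h⟩ = 1 := by
  have h₁0 : v.ge 0 z₁ := v.ge_mono (Nat.zero_le 1) h₁
  have h₁' : z₁ ∈ v.O := (v.ge_zero_iff z₁).1 h₁0
  refine ⟨v.O.add_mem h₀ h₁', ?_⟩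
  rw [← v.lead_zero_eq, v.lead_add ((v.ge_zero_iff z₀).2 h₀) h₁0, v.lead_zero_eq h₀, hr,
    (v.lead_eq_zero_iff h₁0).2 h₁, add_zero]

end aux

section SH

variable {K₀ k : Type*} [Field K₀] [Field k] {A₀ : ValuationSubring K₀} {resK : A₀ →+* k}
  {E₀ κ Φ : Type*} [Field E₀] [Field κ] [Algebra K₀ E₀] [Algebra k κ] [CommRing Φ] [Algebra k Φ]
  {Ω : Type*} [Fintype Ω] [DecidableEq Ω]

variable {R : RedG A₀ resK E₀ Φ} {ϖ : A₀} {pr : Ω → Φ →+* κ}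

variable {v : Ω → DVal E₀ κ}

/-- (SH4) `S40/Cov/ShApprox.lean` : weak approximation -/
theorem IsSheets.exists_approx (h : IsSheeted R ϖ pr) (hv : IsSheets R ϖ pr v) (b : Ω → ℤ) :
    ∃ t : E₀, t ≠ 0 ∧ ∀ w, ∃ ht : t * (algebraMap K₀ E₀ (ϖ : K₀)) ^ (-(b w)) ∈ (v w).O,
      (v w).red ⟨_, ht⟩ = 1 := by
  rcases isEmpty_or_nonempty Ω with hΩ | hΩ
  · exact ⟨1, one_ne_zero, fun w => (hΩ.false w).elim⟩
  -- lifts of the idempotents
  have hid : ∀ w, ∃ e : R.O, pr w (R.red e) = 1 ∧ ∀ w', w' ≠ w → pr w' (R.red e) = 0 := by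
    intro w
    obtain ⟨e, he1, he2⟩ := h.idem w
    obtain ⟨e', rfl⟩ := R.red_surjective e
    exact ⟨e', he1, he2⟩
  choose e he1 he2 using hid
  set P₀ : E₀ := algebraMap K₀ E₀ (ϖ : K₀) with hP₀
  have hP₀0 : P₀ ≠ 0 := by
    rw [hP₀, Ne, map_eq_zero]
    exact fun h0 => h.ne (Subtype.ext h0)
  set N : ℕ := 2 * (∑ w, (b w).natAbs) + 1 with hN
  have hbN : ∀ w, (b w).natAbs ≤ ∑ w, (b w).natAbs := fun w =>
    Finset.single_le_sum (f := fun w => (b w).natAbs) (fun _ _ => Nat.zero_le _)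
      (Finset.mem_univ w)
  have key : ∀ w, ∃ ht : (∑ w', P₀ ^ (b w') * (e w' : E₀) ^ N) * P₀ ^ (-(b w)) ∈ (v w).O,
      (v w).red ⟨_, ht⟩ = 1 := by
    intro w
    have hπ : (v w).π = P₀ := hv.unif w
    have hmem : ∀ w', (e w' : E₀) ∈ (v w).O := fun w' => (hv.mem_O _).1 (e w').2 w
    have e1 : (∑ w', P₀ ^ (b w') * (e w' : E₀) ^ N) * P₀ ^ (-(b w)) =
        (e w : E₀) ^ N + ∑ w' ∈ Finset.univ.erase w, (v w).π ^ (b w' - b w) * (e w' : E₀) ^ N := by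
      rw [← Finset.add_sum_erase _ _ (Finset.mem_univ w), add_mul, Finset.sum_mul, hπ]
      congr 1
      · rw [mul_right_comm, ← zpow_add₀ hP₀0, add_neg_cancel, zpow_zero, one_mul]
      · refine Finset.sum_congr rfl fun w' _ => ?_
        rw [mul_right_comm, ← zpow_add₀ hP₀0, sub_eq_add_neg]
    rw [e1]
    have h0 : (e w : E₀) ^ N ∈ (v w).O := (v w).O.pow_mem (hmem w) N
    have hr : (v w).red ⟨_, h0⟩ = 1 := by
      have : (⟨(e w : E₀) ^ N, h0⟩ : (v w).O) = ⟨(e w : E₀), hmem w⟩ ^ N := rfl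
      rw [this, map_pow, hv.red (e w) w (hmem w), he1, one_pow]
    refine shapprox_add (v w) h0 hr (shapprox_ge_sum (v w) _ _ 1 ?_)
    intro w' hw'
    have hne : w ≠ w' := (Finset.ne_of_mem_erase hw').symm
    have hz : (v w).red ⟨(e w' : E₀), hmem w'⟩ = 0 := by
      rw [hv.red (e w') w (hmem w'), he2 w' w hne]
    have hge : (v w).ge 1 (e w' : E₀) := by
      unfold DVal.ge
      rw [pow_one]
      exact ((v w).red_eq_zero_iff _).1 hz
    refine shapprox_term (v w) hge N _ ?_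
    have h1 := hbN w
    have h2 := hbN w'
    have h3 := Int.le_natAbs (a := b w)
    have h4 := Int.le_natAbs (a := -(b w'))
    rw [Int.natAbs_neg] at h4
    rw [hN, Nat.cast_add, Nat.cast_mul]
    omega
  refine ⟨∑ w', P₀ ^ (b w') * (e w' : E₀) ^ N, ?_, key⟩
  intro h0
  obtain ⟨w⟩ := hΩ
  obtain ⟨ht, hr⟩ := key w
  have : (⟨_, ht⟩ : (v w).O) = 0 := by
    apply Subtype.ext
    show (∑ w', P₀ ^ (b w') * (e w' : E₀) ^ N) * P₀ ^ (-(b w)) = 0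
    rw [h0, zero_mul]
  rw [this, map_zero] at hr
  exact zero_ne_one hr

end SH

end Fermat.Agent.S40Lib
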