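import Fermat.Agent.S40.Cov.ShKer

/-!
# S40/S44, COV, (SH2): basic properties of the sheets
-/

set_option autoImplicit false
set_option linter.unusedSectionVars false

open AlgebraicCurve IntermediateField Polynomial Fermat.Agent.S24Lib Fermat.Agent.FFLib
  Fermat.Agent.S18Lib Fermat.Agent.S34Lib Fermat.Agent.S36Lib

namespace Fermat.Agent.S40Lib

section SH

variable {K₀ k : Type*} [Field K₀] [Field k] {A₀ : ValuationSubring K₀} {resK : A₀ →+* k}
  {E₀ κ Φ : Type*} [Field E₀] [Field κ] [Algebra K₀ E₀] [Algebra k κ] [CommRing Φ] [Algebra k Φ]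
  {Ω : Type*} [Fintype Ω] [DecidableEq Ω]

variable {R : RedG A₀ resK E₀ Φ} {ϖ : A₀} {pr : Ω → Φ →+* κ}

variable {v : Ω → DVal E₀ κ}

/-- (SH2) `S40/Cov/ShBasic.lean` -/
theorem IsSheets.red_eq_zero (h : IsSheeted R ϖ pr) (hv : IsSheets R ϖ pr v) (x : R.O) :
    R.red x = 0 ↔ ∀ w, (v w).ge 1 (x : E₀) := by
  constructor
  · intro hx w
    obtain ⟨y, rfl⟩ := (h.red_eq_zero_iff x).1 hx
    unfold DVal.ge
    have e : ((R.const ϖ * y : R.O) : E₀) * (v w).π⁻¹ ^ 1 = (y : E₀) := by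
      rw [pow_one, hv.unif w]
      show algebraMap K₀ E₀ (ϖ : K₀) * (y : E₀) * (algebraMap K₀ E₀ (ϖ : K₀))⁻¹ = (y : E₀)
      have h0 : algebraMap K₀ E₀ (ϖ : K₀) ≠ 0 := by
        rw [← hv.unif w]; exact (v w).π_ne
      rw [mul_comm (algebraMap K₀ E₀ (ϖ : K₀)), mul_assoc, mul_inv_cancel₀ h0, mul_one]
    rw [e]
    exact (hv.mem_O _).1 y.2 w
  · intro hx
    apply h.inj
    intro w
    have hxw : (x : E₀) ∈ (v w).O := (hv.mem_O _).1 x.2 w
    rw [← hv.red x w hxw, (v w).red_eq_zero_iff]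
    have := hx w
    unfold DVal.ge at this
    rwa [pow_one] at this

theorem IsSheets.const (h : IsSheeted R ϖ pr) (hv : IsSheets R ϖ pr v) (w : Ω) (c : A₀)
    (hc : algebraMap K₀ E₀ (c : K₀) ∈ (v w).O) :
    (v w).red ⟨_, hc⟩ = algebraMap k κ (resK c) := by
  have := hv.red (R.const c) w hc
  rw [R.red_const, h.alg] at this
  exact this

end SH

end Fermat.Agent.S40Lib
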