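import Fermat.Agent.S40.Cov.ShKer

/-!
# S40/S44, COV, (SH1): existence of the sheets
-/

set_option autoImplicit false
set_option linter.unusedSectionVars false

open AlgebraicCurve IntermediateField Polynomial Fermat.Agent.S24Lib Fermat.Agent.FFLib
  Fermat.Agent.S18Lib Fermat.Agent.S34Lib Fermat.Agent.S36Lib

namespace Fermat.Agent.S40Lib

section SH

variable {K₀ k : Type*} [Field K₀] [Field k] {A₀ : ValuationSubring K₀} {resK : A₀ →+* k}
  {E₀ κ Φ : Type*} [Field E₀] [Field κ] [Algebra K₀ E₀] [Algebra k κ] [CommRing Φ] [Algebra k Φ]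
  {Ω : Type*} [Fintype Ω] [DecidableEq Ω]

/-- the local ring of the sheet `w` -/
def SH1_O (R : RedG A₀ resK E₀ Φ) (pr : Ω → Φ →+* κ) (w : Ω) : Subring E₀ where
  carrier := {x | ∃ s : R.O, pr w (R.red s) ≠ 0 ∧ (s : E₀) * x ∈ R.O}
  one_mem' := ⟨1, by simp, by simp⟩
  zero_mem' := ⟨1, by simp, by simp⟩
  mul_mem' := by
    rintro x y ⟨s, hs, hsx⟩ ⟨t, ht, hty⟩
    refine ⟨s * t, by rw [map_mul, map_mul]; exact mul_ne_zero hs ht, ?_⟩
    have e : ((s * t : R.O) : E₀) * (x * y) = ((s : E₀) * x) * ((t : E₀) * y) := by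
      push_cast; ring
    rw [e]
    exact R.O.mul_mem hsx hty
  add_mem' := by
    rintro x y ⟨s, hs, hsx⟩ ⟨t, ht, hty⟩
    refine ⟨s * t, by rw [map_mul, map_mul]; exact mul_ne_zero hs ht, ?_⟩
    have e : ((s * t : R.O) : E₀) * (x + y) = (t : E₀) * ((s : E₀) * x) + (s : E₀) * ((t : E₀) * y) := by
      push_cast; ring
    rw [e]
    exact R.O.add_mem (R.O.mul_mem t.2 hsx) (R.O.mul_mem s.2 hty)
  neg_mem' := by
    rintro x ⟨s, hs, hsx⟩
    refine ⟨s, hs, ?_⟩
    rw [mul_neg]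
    exact R.O.neg_mem hsx

variable {R : RedG A₀ resK E₀ Φ} {ϖ : A₀} {pr : Ω → Φ →+* κ}

theorem SH1_mem_O {w : Ω} {x : E₀} :
    x ∈ SH1_O R pr w ↔ ∃ s : R.O, pr w (R.red s) ≠ 0 ∧ (s : E₀) * x ∈ R.O := Iff.rfl

theorem SH1_le (w : Ω) {x : E₀} (hx : x ∈ R.O) : x ∈ SH1_O R pr w :=
  ⟨1, by simp, by simpa using hx⟩

/-- the value of the reduction -/
noncomputable def SH1_val (R : RedG A₀ resK E₀ Φ) (pr : Ω → Φ →+* κ) (w : Ω)
    (x : SH1_O R pr w) : κ :=
  pr w (R.red ⟨_, x.2.choose_spec.2⟩) / pr w (R.red x.2.choose)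

theorem SH1_val_eq (w : Ω) (x : SH1_O R pr w) (s : R.O) (hs : pr w (R.red s) ≠ 0)
    (hsx : (s : E₀) * (x : E₀) ∈ R.O) :
    SH1_val R pr w x = pr w (R.red ⟨_, hsx⟩) / pr w (R.red s) := by
  unfold SH1_val
  rw [div_eq_div_iff x.2.choose_spec.1 hs, ← map_mul, ← map_mul, ← map_mul, ← map_mul]
  congr 2
  apply Subtype.ext
  push_cast
  ring

/-- the reduction map of the sheet `w` -/
noncomputable def SH1_red (R : RedG A₀ resK E₀ Φ) (pr : Ω → Φ →+* κ) (w : Ω) :
    SH1_O R pr w →+* κ where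
  toFun := SH1_val R pr w
  map_one' := by
    rw [SH1_val_eq w 1 1 (by simp) (by simp)]
    have e : (⟨((1 : R.O) : E₀) * ((1 : SH1_O R pr w) : E₀), by simp⟩ : R.O) = 1 :=
      Subtype.ext (by simp)
    rw [e]
    simp
  map_zero' := by
    rw [SH1_val_eq w 0 1 (by simp) (by simp)]
    have e : (⟨((1 : R.O) : E₀) * ((0 : SH1_O R pr w) : E₀), by simp⟩ : R.O) = 0 :=
      Subtype.ext (by simp)
    rw [e]
    simp
  map_mul' := by
    intro x y
    obtain ⟨s, hs, hsx⟩ := SH1_mem_O.mp x.2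
    obtain ⟨t, ht, hty⟩ := SH1_mem_O.mp y.2
    have hst : pr w (R.red (s * t)) ≠ 0 := by rw [map_mul, map_mul]; exact mul_ne_zero hs ht
    have e : ((s * t : R.O) : E₀) * ((x * y : SH1_O R pr w) : E₀)
        = ((s : E₀) * (x : E₀)) * ((t : E₀) * (y : E₀)) := by
      push_cast; ring
    rw [SH1_val_eq w x s hs hsx, SH1_val_eq w y t ht hty,
      SH1_val_eq w (x * y) (s * t) hst (by rw [e]; exact R.O.mul_mem hsx hty),
      div_mul_div_comm, ← map_mul, ← map_mul, ← map_mul, ← map_mul]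
    congr 3
    exact Subtype.ext e
  map_add' := by
    intro x y
    obtain ⟨s, hs, hsx⟩ := SH1_mem_O.mp x.2
    obtain ⟨t, ht, hty⟩ := SH1_mem_O.mp y.2
    have hst : pr w (R.red (s * t)) ≠ 0 := by rw [map_mul, map_mul]; exact mul_ne_zero hs ht
    have e : ((s * t : R.O) : E₀) * ((x + y : SH1_O R pr w) : E₀)
        = (t : E₀) * ((s : E₀) * (x : E₀)) + (s : E₀) * ((t : E₀) * (y : E₀)) := by
      push_cast; ring
    rw [SH1_val_eq w x s hs hsx, SH1_val_eq w y t ht hty,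
      SH1_val_eq w (x + y) (s * t) hst
        (by
          rw [e]
          exact R.O.add_mem (R.O.mul_mem t.2 hsx) (R.O.mul_mem s.2 hty)),
      div_add_div _ _ hs ht, ← map_mul, ← map_mul, ← map_mul, ← map_mul, ← map_mul, ← map_mul,
      ← map_add, ← map_add]
    congr 3
    apply Subtype.ext
    show ((s * t : R.O) : E₀) * ((x + y : SH1_O R pr w) : E₀)
      = (s : E₀) * (x : E₀) * (t : E₀) + (s : E₀) * ((t : E₀) * (y : E₀))
    rw [e]; ring

theorem SH1_red_eq (w : Ω) (x : SH1_O R pr w) (s : R.O) (hs : pr w (R.red s) ≠ 0)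
    (hsx : (s : E₀) * (x : E₀) ∈ R.O) :
    SH1_red R pr w x = pr w (R.red ⟨_, hsx⟩) / pr w (R.red s) := SH1_val_eq w x s hs hsx

theorem SH1_red_coe (w : Ω) (x : R.O) (h : (x : E₀) ∈ SH1_O R pr w) :
    SH1_red R pr w ⟨x, h⟩ = pr w (R.red x) := by
  have hx1 : ((1 : R.O) : E₀) * (x : E₀) ∈ R.O := by
    rw [Subring.coe_one, one_mul]; exact x.2
  rw [SH1_red_eq (R := R) (pr := pr) w ⟨(x : E₀), h⟩ 1
    (by rw [map_one, map_one]; exact one_ne_zero) hx1]
  have e : (⟨((1 : R.O) : E₀) * (x : E₀), hx1⟩ : R.O) = x :=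
    Subtype.ext (by
      show ((1 : R.O) : E₀) * (x : E₀) = (x : E₀)
      rw [Subring.coe_one, one_mul])
  rw [map_one, map_one, div_one]
  exact congrArg (fun z => pr w (R.red z)) e

/-- the sheet `w` -/
noncomputable def SH1_dval (h : IsSheeted R ϖ pr) (w : Ω) : DVal E₀ κ where
  O := SH1_O R pr w
  red := SH1_red R pr w
  π := algebraMap K₀ E₀ (ϖ : K₀)
  π_ne := by
    intro h0
    apply h.ne
    apply Subtype.ext
    exact (map_eq_zero (algebraMap K₀ E₀)).mp h0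
  π_mem := SH1_le w (R.const ϖ).2
  red_eq_zero_iff := by
    have hπ0 : algebraMap K₀ E₀ (ϖ : K₀) ≠ 0 := by
      intro h0
      apply h.ne
      apply Subtype.ext
      exact (map_eq_zero (algebraMap K₀ E₀)).mp h0
    intro x'
    obtain ⟨s, hs, hsx⟩ := SH1_mem_O.mp x'.2
    obtain ⟨x, hx'⟩ := x'
    constructor
    · intro hx
      rw [SH1_red_eq w ⟨x, hx'⟩ s hs hsx, div_eq_zero_iff, or_iff_left hs] at hx
      obtain ⟨e₀, he₀, he₀'⟩ := h.idem w
      obtain ⟨e, rfl⟩ := R.red_surjective e₀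
      have h0 : R.red (e * ⟨_, hsx⟩) = 0 := by
        apply h.inj
        intro w'
        rw [map_mul, map_mul]
        by_cases hw : w' = w
        · subst hw
          rw [hx, mul_zero]
        · rw [he₀' w' hw, zero_mul]
      obtain ⟨y, hy⟩ := (h.red_eq_zero_iff _).1 h0
      refine ⟨e * s, by rw [map_mul, map_mul, he₀, one_mul]; exact hs, ?_⟩
      have hy' : (e : E₀) * ((s : E₀) * x) = algebraMap K₀ E₀ (ϖ : K₀) * (y : E₀) :=
        congrArg Subtype.val hy
      have e2 : ((e * s : R.O) : E₀) * (x * (algebraMap K₀ E₀ (ϖ : K₀))⁻¹) = (y : E₀) := by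
        push_cast
        rw [← mul_assoc, mul_assoc (e : E₀), hy', mul_comm (algebraMap K₀ E₀ (ϖ : K₀)), mul_assoc,
          mul_inv_cancel₀ hπ0, mul_one]
      rw [e2]
      exact y.2
    · intro hx
      have e : (⟨x, hx'⟩ : SH1_O R pr w)
          = ⟨algebraMap K₀ E₀ (ϖ : K₀), SH1_le w (R.const ϖ).2⟩ * ⟨_, hx⟩ := by
        apply Subtype.ext
        show x = algebraMap K₀ E₀ (ϖ : K₀) * (x * (algebraMap K₀ E₀ (ϖ : K₀))⁻¹)
        rw [mul_comm x, ← mul_assoc, mul_inv_cancel₀ hπ0, one_mul]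
      rw [e, map_mul]
      have h1 : SH1_red R pr w ⟨algebraMap K₀ E₀ (ϖ : K₀), SH1_le w (R.const ϖ).2⟩ = 0 := by
        have := SH1_red_coe (pr := pr) w (R.const ϖ) (SH1_le w (R.const ϖ).2)
        rw [h.SH0_red_unif, map_zero] at this
        exact this
      rw [h1, zero_mul]

/-- (SH1) `S40/Cov/ShExists.lean` : existence of the sheets -/
theorem IsSheeted.exists_sheets (h : IsSheeted R ϖ pr) :
    ∃ v : Ω → DVal E₀ κ, IsSheets R ϖ pr v := by
  refine ⟨fun w => SH1_dval h w, fun w => rfl, ?_, ?_, ?_⟩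
  · intro x
    constructor
    · intro hx w
      exact SH1_le w hx
    · intro hx
      by_cases hx0 : x = 0
      · rw [hx0]; exact R.O.zero_mem
      obtain ⟨c, hc0, y, hy, hxy⟩ := R.exists_scale x hx0
      by_cases hc : c ∈ A₀
      · rw [hxy]
        exact R.O.mul_mem (R.const ⟨c, hc⟩).2 y.2
      · exfalso
        obtain ⟨hi, hres⟩ := h.SH0_res_inv hc
        obtain ⟨w, hw⟩ : ∃ w, pr w (R.red y) ≠ 0 := by
          by_contra hcon
          push Not at hcon
          exact hy (h.inj _ hcon)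
        obtain ⟨s, hs, hsx⟩ := hx w
        have e : s * y = R.const ⟨c⁻¹, hi⟩ * ⟨_, hsx⟩ := by
          apply Subtype.ext
          show (s : E₀) * (y : E₀) = algebraMap K₀ E₀ c⁻¹ * ((s : E₀) * x)
          rw [hxy, mul_left_comm (s : E₀), ← mul_assoc, ← map_mul, inv_mul_cancel₀ hc0, map_one,
            one_mul]
        have h1 := congrArg (fun z => pr w (R.red z)) e
        simp only [map_mul, R.red_const, hres, map_zero, zero_mul] at h1
        exact (mul_ne_zero hs hw) h1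
  · intro x w hx
    exact SH1_red_coe w x hx
  · intro w x hx
    exact hx

end SH

end Fermat.Agent.S40Lib
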