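import Fermat.Agent.S40.Cov.ShDefs

/-!
# S40/S44, COV, (SH0): the kernel of the reduction is `ϖ O`
-/

set_option autoImplicit false
set_option linter.unusedSectionVars false

open AlgebraicCurve IntermediateField Polynomial Fermat.Agent.S24Lib Fermat.Agent.FFLib
  Fermat.Agent.S18Lib Fermat.Agent.S34Lib Fermat.Agent.S36Lib

namespace Fermat.Agent.S40Lib

section SH

variable {K₀ k : Type*} [Field K₀] [Field k] {A₀ : ValuationSubring K₀} {resK : A₀ →+* k}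
  {E₀ κ Φ : Type*} [Field E₀] [Field κ] [Algebra K₀ E₀] [Algebra k κ] [CommRing Φ] [Algebra k Φ]
  {Ω : Type*} [Fintype Ω] [DecidableEq Ω]

variable {R : RedG A₀ resK E₀ Φ} {ϖ : A₀} {pr : Ω → Φ →+* κ}

theorem IsSheeted.SH0_res_unif (h : IsSheeted R ϖ pr) : resK ϖ = 0 := (h.unif ϖ).2 dvd_rfl

theorem IsSheeted.SH0_red_unif (h : IsSheeted R ϖ pr) : R.red (R.const ϖ) = 0 := by
  rw [R.red_const, h.SH0_res_unif, map_zero]

/-- an element outside `A₀` has its inverse in the maximal ideal -/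
theorem IsSheeted.SH0_res_inv (h : IsSheeted R ϖ pr) {c : K₀} (hc : c ∉ A₀) :
    ∃ hi : c⁻¹ ∈ A₀, resK ⟨c⁻¹, hi⟩ = 0 := by
  have hi : c⁻¹ ∈ A₀ := (A₀.mem_or_inv_mem c).resolve_left hc
  refine ⟨hi, ?_⟩
  have hc0 : c ≠ 0 := by
    rintro rfl
    exact hc A₀.zero_mem
  have hϖ0 : (ϖ : K₀) ≠ 0 := fun h0 => h.ne (Subtype.ext h0)
  obtain ⟨n, u, hu, hcu⟩ := h.disc c⁻¹ (inv_ne_zero hc0)
  obtain ⟨u', hu'⟩ := hu.exists_right_inv
  have hu'' : (u : K₀) * (u' : K₀) = 1 := congrArg Subtype.val hu'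
  rw [h.unif]
  rcases le_or_gt n 0 with hn | hn
  · exfalso
    apply hc
    obtain ⟨m, rfl⟩ : ∃ m : ℕ, n = -(m : ℤ) := ⟨(-n).toNat, by omega⟩
    have e : c = (ϖ : K₀) ^ m * (u' : K₀) := by
      have h1 : c⁻¹ * ((ϖ : K₀) ^ m * (u' : K₀)) = 1 := by
        rw [hcu, zpow_neg, zpow_natCast]
        have : ((ϖ : K₀) ^ m) ≠ 0 := pow_ne_zero _ hϖ0
        field_simp
        exact hu''
      exact (eq_of_inv_mul_eq_one h1)
    rw [e]
    exact A₀.mul_mem _ _ (A₀.pow_mem ϖ.2 m) u'.2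
  · obtain ⟨m, rfl⟩ : ∃ m : ℕ, n = (m : ℤ) + 1 := ⟨(n - 1).toNat, by omega⟩
    refine ⟨ϖ ^ m * u, Subtype.ext ?_⟩
    show c⁻¹ = (ϖ : K₀) * ((ϖ : K₀) ^ m * (u : K₀))
    rw [hcu, zpow_add_one₀ hϖ0, zpow_natCast]
    ring

/-- (SH0) `S40/Cov/ShKer.lean` : the kernel of the reduction is `ϖ O` -/
theorem IsSheeted.red_eq_zero_iff (h : IsSheeted R ϖ pr) (x : R.O) :
    R.red x = 0 ↔ ∃ y : R.O, x = R.const ϖ * y := by
  constructor
  · intro hx
    by_cases hx0 : (x : E₀) = 0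
    · exact ⟨0, by rw [mul_zero]; exact Subtype.ext hx0⟩
    obtain ⟨c, hc0, y', hy', hxy⟩ := R.exists_scale (x : E₀) hx0
    by_cases hc : c ∈ A₀
    · have e : x = R.const ⟨c, hc⟩ * y' := Subtype.ext hxy
      have h1 : algebraMap k Φ (resK ⟨c, hc⟩) * R.red y' = 0 := by
        rw [← R.red_const, ← map_mul, ← e, hx]
      have h2 : resK ⟨c, hc⟩ = 0 := by
        by_contra hne
        have hu : IsUnit (algebraMap k Φ (resK ⟨c, hc⟩)) := (IsUnit.mk0 _ hne).map _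
        exact hy' (hu.mul_right_eq_zero.mp h1)
      obtain ⟨c', hc'⟩ := (h.unif _).1 h2
      refine ⟨R.const c' * y', ?_⟩
      rw [e, hc', ← mul_assoc]
      congr 1
      apply Subtype.ext
      simp
    · exfalso
      obtain ⟨hi, -⟩ := h.SH0_res_inv hc
      have e : y' = R.const ⟨c⁻¹, hi⟩ * x := by
        apply Subtype.ext
        show (y' : E₀) = algebraMap K₀ E₀ c⁻¹ * (x : E₀)
        rw [hxy, ← mul_assoc, ← map_mul, inv_mul_cancel₀ hc0, map_one, one_mul]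
      apply hy'
      rw [e, map_mul, hx, mul_zero]
  · rintro ⟨y, rfl⟩
    rw [map_mul, h.SH0_red_unif, zero_mul]

end SH

end Fermat.Agent.S40Lib
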