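import Fermat.Agent.S40.Cov.ShDefs

/-!
# S40/S44, COV, (SH3): every nonzero element has a valuation on every sheet
-/

set_option autoImplicit false

open AlgebraicCurve IntermediateField Polynomial Fermat.Agent.S24Lib Fermat.Agent.FFLib
  Fermat.Agent.S18Lib Fermat.Agent.S34Lib Fermat.Agent.S36Lib

namespace Fermat.Agent.S40Lib

section aux

variable {F₀ κ : Type*} [Field F₀] [Field κ]

theorem shval_red_congr (v : DVal F₀ κ) {a b : F₀} (hab : a = b) (ha : a ∈ v.O) (hb : b ∈ v.O) :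
    v.red ⟨a, ha⟩ = v.red ⟨b, hb⟩ := by
  subst hab
  rfl

/-- if `a b = π ^ M` with `a, b` integral then `a` has a valuation -/
theorem shval_aux (v : DVal F₀ κ) (M : ℕ) : ∀ a b : F₀, a ∈ v.O → b ∈ v.O → a * b = v.π ^ M →
    ∃ (i : ℕ) (h : a * v.π⁻¹ ^ i ∈ v.O), v.red ⟨_, h⟩ ≠ 0 := by
  induction M with
  | zero =>
    intro a b ha hb hab
    have e0 : a * v.π⁻¹ ^ 0 = a := by rw [pow_zero, mul_one]
    have ha' : a * v.π⁻¹ ^ 0 ∈ v.O := by rw [e0]; exact ha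
    refine ⟨0, ha', ?_⟩
    intro h0
    have h1 : v.red ⟨a, ha⟩ * v.red ⟨b, hb⟩ = 1 := by
      rw [← map_mul, ← map_one v.red]
      congr 1
      apply Subtype.ext
      simpa using hab
    rw [← shval_red_congr v e0 ha' ha, h0, zero_mul] at h1
    exact zero_ne_one h1
  | succ M ih =>
    intro a b ha hb hab
    by_cases h0 : v.red ⟨a, ha⟩ = 0
    · have h1 := (v.red_eq_zero_iff ⟨a, ha⟩).1 h0
      have h2 : a * v.π⁻¹ * b = v.π ^ M := by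
        rw [mul_right_comm, hab, pow_succ, mul_assoc, mul_inv_cancel₀ v.π_ne, mul_one]
      obtain ⟨i, hi, hi'⟩ := ih (a * v.π⁻¹) b h1 hb h2
      have e : a * v.π⁻¹ * v.π⁻¹ ^ i = a * v.π⁻¹ ^ (i + 1) := by rw [pow_succ', mul_assoc]
      have hi2 : a * v.π⁻¹ ^ (i + 1) ∈ v.O := by rw [← e]; exact hi
      refine ⟨i + 1, hi2, ?_⟩
      rw [← shval_red_congr v e hi hi2]
      exact hi'
    · have e0 : a * v.π⁻¹ ^ 0 = a := by rw [pow_zero, mul_one]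
      have ha' : a * v.π⁻¹ ^ 0 ∈ v.O := by rw [e0]; exact ha
      refine ⟨0, ha', ?_⟩
      rw [shval_red_congr v e0 ha' ha]
      exact h0

end aux

section SH

variable {K₀ k : Type*} [Field K₀] [Field k] {A₀ : ValuationSubring K₀} {resK : A₀ →+* k}
  {E₀ κ Φ : Type*} [Field E₀] [Field κ] [Algebra K₀ E₀] [Algebra k κ] [CommRing Φ] [Algebra k Φ]
  {Ω : Type*} [Fintype Ω] [DecidableEq Ω]

variable {R : RedG A₀ resK E₀ Φ} {ϖ : A₀} {pr : Ω → Φ →+* κ}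

omit [Fintype Ω] [DecidableEq Ω] in
/-- every nonzero `x` is `ϖ ^ n` times an element of `R.O` -/
theorem IsSheeted.exists_zpow_mem (h : IsSheeted R ϖ pr) {x : E₀} (hx : x ≠ 0) :
    ∃ n : ℤ, x * (algebraMap K₀ E₀ (ϖ : K₀)) ^ (-n) ∈ R.O := by
  have hs := R.exists_scale x hx
  obtain ⟨c, hc, y, -, hxy⟩ := hs
  obtain ⟨n, u, -, hcu⟩ := h.disc c hc
  have hϖ : (algebraMap K₀ E₀ (ϖ : K₀)) ≠ 0 := by
    rw [Ne, map_eq_zero]
    exact fun h0 => h.ne (Subtype.ext h0)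
  refine ⟨n, ?_⟩
  have e : x * (algebraMap K₀ E₀ (ϖ : K₀)) ^ (-n) = algebraMap K₀ E₀ (u : K₀) * (y : E₀) := by
    rw [hxy, hcu, map_mul, map_zpow₀, zpow_neg]
    field_simp
  rw [e]
  exact R.O.mul_mem ((R.algebraMap_mem_iff _).2 u.2) y.2

variable {v : Ω → DVal E₀ κ}

/-- (SH3) `S40/Cov/ShVal.lean` : every nonzero element has a valuation on every sheet -/
theorem IsSheets.exists_val (h : IsSheeted R ϖ pr) (hv : IsSheets R ϖ pr v) (w : Ω) {x : E₀}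
    (hx : x ≠ 0) :
    ∃ (n : ℤ) (hn : x * (algebraMap K₀ E₀ (ϖ : K₀)) ^ (-n) ∈ (v w).O), (v w).red ⟨_, hn⟩ ≠ 0 := by
  obtain ⟨n, hn⟩ := h.exists_zpow_mem hx
  obtain ⟨n', hn'⟩ := h.exists_zpow_mem (inv_ne_zero hx)
  have hπ := hv.unif w
  rw [← hπ] at hn hn' ⊢
  have hπ0 := (v w).π_ne
  have ha := (hv.mem_O _).1 hn w
  have hb := (hv.mem_O _).1 hn' w
  -- `M = -(n + n')`
  have hb' : x⁻¹ * (v w).π ^ (-n') * (v w).π ^ (n + n').natAbs ∈ (v w).O :=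
    (v w).O.mul_mem hb ((v w).O.pow_mem (v w).π_mem _)
  obtain ⟨M, hM⟩ : ∃ M : ℕ, (M : ℤ) = -n + -n' + ((n + n').natAbs : ℤ) := by
    refine ⟨(-n + -n' + ((n + n').natAbs : ℤ)).toNat, Int.toNat_of_nonneg ?_⟩
    have := Int.le_natAbs (a := n + n')
    omega
  have hab : x * (v w).π ^ (-n) * (x⁻¹ * (v w).π ^ (-n') * (v w).π ^ (n + n').natAbs) =
      (v w).π ^ M := by
    rw [← zpow_natCast (v w).π M, hM, zpow_add₀ hπ0, zpow_add₀ hπ0, zpow_natCast]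
    field_simp
  obtain ⟨i, hi, hi'⟩ := shval_aux (v w) M _ _ ha hb' hab
  have e : x * (v w).π ^ (-n) * (v w).π⁻¹ ^ i = x * (v w).π ^ (-(n + i)) := by
    rw [neg_add, zpow_add₀ hπ0, zpow_neg _ (i : ℤ), zpow_natCast, inv_pow, mul_assoc]
  have hi2 : x * (v w).π ^ (-(n + i)) ∈ (v w).O := by rw [← e]; exact hi
  refine ⟨n + i, hi2, ?_⟩
  rw [← shval_red_congr (v w) e hi hi2]
  exact hi'

end SH

end Fermat.Agent.S40Lib
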