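import Fermat.Agent.S40.Cov.DescCfg

/-!
# S40 / S44, COV: (SHF) automorphisms permuting the sheets
-/

set_option autoImplicit false
set_option linter.unusedSectionVars false

open Fermat.Agent.S18Lib Fermat.Agent.S34Lib Fermat.Agent.S36Lib

namespace Fermat.Agent.S40Lib

section Abs

variable {K k F Φ κ Ω : Type*} [Field K] [Field k] [Field F] [Algebra K F] [CommRing Φ]
  [Algebra k Φ] [Field κ] [Fintype Ω]
  {A : ValuationSubring K} {resK : A →+* k} {R : RedG A resK F Φ} {pr : Ω → Φ →+* κ} {π : A}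

/-- (SHF1) -/
theorem isShift_of_red (H : DVHyp R pr π) (g0 : F ≃+* F) (s : Ω → Ω)
    (hc : ∀ c : K, g0 (algebraMap K F c) = algebraMap K F c)
    (hm : ∀ z : F, z ∈ R.O → g0 z ∈ R.O) (hm' : ∀ z : F, z ∈ R.O → g0.symm z ∈ R.O)
    (hr : ∀ (z : R.O) (w : Ω), pr w (R.red ⟨g0 (z : F), hm _ z.2⟩) = pr (s w) (R.red z)) :
    IsShift H g0 s := by
  have hmem1 : ∀ (w : Ω) (z : F), z ∈ (H.dv (s w)).O → g0 z ∈ (H.dv w).O := by
    intro w z hz
    obtain ⟨a, b, hb, hab⟩ := (H.mem_dv_O_iff (s w) z).1 hz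
    refine (H.mem_dv_O_iff w (g0 z)).2 ⟨⟨g0 (a : F), hm _ a.2⟩, ⟨g0 (b : F), hm _ b.2⟩, ?_, ?_⟩
    · rw [hr]; exact hb
    · show g0 z * g0 (b : F) = g0 (a : F)
      rw [← map_mul, hab]
  refine ⟨hc, fun w z => ⟨fun hz => ?_, hmem1 w z⟩, fun w z h h' => ?_⟩
  · obtain ⟨a, b, hb, hab⟩ := (H.mem_dv_O_iff w (g0 z)).1 hz
    refine (H.mem_dv_O_iff (s w) z).2
      ⟨⟨g0.symm (a : F), hm' _ a.2⟩, ⟨g0.symm (b : F), hm' _ b.2⟩, ?_, ?_⟩
    · rw [← hr]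
      have e : (⟨g0 ((⟨g0.symm (b : F), hm' _ b.2⟩ : R.O) : F), hm _ (hm' _ b.2)⟩ : R.O) = b :=
        Subtype.ext (g0.apply_symm_apply _)
      rw [e]
      exact hb
    · show z * g0.symm (b : F) = g0.symm (a : F)
      rw [← hab, map_mul, g0.symm_apply_apply]
  · obtain ⟨a, b, hb, hab⟩ := (H.mem_dv_O_iff (s w) z).1 h'
    rw [H.dv_red_eq_div (s w) z h' a b hb hab,
      H.dv_red_eq_div w (g0 z) h ⟨g0 (a : F), hm _ a.2⟩ ⟨g0 (b : F), hm _ b.2⟩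
        (by rw [hr]; exact hb) (by
          show g0 z * g0 (b : F) = g0 (a : F)
          rw [← map_mul, hab]), hr, hr]

theorem IsShift.map_shift {H : DVHyp R pr π} {g0 : F ≃+* F} {s : Ω → Ω} (hs : IsShift H g0 s)
    (w : Ω) (n : ℕ) (z : F) :
    g0 z * (H.dv w).π⁻¹ ^ n = g0 (z * (H.dv (s w)).π⁻¹ ^ n) := by
  rw [map_mul, map_pow, map_inv₀, H.dv_π, H.dv_π, hs.const]

/-- (SHF2) -/
theorem IsShift.ge_iff {H : DVHyp R pr π} {g0 : F ≃+* F} {s : Ω → Ω} (hs : IsShift H g0 s)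
    (w : Ω) (n : ℕ) (z : F) : (H.dv w).ge n (g0 z) ↔ (H.dv (s w)).ge n z := by
  unfold DVal.ge
  rw [hs.map_shift w n z]
  exact hs.mem w _

/-- (SHF3) -/
theorem IsShift.lead_eq {H : DVHyp R pr π} {g0 : F ≃+* F} {s : Ω → Ω} (hs : IsShift H g0 s)
    (w : Ω) (n : ℕ) (z : F) : (H.dv w).lead n (g0 z) = (H.dv (s w)).lead n z := by
  by_cases h : (H.dv (s w)).ge n z
  · have h' : (H.dv w).ge n (g0 z) := (hs.ge_iff w n z).2 h
    rw [(H.dv w).lead_of_ge h', (H.dv (s w)).lead_of_ge h]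
    have h2 : g0 (z * (H.dv (s w)).π⁻¹ ^ n) ∈ (H.dv w).O := (hs.mem w _).2 h
    rw [← hs.red w _ h2 h]
    congr 1
    exact Subtype.ext (hs.map_shift w n z)
  · have h' : ¬ (H.dv w).ge n (g0 z) := fun h1 => h ((hs.ge_iff w n z).1 h1)
    unfold DVal.lead
    rw [dif_neg h, dif_neg h']

theorem IsShift.one (H : DVHyp R pr π) : IsShift H (1 : F ≃+* F) id :=
  ⟨fun _ => rfl, fun _ _ => Iff.rfl, fun _ _ _ _ => rfl⟩

theorem IsShift.mul {H : DVHyp R pr π} {g0 g1 : F ≃+* F} {s s' : Ω → Ω} (hs : IsShift H g0 s)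
    (hs' : IsShift H g1 s') : IsShift H (g0 * g1) (s' ∘ s) := by
  refine ⟨fun c => ?_, fun w z => ?_, fun w z h h' => ?_⟩
  · rw [RingAut.mul_apply, hs'.const, hs.const]
  · rw [RingAut.mul_apply, hs.mem, hs'.mem]
    rfl
  · have h1 : g1 z ∈ (H.dv (s w)).O := (hs'.mem (s w) z).2 h'
    exact (hs.red w (g1 z) h h1).trans (hs'.red (s w) z h1 h')

/-- (SHF4) -/
theorem IsShift.pow {H : DVHyp R pr π} {g0 : F ≃+* F} {s : Ω → Ω} (hs : IsShift H g0 s)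
    (n : ℕ) : IsShift H (g0 ^ n) (s^[n]) := by
  induction n with
  | zero => exact IsShift.one H
  | succ n ih =>
    rw [pow_succ', Function.iterate_succ]
    exact hs.mul ih

end Abs

end Fermat.Agent.S40Lib
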