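import Fermat.Agent.S40.Cov.DescCfg

/-!
# S40 / S44, COV, (B1): membership in the twisted Riemann-Roch spaces
-/

set_option autoImplicit false
set_option synthInstance.maxHeartbeats 400000

open AlgebraicCurve ModularCurve Polynomial IntermediateField

namespace Fermat.Agent.S40Lib

open Fermat.Agent.S18Lib Fermat.Agent.S24Lib Fermat.Agent.ESLib Fermat.Agent.S34Lib
  Fermat.Agent.S33Lib Fermat.Agent.S36Lib Fermat.Agent.FFLib

variable {A : ValuationSubring Qb} {N p : ℕ} [NeZero N] [hpF : Fact p.Prime] {x y : FB N}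
  {φ η : LaurentSeries Qb} {Dx Dy : Divisor Qb (FB N)}

/-- (B1) -/
theorem mem_twW_iff (h : DescCfg A N p x y φ η Dx Dy) (n i : ℕ) (s : FB N) :
    s ∈ twW N Dx Dy n i ↔
      s ^ p * x * y ^ i ∈ riemannRochSpace (maE Qb (JF N 1 (one_dvd _)) (p * n) 0) := by
  have hp : 0 < p := hpF.out.pos
  have hF := isFF_FB N
  by_cases hs : s = 0
  · subst hs
    rw [zero_pow hp.ne', zero_mul, zero_mul]
    exact ⟨fun _ => Submodule.zero_mem _, fun _ => Submodule.zero_mem _⟩
  have hne : s ^ p * x * y ^ i ≠ 0 :=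
    mul_ne_zero (mul_ne_zero (pow_ne_zero _ hs) h.x0) (pow_ne_zero _ h.y0)
  rw [twW, mem_L_iff, mem_L_iff]
  refine forall_congr' fun v => ?_
  unfold D2_ge
  rw [or_iff_right hs, or_iff_right hne,
    v.ord_mul (mul_ne_zero (pow_ne_zero _ hs) h.x0) (pow_ne_zero _ h.y0),
    v.ord_mul (pow_ne_zero _ hs) h.x0, pl_ord_pow, pl_ord_pow, h.hDx v, h.hDy v,
    Finsupp.add_apply, Finsupp.add_apply, Finsupp.smul_apply, maE_apply hF, maE_apply hF,
    nsmul_eq_mul]
  have hp' : (0 : ℤ) < (p : ℤ) := by exact_mod_cast hp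
  set m : ℤ := max (-v.ord (JF N 1 (one_dvd _))) 0
  push_cast
  constructor
  · intro h1
    nlinarith
  · intro h1
    by_contra h2
    push Not at h2
    nlinarith

end Fermat.Agent.S40Lib
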