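import Fermat.Agent.S40.Cov.UspConj

/-!
# S40 / S44, COV, block (USP): the fixed field of `g` in `E = F(η)` is `F`
-/

set_option autoImplicit false
set_option synthInstance.maxHeartbeats 400000
set_option linter.unusedSectionVars false

open AlgebraicCurve ModularCurve Polynomial

namespace Fermat.Agent.S40Lib

open Fermat.Agent.S18Lib Fermat.Agent.S24Lib Fermat.Agent.ESLib Fermat.Agent.S34Lib
  Fermat.Agent.S33Lib Fermat.Agent.S36Lib Fermat.Agent.FFLib

noncomputable section

variable {N p : ℕ} [NeZero N]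

theorem USP_etaE_pow (η : LaurentSeries Qb) (y : FB N) (hη : η ^ p = (y : LaurentSeries Qb)) :
    etaE N η ^ p = algebraMap (FB N) (covE N η) y := by
  apply Subtype.ext
  rw [SubmonoidClass.coe_pow, coe_algebraMap_FE, ← hη]
  rfl

/-- `E = F[η]` -/
theorem USP_exists_aeval (hp : 0 < p) (η : LaurentSeries Qb) (y : FB N)
    (hη : η ^ p = (y : LaurentSeries Qb)) (e : covE N η) :
    ∃ P : (FB N)[X], e = aeval (etaE N η) P := by
  have hint : IsIntegral (FB N) (etaE N η) := by
    refine IsIntegral.of_pow hp ?_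
    rw [USP_etaE_pow η y hη]
    exact isIntegral_algebraMap
  set W : IntermediateField (FB N) (covE N η) :=
    IntermediateField.adjoin (FB N) {etaE N η} with hW
  set W' : IntermediateField Qb (LaurentSeries Qb) :=
    (W.restrictScalars Qb).map (covE N η).val with hW'
  have h1 : FB N ≤ W' := by
    intro f hf
    refine ⟨algebraMap (FB N) (covE N η) ⟨f, hf⟩, W.algebraMap_mem _, ?_⟩
    exact coe_algebraMap_FE N η ⟨f, hf⟩
  have h2 : IntermediateField.adjoin Qb {η} ≤ W' := by
    rw [IntermediateField.adjoin_le_iff]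
    intro z hz
    rw [Set.mem_singleton_iff] at hz
    rw [hz]
    exact ⟨etaE N η, IntermediateField.mem_adjoin_simple_self (FB N) (etaE N η), rfl⟩
  have h3 : covE N η ≤ W' := sup_le h1 h2
  obtain ⟨e', he', hee⟩ := h3 e.2
  have h4 : e' = e := Subtype.ext hee
  have h5 : e ∈ W := h4 ▸ he'
  have h6 : e ∈ W.toSubalgebra := h5
  rw [hW, IntermediateField.adjoin_simple_toSubalgebra_of_isAlgebraic hint.isAlgebraic,
    Algebra.adjoin_singleton_eq_range_aeval] at h6
  obtain ⟨P, hP⟩ := h6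
  exact ⟨P, hP.symm⟩

theorem USP_gpow_eta (η : LaurentSeries Qb) (ζ : Qb) (g : covE N η ≃ₐ[FB N] covE N η)
    (hg : g (etaE N η) = algebraMap Qb (covE N η) ζ * etaE N η) (j : ℕ) :
    (g ^ j) (etaE N η) = algebraMap Qb (covE N η) (ζ ^ j) * etaE N η := by
  induction j with
  | zero => simp
  | succ j ih =>
    rw [pow_succ', AlgEquiv.mul_apply, ih, map_mul, USP_g_const, hg, pow_succ, map_mul]
    ring

theorem USP_geom (ζ : Qb) (hζ : IsPrimitiveRoot ζ p) (m : ℕ) (hm : ¬ p ∣ m) :
    ∑ j ∈ Finset.range p, (ζ ^ m) ^ j = 0 := by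
  have h1 : ζ ^ m ≠ 1 := by
    intro h
    exact hm ((hζ.pow_eq_one_iff_dvd m).mp h)
  have h2 : (ζ ^ m) ^ p = 1 := by
    rw [← pow_mul, mul_comm, pow_mul, hζ.pow_eq_one, one_pow]
  have h3 := mul_neg_geom_sum (ζ ^ m) p
  rw [h2, sub_self] at h3
  rcases mul_eq_zero.mp h3 with h4 | h4
  · exact absurd (sub_eq_zero.mp h4).symm h1
  · exact h4

/-- (USP3) the fixed field of `g` is `F` -/
theorem usp_fixed (hp : p.Prime) (η : LaurentSeries Qb) (y : FB N)
    (hη : η ^ p = (y : LaurentSeries Qb)) (ζ : Qb) (hζ : IsPrimitiveRoot ζ p)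
    (g : covE N η ≃ₐ[FB N] covE N η)
    (hg : g (etaE N η) = algebraMap Qb (covE N η) ζ * etaE N η) (e : covE N η) (he : g e = e) :
    ∃ f : FB N, algebraMap (FB N) (covE N η) f = e := by
  obtain ⟨P, hP⟩ := USP_exists_aeval hp.pos η y hη e
  have hfix : ∀ j : ℕ, (g ^ j) e = e := by
    intro j
    induction j with
    | zero => simp
    | succ j ih => rw [pow_succ', AlgEquiv.mul_apply, ih, he]
  have h1 : ∑ j ∈ Finset.range p, (g ^ j) e = (p : covE N η) * e := by
    rw [Finset.sum_congr rfl (fun j _ => hfix j), Finset.sum_const, Finset.card_range,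
      nsmul_eq_mul]
  -- the monomials
  have hmon : ∀ m : ℕ, ∃ f : FB N, algebraMap (FB N) (covE N η) f =
      ∑ j ∈ Finset.range p, (algebraMap Qb (covE N η) (ζ ^ j) * etaE N η) ^ m := by
    intro m
    have h2 : ∑ j ∈ Finset.range p, (algebraMap Qb (covE N η) (ζ ^ j) * etaE N η) ^ m =
        algebraMap Qb (covE N η) (∑ j ∈ Finset.range p, (ζ ^ m) ^ j) * etaE N η ^ m := by
      rw [map_sum, Finset.sum_mul]
      refine Finset.sum_congr rfl fun j _ => ?_
      rw [mul_pow, ← map_pow, ← pow_mul, ← pow_mul, mul_comm j m]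
    by_cases hm : p ∣ m
    · obtain ⟨k, rfl⟩ := hm
      refine ⟨algebraMap Qb (FB N) (∑ j ∈ Finset.range p, (ζ ^ (p * k)) ^ j) * y ^ k, ?_⟩
      rw [h2, map_mul, map_pow, ← USP_etaE_pow η y hη, ← pow_mul,
        ← IsScalarTower.algebraMap_apply Qb (FB N) (covE N η)]
    · refine ⟨0, ?_⟩
      rw [h2, USP_geom ζ hζ m hm, map_zero, map_zero, zero_mul]
  choose fm hfm using hmon
  have h3 : ∑ j ∈ Finset.range p, (g ^ j) e =
      algebraMap (FB N) (covE N η) (∑ m ∈ Finset.range (P.natDegree + 1), P.coeff m * fm m) := by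
    rw [map_sum]
    simp only [map_mul, hfm, Finset.mul_sum]
    rw [Finset.sum_comm]
    refine Finset.sum_congr rfl fun j _ => ?_
    have h4 : (g ^ j) (aeval (etaE N η) P) = aeval ((g ^ j) (etaE N η)) P :=
      (Polynomial.aeval_algHom_apply ((g ^ j : covE N η ≃ₐ[FB N] covE N η) :
        covE N η →ₐ[FB N] covE N η) (etaE N η) P).symm
    rw [hP, h4, Polynomial.aeval_eq_sum_range, USP_gpow_eta η ζ g hg j]
    refine Finset.sum_congr rfl fun m _ => ?_
    rw [Algebra.smul_def]
  have hp0 : (p : covE N η) ≠ 0 := by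
    exact_mod_cast hp.ne_zero
  refine ⟨(p : FB N)⁻¹ * ∑ m ∈ Finset.range (P.natDegree + 1), P.coeff m * fm m, ?_⟩
  rw [map_mul, ← h3, h1, map_inv₀, map_natCast, inv_mul_cancel_left₀ hp0]

end

end Fermat.Agent.S40Lib
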